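import Fermat.Agent.S14.Glue6

/-!
# S14, leaf L13 (glue), part 7 : the local conditions `(H α)`
-/

set_option autoImplicit false
set_option linter.style.haveILetI false
set_option linter.unusedSectionVars false

open NumberField IsDedekindDomain
open scoped Pointwise

namespace Fermat.Agent.S14Lib

open Fermat.Agent.Lib Fermat.Agent.Lib.Frobenius

local notation "Qb" => AlgebraicClosure ℚ
local notation "GQ" => (AlgebraicClosure ℚ ≃ₐ[ℚ] AlgebraicClosure ℚ)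

variable {p : ℕ} [Fact p.Prime]
variable (K : IntermediateField ℚ Qb) [FiniteDimensional ℚ K] [IsCyclotomicExtension {p} ℚ K]
variable (L : IntermediateField ℚ Qb) [FiniteDimensional ℚ L] [IsGalois ℚ L]

theorem liesOver_of_centeredAt (F : IntermediateField ℚ Qb) [FiniteDimensional ℚ F]
    (q : HeightOneSpectrum (𝓞 F)) (A : ValuationSubring Qb) (hc : CenteredAt q (resVal F A))
    {ℓ : ℕ} (hℓ : (ℓ : 𝓞 F) ∈ q.asIdeal) : A.LiesOverPrime ℓ := by
  have h1 := hc.lt_one _ hℓ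
  rw [resVal_apply] at h1
  show (ℓ : Qb) ∈ A.nonunits
  rw [ValuationSubring.mem_nonunits_iff]
  simpa using h1

/-- **outside `p`** -/
theorem val_outside_p
    (hI : ∀ ℓ : ℕ, ℓ.Prime → ℓ ≠ p → ∀ A : ValuationSubring Qb, A.LiesOverPrime ℓ →
      ∀ σ ∈ A.inertiaSubgroupIn ℚ, ∀ x ∈ L, σ x = x)
    {θ : Qb} (hθL : θ ∈ L) (hθ0 : θ ≠ 0) (α : K) (hα : (α : Qb) = θ ^ p)
    (q : HeightOneSpectrum (𝓞 K)) (hq : (p : 𝓞 K) ∉ q.asIdeal) :
    ∃ k : ℤ, q.valuation K α = WithZero.exp ((p : ℤ) * k) := by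
  have hp : p.Prime := Fact.out
  haveI : NeZero p := ⟨hp.ne_zero⟩
  obtain ⟨ℓ, hℓ, hℓq⟩ := exists_prime_natCast_mem q.asIdeal q.ne_bot
  have hℓp : ℓ ≠ p := by
    rintro rfl
    exact hq hℓq
  obtain ⟨A, hcK⟩ := exists_centeredAt K q
  have hA := liesOver_of_centeredAt K q A hcK hℓq
  obtain ⟨Q, hcL, hℓQ⟩ := exists_center L A hℓ hA
  have hLℓ := unram_val L hℓ (hI ℓ hℓ hℓp) Q hℓQ
  have hKℓ : q.valuation K (ℓ : K) = WithZero.exp (-1 : ℤ) := by
    rw [valuation_prime_eq q hℓ hℓq]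
    haveI := glue_liesOver_span_of_mem q hℓ hℓq
    haveI : Fact ℓ.Prime := ⟨hℓ⟩
    rw [IsCyclotomicExtension.Rat.ramificationIdx_eq_of_not_dvd ℓ K q.asIdeal (m := p)
      (fun h => hℓp ((Nat.prime_dvd_prime_iff_eq hℓ hp).mp h))]
    rfl
  have hα0 : α ≠ 0 := by
    intro h0
    rw [h0] at hα
    exact pow_ne_zero p hθ0 hα.symm
  obtain ⟨m, -, hm⟩ := hcL.exists_zpow hLℓ (x := ⟨θ, hθL⟩) (fun h => hθ0 (congrArg Subtype.val h))
  obtain ⟨n, hn, hn'⟩ := hcK.exists_zpow hKℓ hα0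
  rw [resVal_apply] at hm hn'
  rw [resVal_apply] at hm hn'
  have h1 : A.valuation ((ℓ : K) : Qb) = A.valuation ((ℓ : L) : Qb) := by simp
  have h2 : resVal L A (ℓ : L) ^ n = resVal L A (ℓ : L) ^ (m * p) := by
    rw [resVal_apply, ← h1, ← hn', hα, map_pow, hm, zpow_mul, zpow_natCast, h1]
  have h3 := hcL.zpow_inj hLℓ h2
  refine ⟨-m, ?_⟩
  rw [hn, h3]
  congr 1
  ring

/-- local data at a place `A` above `p` : `π` is a uniformiser of `L` and the residue field of `L`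
is the prime field. -/
structure AtPData (A : ValuationSubring Qb) (π : Qb) : Prop where
  lt_one : A.valuation π < 1
  ne_zero : π ≠ 0
  U : ∀ x ∈ L, x ≠ 0 → ∃ m : ℤ, A.valuation x = A.valuation π ^ m
  R : ∀ x ∈ L, A.valuation x ≤ 1 → ∃ n : ℤ, A.valuation (x - n) < 1

theorem val_zeta_sub_one {ζ : Qb} (hζ : IsPrimitiveRoot ζ p) (hζK : ζ ∈ K)
    (v : HeightOneSpectrum (𝓞 K)) (hv : (p : 𝓞 K) ∈ v.asIdeal) :
    v.valuation K ((⟨ζ, hζK⟩ : K) - 1) = WithZero.exp (-1 : ℤ) := by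
  have hp : p.Prime := Fact.out
  haveI : NeZero p := ⟨hp.ne_zero⟩
  have hζ' : IsPrimitiveRoot (⟨ζ, hζK⟩ : K) p :=
    IsPrimitiveRoot.of_map_of_injective (f := algebraMap K Qb) hζ (algebraMap K Qb).injective
  haveI := glue_liesOver_span_of_mem v hp hv
  have h1 := IsCyclotomicExtension.Rat.eq_span_zeta_sub_one_of_liesOver' p K hζ' v.asIdeal
  have h0 : hζ'.toInteger - 1 ≠ 0 := by
    intro h0
    rw [h0] at h1
    apply v.ne_bot
    rw [h1]
    simp
  have h2 := v.intValuation_singleton h0 h1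
  rw [← v.valuation_of_algebraMap (K := K)] at h2
  rw [← h2]
  congr 1

theorem atP_data {ζ : Qb} (hζ : IsPrimitiveRoot ζ p) (hζK : ζ ∈ K) (hKL : K ≤ L)
    (hD : ∀ A : ValuationSubring Qb, A.LiesOverPrime p → ∀ σ ∈ A.decompositionSubgroup ℚ,
      σ ζ = ζ → ∀ x ∈ L, σ x = x)
    (v : HeightOneSpectrum (𝓞 K)) (hv : (p : 𝓞 K) ∈ v.asIdeal)
    (A : ValuationSubring Qb) (hcK : CenteredAt v (resVal K A)) :
    AtPData L A (ζ - 1) := by
  have hp : p.Prime := Fact.out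
  haveI : NeZero p := ⟨hp.ne_zero⟩
  have hA := liesOver_of_centeredAt K v A hcK hv
  obtain ⟨Q, hcL, hQ⟩ := exists_center L A hp hA
  have hKπ := val_zeta_sub_one K hζ hζK v hv
  have hKp : v.valuation K (p : K) = WithZero.exp (-((p - 1 : ℕ) : ℤ)) := by
    rw [valuation_prime_eq v hp hv]
    haveI := glue_liesOver_span_of_mem v hp hv
    rw [IsCyclotomicExtension.Rat.ramificationIdx_eq_of_prime p K v.asIdeal]
  have hζL : ζ ∈ L := hKL hζK
  have hπL : ζ - 1 ∈ L := L.sub_mem hζL L.one_mem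
  have hπ0 : ζ - 1 ≠ 0 := sub_ne_zero.mpr (hζ.ne_one hp.one_lt)
  have hwπ : A.valuation (ζ - 1) < 1 := by
    have := hcK.lt_one_of (x := (⟨ζ, hζK⟩ : K) - 1)
      (by rw [hKπ, ← WithZero.exp_zero, WithZero.exp_lt_exp]; norm_num)
    exact this
  -- `w p = w π ^ (p - 1)`
  have h3 : A.valuation (p : Qb) = A.valuation (ζ - 1) ^ ((p - 1 : ℕ) : ℤ) := by
    have := hcK.eq_zpow hKπ hKp
    rw [resVal_apply, resVal_apply] at this
    simpa using this
  obtain ⟨ϖ, hϖ⟩ := Q.valuation_exists_uniformizer L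
  have h1 : A.valuation (p : Qb) = resVal L A ϖ ^ (Q.asIdeal.ramificationIdx ℤ : ℤ) := by
    have := hcL.eq_zpow hϖ (valuation_prime_eq Q hp hQ)
    rw [resVal_apply] at this
    simpa using this
  obtain ⟨j, hj, hj'⟩ := hcL.exists_zpow hϖ (x := ⟨ζ - 1, hπL⟩)
    (fun h => hπ0 (congrArg Subtype.val h))
  have hj'' : A.valuation (ζ - 1) = resVal L A ϖ ^ j := hj'
  have he : (Q.asIdeal.ramificationIdx ℤ : ℤ) = j * ((p - 1 : ℕ) : ℤ) := by
    apply hcL.zpow_inj hϖ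
    rw [← h1, h3, hj'', zpow_mul]
  have hjpos : 0 < j := by
    by_contra hcon
    push Not at hcon
    have := (hcL.zpow_le_iff hϖ (m := 0) (n := j)).mpr hcon
    rw [zpow_zero, ← hj''] at this
    exact absurd hwπ (not_lt.mpr this)
  have hef : Q.asIdeal.ramificationIdx ℤ * Q.asIdeal.inertiaDeg ℤ ≤ p - 1 := by
    rw [← card_stabilizer_eq' Q hp hQ]
    exact card_stab_le L hζ hζL hD Q hQ
  have hfpos : 0 < Q.asIdeal.inertiaDeg ℤ := Ideal.inertiaDeg_pos _ _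
  have hp1 : 0 < ((p - 1 : ℕ) : ℤ) := by
    have := hp.two_le
    omega
  have hef' : j * ((p - 1 : ℕ) : ℤ) * (Q.asIdeal.inertiaDeg ℤ : ℤ) ≤ ((p - 1 : ℕ) : ℤ) := by
    rw [← he]
    exact_mod_cast hef
  have hfpos' : (1 : ℤ) ≤ (Q.asIdeal.inertiaDeg ℤ : ℤ) := by exact_mod_cast hfpos
  have hj1 : j = 1 := by
    by_contra hne
    have : 2 ≤ j := by omega
    nlinarith
  have hf1 : Q.asIdeal.inertiaDeg ℤ = 1 := by
    by_contra hne
    have : (2 : ℤ) ≤ (Q.asIdeal.inertiaDeg ℤ : ℤ) := by omega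
    rw [hj1] at hef'
    nlinarith
  rw [hj1] at hj
  -- now `π` is a uniformiser at `Q`
  refine ⟨hwπ, hπ0, ?_, ?_⟩
  · intro x hx hx0
    obtain ⟨m, -, hm⟩ := hcL.exists_zpow hj (x := ⟨x, hx⟩) (fun h => hx0 (congrArg Subtype.val h))
    exact ⟨m, hm⟩
  · intro x hx hx1
    have hQx : Q.valuation L ⟨x, hx⟩ ≤ 1 := by
      by_cases hx0 : x = 0
      · subst hx0
        have : (⟨0, hx⟩ : L) = 0 := rfl
        rw [this, map_zero]
        exact zero_le_one
      · obtain ⟨m, hm, hm'⟩ := hcL.exists_zpow hj (x := ⟨x, hx⟩)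
          (fun h => hx0 (congrArg Subtype.val h))
        have h5 : resVal L A ⟨ζ - 1, hπL⟩ ^ m ≤ resVal L A ⟨ζ - 1, hπL⟩ ^ (0 : ℤ) := by
          rw [← hm', zpow_zero]
          exact hx1
        have h6 := (hcL.zpow_le_iff hj).mp h5
        rw [hm, ← WithZero.exp_zero, WithZero.exp_le_exp]
        omega
    obtain ⟨a, ha⟩ := Q.exists_valuation_sub_lt_of_integer hQx 1
    obtain ⟨n, hn⟩ := exists_int_sub_mem Q hp hQ hf1 a
    refine ⟨n, ?_⟩
    have h7 : Q.valuation L (algebraMap (𝓞 L) L (a - (n : 𝓞 L))) < 1 :=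
      (Q.valuation_lt_one_iff_mem _).mpr hn
    have h8 : Q.valuation L ((⟨x, hx⟩ : L) - (n : L)) < 1 := by
      have h9 : (⟨x, hx⟩ : L) - (n : L) =
          algebraMap (𝓞 L) L (a - (n : 𝓞 L)) - (algebraMap (𝓞 L) L a - ⟨x, hx⟩) := by
        rw [map_sub]
        simp
      rw [h9]
      exact Valuation.map_sub_lt _ h7 (by simpa using ha)
    have h10 := hcL.lt_one_of h8
    rw [resVal_apply] at h10
    simpa using h10

namespace AtPData

variable {K L}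
variable {A : ValuationSubring Qb} {π : Qb} (h : AtPData L A π)
include h

theorem pos : 0 < A.valuation π := zero_lt_iff.mpr ((Valuation.ne_zero_iff _).mpr h.ne_zero)

theorem le_of_lt_one {x : Qb} (hx : x ∈ L) (hx1 : A.valuation x < 1) :
    A.valuation x ≤ A.valuation π := by
  by_cases hx0 : x = 0
  · rw [hx0, map_zero]; exact zero_le
  obtain ⟨m, hm⟩ := h.U x hx hx0
  rw [hm] at hx1 ⊢
  have h1 : 0 < m := by
    by_contra hcon
    push Not at hcon
    have := (zpow_right_strictAnti₀ h.pos h.lt_one).antitone hcon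
    simp only [zpow_zero] at this
    exact absurd hx1 (not_lt.mpr this)
  have := (zpow_right_strictAnti₀ h.pos h.lt_one).antitone (show (1 : ℤ) ≤ m by omega)
  simpa using this

theorem approx (hπK : π ∈ K) (hKL : K ≤ L) (M : ℕ) :
    ∀ x ∈ L, A.valuation x ≤ 1 → ∃ y ∈ K, A.valuation (x - y) ≤ A.valuation π ^ M := by
  induction M with
  | zero =>
    intro x _ hx1
    exact ⟨0, K.zero_mem, by simpa using hx1⟩
  | succ M ih =>
    intro x hx hx1
    obtain ⟨y, hy, hxy⟩ := ih x hx hx1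
    have hπM : π ^ M ≠ 0 := pow_ne_zero _ h.ne_zero
    have hπL : π ∈ L := hKL hπK
    have hzL : (x - y) / π ^ M ∈ L := L.div_mem (L.sub_mem hx (hKL hy)) (pow_mem hπL M)
    have hz1 : A.valuation ((x - y) / π ^ M) ≤ 1 := by
      rw [map_div₀, map_pow]
      exact div_le_one_of_le₀ hxy zero_le
    obtain ⟨n, hn⟩ := h.R _ hzL hz1
    have hn' := h.le_of_lt_one (L.sub_mem hzL (L.intCast_mem n)) hn
    refine ⟨y + n * π ^ M, K.add_mem hy (K.mul_mem (K.intCast_mem n) (pow_mem hπK M)), ?_⟩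
    have h1 : x - (y + n * π ^ M) = π ^ M * ((x - y) / π ^ M - n) := by
      field_simp
      ring
    rw [h1, map_mul, map_pow, pow_succ]
    gcongr

/-- the local `p`-th power condition, in terms of the valuation of `A` -/
theorem LP_aux (hπK : π ∈ K) (hKL : K ≤ L) {θ : Qb} (hθL : θ ∈ L) (hθ0 : θ ≠ 0) (n : ℕ) (M : ℕ) :
    ∃ y ∈ K, y ≠ 0 ∧ A.valuation (θ ^ n / y ^ n - 1) ≤ A.valuation π ^ M := by
  obtain ⟨k, hk⟩ := h.U θ hθL hθ0
  have hπL : π ∈ L := hKL hπK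
  have hπk : π ^ k ≠ 0 := zpow_ne_zero _ h.ne_zero
  have huL : θ / π ^ k ∈ L := L.div_mem hθL (L.pow_mem hπL k)
  have hu1 : A.valuation (θ / π ^ k) = 1 := by
    rw [map_div₀, map_zpow₀, hk]
    exact div_self (zpow_ne_zero _ h.pos.ne')
  obtain ⟨y0, hy0K, hy0⟩ := h.approx hπK hKL (M + 1) _ huL hu1.le
  have hlt : A.valuation π ^ (M + 1) < 1 := pow_lt_one₀ zero_le h.lt_one (by omega)
  have hy01 : A.valuation y0 = 1 := by
    have h1 : y0 = θ / π ^ k - (θ / π ^ k - y0) := by ring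
    rw [h1, Valuation.map_sub_eq_of_lt_left _ (by rw [hu1]; exact lt_of_le_of_lt hy0 hlt), hu1]
  have hy00 : y0 ≠ 0 := by
    rintro rfl
    simp at hy01
  refine ⟨π ^ k * y0, K.mul_mem (K.pow_mem hπK k) hy0K, mul_ne_zero hπk hy00, ?_⟩
  set t : Qb := θ / π ^ k / y0 with ht
  have h2 : θ ^ n / (π ^ k * y0) ^ n = t ^ n := by
    rw [ht, ← div_pow]
    congr 1
    field_simp
  have ht1 : A.valuation t = 1 := by rw [ht, map_div₀, hu1, hy01, div_one]
  have ht2 : A.valuation (t - 1) ≤ A.valuation π ^ M := by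
    have h3 : t - 1 = (θ / π ^ k - y0) / y0 := by
      rw [ht]; field_simp
    rw [h3, map_div₀, hy01, div_one]
    refine hy0.trans ?_
    exact pow_le_pow_of_le_one zero_le h.lt_one.le (by omega)
  rw [h2, ← geom_sum_mul, map_mul]
  have h4 : A.valuation (∑ i ∈ Finset.range n, t ^ i) ≤ 1 := by
    apply Valuation.map_sum_le
    intro i _
    rw [map_pow, ht1, one_pow]
  calc A.valuation (∑ i ∈ Finset.range n, t ^ i) * A.valuation (t - 1)
      ≤ 1 * A.valuation π ^ M := by gcongr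
    _ = _ := one_mul _

end AtPData

/-- **at `p`** -/
theorem val_at_p {ζ : Qb} (hζ : IsPrimitiveRoot ζ p) (hζK : ζ ∈ K) (hKL : K ≤ L)
    (hD : ∀ A : ValuationSubring Qb, A.LiesOverPrime p → ∀ σ ∈ A.decompositionSubgroup ℚ,
      σ ζ = ζ → ∀ x ∈ L, σ x = x)
    {θ : Qb} (hθL : θ ∈ L) (hθ0 : θ ≠ 0) (α : K) (hα : (α : Qb) = θ ^ p)
    (v : HeightOneSpectrum (𝓞 K)) (hv : (p : 𝓞 K) ∈ v.asIdeal) :
    (∃ k : ℤ, v.valuation K α = WithZero.exp ((p : ℤ) * k)) ∧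
    ∀ M : ℕ, ∃ y : K, y ≠ 0 ∧ v.valuation K (α / y ^ p - 1) ≤ WithZero.exp (-(M : ℤ)) := by
  obtain ⟨A, hcK⟩ := exists_centeredAt K v
  have d := atP_data K L hζ hζK hKL hD v hv A hcK
  have hKπ := val_zeta_sub_one K hζ hζK v hv
  have hπK : ζ - 1 ∈ K := K.sub_mem hζK K.one_mem
  have hα0 : α ≠ 0 := by
    intro h0
    rw [h0] at hα
    exact pow_ne_zero p hθ0 hα.symm
  have hres : resVal K A ((⟨ζ, hζK⟩ : K) - 1) = A.valuation (ζ - 1) := rfl
  constructor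
  · obtain ⟨m, hm⟩ := d.U θ hθL hθ0
    obtain ⟨n, hn, hn'⟩ := hcK.exists_zpow hKπ hα0
    have h2 : resVal K A ((⟨ζ, hζK⟩ : K) - 1) ^ n = resVal K A ((⟨ζ, hζK⟩ : K) - 1) ^ (m * p) := by
      rw [← hn', resVal_apply, hα, map_pow, hm, zpow_mul, zpow_natCast, hres]
    have h3 := hcK.zpow_inj hKπ h2
    refine ⟨-m, ?_⟩
    rw [hn, h3]
    congr 1
    ring
  · intro M
    obtain ⟨y, hyK, hy0, hy⟩ := d.LP_aux hπK hKL hθL hθ0 p M
    refine ⟨⟨y, hyK⟩, fun h => hy0 (congrArg Subtype.val h), ?_⟩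
    by_cases hx0 : α / (⟨y, hyK⟩ : K) ^ p - 1 = 0
    · rw [hx0, map_zero]
      exact zero_le
    · obtain ⟨n, hn, hn'⟩ := hcK.exists_zpow hKπ hx0
      have h4 : resVal K A (α / (⟨y, hyK⟩ : K) ^ p - 1) = A.valuation (θ ^ p / y ^ p - 1) := by
        rw [resVal_apply, ← hα]
        rfl
      rw [h4] at hn'
      rw [hn', ← hres, ← zpow_natCast] at hy
      have h5 := (hcK.zpow_le_iff hKπ).mp hy
      rw [hn, WithZero.exp_le_exp]
      omega

end Fermat.Agent.S14Lib
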