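import Fermat.Agent.S14.Glue2
import Fermat.Agent.S14.Glue7

/-!
# S14, leaf L13 (glue) : `ExtVanishingCts p` from the arithmetic statement `EndProp p` (leaf L12)
-/

set_option autoImplicit false
set_option linter.style.haveILetI false
set_option linter.unusedSectionVars false

open NumberField IsDedekindDomain ExtCitation

namespace Fermat.Agent.S14Lib

local notation "Qb" => AlgebraicClosure ℚ
local notation "GQ" => (AlgebraicClosure ℚ ≃ₐ[ℚ] AlgebraicClosure ℚ)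

/-- Leaf L12, spelled out in Mathlib terms. -/
def EndProp (p : ℕ) : Prop :=
  ∀ (K : Type) [Field K] [NumberField K] [IsCyclotomicExtension {p} ℚ K] (ζ : K)
    (_ : IsPrimitiveRoot ζ p) (α : K) (_ : α ≠ 0),
    (∀ q : HeightOneSpectrum (𝓞 K), ∃ k : ℤ, q.valuation K α = WithZero.exp ((p : ℤ) * k)) →
    (∀ v : HeightOneSpectrum (𝓞 K), (p : 𝓞 K) ∈ v.asIdeal → ∀ M : ℕ, ∃ y : K, y ≠ 0 ∧
      v.valuation K (α / y ^ p - 1) ≤ WithZero.exp (-(M : ℤ))) →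
    (∀ (δ : K ≃ₐ[ℚ] K) (k : ℕ), δ ζ = ζ ^ k → ∃ z : K, δ α = α ^ (k ^ 2) * z ^ p) →
    ∃ z : K, α = z ^ p

variable {p : ℕ} [Fact p.Prime]

theorem zpw_pow {ζ : Qb} (hζ : IsPrimitiveRoot ζ p) (c : ZMod p) (n : ℕ) :
    (zpw ζ c) ^ n = zpw ζ ((n : ZMod p) * c) := by
  induction n with
  | zero => simp [zpw_zero]
  | succ n ih => rw [pow_succ, ih, ← zpw_add hζ]; congr 1; push_cast; ring

theorem zpw_inj {ζ : Qb} (hζ : IsPrimitiveRoot ζ p) {i j : ZMod p} (h : zpw ζ i = zpw ζ j) :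
    i = j := by
  have h1 : zpw ζ (i - j) * zpw ζ j = 1 * zpw ζ j := by
    rw [← zpw_add hζ, sub_add_cancel, one_mul, h]
  have h2 := mul_right_cancel₀ (zpw_ne_zero hζ j) h1
  exact sub_eq_zero.mp ((zpw_eq_one_iff hζ _).mp h2)

theorem fix_adjoin {ζ : Qb} (σ : GQ) (h : σ ζ = ζ) {x : Qb}
    (hx : x ∈ IntermediateField.adjoin ℚ {ζ}) : σ x = x := by
  induction hx using IntermediateField.adjoin_induction with
  | mem x hx => rw [Set.mem_singleton_iff.mp hx, h]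
  | algebraMap x => exact σ.commutes x
  | add x y _ _ hx hy => rw [map_add, hx, hy]
  | inv x _ hx => rw [map_inv₀, hx]
  | mul x y _ _ hx hy => rw [map_mul, hx, hy]

theorem mem_adjoin_iff {ζ : Qb} (hζ : IsPrimitiveRoot ζ p) (x : Qb) :
    x ∈ IntermediateField.adjoin ℚ {ζ} ↔ ∀ σ : GQ, cycloChar p σ = 1 → σ x = x := by
  constructor
  · intro hx σ hσ
    exact fix_adjoin σ ((cycloChar_eq_one_iff hζ σ).mp hσ) hx
  · intro h
    rw [← InfiniteGalois.fixedField_fixingSubgroup (IntermediateField.adjoin ℚ {ζ}),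
      IntermediateField.mem_fixedField_iff]
    intro σ hσ
    apply h
    rw [cycloChar_eq_one_iff hζ]
    exact (IntermediateField.mem_fixingSubgroup_iff _ σ).mp hσ ζ
      (IntermediateField.mem_adjoin_simple_self ℚ ζ)

theorem exists_cycloChar_ne_one (h3 : 3 ≤ p) : ∃ σ : GQ, cycloChar p σ ≠ 1 := by
  have hp : p.Prime := Fact.out
  haveI : NeZero p := ⟨hp.ne_zero⟩
  haveI : NeZero (p : Qb) := ⟨Nat.cast_ne_zero.mpr hp.ne_zero⟩
  obtain ⟨ζ, hζ⟩ := HasEnoughRootsOfUnity.exists_primitiveRoot Qb p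
  by_contra hcon
  push Not at hcon
  have h1 : ζ ∈ Set.range (algebraMap ℚ Qb) := by
    apply (InfiniteGalois.mem_range_algebraMap_iff_fixed (k := ℚ) _).mpr
    intro σ
    exact (cycloChar_eq_one_iff hζ σ).mp (hcon σ)
  obtain ⟨r, hr⟩ := h1
  have h2 : r ^ p = 1 := by
    apply (algebraMap ℚ Qb).injective
    rw [map_pow, hr, hζ.pow_eq_one, map_one]
  have hodd : Odd p := hp.odd_of_ne_two (by omega)
  have h4 : r = 1 := hodd.strictMono_pow.injective (by simpa using h2)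
  rw [h4, map_one] at hr
  exact hζ.ne_one hp.one_lt hr.symm

theorem CocycleData.coboundary {κ : GQ → ZMod p} (hκ : CocycleData p κ) (h3 : 3 ≤ p)
    (h : ∀ σ, cycloChar p σ = 1 → κ σ = 0) :
    ∃ t : ZMod p, ∀ σ, κ σ = ((cycloChar p σ : ZMod p) - 1) * t := by
  obtain ⟨σ0, hσ0⟩ := exists_cycloChar_ne_one (p := p) h3
  have hne : ((cycloChar p σ0 : ZMod p) - 1) ≠ 0 := by
    intro h0
    apply hσ0
    ext
    rw [Units.val_one]
    exact sub_eq_zero.mp h0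
  refine ⟨κ σ0 / ((cycloChar p σ0 : ZMod p) - 1), fun σ => ?_⟩
  have hc : κ ((σ * σ0) * (σ0 * σ)⁻¹) = 0 := by
    apply h
    rw [map_mul, map_inv, map_mul, map_mul, mul_comm (cycloChar p σ0), mul_inv_cancel]
  have h1 : κ (σ * σ0) = κ (σ0 * σ) := by
    have h2 : σ * σ0 = ((σ * σ0) * (σ0 * σ)⁻¹) * (σ0 * σ) := by group
    rw [h2, hκ.mul, hc, mul_zero, zero_add]
  rw [hκ.mul, hκ.mul] at h1
  field_simp
  linear_combination h1

theorem CocycleData.trivial_of_end {κ : GQ → ZMod p} (hκ : CocycleData p κ) (END : EndProp p) :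
    ∀ σ, cycloChar p σ = 1 → κ σ = 0 := by
  intro τ hτ
  by_contra hτκ
  have hp : p.Prime := Fact.out
  haveI : NeZero p := ⟨hp.ne_zero⟩
  haveI : NeZero (p : Qb) := ⟨Nat.cast_ne_zero.mpr hp.ne_zero⟩
  obtain ⟨ζ, hζ⟩ := HasEnoughRootsOfUnity.exists_primitiveRoot Qb p
  obtain ⟨θ, hθ0, hθ⟩ := hκ.exists_theta hζ τ hτ hτκ
  -- the fields
  set K : IntermediateField ℚ Qb := IntermediateField.adjoin ℚ {ζ} with hK
  set L : IntermediateField ℚ Qb := hκ.splitField with hL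
  have hKmem : ∀ x : Qb, x ∈ K ↔ ∀ σ : GQ, cycloChar p σ = 1 → σ x = x := mem_adjoin_iff hζ
  have hLmem : ∀ x : Qb, x ∈ L ↔ ∀ σ : GQ, cycloChar p σ = 1 → κ σ = 0 → σ x = x :=
    hκ.mem_splitField
  haveI : FiniteDimensional ℚ K :=
    IntermediateField.adjoin.finiteDimensional (Algebra.IsIntegral.isIntegral ζ)
  haveI : IsCyclotomicExtension {p} ℚ K := hζ.intermediateField_adjoin_isCyclotomicExtension ℚ
  haveI : FiniteDimensional ℚ L := by
    apply (InfiniteGalois.isOpen_iff_finite L).mp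
    rw [hL, hκ.fixingSubgroup_splitField]
    exact hκ.kerSubgroup_isOpen
  haveI : IsGalois ℚ L := by
    apply (InfiniteGalois.normal_iff_isGalois L).mp
    rw [hL, hκ.fixingSubgroup_splitField]
    exact hκ.kerSubgroup_normal
  haveI : IsGalois ℚ K := IsCyclotomicExtension.isGalois {p} ℚ K
  have hζK : ζ ∈ K := IntermediateField.mem_adjoin_simple_self ℚ ζ
  have hKL : K ≤ L := fun x hx => (hLmem x).mpr (fun σ h1 _ => (hKmem x).mp hx σ h1)
  have hθL : θ ∈ L := by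
    rw [hLmem]
    intro σ h1 h2
    rw [hθ σ h1, h2, zpw_zero, one_mul]
  have hzp : ∀ c : ZMod p, (zpw ζ c) ^ p = 1 := by
    intro c
    rw [zpw_pow hζ, ZMod.natCast_self, zero_mul, zpw_zero]
  have hαK : θ ^ p ∈ K := by
    rw [hKmem]
    intro σ h1
    rw [map_pow, hθ σ h1, mul_pow, hzp, one_mul]
  have hI : ∀ ℓ : ℕ, ℓ.Prime → ℓ ≠ p → ∀ A : ValuationSubring Qb, A.LiesOverPrime ℓ →
      ∀ σ ∈ A.inertiaSubgroupIn ℚ, ∀ x ∈ L, σ x = x := by
    intro ℓ hℓ hℓp A hA σ hσ x hx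
    obtain ⟨h1, h2⟩ := hκ.unram ℓ hℓ hℓp A hA σ hσ
    exact (hLmem x).mp hx σ h1 h2
  have hD : ∀ A : ValuationSubring Qb, A.LiesOverPrime p → ∀ σ ∈ A.decompositionSubgroup ℚ,
      σ ζ = ζ → ∀ x ∈ L, σ x = x := by
    intro A hA σ hσ hσζ x hx
    have h1 := (cycloChar_eq_one_iff hζ σ).mpr hσζ
    exact (hLmem x).mp hx σ h1 (hκ.dec A hA σ hσ h1)
  have hζ' : IsPrimitiveRoot (⟨ζ, hζK⟩ : K) p :=
    IsPrimitiveRoot.of_map_of_injective (f := algebraMap K Qb) hζ (algebraMap K Qb).injective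
  have hα0 : (⟨θ ^ p, hαK⟩ : K) ≠ 0 := fun h => pow_ne_zero p hθ0 (congrArg Subtype.val h)
  have H1 : ∀ q : HeightOneSpectrum (𝓞 K), ∃ k : ℤ,
      q.valuation K (⟨θ ^ p, hαK⟩ : K) = WithZero.exp ((p : ℤ) * k) := by
    intro q
    by_cases hq : (p : 𝓞 K) ∈ q.asIdeal
    · exact (val_at_p K L hζ hζK hKL hD hθL hθ0 ⟨θ ^ p, hαK⟩ rfl q hq).1
    · exact val_outside_p K L hI hθL hθ0 ⟨θ ^ p, hαK⟩ rfl q hq
  have H2 : ∀ v : HeightOneSpectrum (𝓞 K), (p : 𝓞 K) ∈ v.asIdeal → ∀ M : ℕ, ∃ y : K, y ≠ 0 ∧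
      v.valuation K ((⟨θ ^ p, hαK⟩ : K) / y ^ p - 1) ≤ WithZero.exp (-(M : ℤ)) := by
    intro v hv
    exact (val_at_p K L hζ hζK hKL hD hθL hθ0 ⟨θ ^ p, hαK⟩ rfl v hv).2
  have H3 : ∀ (δ : K ≃ₐ[ℚ] K) (k : ℕ), δ (⟨ζ, hζK⟩ : K) = (⟨ζ, hζK⟩ : K) ^ k →
      ∃ z : K, δ (⟨θ ^ p, hαK⟩ : K) = (⟨θ ^ p, hαK⟩ : K) ^ (k ^ 2) * z ^ p := by
    intro δ k hδ
    obtain ⟨δ', hδ'⟩ := AlgEquiv.restrictNormalHom_surjective Qb δ
    have hcomm : ∀ x : K, δ' (x : Qb) = ((δ x : K) : Qb) := by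
      intro x
      have := AlgEquiv.restrictNormal_commutes δ' K x
      rw [← hδ']
      exact this.symm
    have hδζ : δ' ζ = ζ ^ k := by
      have := hcomm ⟨ζ, hζK⟩
      rw [hδ] at this
      exact this
    have hωk : (cycloChar p δ' : ZMod p) = (k : ZMod p) := by
      apply zpw_inj hζ
      rw [zpw_natCast hζ, ← hδζ, cycloChar_spec hζ]
      rfl
    have hθk : θ ^ (k ^ 2) ≠ 0 := pow_ne_zero _ hθ0
    have hzK : δ' θ / θ ^ (k ^ 2) ∈ K := by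
      rw [hKmem]
      intro σ hσ
      have h1 : σ (δ' θ) = δ' ((δ'⁻¹ * σ * δ') θ) := by
        show σ (δ' θ) = δ' (δ'⁻¹ (σ (δ' θ)))
        exact (AlgEquiv.apply_symm_apply δ' _).symm
      have h2 : cycloChar p (δ'⁻¹ * σ * δ') = 1 := by
        rw [map_mul, map_mul, hσ, mul_one, map_inv, inv_mul_cancel]
      rw [map_div₀, map_pow, hθ σ hσ, h1, hθ _ h2, hκ.conj δ' σ hσ, map_mul, map_zpw hζ, mul_pow,
        zpw_pow hζ, hωk]
      have h3 : ((k : ZMod p) * ((k : ZMod p) * κ σ)) = ((k ^ 2 : ℕ) : ZMod p) * κ σ := by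
        push_cast; ring
      rw [h3]
      have h4 := zpw_ne_zero hζ (((k ^ 2 : ℕ) : ZMod p) * κ σ)
      field_simp
    refine ⟨⟨_, hzK⟩, ?_⟩
    apply Subtype.ext
    rw [← hcomm]
    show δ' (θ ^ p) = (θ ^ p) ^ (k ^ 2) * (δ' θ / θ ^ (k ^ 2)) ^ p
    rw [map_pow, div_pow, ← pow_mul, ← pow_mul, mul_comm p]
    field_simp
  obtain ⟨z, hz⟩ := END K ⟨ζ, hζK⟩ hζ' ⟨θ ^ p, hαK⟩ hα0 H1 H2 H3
  -- contradiction
  have hz' : θ ^ p = (z : Qb) ^ p := congrArg Subtype.val hz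
  have hz0 : (z : Qb) ≠ 0 := by
    intro h0
    rw [h0, zero_pow hp.ne_zero] at hz'
    exact pow_ne_zero p hθ0 hz'
  have h1 : (θ / (z : Qb)) ^ p = 1 := by
    rw [div_pow, hz', div_self (pow_ne_zero p hz0)]
  obtain ⟨i, -, hi⟩ := hζ.eq_pow_of_pow_eq_one h1
  have h2 : θ ∈ K := by
    have h3 : θ = ζ ^ i * (z : Qb) := by
      rw [hi]; field_simp
    rw [h3]
    exact K.mul_mem (pow_mem hζK i) z.2
  have h4 := (hKmem θ).mp h2 τ hτ
  rw [hθ τ hτ] at h4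
  have h5 : zpw ζ (κ τ) = 1 := by
    have : zpw ζ (κ τ) * θ = 1 * θ := by rw [h4, one_mul]
    exact mul_right_cancel₀ hθ0 this
  exact hτκ ((zpw_eq_one_iff hζ _).mp h5)

/-- **Leaf L13.** -/
theorem glue (h3 : 3 ≤ p) (END : EndProp p) : ExtCitation.ExtVanishingCts p := by
  intro V _ _ _ _ C hadm
  obtain ⟨κ, hκ, hsplit⟩ := exists_cocycle C hadm
  exact hsplit (hκ.coboundary h3 (hκ.trivial_of_end END))

end Fermat.Agent.S14Lib
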