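import Fermat.Agent.S14.SymbolLocal

/-!
# S14, (S3) : Galois conjugates of primes and the power residue symbol
-/

set_option autoImplicit false

namespace Fermat.Agent.S14Lib

open IsDedekindDomain NumberField HeightOneSpectrum WithZero
open scoped Pointwise

variable {K : Type*} [Field K] [NumberField K]

/-- the Galois conjugate `δ q` of a prime -/
noncomputable def conjH (δ : Gal(K/ℚ)) (q : HeightOneSpectrum (𝓞 K)) :
    HeightOneSpectrum (𝓞 K) where
  asIdeal := δ • q.asIdeal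
  isPrime := inferInstance
  ne_bot := by
    intro h
    apply q.ne_bot
    have : δ⁻¹ • (δ • q.asIdeal) = δ⁻¹ • (⊥ : Ideal (𝓞 K)) := by rw [h]
    rwa [inv_smul_smul, Ideal.smul_bot] at this

@[simp] theorem conjH_asIdeal (δ : Gal(K/ℚ)) (q : HeightOneSpectrum (𝓞 K)) :
    (conjH δ q).asIdeal = δ • q.asIdeal := rfl

@[simp] theorem conjH_one (q : HeightOneSpectrum (𝓞 K)) : conjH 1 q = q := by
  ext1
  simp

theorem conjH_mul (δ ε : Gal(K/ℚ)) (q : HeightOneSpectrum (𝓞 K)) :
    conjH (δ * ε) q = conjH δ (conjH ε q) := by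
  ext1
  simp [mul_smul]

@[simp] theorem conjH_inv_conjH (δ : Gal(K/ℚ)) (q : HeightOneSpectrum (𝓞 K)) :
    conjH δ⁻¹ (conjH δ q) = q := by
  rw [← conjH_mul, inv_mul_cancel, conjH_one]

@[simp] theorem conjH_conjH_inv (δ : Gal(K/ℚ)) (q : HeightOneSpectrum (𝓞 K)) :
    conjH δ (conjH δ⁻¹ q) = q := by
  rw [← conjH_mul, mul_inv_cancel, conjH_one]

theorem intValuation_conjH_le (δ : Gal(K/ℚ)) (q : HeightOneSpectrum (𝓞 K)) (b : 𝓞 K) :
    (conjH δ q).intValuation (δ • b) ≤ q.intValuation b := by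
  by_cases hb : b = 0
  · simp [hb]
  rw [q.intValuation_eq_exp_neg_multiplicity hb, intValuation_le_pow_iff_mem]
  have h1 : b ∈ q.asIdeal ^ (multiplicity q.asIdeal (Ideal.span {b})) := by
    rw [← q.intValuation_le_pow_iff_mem, q.intValuation_eq_exp_neg_multiplicity hb]
  have h2 : δ • b ∈ δ • (q.asIdeal ^ (multiplicity q.asIdeal (Ideal.span {b}))) :=
    Ideal.smul_mem_pointwise_smul _ _ _ h1
  rwa [Ideal.pointwise_smul_def, Ideal.map_pow, ← Ideal.pointwise_smul_def] at h2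

theorem intValuation_conjH (δ : Gal(K/ℚ)) (q : HeightOneSpectrum (𝓞 K)) (b : 𝓞 K) :
    (conjH δ q).intValuation (δ • b) = q.intValuation b := by
  refine le_antisymm (intValuation_conjH_le δ q b) ?_
  simpa using intValuation_conjH_le δ⁻¹ (conjH δ q) (δ • b)

theorem valuation_conjH (δ : Gal(K/ℚ)) (q : HeightOneSpectrum (𝓞 K)) (a : K) :
    (conjH δ q).valuation K (δ a) = q.valuation K a := by
  obtain ⟨b, c, hc, rfl⟩ := IsFractionRing.div_surjective (A := 𝓞 K) a
  have e : ∀ x : 𝓞 K, δ (algebraMap (𝓞 K) K x) = algebraMap (𝓞 K) K (δ • x) := fun x => rfl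
  rw [map_div₀, e, e, map_div₀, map_div₀, valuation_of_algebraMap, valuation_of_algebraMap,
    valuation_of_algebraMap, valuation_of_algebraMap, intValuation_conjH, intValuation_conjH]

theorem valuation_conjH_rat (δ : Gal(K/ℚ)) (q : HeightOneSpectrum (𝓞 K)) (n : ℕ) :
    (conjH δ q).valuation K (n : K) = q.valuation K (n : K) := by
  rw [← valuation_conjH δ q, map_natCast δ]

theorem absNorm_conjH (δ : Gal(K/ℚ)) (q : HeightOneSpectrum (𝓞 K)) :
    Ideal.absNorm (conjH δ q).asIdeal = Ideal.absNorm q.asIdeal := by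
  have h1 := Ideal.relNorm_smul (R := ℤ) δ q.asIdeal
  rw [Ideal.relNorm_int, Ideal.relNorm_int, Ideal.span_singleton_eq_span_singleton] at h1
  have h2 := Int.natAbs_eq_iff_associated.2 h1
  simpa using h2

variable {p : ℕ} [hp : Fact p.Prime] {ζ : K}

omit hp in
theorem symExp_conjH (δ : Gal(K/ℚ)) (q : HeightOneSpectrum (𝓞 K)) :
    symExp p (conjH δ q) = symExp p q := by
  unfold symExp
  rw [absNorm_conjH]

/-- **(S3)** -/
theorem sym_conjH (hζ : IsPrimitiveRoot ζ p) (δ : Gal(K/ℚ)) (k : ℕ) (hk : δ ζ = ζ ^ k)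
    (q : HeightOneSpectrum (𝓞 K)) (x : K) :
    sym p ζ (conjH δ q) (δ x) = (k : ZMod p) * sym p ζ q x := by
  by_cases hq : q.valuation K (p : K) = 1
  swap
  · rw [sym_of_val_p_ne hq, sym_of_val_p_ne (by rwa [valuation_conjH_rat]), mul_zero]
  by_cases hx : q.valuation K x = 1
  swap
  · rw [sym_of_val_ne hx, sym_of_val_ne (by rwa [valuation_conjH]), mul_zero]
  have hq' : (conjH δ q).valuation K (p : K) = 1 := by rwa [valuation_conjH_rat]
  have hx' : (conjH δ q).valuation K (δ x) = 1 := by rwa [valuation_conjH]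
  rw [sym_eq_iff hζ hq' hx']
  have h1 := isSym_sym hζ hq hx
  unfold IsSym at h1 ⊢
  rw [← valuation_conjH δ q, map_sub, map_pow, map_pow, hk] at h1
  rw [symExp_conjH, mul_comm, pow_val_mul hζ.pow_eq_one, pow_val_natCast
    (by rw [← pow_mul, mul_comm, pow_mul, hζ.pow_eq_one, one_pow]), ← pow_mul, mul_comm, pow_mul]
  exact h1

end Fermat.Agent.S14Lib
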