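import Mathlib

/-!
# S14, leaf L1 (prime level): the `p`-th power residue symbol at a prime

`F` a number field, `ζ : F` a primitive `p`-th root of unity, `q` a prime of `𝓞 F`, `x : F`.
`sym p ζ q x : ZMod p` is the exponent `k` with `x ^ ((N q - 1) / p) ≡ ζ ^ k mod q`
(junk value `0` if `q ∣ p` or `x` is not a `q`-unit).
-/

namespace Fermat.Agent.S14Lib

open IsDedekindDomain NumberField

section Red

variable {F : Type*} [Field F] [NumberField F]

/-- reduction modulo `q` of a `q`-integral element of `F` (junk value `0` otherwise). -/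
noncomputable def red (q : HeightOneSpectrum (𝓞 F)) (x : F) : 𝓞 F ⧸ q.asIdeal :=
  if h : q.valuation F x ≤ 1 then
    Ideal.Quotient.mk q.asIdeal (q.exists_valuation_sub_lt_of_integer h 1).choose
  else 0

variable (q : HeightOneSpectrum (𝓞 F))

theorem val_lt_one_iff_mem (a : 𝓞 F) :
    q.valuation F (algebraMap (𝓞 F) F a) < 1 ↔ a ∈ q.asIdeal :=
  q.valuation_lt_one_iff_mem a

theorem val_eq_one_iff_notMem (a : 𝓞 F) :
    q.valuation F (algebraMap (𝓞 F) F a) = 1 ↔ a ∉ q.asIdeal :=
  q.valuation_eq_one_iff_notMem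

theorem red_eq_mk_iff {x : F} (h : q.valuation F x ≤ 1) (a : 𝓞 F) :
    red q x = Ideal.Quotient.mk q.asIdeal a ↔ q.valuation F (algebraMap (𝓞 F) F a - x) < 1 := by
  have hb := (q.exists_valuation_sub_lt_of_integer h 1).choose_spec
  set b := (q.exists_valuation_sub_lt_of_integer h 1).choose with hbdef
  rw [Units.val_one] at hb
  have h1 : red q x = Ideal.Quotient.mk q.asIdeal b := by
    rw [red, dif_pos h]
  have e : algebraMap (𝓞 F) F (b - a) = algebraMap (𝓞 F) F b - algebraMap (𝓞 F) F a :=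
    map_sub _ _ _
  rw [h1, Ideal.Quotient.eq, ← val_lt_one_iff_mem, e]
  constructor
  · intro h2
    have : algebraMap (𝓞 F) F a - x
        = (algebraMap (𝓞 F) F b - x) - (algebraMap (𝓞 F) F b - algebraMap (𝓞 F) F a) := by ring
    rw [this]
    exact Valuation.map_sub_lt _ hb h2
  · intro h2
    have : algebraMap (𝓞 F) F b - algebraMap (𝓞 F) F a
        = (algebraMap (𝓞 F) F b - x) - (algebraMap (𝓞 F) F a - x) := by ring
    rw [this]
    exact Valuation.map_sub_lt _ hb h2

theorem exists_red_eq_mk {x : F} (h : q.valuation F x ≤ 1) :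
    ∃ a : 𝓞 F, red q x = Ideal.Quotient.mk q.asIdeal a ∧
      q.valuation F (algebraMap (𝓞 F) F a - x) < 1 := by
  obtain ⟨a, ha⟩ := Ideal.Quotient.mk_surjective (red q x)
  exact ⟨a, ha.symm, (red_eq_mk_iff q h a).1 ha.symm⟩

@[simp] theorem red_algebraMap (a : 𝓞 F) :
    red q (algebraMap (𝓞 F) F a) = Ideal.Quotient.mk q.asIdeal a := by
  rw [red_eq_mk_iff q (q.valuation_le_one a)]
  simp

theorem red_of_not_le {x : F} (h : ¬ q.valuation F x ≤ 1) : red q x = 0 := by
  rw [red, dif_neg h]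

theorem red_eq_red_iff {x y : F} (hx : q.valuation F x ≤ 1) (hy : q.valuation F y ≤ 1) :
    red q x = red q y ↔ q.valuation F (x - y) < 1 := by
  obtain ⟨b, hb, hb'⟩ := exists_red_eq_mk q hy
  rw [hb, red_eq_mk_iff q hx]
  constructor
  · intro h
    have : x - y = (algebraMap (𝓞 F) F b - y) - (algebraMap (𝓞 F) F b - x) := by ring
    rw [this]
    exact Valuation.map_sub_lt _ hb' h
  · intro h
    have : algebraMap (𝓞 F) F b - x = (algebraMap (𝓞 F) F b - y) - (x - y) := by ring
    rw [this]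
    exact Valuation.map_sub_lt _ hb' h

@[simp] theorem red_zero : red q (0 : F) = 0 := by
  have := red_algebraMap q (0 : 𝓞 F)
  simpa using this

@[simp] theorem red_one : red q (1 : F) = 1 := by
  have := red_algebraMap q (1 : 𝓞 F)
  simpa using this

theorem red_eq_zero_iff {x : F} (hx : q.valuation F x ≤ 1) :
    red q x = 0 ↔ q.valuation F x < 1 := by
  rw [← red_zero q, red_eq_red_iff q hx (by simp), sub_zero]

theorem red_mul {x y : F} (hx : q.valuation F x ≤ 1) (hy : q.valuation F y ≤ 1) :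
    red q (x * y) = red q x * red q y := by
  obtain ⟨a, ha, ha'⟩ := exists_red_eq_mk q hx
  obtain ⟨b, hb, hb'⟩ := exists_red_eq_mk q hy
  have hxy : q.valuation F (x * y) ≤ 1 := by
    rw [map_mul]; exact mul_le_one' hx hy
  rw [ha, hb, ← map_mul, red_eq_mk_iff q hxy, map_mul]
  have : algebraMap (𝓞 F) F a * algebraMap (𝓞 F) F b - x * y
      = algebraMap (𝓞 F) F a * (algebraMap (𝓞 F) F b - y) + (algebraMap (𝓞 F) F a - x) * y := by
    ring
  rw [this]
  apply Valuation.map_add_lt
  · rw [map_mul, mul_comm]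
    exact mul_lt_one_of_lt_of_le hb' (q.valuation_le_one a)
  · rw [map_mul]
    exact mul_lt_one_of_lt_of_le ha' hy

theorem red_add {x y : F} (hx : q.valuation F x ≤ 1) (hy : q.valuation F y ≤ 1) :
    red q (x + y) = red q x + red q y := by
  obtain ⟨a, ha, ha'⟩ := exists_red_eq_mk q hx
  obtain ⟨b, hb, hb'⟩ := exists_red_eq_mk q hy
  have hxy : q.valuation F (x + y) ≤ 1 := Valuation.map_add_le _ hx hy
  rw [ha, hb, ← map_add, red_eq_mk_iff q hxy, map_add]
  have : algebraMap (𝓞 F) F a + algebraMap (𝓞 F) F b - (x + y)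
      = (algebraMap (𝓞 F) F a - x) + (algebraMap (𝓞 F) F b - y) := by
    ring
  rw [this]
  exact Valuation.map_add_lt _ ha' hb'

theorem red_pow {x : F} (hx : q.valuation F x ≤ 1) (n : ℕ) :
    red q (x ^ n) = red q x ^ n := by
  induction n with
  | zero => simp
  | succ n ih =>
    rw [pow_succ, pow_succ, red_mul q _ hx, ih]
    rw [map_pow]
    exact pow_le_one' hx n

theorem red_surjective : Function.Surjective (red q) := by
  intro u
  obtain ⟨a, rfl⟩ := Ideal.Quotient.mk_surjective u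
  exact ⟨_, red_algebraMap q a⟩

theorem red_ne_zero {x : F} (hx : q.valuation F x = 1) : red q x ≠ 0 := by
  rw [Ne, red_eq_zero_iff q hx.le, hx]
  exact lt_irrefl _

theorem card_quot : Nat.card (𝓞 F ⧸ q.asIdeal) = Ideal.absNorm q.asIdeal := by
  rw [Ideal.absNorm_apply, Submodule.cardQuot_apply]

end Red

section Sym

variable {F : Type*} [Field F] [NumberField F] (p : ℕ) [hp : Fact p.Prime] (ζ : F)

/-- the exponent `(N q - 1) / p`. -/
noncomputable def symExp (q : HeightOneSpectrum (𝓞 F)) : ℕ := (Ideal.absNorm q.asIdeal - 1) / p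

/-- `(x / q) = ζ ^ k`. -/
def IsSym (q : HeightOneSpectrum (𝓞 F)) (x : F) (k : ZMod p) : Prop :=
  q.valuation F (x ^ symExp p q - ζ ^ k.val) < 1

open Classical in
/-- the `p`-th power residue symbol, written additively: `(x / q) = ζ ^ sym p ζ q x`. -/
noncomputable def sym (q : HeightOneSpectrum (𝓞 F)) (x : F) : ZMod p :=
  if h : q.valuation F (p : F) = 1 ∧ q.valuation F x = 1 ∧ ∃ k, IsSym p ζ q x k then
    h.2.2.choose else 0

variable {p ζ} (hζ : IsPrimitiveRoot ζ p) {q : HeightOneSpectrum (𝓞 F)}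

theorem pow_val_add {M : Type*} [Monoid M] {g : M} (hg : g ^ p = 1) (a b : ZMod p) :
    g ^ (a + b).val = g ^ a.val * g ^ b.val := by
  rw [ZMod.val_add, ← pow_add, ← pow_eq_pow_mod _ hg]

theorem pow_val_mul {M : Type*} [Monoid M] {g : M} (hg : g ^ p = 1) (a b : ZMod p) :
    g ^ (a * b).val = (g ^ a.val) ^ b.val := by
  rw [ZMod.val_mul, ← pow_mul, ← pow_eq_pow_mod _ hg]

theorem pow_val_natCast {M : Type*} [Monoid M] {g : M} (hg : g ^ p = 1) (n : ℕ) :
    g ^ (n : ZMod p).val = g ^ n := by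
  rw [ZMod.val_natCast, ← pow_eq_pow_mod _ hg]

include hζ in
theorem val_zeta (q : HeightOneSpectrum (𝓞 F)) : q.valuation F ζ = 1 := by
  have h : (q.valuation F ζ) ^ p = 1 := by rw [← map_pow, hζ.pow_eq_one, map_one]
  exact (pow_eq_one_iff.1 h).resolve_right hp.out.ne_zero

theorem val_natCast_le_one (q : HeightOneSpectrum (𝓞 F)) (n : ℕ) : q.valuation F (n : F) ≤ 1 := by
  have := q.valuation_le_one (K := F) (n : 𝓞 F)
  simpa using this

theorem red_natCast (q : HeightOneSpectrum (𝓞 F)) (n : ℕ) : red q (n : F) = n := by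
  have := red_algebraMap q (n : 𝓞 F)
  simpa using this

include hζ in
theorem red_zeta_prim (hq : q.valuation F (p : F) = 1) : IsPrimitiveRoot (red q ζ) p := by
  have hv := val_zeta hζ q
  have h1 : red q ζ ^ p = 1 := by
    rw [← red_pow q hv.le, hζ.pow_eq_one, red_one]
  have h2 : red q ζ ≠ 1 := by
    intro h
    have h3 : ∑ i ∈ Finset.range p, ζ ^ i = 0 := hζ.geom_sum_eq_zero hp.out.one_lt
    have h4 : ∀ n : ℕ, q.valuation F (∑ i ∈ Finset.range n, ζ ^ i) ≤ 1 ∧
        red q (∑ i ∈ Finset.range n, ζ ^ i) = n := by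
      intro n
      induction n with
      | zero => simp
      | succ n ih =>
        have h5 : q.valuation F (ζ ^ n) ≤ 1 := by rw [map_pow, hv, one_pow]
        rw [Finset.sum_range_succ]
        refine ⟨Valuation.map_add_le _ ih.1 h5, ?_⟩
        rw [red_add q ih.1 h5, ih.2, red_pow q hv.le, h, one_pow, Nat.cast_succ]
    have h6 := (h4 p).2
    rw [h3, red_zero, ← red_natCast] at h6
    exact red_ne_zero q hq h6.symm
  have h3 : orderOf (red q ζ) = p := orderOf_eq_prime h1 h2
  rw [← h3]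
  exact IsPrimitiveRoot.orderOf _

theorem red_pow_card_sub_one {x : F} (hx : q.valuation F x = 1) :
    red q x ^ (Ideal.absNorm q.asIdeal - 1) = 1 := by
  letI := Ideal.Quotient.field q.asIdeal
  letI := Fintype.ofFinite (𝓞 F ⧸ q.asIdeal)
  rw [← card_quot, Nat.card_eq_fintype_card]
  exact FiniteField.pow_card_sub_one_eq_one _ (red_ne_zero q hx)

include hζ in
theorem dvd_absNorm_sub_one (hq : q.valuation F (p : F) = 1) :
    p ∣ Ideal.absNorm q.asIdeal - 1 :=
  (red_zeta_prim hζ hq).dvd_of_pow_eq_one _ (red_pow_card_sub_one (val_zeta hζ q))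

include hζ in
theorem p_mul_symExp (hq : q.valuation F (p : F) = 1) :
    p * symExp p q = Ideal.absNorm q.asIdeal - 1 :=
  Nat.mul_div_cancel' (dvd_absNorm_sub_one hζ hq)

include hζ in
theorem isSym_iff_red {x : F} (hx : q.valuation F x = 1) (k : ZMod p) :
    IsSym p ζ q x k ↔ red q x ^ symExp p q = red q ζ ^ k.val := by
  have hv := val_zeta hζ q
  rw [IsSym, ← red_pow q hx.le, ← red_pow q hv.le, red_eq_red_iff]
  · rw [map_pow, hx, one_pow]
  · rw [map_pow, hv, one_pow]

include hζ in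
theorem exists_isSym (hq : q.valuation F (p : F) = 1) {x : F} (hx : q.valuation F x = 1) :
    ∃ k, IsSym p ζ q x k := by
  have h1 : (red q x ^ symExp p q) ^ p = 1 := by
    rw [← pow_mul, mul_comm, p_mul_symExp hζ hq, red_pow_card_sub_one hx]
  haveI : NeZero p := ⟨hp.out.ne_zero⟩
  obtain ⟨i, hi, hi'⟩ := (red_zeta_prim hζ hq).eq_pow_of_pow_eq_one h1
  refine ⟨(i : ZMod p), ?_⟩
  rw [isSym_iff_red hζ hx, ZMod.val_natCast, Nat.mod_eq_of_lt hi, hi']

include hζ in
theorem isSym_unique (hq : q.valuation F (p : F) = 1) {x : F} (hx : q.valuation F x = 1)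
    {k l : ZMod p} (hk : IsSym p ζ q x k) (hl : IsSym p ζ q x l) : k = l := by
  rw [isSym_iff_red hζ hx] at hk hl
  haveI : NeZero p := ⟨hp.out.ne_zero⟩
  have := (red_zeta_prim hζ hq).pow_inj (ZMod.val_lt k) (ZMod.val_lt l) (hk.symm.trans hl)
  exact ZMod.val_injective p this

include hζ in
theorem isSym_sym (hq : q.valuation F (p : F) = 1) {x : F} (hx : q.valuation F x = 1) :
    IsSym p ζ q x (sym p ζ q x) := by
  have h : q.valuation F (p : F) = 1 ∧ q.valuation F x = 1 ∧ ∃ k, IsSym p ζ q x k :=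
    ⟨hq, hx, exists_isSym hζ hq hx⟩
  rw [sym, dif_pos h]
  exact h.2.2.choose_spec

include hζ in
theorem sym_eq_iff (hq : q.valuation F (p : F) = 1) {x : F} (hx : q.valuation F x = 1)
    (k : ZMod p) : sym p ζ q x = k ↔ IsSym p ζ q x k :=
  ⟨fun h => h ▸ isSym_sym hζ hq hx, fun h => isSym_unique hζ hq hx (isSym_sym hζ hq hx) h⟩

theorem sym_of_val_p_ne (hq : q.valuation F (p : F) ≠ 1) (x : F) : sym p ζ q x = 0 := by
  rw [sym, dif_neg]
  exact fun h => hq h.1

theorem sym_of_val_ne {x : F} (hx : q.valuation F x ≠ 1) : sym p ζ q x = 0 := by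
  rw [sym, dif_neg]
  exact fun h => hx h.2.1

include hζ in
theorem sym_eq_iff_red (hq : q.valuation F (p : F) = 1) {x : F} (hx : q.valuation F x = 1)
    (k : ZMod p) : sym p ζ q x = k ↔ red q x ^ symExp p q = red q ζ ^ k.val := by
  rw [sym_eq_iff hζ hq hx, isSym_iff_red hζ hx]

include hζ in
theorem red_pow_symExp (hq : q.valuation F (p : F) = 1) {x : F} (hx : q.valuation F x = 1) :
    red q x ^ symExp p q = red q ζ ^ (sym p ζ q x).val :=
  (sym_eq_iff_red hζ hq hx _).1 rfl

include hζ in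
theorem sym_mul (hq : q.valuation F (p : F) = 1) {x y : F} (hx : q.valuation F x = 1)
    (hy : q.valuation F y = 1) : sym p ζ q (x * y) = sym p ζ q x + sym p ζ q y := by
  have hxy : q.valuation F (x * y) = 1 := by rw [map_mul, hx, hy, one_mul]
  rw [sym_eq_iff_red hζ hq hxy, red_mul q hx.le hy.le, mul_pow, red_pow_symExp hζ hq hx,
    red_pow_symExp hζ hq hy, pow_val_add (red_zeta_prim hζ hq).pow_eq_one]

include hζ in
theorem sym_one (q : HeightOneSpectrum (𝓞 F)) : sym p ζ q 1 = 0 := by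
  by_cases hq : q.valuation F (p : F) = 1
  · rw [sym_eq_iff_red hζ hq (map_one _)]
    simp
  · exact sym_of_val_p_ne hq _

include hζ in
theorem sym_pow (q : HeightOneSpectrum (𝓞 F)) (x : F) (n : ℕ) :
    sym p ζ q (x ^ n) = n * sym p ζ q x := by
  by_cases hq : q.valuation F (p : F) = 1
  · by_cases hx : q.valuation F x = 1
    · induction n with
      | zero => simp [sym_one hζ]
      | succ n ih =>
        rw [pow_succ, sym_mul hζ hq (by rw [map_pow, hx, one_pow]) hx, ih]
        push_cast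
        ring
    · rcases Nat.eq_zero_or_pos n with rfl | hn
      · simp [sym_one hζ]
      · rw [sym_of_val_ne hx, sym_of_val_ne, mul_zero]
        rw [map_pow]
        intro h
        exact hx ((pow_eq_one_iff.1 h).resolve_right hn.ne')
  · rw [sym_of_val_p_ne hq, sym_of_val_p_ne hq, mul_zero]

include hζ in
theorem sym_pow_p (q : HeightOneSpectrum (𝓞 F)) (x : F) : sym p ζ q (x ^ p) = 0 := by
  rw [sym_pow hζ, ZMod.natCast_self, zero_mul]

include hζ in
theorem sym_inv (q : HeightOneSpectrum (𝓞 F)) (x : F) : sym p ζ q x⁻¹ = - sym p ζ q x := by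
  by_cases hq : q.valuation F (p : F) = 1
  · by_cases hx : q.valuation F x = 1
    · have hx' : q.valuation F x⁻¹ = 1 := by rw [map_inv₀, hx, inv_one]
      have hx0 : x ≠ 0 := by
        rintro rfl
        simp at hx
      have := sym_mul hζ hq hx hx'
      rw [mul_inv_cancel₀ hx0, sym_one hζ] at this
      exact (neg_eq_of_add_eq_zero_right this.symm).symm
    · rw [sym_of_val_ne hx, sym_of_val_ne, neg_zero]
      rw [map_inv₀]
      intro h
      exact hx (inv_eq_one.1 h)
  · rw [sym_of_val_p_ne hq, sym_of_val_p_ne hq, neg_zero]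

include hζ in
theorem sym_zeta (hq : q.valuation F (p : F) = 1) : sym p ζ q ζ = symExp p q := by
  rw [sym_eq_iff_red hζ hq (val_zeta hζ q), pow_val_natCast (red_zeta_prim hζ hq).pow_eq_one]

/-- in a finite field with `p * n = card - 1`, `u ^ n = 1` implies that `u` is a `p`-th power. -/
theorem exists_pow_eq_of_pow_eq_one {k : Type*} [Field k] [Finite k] {m n : ℕ}
    (h : m * n = Nat.card k - 1) {u : k} (hu : u ≠ 0) (h1 : u ^ n = 1) : ∃ w : k, w ^ m = u := by
  obtain ⟨g, hg⟩ := IsCyclic.exists_generator (α := kˣ)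
  have hord : orderOf g = m * n := by
    rw [orderOf_eq_card_of_forall_mem_zpowers hg, Nat.card_units, h]
  obtain ⟨j, hj⟩ := mem_powers_iff_mem_zpowers.2 (hg (Units.mk0 u hu))
  simp only at hj
  have hn : 0 < n := by
    rcases Nat.eq_zero_or_pos n with rfl | hn
    · exfalso
      have : 1 < Nat.card k := Finite.one_lt_card
      omega
    · exact hn
  have h2 : g ^ (j * n) = 1 := by
    rw [pow_mul, hj]
    ext
    simpa using h1
  have h3 : m * n ∣ j * n := hord ▸ orderOf_dvd_of_pow_eq_one h2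
  obtain ⟨i, rfl⟩ := Nat.dvd_of_mul_dvd_mul_right hn h3
  refine ⟨((g ^ i : kˣ) : k), ?_⟩
  rw [← Units.val_pow_eq_pow_val, ← pow_mul, mul_comm i m, hj]
  rfl

include hζ in
/-- **(S1)** the symbol is trivial iff `x` is a `p`-th power modulo `q` (in the shape `LP_q(1,x)`). -/
theorem sym_eq_zero_iff (hq : q.valuation F (p : F) = 1) {x : F} (hx : q.valuation F x = 1) :
    sym p ζ q x = 0 ↔ ∃ z : F, z ≠ 0 ∧ q.valuation F (x / z ^ p - 1) < 1 := by
  rw [sym_eq_iff_red hζ hq hx, ZMod.val_zero, pow_zero]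
  constructor
  · intro h
    letI := Ideal.Quotient.field q.asIdeal
    obtain ⟨w, hw⟩ := exists_pow_eq_of_pow_eq_one (k := 𝓞 F ⧸ q.asIdeal) (m := p)
      (by rw [p_mul_symExp hζ hq, card_quot]) (red_ne_zero q hx) h
    obtain ⟨b, rfl⟩ := Ideal.Quotient.mk_surjective w
    have hb : b ∉ q.asIdeal := by
      intro hb
      rw [Ideal.Quotient.eq_zero_iff_mem.2 hb, zero_pow hp.out.ne_zero] at hw
      exact red_ne_zero q hx hw.symm
    have hbv : q.valuation F (algebraMap (𝓞 F) F b) = 1 := (val_eq_one_iff_notMem q b).2 hb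
    have hb0 : algebraMap (𝓞 F) F b ≠ 0 := by
      intro h0
      rw [h0, map_zero] at hbv
      exact zero_ne_one hbv
    refine ⟨algebraMap (𝓞 F) F b, hb0, ?_⟩
    have h1 : x / algebraMap (𝓞 F) F b ^ p - 1
        = (x - algebraMap (𝓞 F) F b ^ p) / algebraMap (𝓞 F) F b ^ p := by
      field_simp
    rw [h1, map_div₀, map_pow, hbv, one_pow, div_one, ← red_eq_red_iff q hx.le
      (by rw [map_pow, hbv, one_pow]), red_pow q hbv.le, red_algebraMap, hw]
  · rintro ⟨z, hz0, hz⟩
    have h1 : q.valuation F (x / z ^ p) = 1 := by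
      have := Valuation.map_one_add_of_lt _ hz
      rwa [add_sub_cancel] at this
    have hzv : q.valuation F z = 1 := by
      rw [map_div₀, hx, map_pow, one_div, inv_eq_one] at h1
      exact (pow_eq_one_iff.1 h1).resolve_right hp.out.ne_zero
    have h2 : x - z ^ p = (x / z ^ p - 1) * z ^ p := by
      field_simp
    have h3 : red q x = red q z ^ p := by
      rw [← red_pow q hzv.le, red_eq_red_iff q hx.le (by rw [map_pow, hzv, one_pow]), h2, map_mul,
        map_pow, hzv, one_pow, mul_one]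
      exact hz
    rw [h3, ← pow_mul, p_mul_symExp hζ hq, red_pow_card_sub_one hzv]

end Sym

section Tower

variable {F F' : Type*} [Field F] [NumberField F] [Field F'] [NumberField F'] [Algebra F F']
  {p : ℕ} [hp : Fact p.Prime] {ζ : F} (hζ : IsPrimitiveRoot ζ p)
  (q : HeightOneSpectrum (𝓞 F)) (Q : HeightOneSpectrum (𝓞 F')) [Q.asIdeal.LiesOver q.asIdeal]

theorem val_algebraMap_lt_one_iff (y : F) :
    Q.valuation F' (algebraMap F F' y) < 1 ↔ q.valuation F y < 1 := by
  rw [← HeightOneSpectrum.valuation_liesOver F' q Q y]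
  exact pow_lt_one_iff (Ideal.IsDedekindDomain.ramificationIdx'_ne_zero_of_liesOver Q.asIdeal q.ne_bot)

theorem val_algebraMap_eq_one_iff (y : F) :
    Q.valuation F' (algebraMap F F' y) = 1 ↔ q.valuation F y = 1 := by
  rw [← HeightOneSpectrum.valuation_liesOver F' q Q y]
  constructor
  · intro h
    exact (pow_eq_one_iff.1 h).resolve_right
      (Ideal.IsDedekindDomain.ramificationIdx'_ne_zero_of_liesOver Q.asIdeal q.ne_bot)
  · intro h
    rw [h, one_pow]

theorem absNorm_eq_pow_of_liesOver :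
    Ideal.absNorm Q.asIdeal = Ideal.absNorm q.asIdeal ^ (q.asIdeal.inertiaDeg' Q.asIdeal) :=
  Ideal.absNorm_eq_pow_inertiaDeg'_of_liesOver Q.asIdeal q.asIdeal q.isPrime q.ne_bot

include hζ in
theorem symExp_of_liesOver (hq : q.valuation F (p : F) = 1) :
    symExp p Q = symExp p q *
      ∑ i ∈ Finset.range (q.asIdeal.inertiaDeg' Q.asIdeal), Ideal.absNorm q.asIdeal ^ i := by
  have h1 := p_mul_symExp hζ hq
  have hN : 1 ≤ Ideal.absNorm q.asIdeal := by
    rw [← card_quot]
    exact Finite.one_lt_card.le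
  have h2 := geom_sum_mul_add (Ideal.absNorm q.asIdeal - 1) (q.asIdeal.inertiaDeg' Q.asIdeal)
  rw [Nat.sub_add_cancel hN] at h2
  rw [symExp, absNorm_eq_pow_of_liesOver q Q, ← h2, Nat.add_sub_cancel, ← h1]
  rw [mul_comm, mul_assoc, Nat.mul_div_cancel_left _ hp.out.pos]

include hζ in
theorem natCast_absNorm_eq_one (hq : q.valuation F (p : F) = 1) :
    ((Ideal.absNorm q.asIdeal : ℕ) : ZMod p) = 1 := by
  have h1 := p_mul_symExp hζ hq
  have hN : 1 ≤ Ideal.absNorm q.asIdeal := by
    rw [← card_quot]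
    exact Finite.one_lt_card.le
  have h2 : Ideal.absNorm q.asIdeal = p * symExp p q + 1 := by omega
  rw [h2]
  simp

include hζ in
/-- **(S2)**, prime level: `(x / Q)_{F'} = (x / q)_F ^ f(Q | q)`. -/
theorem sym_algebraMap (x : F) :
    sym p (algebraMap F F' ζ) Q (algebraMap F F' x)
      = (q.asIdeal.inertiaDeg' Q.asIdeal : ZMod p) * sym p ζ q x := by
  have hζ' : IsPrimitiveRoot (algebraMap F F' ζ) p :=
    hζ.map_of_injective (algebraMap F F').injective
  have hpp : Q.valuation F' (p : F') = 1 ↔ q.valuation F (p : F) = 1 := by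
    rw [← val_algebraMap_eq_one_iff q Q, map_natCast (algebraMap F F')]
  by_cases hq : q.valuation F (p : F) = 1
  · by_cases hx : q.valuation F x = 1
    · have hQ := hpp.2 hq
      have hx' := (val_algebraMap_eq_one_iff q Q x).2 hx
      have hz1 := (red_zeta_prim hζ hq).pow_eq_one
      rw [sym_eq_iff hζ' hQ hx', IsSym, ← map_pow, ← map_pow, ← map_sub,
        val_algebraMap_lt_one_iff q Q, ← red_eq_red_iff q (by rw [map_pow, hx, one_pow])
          (by rw [map_pow, val_zeta hζ q, one_pow]), red_pow q hx.le,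
        red_pow q (val_zeta hζ q).le, symExp_of_liesOver hζ q Q hq, pow_mul,
        red_pow_symExp hζ hq hx, mul_comm, pow_val_mul hz1]
      have h3 : (red q ζ ^ (sym p ζ q x).val) ^ p = 1 := by
        rw [← pow_mul, mul_comm, pow_mul, hz1, one_pow]
      rw [← pow_val_natCast h3 (∑ i ∈ Finset.range (q.asIdeal.inertiaDeg' Q.asIdeal),
        Ideal.absNorm q.asIdeal ^ i)]
      congr 2
      push_cast
      rw [natCast_absNorm_eq_one hζ q hq]
      simp
    · rw [sym_of_val_ne hx, sym_of_val_ne, mul_zero]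
      rwa [Ne, val_algebraMap_eq_one_iff q Q]
  · rw [sym_of_val_p_ne hq, sym_of_val_p_ne, mul_zero]
    rwa [Ne, hpp]

end Tower

end Fermat.Agent.S14Lib
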