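/-
S14 library: central definitions (divisors, additive valuations, generalised symbol `gs`,
local condition `LPv`, hypothesis `HAlpha`, symbolic norm groups `NG`, the map `phi`,
norm of divisors).  Built on helper9's `sym` (S14/SymbolLocal.lean).
-/
import Fermat.Agent.S14.SymbolLocal

set_option autoImplicit false

open IsDedekindDomain NumberField

namespace Fermat.Agent.S14Lib

/-- The finite places of a number field. -/
abbrev Pl (F : Type*) [Field F] [NumberField F] := HeightOneSpectrum (𝓞 F)

/-- Divisors (= fractional ideals, written additively). -/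
abbrev Divs (F : Type*) [Field F] [NumberField F] := Pl F →₀ ℤ

section base

variable {F : Type*} [Field F] [NumberField F]

/-- The additive valuation at `v`; junk value `ord v 0 = 0`. -/
noncomputable def ord (v : Pl F) (x : F) : ℤ := - WithZero.log (v.valuation F x)

theorem val_eq_exp_neg_ord (v : Pl F) {x : F} (hx : x ≠ 0) :
    v.valuation F x = WithZero.exp (- ord v x) := by
  have h0 : v.valuation F x ≠ 0 := (Valuation.ne_zero_iff _).2 hx
  simp [ord, WithZero.exp_log h0]

theorem ord_eq_of_val_eq (v : Pl F) {x : F} {n : ℤ} (h : v.valuation F x = WithZero.exp (-n)) :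
    ord v x = n := by
  simp [ord, h]

theorem ord_eq_zero_iff (v : Pl F) {x : F} (hx : x ≠ 0) : ord v x = 0 ↔ v.valuation F x = 1 := by
  rw [val_eq_exp_neg_ord v hx]
  simp

theorem ord_support_finite (x : F) : {v : Pl F | ord v x ≠ 0}.Finite := by
  refine ((HeightOneSpectrum.Support.finite (𝓞 F) x).union
    (HeightOneSpectrum.Support.finite (𝓞 F) x⁻¹)).subset ?_
  intro v hv
  simp only [Set.mem_ofPred_eq, ord, ne_eq, neg_eq_zero] at hv
  by_cases hx : x = 0
  · simp [hx] at hv
  have h0 : v.valuation F x ≠ 0 := (Valuation.ne_zero_iff _).2 hx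
  rcases lt_trichotomy (v.valuation F x) 1 with h | h | h
  · right
    show 1 < v.valuation F x⁻¹
    rw [map_inv₀]
    exact (one_lt_inv₀ (zero_lt_iff.2 h0)).2 h
  · simp [h] at hv
  · left; exact h

/-- The divisor of `x` (`0` for `x = 0`). -/
noncomputable def dv (x : F) : Divs F :=
  Finsupp.ofSupportFinite (fun v => ord v x) (ord_support_finite x)

@[simp] theorem dv_apply (x : F) (v : Pl F) : dv x v = ord v x := rfl

theorem ord_one (v : Pl F) : ord v (1 : F) = 0 := by simp [ord]

theorem ord_mul (v : Pl F) {x y : F} (hx : x ≠ 0) (hy : y ≠ 0) :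
    ord v (x * y) = ord v x + ord v y := by
  have h1 : v.valuation F x ≠ 0 := (Valuation.ne_zero_iff _).2 hx
  have h2 : v.valuation F y ≠ 0 := (Valuation.ne_zero_iff _).2 hy
  simp only [ord, map_mul, WithZero.log_mul h1 h2]
  ring

theorem ord_inv (v : Pl F) (x : F) : ord v x⁻¹ = - ord v x := by
  simp [ord, map_inv₀, WithZero.log_inv]

theorem dv_one : dv (1 : F) = 0 := by
  ext v; simp [ord_one]

theorem dv_mul {x y : F} (hx : x ≠ 0) (hy : y ≠ 0) : dv (x * y) = dv x + dv y := by
  ext v; simp [ord_mul v hx hy]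

theorem dv_inv (x : F) : dv x⁻¹ = - dv x := by
  ext v; simp [ord_inv]

variable (F) in
/-- The principal divisors. -/
def Prin : AddSubgroup (Divs F) where
  carrier := {D | ∃ x : F, x ≠ 0 ∧ dv x = D}
  zero_mem' := ⟨1, one_ne_zero, dv_one⟩
  add_mem' := by
    rintro _ _ ⟨x, hx, rfl⟩ ⟨y, hy, rfl⟩
    exact ⟨x * y, mul_ne_zero hx hy, dv_mul hx hy⟩
  neg_mem' := by
    rintro _ ⟨x, hx, rfl⟩
    exact ⟨x⁻¹, inv_ne_zero hx, dv_inv x⟩

/-- A chosen uniformizer at `v`. -/
noncomputable def unif (v : Pl F) : F := (v.valuation_exists_uniformizer F).choose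

variable (p : ℕ) [Fact p.Prime] (ζ : F)

/-- The generalised symbol: `sym` of the unit part `x / unif v ^ ord v x` (`0` above `p`).
It is a homomorphism `Fˣ → ZMod p`; it is independent of the uniformizer if `p ∣ ord v x`. -/
noncomputable def gs (v : Pl F) (x : F) : ZMod p :=
  sym p ζ v (x * unif v ^ (- ord v x))

omit [Fact p.Prime] in
/-- `x` is a `p`-th power to high precision at `v` ("`v` splits in `F(x^(1/p))`"): the hypothesis
of `splitting_ab`.  Off `p` this says `v (x / y ^ p - 1) < 1`. -/
def LPv (v : Pl F) (x : F) : Prop :=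
  ∃ y : F, y ≠ 0 ∧ v.valuation F (x / y ^ p - 1) < v.valuation F (1 - ζ) ^ p

omit [Fact p.Prime] in
/-- The hypothesis (H α): singular and a local `p`-th power above `p`. -/
structure HAlpha (α : F) : Prop where
  ne : α ≠ 0
  dvd : ∀ v : Pl F, (p : ℤ) ∣ ord v α
  lp : ∀ v : Pl F, v.valuation F (p : F) ≠ 1 → LPv p ζ v α

omit [Fact p.Prime] in
/-- The symbolic norm group of `F(x^(1/p))/F`, the places of `B` being treated as non-split:
generated by `p • Divs F` and the places `q ∉ B` with `LPv q x`. -/
def NG (B : Set (Pl F)) (x : F) : AddSubgroup (Divs F) where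
  carrier := {D | ∀ q, ¬ (p : ℤ) ∣ D q → q ∉ B ∧ LPv p ζ q x}
  zero_mem' := fun q h => absurd (by simp) h
  add_mem' := by
    intro D D' hD hD' q h
    by_cases h1 : (p : ℤ) ∣ D q
    · by_cases h2 : (p : ℤ) ∣ D' q
      · exact absurd (by simpa using dvd_add h1 h2) h
      · exact hD' q h2
    · exact hD q h1
  neg_mem' := by
    intro D hD q h
    exact hD q (fun h' => h (by simpa using h'))

/-- The "Artin map" of `F(x^(1/p))/F` on divisors: `D ↦ ∑ D q • gs q x`. -/
noncomputable def phi (x : F) : Divs F →+ ZMod p :=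
  Finsupp.liftAddHom (fun q => (zmultiplesHom (ZMod p)) (gs p ζ q x))

end base

section ext

variable (F : Type*) [Field F] [NumberField F] {Y : Type*} [Field Y] [NumberField Y] [Algebra F Y]

/-- The place of `F` below a place of `Y`. -/
noncomputable def below (w : Pl Y) : Pl F := w.under (𝓞 F)

/-- Residue degree of `w` over `F`. -/
noncomputable def fDeg (w : Pl Y) : ℕ := w.asIdeal.inertiaDeg (𝓞 F)

/-- The norm of divisors: `w ↦ fDeg w • below w`. -/
noncomputable def normDiv : Divs Y →+ Divs F :=
  Finsupp.liftAddHom (fun w => (zmultiplesHom (Divs F)) (Finsupp.single (below F w) (fDeg F w : ℤ)))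

end ext

end Fermat.Agent.S14Lib
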