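import Mathlib

/-!
# S14, leaf L1-S5 : splitting laws in a Kummer extension `Y = F(θ)`, `θ ^ p = x`
-/

set_option autoImplicit false

namespace Fermat.Agent.S14Lib

open IsDedekindDomain NumberField Ideal WithZero
open scoped Pointwise

section ValSmul

variable {Y : Type*} [Field Y] [NumberField Y]
  {G : Type*} [Group G] [MulSemiringAction G Y]

theorem intValuation_smul_le (w : HeightOneSpectrum (𝓞 Y)) (σ : G)
    (hσ : σ • w.asIdeal = w.asIdeal) (b : 𝓞 Y) :
    w.intValuation (σ • b) ≤ w.intValuation b := by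
  rcases eq_or_ne b 0 with rfl | hb
  · simp
  rw [w.intValuation_eq_exp_neg_multiplicity hb, w.intValuation_le_pow_iff_mem]
  have h1 : b ∈ w.asIdeal ^ (multiplicity w.asIdeal (Ideal.span {b})) := by
    rw [← w.intValuation_le_pow_iff_mem, w.intValuation_eq_exp_neg_multiplicity hb]
  have h2 : σ • b ∈ σ • (w.asIdeal ^ (multiplicity w.asIdeal (Ideal.span {b}))) :=
    Ideal.smul_mem_pointwise_smul _ _ _ h1
  rwa [Ideal.pointwise_smul_def, Ideal.map_pow, ← Ideal.pointwise_smul_def, hσ] at h2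

theorem intValuation_smul_eq (w : HeightOneSpectrum (𝓞 Y)) (σ : G)
    (hσ : σ • w.asIdeal = w.asIdeal) (b : 𝓞 Y) :
    w.intValuation (σ • b) = w.intValuation b := by
  refine le_antisymm (intValuation_smul_le w σ hσ b) ?_
  have hσ' : σ⁻¹ • w.asIdeal = w.asIdeal := by
    rw [inv_smul_eq_iff, hσ]
  simpa using intValuation_smul_le w σ⁻¹ hσ' (σ • b)

theorem valuation_smul_eq (w : HeightOneSpectrum (𝓞 Y)) (σ : G)
    (hσ : σ • w.asIdeal = w.asIdeal) (a : Y) :
    w.valuation Y (σ • a) = w.valuation Y a := by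
  obtain ⟨b, c, hc, rfl⟩ := IsFractionRing.div_surjective (A := 𝓞 Y) a
  rw [smul_div₀', ← algebraMap.coe_smul', ← algebraMap.coe_smul', map_div₀, map_div₀,
    HeightOneSpectrum.valuation_of_algebraMap, HeightOneSpectrum.valuation_of_algebraMap,
    HeightOneSpectrum.valuation_of_algebraMap, HeightOneSpectrum.valuation_of_algebraMap,
    intValuation_smul_eq w σ hσ, intValuation_smul_eq w σ hσ]

end ValSmul

section Count

variable {F Y : Type*} [Field F] [NumberField F] [Field Y] [NumberField Y] [Algebra F Y]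
  [IsGalois F Y] {p : ℕ}

theorem count_eq (hdeg : Module.finrank F Y = p) (v : Ideal (𝓞 F)) [v.IsPrime] :
    (primesOver v (𝓞 Y)).ncard * (ramificationIdxIn v (𝓞 Y) * inertiaDegIn v (𝓞 Y)) = p := by
  rw [ncard_primesOver_mul_ramificationIdxIn_mul_inertiaDegIn v (𝓞 Y) Gal(Y/F),
    IsGaloisGroup.card_eq_finrank Gal(Y/F) F Y, hdeg]

/-- If some Galois element moves a prime above `v`, then `v` splits completely. -/
theorem split_of_smul_ne (hp : p.Prime) (hdeg : Module.finrank F Y = p)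
    (v : Ideal (𝓞 F)) [v.IsMaximal]
    (Q₀ : Ideal (𝓞 Y)) [Q₀.IsPrime] [Q₀.LiesOver v] (σ : Gal(Y/F)) (hσ : σ • Q₀ ≠ Q₀) :
    (primesOver v (𝓞 Y)).ncard = p ∧
      ∀ Q : Ideal (𝓞 Y), Q.IsPrime → Q.LiesOver v →
        Q.ramificationIdx (𝓞 F) = 1 ∧ Q.inertiaDeg (𝓞 F) = 1 ∧ relNorm (𝓞 F) Q = v := by
  have hc := count_eq hdeg v
  have hfin : (primesOver v (𝓞 Y)).Finite := by
    by_contra h
    rw [Set.not_finite] at h
    rw [h.ncard, zero_mul] at hc
    exact hp.ne_zero hc.symm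
  have h2 : 1 < (primesOver v (𝓞 Y)).ncard := by
    rw [Set.one_lt_ncard hfin]
    exact ⟨σ • Q₀, ⟨inferInstance, inferInstance⟩, Q₀, ⟨inferInstance, inferInstance⟩, hσ⟩
  have hn : (primesOver v (𝓞 Y)).ncard = p := by
    rcases (Nat.dvd_prime hp).1 ⟨_, hc.symm⟩ with h | h
    · omega
    · exact h
  have hef : ramificationIdxIn v (𝓞 Y) * inertiaDegIn v (𝓞 Y) = 1 := by
    rw [hn] at hc
    exact Nat.eq_of_mul_eq_mul_left hp.pos (by rw [hc, mul_one])
  refine ⟨hn, fun Q hQ1 hQ2 => ?_⟩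
  have he : Q.ramificationIdx (𝓞 F) = 1 := by
    rw [← ramificationIdxIn_eq_ramificationIdx v Q Gal(Y/F)]
    exact Nat.eq_one_of_mul_eq_one_right hef
  have hf : Q.inertiaDeg (𝓞 F) = 1 := by
    rw [← inertiaDegIn_eq_inertiaDeg v Q Gal(Y/F)]
    exact Nat.eq_one_of_mul_eq_one_left hef
  refine ⟨he, hf, ?_⟩
  have : Q.IsMaximal := IsMaximal.of_liesOver_isMaximal Q v
  rw [relNorm_eq_pow_of_isMaximal Q v, hf, pow_one]

/-- If a prime above `v` is ramified, then `v` is totally ramified. -/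
theorem totally_ramified_of_ne_one (hp : p.Prime) (hdeg : Module.finrank F Y = p)
    (v : Ideal (𝓞 F)) [v.IsMaximal]
    (Q : Ideal (𝓞 Y)) [Q.IsPrime] [Q.LiesOver v] (he : Q.ramificationIdx (𝓞 F) ≠ 1) :
    Q.ramificationIdx (𝓞 F) = p ∧ Q.inertiaDeg (𝓞 F) = 1 ∧
      ∀ Q' : Ideal (𝓞 Y), Q'.IsPrime → Q'.LiesOver v → Q' = Q := by
  have hc := count_eq hdeg v
  rw [ramificationIdxIn_eq_ramificationIdx v Q Gal(Y/F),
    inertiaDegIn_eq_inertiaDeg v Q Gal(Y/F)] at hc
  have hep : Q.ramificationIdx (𝓞 F) = p := by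
    have hd : Q.ramificationIdx (𝓞 F) ∣ p :=
      ⟨(primesOver v (𝓞 Y)).ncard * Q.inertiaDeg (𝓞 F), by rw [← hc]; ring⟩
    exact ((Nat.dvd_prime hp).1 hd).resolve_left he
  rw [hep] at hc
  have hgf : (primesOver v (𝓞 Y)).ncard * Q.inertiaDeg (𝓞 F) = 1 := by
    refine Nat.eq_of_mul_eq_mul_left hp.pos ?_
    rw [mul_one]
    calc p * ((primesOver v (𝓞 Y)).ncard * Q.inertiaDeg (𝓞 F))
        = (primesOver v (𝓞 Y)).ncard * (p * Q.inertiaDeg (𝓞 F)) := by ring
      _ = p := hc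
  refine ⟨hep, Nat.eq_one_of_mul_eq_one_left hgf, fun Q' h1 h2 => ?_⟩
  obtain ⟨a, ha⟩ := Set.ncard_eq_one.1 (Nat.eq_one_of_mul_eq_one_right hgf)
  have hQ : Q ∈ primesOver v (𝓞 Y) := ⟨inferInstance, inferInstance⟩
  have hQ' : Q' ∈ primesOver v (𝓞 Y) := ⟨h1, h2⟩
  rw [ha, Set.mem_singleton_iff] at hQ hQ'
  rw [hQ, hQ']

end Count

section AB

variable {F Y : Type*} [Field F] [NumberField F] [Field Y] [NumberField Y] [Algebra F Y]
  {p : ℕ}

theorem val_root_eq_one {K : Type*} [Field K] (W : Valuation K ℤᵐ⁰) {ζ : K} {n : ℕ} (hn : n ≠ 0)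
    (hζ : ζ ^ n = 1) : W ζ = 1 := by
  have : W ζ ^ n = 1 := by rw [← map_pow, hζ, map_one]
  exact (pow_eq_one_iff.1 this).resolve_right hn

theorem smul_ne_of_close (hp : p.Prime) {ζ : F} (hζ : IsPrimitiveRoot ζ p) (t : Y) (u : F)
    (ht : t ^ p = algebraMap F Y u) (σ : Gal(Y/F)) (hσ : σ t = algebraMap F Y ζ * t)
    (v : HeightOneSpectrum (𝓞 F)) (hu : v.valuation F (u - 1) < v.valuation F (1 - ζ) ^ p)
    (w : HeightOneSpectrum (𝓞 Y)) [w.asIdeal.LiesOver v.asIdeal] :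
    σ • w.asIdeal ≠ w.asIdeal := by
  intro hfix
  set W := w.valuation Y with hWdef
  set e := v.asIdeal.ramificationIdx' w.asIdeal with hedef
  have he : e ≠ 0 := IsDedekindDomain.ramificationIdx'_ne_zero_of_liesOver w.asIdeal v.ne_bot
  have hW : ∀ a : F, W (algebraMap F Y a) = v.valuation F a ^ e :=
    fun a => (HeightOneSpectrum.valuation_liesOver Y v w a).symm
  set z : Y := algebraMap F Y ζ with hz
  have hzp : IsPrimitiveRoot z p := hζ.map_of_injective (algebraMap F Y).injective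
  have hWz : W z = 1 := val_root_eq_one W hp.ne_zero hzp.pow_eq_one
  have hprod : ∏ j ∈ Finset.range p, (t - z ^ j) = algebraMap F Y (u - 1) := by
    have h := congrArg (Polynomial.eval t)
      (X_pow_sub_C_eq_prod hzp hp.pos (one_pow p : (1 : Y) ^ p = 1))
    simp only [Polynomial.eval_sub, Polynomial.eval_pow, Polynomial.eval_X, Polynomial.eval_C,
      Polynomial.eval_prod, mul_one] at h
    rw [← h, ht, map_sub, map_one]
  have hlt : W (algebraMap F Y (u - 1)) < W (algebraMap F Y (1 - ζ)) ^ p := by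
    rw [hW, hW, ← pow_mul, mul_comm e p, pow_mul]
    exact pow_lt_pow_left₀ hu zero_le he
  obtain ⟨j, -, hj⟩ : ∃ j ∈ Finset.range p, W (t - z ^ j) < W (algebraMap F Y (1 - ζ)) := by
    by_contra hcon
    push Not at hcon
    have := Finset.pow_card_le_prod (Finset.range p) (fun j => W (t - z ^ j)) _ hcon
    rw [Finset.card_range, ← map_prod, hprod] at this
    exact absurd hlt (not_lt.2 this)
  have h1 : W (σ • (t - z ^ j)) = W (t - z ^ j) := valuation_smul_eq w σ hfix _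
  have h2 : σ • (t - z ^ j) = z * t - z ^ j := by
    rw [AlgEquiv.smul_def, map_sub, hσ, map_pow, hz, AlgEquiv.commutes]
  have h3 : z ^ j * algebraMap F Y (1 - ζ) = z * (t - z ^ j) - (z * t - z ^ j) := by
    rw [map_sub, map_one, ← hz]; ring
  have h4 : W (z ^ j * algebraMap F Y (1 - ζ)) = W (algebraMap F Y (1 - ζ)) := by
    rw [map_mul, map_pow, hWz, one_pow, one_mul]
  have h5 : W (z * (t - z ^ j) - (z * t - z ^ j)) < W (algebraMap F Y (1 - ζ)) := by
    refine lt_of_le_of_lt (Valuation.map_sub _ _ _) (max_lt ?_ ?_)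
    · rwa [map_mul, hWz, one_mul]
    · rwa [← h2, h1]
  rw [← h3, h4] at h5
  exact lt_irrefl _ h5

end AB

section Setup

variable {F Y : Type*} [Field F] [Field Y] [Algebra F Y] {p : ℕ}

open Polynomial in
/-- Kummer set-up: `Y = F(θ)`, `θ ^ p = x`, `x` not a `p`-th power, `ζ ∈ F`. -/
theorem kummer_setup (hp : p.Prime) {ζ : F} (hζ : IsPrimitiveRoot ζ p) {x : F} {θ : Y}
    (hθ : θ ^ p = algebraMap F Y x) (htop : IntermediateField.adjoin F {θ} = ⊤)
    (hx : ∀ z : F, z ^ p ≠ x) :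
    IsGalois F Y ∧ Module.finrank F Y = p ∧
      ∃ σ : Gal(Y/F), σ θ = algebraMap F Y ζ * θ ∧ ∀ τ : Gal(Y/F), ∃ i : ℕ, τ = σ ^ i := by
  have H : Irreducible (X ^ p - C x) := X_pow_sub_C_irreducible_of_prime hp hx
  have hint : IsIntegral F θ := by
    refine ⟨X ^ p - C x, monic_X_pow_sub_C _ hp.ne_zero, ?_⟩
    simp [hθ]
  have hmin : minpoly F θ = X ^ p - C x := by
    refine (minpoly.eq_of_irreducible_of_monic H ?_ (monic_X_pow_sub_C _ hp.ne_zero)).symm
    simp [hθ]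
  have hfr : Module.finrank F Y = p := by
    rw [← IntermediateField.finrank_top', ← htop, IntermediateField.adjoin.finrank hint, hmin,
      natDegree_X_pow_sub_C]
  have hfd : FiniteDimensional F Y := Module.finite_of_finrank_pos (by rw [hfr]; exact hp.pos)
  have hK : (primitiveRoots p F).Nonempty := ⟨ζ, (mem_primitiveRoots hp.pos).2 hζ⟩
  have hsp : IsSplittingField F Y (X ^ p - C x) := by
    have := isSplittingField_X_pow_sub_C_of_root_adjoin_eq_top (K := F) (L := Y)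
      (by rw [hfr]; exact hK) (a := x) (α := θ) (by rw [hfr]; exact hθ) htop
    rwa [hfr] at this
  have : NeZero p := ⟨hp.ne_zero⟩
  refine ⟨isGalois_of_isSplittingField_X_pow_sub_C hK H Y, hfr,
    (autEquivZmod H Y hζ).symm (Multiplicative.ofAdd ((1 : ℕ) : ZMod p)), ?_, fun τ => ?_⟩
  · rw [autEquivZmod_symm_apply_natCast H Y hθ hζ 1, pow_one, Algebra.smul_def]
  · refine ⟨(Multiplicative.toAdd (autEquivZmod H Y hζ τ)).val, ?_⟩
    rw [← map_pow, ← ofAdd_nsmul, MulEquiv.eq_symm_apply]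
    simp

end Setup

section Approx

variable {F Y : Type*} [Field F] [NumberField F] [Field Y] [NumberField Y] [Algebra F Y]

theorem exists_sub_mem_of_inertiaDeg_eq_one (v : Ideal (𝓞 F)) [v.IsMaximal] (Q : Ideal (𝓞 Y))
    [Q.IsMaximal] [Q.LiesOver v] (hf : Q.inertiaDeg (𝓞 F) = 1) (b : 𝓞 Y) :
    ∃ a : 𝓞 F, b - algebraMap (𝓞 F) (𝓞 Y) a ∈ Q := by
  rw [inertiaDeg_eq_of_isMaximal v Q] at hf
  let _ : Field (𝓞 F ⧸ v) := Quotient.field v
  let _ : Field (𝓞 Y ⧸ Q) := Quotient.field Q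
  have h := Subalgebra.bot_eq_top_of_finrank_eq_one hf
  have hb : Ideal.Quotient.mk Q b ∈ (⊥ : Subalgebra (𝓞 F ⧸ v) (𝓞 Y ⧸ Q)) := by
    rw [h]; exact Algebra.mem_top
  obtain ⟨a', ha'⟩ := Algebra.mem_bot.1 hb
  obtain ⟨a, rfl⟩ := Ideal.Quotient.mk_surjective a'
  refine ⟨a, ?_⟩
  rw [← Ideal.Quotient.eq, ← ha']
  rfl

theorem exists_val_sub_lt_one (v : HeightOneSpectrum (𝓞 F)) (w : HeightOneSpectrum (𝓞 Y))
    [w.asIdeal.LiesOver v.asIdeal] (hf : w.asIdeal.inertiaDeg (𝓞 F) = 1) (β : Y)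
    (hβ : w.valuation Y β ≤ 1) :
    ∃ a : 𝓞 F, w.valuation Y (β - algebraMap F Y (a : F)) < 1 := by
  obtain ⟨b, hb⟩ := w.exists_valuation_sub_lt_of_integer hβ 1
  have : v.asIdeal.IsMaximal := v.isMaximal
  have : w.asIdeal.IsMaximal := w.isMaximal
  obtain ⟨a, ha⟩ := exists_sub_mem_of_inertiaDeg_eq_one v.asIdeal w.asIdeal hf b
  refine ⟨a, ?_⟩
  rw [← w.valuation_lt_one_iff_mem (K := Y)] at ha
  have h : β - algebraMap F Y (a : F) =
      algebraMap (𝓞 Y) Y (b - algebraMap (𝓞 F) (𝓞 Y) a) - (algebraMap (𝓞 Y) Y b - β) := by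
    rw [map_sub]
    have : algebraMap (𝓞 Y) Y (algebraMap (𝓞 F) (𝓞 Y) a) = algebraMap F Y (a : F) := rfl
    rw [this]; ring
  rw [h]
  exact lt_of_le_of_lt (Valuation.map_sub _ _ _) (max_lt ha (by simpa using hb))

end Approx

section Main

variable {F Y : Type*} [Field F] [NumberField F] [Field Y] [NumberField Y] [Algebra F Y]
  {p : ℕ}

/-- the height one prime attached to a prime of `𝓞 Y` above `v`. -/
def hosOver (v : HeightOneSpectrum (𝓞 F)) (Q : Ideal (𝓞 Y)) [hQ : Q.IsPrime]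
    [Q.LiesOver v.asIdeal] : HeightOneSpectrum (𝓞 Y) :=
  ⟨Q, hQ, Ideal.ne_bot_of_liesOver_of_ne_bot v.ne_bot Q⟩

instance (v : HeightOneSpectrum (𝓞 F)) (Q : Ideal (𝓞 Y)) [Q.IsPrime]
    [h : Q.LiesOver v.asIdeal] : (hosOver v Q).asIdeal.LiesOver v.asIdeal := h

theorem val_over (v : HeightOneSpectrum (𝓞 F)) (w : HeightOneSpectrum (𝓞 Y))
    [w.asIdeal.LiesOver v.asIdeal] (a : F) :
    w.valuation Y (algebraMap F Y a) = v.valuation F a ^ w.asIdeal.ramificationIdx (𝓞 F) := by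
  have : w.asIdeal.IsPrime := w.isPrime
  rw [← ramificationIdx'_eq_ramificationIdx v.asIdeal w.asIdeal v.ne_bot]
  exact (HeightOneSpectrum.valuation_liesOver Y v w a).symm

theorem val_lt_one_of_over (v : HeightOneSpectrum (𝓞 F)) (w : HeightOneSpectrum (𝓞 Y))
    [w.asIdeal.LiesOver v.asIdeal] (a : F) (h : w.valuation Y (algebraMap F Y a) < 1) :
    v.valuation F a < 1 := by
  rw [val_over v w] at h
  by_contra hcon
  exact absurd h (not_lt.2 (one_le_pow₀ (not_lt.1 hcon)))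

/-- **S5 (a)+(b)**: if `x / y ^ p` is close enough to `1` at `v`, then `v` splits completely. -/
theorem splitting_ab (hp : p.Prime) {ζ : F} (hζ : IsPrimitiveRoot ζ p) {x : F} {θ : Y}
    (hθ : θ ^ p = algebraMap F Y x) (htop : IntermediateField.adjoin F {θ} = ⊤)
    (hx : ∀ z : F, z ^ p ≠ x) (v : HeightOneSpectrum (𝓞 F)) (y : F) (hy : y ≠ 0)
    (hclose : v.valuation F (x / y ^ p - 1) < v.valuation F (1 - ζ) ^ p) :
    (primesOver v.asIdeal (𝓞 Y)).ncard = p ∧
      ∀ Q : Ideal (𝓞 Y), Q.IsPrime → Q.LiesOver v.asIdeal →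
        Q.ramificationIdx (𝓞 F) = 1 ∧ Q.inertiaDeg (𝓞 F) = 1 ∧
          relNorm (𝓞 F) Q = v.asIdeal := by
  obtain ⟨hgal, hdeg, σ, hσ, -⟩ := kummer_setup hp hζ hθ htop hx
  have : v.asIdeal.IsMaximal := v.isMaximal
  obtain ⟨⟨Q₀, hQ1, hQ2⟩⟩ := (inferInstance : Nonempty (primesOver v.asIdeal (𝓞 Y)))
  refine split_of_smul_ne hp hdeg v.asIdeal Q₀ σ ?_
  have hy' : algebraMap F Y y ≠ 0 := by simpa using hy
  exact smul_ne_of_close hp hζ (θ / algebraMap F Y y) (x / y ^ p)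
    (by rw [div_pow, hθ, map_div₀, map_pow]) σ (by rw [map_div₀, hσ, AlgEquiv.commutes, mul_div_assoc])
    v hclose (hosOver v Q₀)

/-- **S5 (c)**, core form. -/
theorem unramified_c (hp : p.Prime) {ζ : F} (hζ : IsPrimitiveRoot ζ p) {x : F} {θ : Y}
    (hθ : θ ^ p = algebraMap F Y x) (htop : IntermediateField.adjoin F {θ} = ⊤)
    (hx : ∀ z : F, z ^ p ≠ x) (v : HeightOneSpectrum (𝓞 F))
    (hv : v.valuation F (1 - ζ) = 1) (c : F) (hc : v.valuation F (x * c ^ p) = 1)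
    (Q : Ideal (𝓞 Y)) [Q.IsPrime] [Q.LiesOver v.asIdeal] : Q.ramificationIdx (𝓞 F) = 1 := by
  obtain ⟨hgal, hdeg, σ, hσ, -⟩ := kummer_setup hp hζ hθ htop hx
  have : v.asIdeal.IsMaximal := v.isMaximal
  by_contra he
  obtain ⟨-, hf, huniq⟩ := totally_ramified_of_ne_one hp hdeg v.asIdeal Q he
  set w := hosOver v Q with hw
  set W := w.valuation Y with hW
  have hfix : σ • w.asIdeal = w.asIdeal := huniq _ inferInstance inferInstance
  set t : Y := θ * algebraMap F Y c with ht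
  have htp : t ^ p = algebraMap F Y (x * c ^ p) := by
    rw [ht, mul_pow, hθ, map_mul, map_pow]
  have hWt : W t = 1 := by
    have : W t ^ p = 1 := by rw [← map_pow, htp, val_over v w, hc, one_pow]
    exact (pow_eq_one_iff.1 this).resolve_right hp.ne_zero
  obtain ⟨a, ha⟩ := exists_val_sub_lt_one v w hf t hWt.le
  have h1 : W (σ • (t - algebraMap F Y (a : F))) < 1 := by
    rwa [valuation_smul_eq w σ hfix]
  have h2 : σ • (t - algebraMap F Y (a : F)) = algebraMap F Y ζ * t - algebraMap F Y (a : F) := by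
    rw [AlgEquiv.smul_def, map_sub, AlgEquiv.commutes, ht, map_mul, hσ, AlgEquiv.commutes]
    ring
  have h3 : algebraMap F Y (1 - ζ) * t =
      (t - algebraMap F Y (a : F)) - (algebraMap F Y ζ * t - algebraMap F Y (a : F)) := by
    rw [map_sub, map_one]; ring
  have h4 : W (algebraMap F Y (1 - ζ) * t) < 1 := by
    rw [h3]
    exact lt_of_le_of_lt (Valuation.map_sub _ _ _) (max_lt ha (h2 ▸ h1))
  rw [map_mul, hWt, mul_one, val_over v w, hv, one_pow] at h4
  exact lt_irrefl _ h4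

/-- **S5 (c)**: `v ∤ p` and `p ∣ v(x)` imply that `v` is unramified in `Y`. -/
theorem unramified_c' (hp : p.Prime) {ζ : F} (hζ : IsPrimitiveRoot ζ p) {x : F} {θ : Y}
    (hθ : θ ^ p = algebraMap F Y x) (htop : IntermediateField.adjoin F {θ} = ⊤)
    (hx : ∀ z : F, z ^ p ≠ x) (v : HeightOneSpectrum (𝓞 F))
    (hv : v.valuation F (1 - ζ) = 1) (k : ℤ) (hk : v.valuation F x = exp ((p : ℤ) * k))
    (Q : Ideal (𝓞 Y)) [Q.IsPrime] [Q.LiesOver v.asIdeal] : Q.ramificationIdx (𝓞 F) = 1 := by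
  obtain ⟨c, hc⟩ := v.valuation_surjective F (exp (-k))
  refine unramified_c hp hζ hθ htop hx v hv c ?_ Q
  rw [map_mul, map_pow, hk, hc, ← exp_nsmul, ← exp_add]
  simp

theorem val_prod_sub_pow_lt_one {K ι : Type*} [Field K] (W : Valuation K ℤᵐ⁰) (s : Finset ι)
    (f : ι → K) (a : K) (ha : W a ≤ 1) (h : ∀ i ∈ s, W (f i - a) < 1) :
    W (∏ i ∈ s, f i - a ^ s.card) < 1 := by
  classical
  induction s using Finset.induction_on with
  | empty => simp
  | insert i s hi ih =>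
    have ih' := ih (fun j hj => h j (Finset.mem_insert_of_mem hj))
    have hi' := h i (Finset.mem_insert_self i s)
    have hP : W (∏ j ∈ s, f j) ≤ 1 := by
      have : ∏ j ∈ s, f j = (∏ j ∈ s, f j - a ^ s.card) + a ^ s.card := by ring
      rw [this]
      refine le_trans (Valuation.map_add _ _ _) (max_le ih'.le ?_)
      rw [map_pow]; exact pow_le_one₀ zero_le ha
    rw [Finset.prod_insert hi, Finset.card_insert_of_notMem hi]
    have : f i * ∏ j ∈ s, f j - a ^ (s.card + 1) =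
        (f i - a) * ∏ j ∈ s, f j + a * (∏ j ∈ s, f j - a ^ s.card) := by ring
    rw [this]
    refine lt_of_le_of_lt (Valuation.map_add _ _ _) (max_lt ?_ ?_)
    · rw [map_mul]
      exact lt_of_le_of_lt (mul_le_of_le_one_right zero_le hP) hi'
    · rw [map_mul]
      exact lt_of_le_of_lt (mul_le_of_le_one_left zero_le ha) ih'

/-- norms of `w`-integral elements are `p`-th powers modulo a totally ramified prime. -/
theorem norm_congr_pow [IsGalois F Y] (hdeg : Module.finrank F Y = p)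
    (v : HeightOneSpectrum (𝓞 F)) (w : HeightOneSpectrum (𝓞 Y)) [w.asIdeal.LiesOver v.asIdeal]
    (hf : w.asIdeal.inertiaDeg (𝓞 F) = 1)
    (hfix : ∀ τ : Gal(Y/F), τ • w.asIdeal = w.asIdeal) (β : Y) (hβ : w.valuation Y β ≤ 1) :
    ∃ b : 𝓞 F, w.valuation Y (β - algebraMap F Y (b : F)) < 1 ∧
      v.valuation F (Algebra.norm F β - (b : F) ^ p) < 1 := by
  obtain ⟨a, ha⟩ := exists_val_sub_lt_one v w hf β hβ
  refine ⟨a, ha, val_lt_one_of_over v w _ ?_⟩
  rw [map_sub, Algebra.norm_eq_prod_automorphisms, map_pow]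
  have hcard : (Finset.univ : Finset Gal(Y/F)).card = p := by
    rw [Finset.card_univ, ← Nat.card_eq_fintype_card, IsGalois.card_aut_eq_finrank, hdeg]
  rw [← hcard]
  refine val_prod_sub_pow_lt_one _ _ _ _ ?_ (fun τ _ => ?_)
  · have : algebraMap F Y (a : F) = algebraMap (𝓞 Y) Y (algebraMap (𝓞 F) (𝓞 Y) a) := rfl
    rw [this]
    exact w.valuation_le_one _
  · have : τ β - algebraMap F Y (a : F) = τ • (β - algebraMap F Y (a : F)) := by
      rw [AlgEquiv.smul_def, map_sub, AlgEquiv.commutes]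
    rw [this, valuation_smul_eq w τ (hfix τ)]
    exact ha

/-- **S5 (d)**: `p ∤ v(x)` implies that `v` is totally ramified. -/
theorem ramified_d (hp : p.Prime) {ζ : F} (hζ : IsPrimitiveRoot ζ p) {x : F} {θ : Y}
    (hθ : θ ^ p = algebraMap F Y x) (htop : IntermediateField.adjoin F {θ} = ⊤)
    (hx : ∀ z : F, z ^ p ≠ x) (v : HeightOneSpectrum (𝓞 F))
    (hv : ∀ k : ℤ, v.valuation F x ≠ exp ((p : ℤ) * k))
    (Q : Ideal (𝓞 Y)) [Q.IsPrime] [Q.LiesOver v.asIdeal] :
    Q.ramificationIdx (𝓞 F) = p ∧ Q.inertiaDeg (𝓞 F) = 1 ∧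
      (∀ Q' : Ideal (𝓞 Y), Q'.IsPrime → Q'.LiesOver v.asIdeal → Q' = Q) ∧
      (∀ τ : Gal(Y/F), τ • Q = Q) ∧ relNorm (𝓞 F) Q = v.asIdeal ∧
      ∀ β : Y, (hosOver v Q).valuation Y β ≤ 1 →
        ∃ b : 𝓞 F, (hosOver v Q).valuation Y (β - algebraMap F Y (b : F)) < 1 ∧
          v.valuation F (Algebra.norm F β - (b : F) ^ p) < 1 := by
  obtain ⟨hgal, hdeg, σ, hσ, -⟩ := kummer_setup hp hζ hθ htop hx
  have : v.asIdeal.IsMaximal := v.isMaximal
  have he : Q.ramificationIdx (𝓞 F) ≠ 1 := by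
    intro he
    have h1 : (hosOver v Q).valuation Y θ ^ p = v.valuation F x := by
      rw [← map_pow, hθ, val_over v (hosOver v Q)]
      change _ ^ Q.ramificationIdx (𝓞 F) = _
      rw [he, pow_one]
    have hθ0 : θ ≠ 0 := by
      rintro rfl
      rw [zero_pow hp.ne_zero] at hθ
      have : x = 0 := by simpa using hθ.symm
      exact hx 0 (by rw [zero_pow hp.ne_zero, this])
    have h2 : (hosOver v Q).valuation Y θ ≠ 0 := (Valuation.ne_zero_iff _).2 hθ0
    refine hv (log ((hosOver v Q).valuation Y θ)) ?_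
    rw [← h1, ← Int.nsmul_eq_mul, exp_nsmul, exp_log h2]
  obtain ⟨hep, hf, huniq⟩ := totally_ramified_of_ne_one hp hdeg v.asIdeal Q he
  have hfix : ∀ τ : Gal(Y/F), τ • Q = Q := fun τ => huniq _ inferInstance inferInstance
  have : Q.IsMaximal := IsMaximal.of_liesOver_isMaximal Q v.asIdeal
  refine ⟨hep, hf, huniq, hfix, by rw [relNorm_eq_pow_of_isMaximal Q v.asIdeal, hf, pow_one],
    fun β hβ => norm_congr_pow hdeg v (hosOver v Q) hf hfix β hβ⟩

/-- For `v ∤ p` the element `1 - ζ` is a `v`-unit. -/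
theorem val_one_sub_zeta (hp : p.Prime) {ζ : F} (hζ : IsPrimitiveRoot ζ p)
    (v : HeightOneSpectrum (𝓞 F)) (hv : v.valuation F (p : F) = 1) :
    v.valuation F (1 - ζ) = 1 := by
  obtain ⟨n, rfl⟩ : ∃ n, p = n + 1 := ⟨p - 1, (Nat.succ_pred_eq_of_pos hp.pos).symm⟩
  have hn : 0 < n := by have := hp.two_le; omega
  have h := congrArg (v.valuation F) hζ.prod_one_sub_pow_eq_order
  rw [map_prod] at h
  have hv' : v.valuation F ((n : F) + 1) = 1 := by simpa using hv
  rw [hv'] at h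
  have hz : v.valuation F ζ = 1 := val_root_eq_one _ hp.ne_zero hζ.pow_eq_one
  have hle : ∀ k ∈ Finset.range n, v.valuation F (1 - ζ ^ (k + 1)) ≤ 1 := by
    intro k _
    refine le_trans (Valuation.map_sub _ _ _) (max_le (by simp) ?_)
    rw [map_pow, hz, one_pow]
  have := (Finset.prod_eq_one_iff_of_le_one' hle).1 h 0 (Finset.mem_range.2 hn)
  simpa using this

/-- **S5 (a)**: `v ∤ p`, `x / y ^ p ≡ 1 mod v` imply that `v` splits completely. -/
theorem splitting_a (hp : p.Prime) {ζ : F} (hζ : IsPrimitiveRoot ζ p) {x : F} {θ : Y}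
    (hθ : θ ^ p = algebraMap F Y x) (htop : IntermediateField.adjoin F {θ} = ⊤)
    (hx : ∀ z : F, z ^ p ≠ x) (v : HeightOneSpectrum (𝓞 F))
    (hv : v.valuation F (p : F) = 1) (y : F) (hy : y ≠ 0)
    (hclose : v.valuation F (x / y ^ p - 1) < 1) :
    (primesOver v.asIdeal (𝓞 Y)).ncard = p ∧
      ∀ Q : Ideal (𝓞 Y), Q.IsPrime → Q.LiesOver v.asIdeal →
        Q.ramificationIdx (𝓞 F) = 1 ∧ Q.inertiaDeg (𝓞 F) = 1 ∧
          relNorm (𝓞 F) Q = v.asIdeal :=
  splitting_ab hp hζ hθ htop hx v y hy (by rw [val_one_sub_zeta hp hζ v hv, one_pow]; exact hclose)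

end Main

end Fermat.Agent.S14Lib
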