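/-
S14 library: API for `ord`, `gs`, `LPv`, `phi`, `NG`.
-/
import Fermat.Agent.S14.Defs
import Fermat.Agent.S14.Splitting
import Fermat.Agent.S14.Conj

set_option autoImplicit false

open IsDedekindDomain NumberField

namespace Fermat.Agent.S14Lib

section ordapi

variable {F : Type*} [Field F] [NumberField F]

theorem ord_zero (v : Pl F) : ord v (0 : F) = 0 := by simp [ord]

theorem ord_pow (v : Pl F) (x : F) (n : ℕ) : ord v (x ^ n) = n * ord v x := by
  simp [ord, map_pow, WithZero.log_pow]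

theorem ord_zpow (v : Pl F) (x : F) (n : ℤ) : ord v (x ^ n) = n * ord v x := by
  simp [ord, map_zpow₀, WithZero.log_zpow]

theorem ord_div (v : Pl F) {x y : F} (hx : x ≠ 0) (hy : y ≠ 0) :
    ord v (x / y) = ord v x - ord v y := by
  rw [div_eq_mul_inv, ord_mul v hx (inv_ne_zero hy), ord_inv]; ring

theorem dv_zero : dv (0 : F) = 0 := by
  ext v; simp [ord_zero]

theorem dv_pow (x : F) (n : ℕ) : dv (x ^ n) = n • dv x := by
  ext v; simp [ord_pow]

theorem dv_zpow (x : F) (n : ℤ) : dv (x ^ n) = n • dv x := by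
  ext v; simp [ord_zpow]

theorem dv_div {x y : F} (hx : x ≠ 0) (hy : y ≠ 0) : dv (x / y) = dv x - dv y := by
  ext v; simp [ord_div v hx hy]

theorem val_unif (v : Pl F) : v.valuation F (unif v) = WithZero.exp (-(1 : ℤ)) :=
  (v.valuation_exists_uniformizer F).choose_spec

theorem unif_ne_zero (v : Pl F) : unif v ≠ 0 := by
  intro h
  have := val_unif v
  rw [h, map_zero] at this
  exact WithZero.exp_ne_zero this.symm

theorem ord_unif (v : Pl F) : ord v (unif v) = 1 := ord_eq_of_val_eq v (val_unif v)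

/-- the unit part of `x` at `v` -/
noncomputable def upart (v : Pl F) (x : F) : F := x * unif v ^ (- ord v x)

theorem upart_ne_zero (v : Pl F) {x : F} (hx : x ≠ 0) : upart v x ≠ 0 :=
  mul_ne_zero hx (zpow_ne_zero _ (unif_ne_zero v))

theorem ord_upart (v : Pl F) {x : F} (hx : x ≠ 0) : ord v (upart v x) = 0 := by
  rw [upart, ord_mul v hx (zpow_ne_zero _ (unif_ne_zero v)), ord_zpow, ord_unif]; ring

theorem val_upart (v : Pl F) {x : F} (hx : x ≠ 0) : v.valuation F (upart v x) = 1 :=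
  (ord_eq_zero_iff v (upart_ne_zero v hx)).1 (ord_upart v hx)

theorem upart_mul (v : Pl F) {x y : F} (hx : x ≠ 0) (hy : y ≠ 0) :
    upart v (x * y) = upart v x * upart v y := by
  simp only [upart, ord_mul v hx hy, neg_add, zpow_add₀ (unif_ne_zero v)]
  ring

theorem upart_of_unit (v : Pl F) {x : F} (h : ord v x = 0) : upart v x = x := by
  simp [upart, h]

theorem eq_upart_mul (v : Pl F) (x : F) : x = upart v x * unif v ^ (ord v x) := by
  rw [upart, mul_assoc, ← zpow_add₀ (unif_ne_zero v)]; simp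

end ordapi

section gsapi

variable {F : Type*} [Field F] [NumberField F] {p : ℕ} [Fact p.Prime] {ζ : F}
  (hζ : IsPrimitiveRoot ζ p)

theorem gs_eq (v : Pl F) (x : F) : gs p ζ v x = sym p ζ v (upart v x) := rfl

theorem gs_of_val_p_ne (v : Pl F) (hv : v.valuation F (p : F) ≠ 1) (x : F) : gs p ζ v x = 0 :=
  sym_of_val_p_ne hv _

theorem gs_of_ord_eq_zero (v : Pl F) {x : F} (h : ord v x = 0) : gs p ζ v x = sym p ζ v x := by
  rw [gs_eq, upart_of_unit v h]

theorem gs_of_unit (v : Pl F) {x : F} (h : v.valuation F x = 1) : gs p ζ v x = sym p ζ v x := by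
  apply gs_of_ord_eq_zero
  simp [ord, h]

theorem gs_zero (v : Pl F) : gs p ζ v 0 = 0 := by
  rw [gs_of_ord_eq_zero v (ord_zero v)]
  exact sym_of_val_ne (by simp)

include hζ

theorem gs_one (v : Pl F) : gs p ζ v 1 = 0 := by
  rw [gs_of_unit v (map_one _), sym_one hζ]

theorem gs_mul (v : Pl F) {x y : F} (hx : x ≠ 0) (hy : y ≠ 0) :
    gs p ζ v (x * y) = gs p ζ v x + gs p ζ v y := by
  by_cases hv : v.valuation F (p : F) = 1
  · rw [gs_eq, gs_eq, gs_eq, upart_mul v hx hy, sym_mul hζ hv (val_upart v hx) (val_upart v hy)]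
  · simp [gs_of_val_p_ne v hv]

theorem gs_inv (v : Pl F) (x : F) : gs p ζ v x⁻¹ = - gs p ζ v x := by
  by_cases hx : x = 0
  · simp [hx, gs_zero]
  have := gs_mul hζ v hx (inv_ne_zero hx)
  rw [mul_inv_cancel₀ hx, gs_one hζ] at this
  exact (neg_eq_of_add_eq_zero_right this.symm).symm

theorem gs_div (v : Pl F) {x y : F} (hx : x ≠ 0) (hy : y ≠ 0) :
    gs p ζ v (x / y) = gs p ζ v x - gs p ζ v y := by
  rw [div_eq_mul_inv, gs_mul hζ v hx (inv_ne_zero hy), gs_inv hζ]; ring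

theorem gs_pow (v : Pl F) (x : F) (n : ℕ) : gs p ζ v (x ^ n) = n * gs p ζ v x := by
  by_cases hx : x = 0
  · rcases Nat.eq_zero_or_pos n with rfl | hn
    · simp [gs_one hζ]
    · simp [hx, zero_pow hn.ne', gs_zero]
  induction n with
  | zero => simp [gs_one hζ]
  | succ n ih =>
    rw [pow_succ, gs_mul hζ v (pow_ne_zero _ hx) hx, ih]
    push_cast; ring

theorem gs_zpow (v : Pl F) (x : F) (n : ℤ) : gs p ζ v (x ^ n) = n * gs p ζ v x := by
  cases n with
  | ofNat n => simp [gs_pow hζ]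
  | negSucc n =>
    rw [zpow_negSucc, gs_inv hζ, gs_pow hζ]
    push_cast; ring

theorem gs_pow_p (v : Pl F) (x : F) : gs p ζ v (x ^ p) = 0 := by
  rw [gs_pow hζ, ZMod.natCast_self, zero_mul]

theorem gs_prod {ι : Type*} (v : Pl F) (s : Finset ι) (f : ι → F) (hf : ∀ i ∈ s, f i ≠ 0) :
    gs p ζ v (∏ i ∈ s, f i) = ∑ i ∈ s, gs p ζ v (f i) := by
  classical
  induction s using Finset.induction_on with
  | empty => simp [gs_one hζ]
  | insert a s ha ih =>
    rw [Finset.prod_insert ha, Finset.sum_insert ha,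
      gs_mul hζ v (hf a (Finset.mem_insert_self a s))
        (Finset.prod_ne_zero_iff.2 fun i hi => hf i (Finset.mem_insert_of_mem hi)),
      ih fun i hi => hf i (Finset.mem_insert_of_mem hi)]

/-- if `p ∣ ord v x`, `gs v x` is the symbol of `x / c ^ p` for ANY `c` making it a unit -/
theorem gs_eq_sym_of_unit_mul (v : Pl F) {x c : F} (hx : x ≠ 0) (hc : c ≠ 0)
    (h : v.valuation F (x * c ^ p) = 1) : gs p ζ v x = sym p ζ v (x * c ^ p) := by
  rw [← gs_of_unit v h, gs_mul hζ v hx (pow_ne_zero _ hc), gs_pow_p hζ, add_zero]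

end gsapi

section lpapi

variable {F : Type*} [Field F] [NumberField F] {p : ℕ} [hp : Fact p.Prime] {ζ : F}
  (hζ : IsPrimitiveRoot ζ p)
include hζ

theorem val_one_sub_zeta_le_one (v : Pl F) : v.valuation F (1 - ζ) ≤ 1 := by
  refine (Valuation.map_sub _ _ _).trans ?_
  rw [map_one, val_zeta hζ v, max_self]

theorem val_one_sub_zeta_ne_zero (v : Pl F) : v.valuation F (1 - ζ) ≠ 0 := by
  rw [Valuation.ne_zero_iff, sub_ne_zero]
  exact fun h => hζ.ne_one hp.out.one_lt h.symm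

theorem val_one_sub_zeta_eq_one (v : Pl F) (hv : v.valuation F (p : F) = 1) :
    v.valuation F (1 - ζ) = 1 :=
  val_one_sub_zeta hp.out hζ v hv

theorem lpv_unit (v : Pl F) {x y : F}
    (h : v.valuation F (x / y ^ p - 1) < v.valuation F (1 - ζ) ^ p) :
    v.valuation F (x / y ^ p) = 1 := by
  have h1 : v.valuation F (x / y ^ p - 1) < 1 :=
    h.trans_le (pow_le_one₀ zero_le (val_one_sub_zeta_le_one hζ v))
  have := (v.valuation F).map_one_add_of_lt h1
  simpa using this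

theorem lpv_ne_zero (v : Pl F) {x : F} (h : LPv p ζ v x) : x ≠ 0 := by
  obtain ⟨y, hy, h⟩ := h
  rintro rfl
  have := lpv_unit hζ v h
  simp at this

theorem lpv_dvd (v : Pl F) {x : F} (h : LPv p ζ v x) : (p : ℤ) ∣ ord v x := by
  have hx := lpv_ne_zero hζ v h
  obtain ⟨y, hy, h⟩ := h
  have h1 := lpv_unit hζ v h
  have h2 := (ord_eq_zero_iff v (div_ne_zero hx (pow_ne_zero _ hy))).2 h1
  rw [ord_div v hx (pow_ne_zero _ hy), ord_pow] at h2
  exact ⟨ord v y, by linarith⟩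

theorem lpv_iff (v : Pl F) (hv : v.valuation F (p : F) = 1) {x : F} (hx : x ≠ 0) :
    LPv p ζ v x ↔ (p : ℤ) ∣ ord v x ∧ gs p ζ v x = 0 := by
  constructor
  · intro h
    refine ⟨lpv_dvd hζ v h, ?_⟩
    obtain ⟨y, hy, h⟩ := h
    have h1 := lpv_unit hζ v h
    have h2 : gs p ζ v (x / y ^ p) = gs p ζ v x := by
      rw [gs_div hζ v hx (pow_ne_zero _ hy), gs_pow_p hζ, sub_zero]
    rw [← h2, gs_of_unit v h1, sym_eq_zero_iff hζ hv h1]
    refine ⟨1, one_ne_zero, ?_⟩
    rw [val_one_sub_zeta_eq_one hζ v hv, one_pow] at h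
    simpa using h
  · rintro ⟨⟨k, hk⟩, h⟩
    rw [gs_eq, sym_eq_zero_iff hζ hv (val_upart v hx)] at h
    obtain ⟨z, hz, h⟩ := h
    refine ⟨z * unif v ^ k, mul_ne_zero hz (zpow_ne_zero _ (unif_ne_zero v)), ?_⟩
    rw [val_one_sub_zeta_eq_one hζ v hv, one_pow]
    have : x / (z * unif v ^ k) ^ p = upart v x / z ^ p := by
      rw [upart, hk, mul_pow, ← zpow_natCast (unif v ^ k) p, ← zpow_mul, zpow_neg, mul_comm k]
      field_simp
    rw [this]
    exact h

theorem gs_eq_zero_of_lpv (v : Pl F) {x : F} (h : LPv p ζ v x) : gs p ζ v x = 0 := by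
  by_cases hv : v.valuation F (p : F) = 1
  · exact ((lpv_iff hζ v hv (lpv_ne_zero hζ v h)).1 h).2
  · exact gs_of_val_p_ne v hv x

theorem lpv_pow_p (v : Pl F) {y : F} (hy : y ≠ 0) : LPv p ζ v (y ^ p) := by
  refine ⟨y, hy, ?_⟩
  rw [div_self (pow_ne_zero _ hy), sub_self, map_zero]
  exact pow_pos (zero_lt_iff.2 (val_one_sub_zeta_ne_zero hζ v)) _

omit hp hζ in
theorem lpv_mul_pow_p (v : Pl F) {x c : F} (hc : c ≠ 0) (h : LPv p ζ v x) :
    LPv p ζ v (x * c ^ p) := by
  obtain ⟨y, hy, h⟩ := h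
  refine ⟨y * c, mul_ne_zero hy hc, ?_⟩
  have : x * c ^ p / (y * c) ^ p = x / y ^ p := by
    rw [mul_pow]; field_simp
  rwa [this]

end lpapi

section phiapi

variable {F : Type*} [Field F] [NumberField F] {p : ℕ} [hp : Fact p.Prime] {ζ : F}

theorem phi_single (x : F) (q : Pl F) (n : ℤ) :
    phi p ζ x (Finsupp.single q n) = n * gs p ζ q x := by
  simp [phi]

theorem phi_apply (x : F) (D : Divs F) :
    phi p ζ x D = ∑ q ∈ D.support, (D q : ZMod p) * gs p ζ q x := by
  simp [phi, Finsupp.sum]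

/-- `phi` computed on any finite set containing the support -/
theorem phi_eq_sum (x : F) (D : Divs F) (s : Finset (Pl F)) (hs : ∀ q, q ∉ s → D q = 0) :
    phi p ζ x D = ∑ q ∈ s, (D q : ZMod p) * gs p ζ q x := by
  rw [phi_apply]
  refine Finset.sum_subset ?_ ?_
  · intro q hq
    by_contra h
    exact (Finsupp.mem_support_iff.1 hq) (hs q h)
  · intro q _ hq
    rw [Finsupp.notMem_support_iff.1 hq]; simp

omit hp in
theorem smul_mem_NG (B : Set (Pl F)) (x : F) (D : Divs F) : (p : ℤ) • D ∈ NG p ζ B x := by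
  intro q h
  exact absurd (by simp) h

omit hp in
theorem single_mem_NG (B : Set (Pl F)) (x : F) {q : Pl F} (hq : q ∉ B) (h : LPv p ζ q x) (n : ℤ) :
    Finsupp.single q n ∈ NG p ζ B x := by
  classical
  intro q' h'
  by_cases hqq : q = q'
  · subst hqq; exact ⟨hq, h⟩
  · exact absurd (by simp [Finsupp.single_apply, hqq]) h'

omit hp in
theorem NG_mono {B B' : Set (Pl F)} (h : B ⊆ B') (x : F) : NG p ζ B' x ≤ NG p ζ B x :=
  fun _ hD q hq => ⟨fun hqB => (hD q hq).1 (h hqB), (hD q hq).2⟩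

variable (hζ : IsPrimitiveRoot ζ p)
include hζ

theorem phi_mul {x y : F} (hx : x ≠ 0) (hy : y ≠ 0) (D : Divs F) :
    phi p ζ (x * y) D = phi p ζ x D + phi p ζ y D := by
  simp only [phi_apply, gs_mul hζ _ hx hy, mul_add, Finset.sum_add_distrib]

theorem phi_pow (x : F) (n : ℕ) (D : Divs F) : phi p ζ (x ^ n) D = n * phi p ζ x D := by
  simp only [phi_apply, gs_pow hζ, Finset.mul_sum]
  exact Finset.sum_congr rfl fun q _ => by ring

theorem phi_pow_p (x : F) (D : Divs F) : phi p ζ (x ^ p) D = 0 := by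
  rw [phi_pow hζ, ZMod.natCast_self, zero_mul]

theorem phi_of_mem_NG (B : Set (Pl F)) {x : F} {D : Divs F} (hD : D ∈ NG p ζ B x) :
    phi p ζ x D = 0 := by
  rw [phi_apply]
  refine Finset.sum_eq_zero fun q _ => ?_
  by_cases h : (p : ℤ) ∣ D q
  · rw [(ZMod.intCast_zmod_eq_zero_iff_dvd _ _).2 h, zero_mul]
  · rw [gs_eq_zero_of_lpv hζ q (hD q h).2, mul_zero]

/-- for `α` with `(H α)`: a place with trivial symbol is in the norm group -/
theorem lpv_of_gs_eq_zero {α : F} (hα : HAlpha p ζ α) (q : Pl F) (h : gs p ζ q α = 0) :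
    LPv p ζ q α := by
  by_cases hv : q.valuation F (p : F) = 1
  · exact (lpv_iff hζ q hv hα.ne).2 ⟨hα.dvd q, h⟩
  · exact hα.lp q hv

theorem lpv_iff_gs {α : F} (hα : HAlpha p ζ α) (q : Pl F) : LPv p ζ q α ↔ gs p ζ q α = 0 :=
  ⟨gs_eq_zero_of_lpv hζ q, lpv_of_gs_eq_zero hζ hα q⟩

end phiapi

end Fermat.Agent.S14Lib
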