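import Fermat.Agent.S14.End
import Fermat.Agent.S14.Gs
import Fermat.Agent.S14.Glue

/-!
# S14 : `EndProp p` from Theorem R
-/

set_option autoImplicit false

namespace Fermat.Agent.S14Lib

open IsDedekindDomain NumberField HeightOneSpectrum WithZero Finset

section

variable {K : Type*} [Field K] [NumberField K] {p : ℕ} [hp : Fact p.Prime] {ζ : K}

/-- `(H α)` from the hypotheses of `EndProp` -/
theorem hAlpha_of_end (hζ : IsPrimitiveRoot ζ p) {α : K} (hα0 : α ≠ 0)
    (h1 : ∀ q : HeightOneSpectrum (𝓞 K), ∃ k : ℤ, q.valuation K α = WithZero.exp ((p : ℤ) * k))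
    (h2 : ∀ v : HeightOneSpectrum (𝓞 K), (p : 𝓞 K) ∈ v.asIdeal → ∀ M : ℕ, ∃ y : K, y ≠ 0 ∧
      v.valuation K (α / y ^ p - 1) ≤ WithZero.exp (-(M : ℤ))) : HAlpha p ζ α := by
  refine ⟨hα0, fun v => ?_, fun v hv => ?_⟩
  · obtain ⟨k, hk⟩ := h1 v
    have : ord v α = -((p : ℤ) * k) := by
      apply ord_eq_of_val_eq
      rw [hk, neg_neg]
    rw [this]
    exact Dvd.dvd.neg_right (Dvd.intro k rfl)
  · have hmem : (p : 𝓞 K) ∈ v.asIdeal := by
      by_contra hc
      apply hv
      have := (v.valuation_eq_one_iff_notMem (K := K)).2 hc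
      rwa [map_natCast (algebraMap (𝓞 K) K)] at this
    have hne : (1 - ζ) ≠ 0 := sub_ne_zero.2 (hζ.ne_one hp.out.one_lt).symm
    have hval := val_eq_exp_neg_ord v hne
    obtain ⟨y, hy0, hy⟩ := h2 v hmem ((p : ℤ) * ord v (1 - ζ) + 1).toNat
    refine ⟨y, hy0, lt_of_le_of_lt hy ?_⟩
    rw [hval, ← exp_nsmul, exp_lt_exp]
    have := Int.self_le_toNat ((p : ℤ) * ord v (1 - ζ) + 1)
    simp only [nsmul_eq_mul, mul_neg]
    omega

end

/-- **L12** in its final form -/
theorem endProp_of_thmR (p : ℕ) [hp : Fact p.Prime] (hp2 : p ≠ 2)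
    (hR : ∀ (K : Type) [Field K] [NumberField K] [IsCyclotomicExtension {p} ℚ K] (ζ : K)
      (_ : IsPrimitiveRoot ζ p) (α : K) (_ : HAlpha p ζ α) (_ : ∀ z : K, z ^ p ≠ α) (β : K)
      (_ : β ≠ 0), phi p ζ α (dv β) = 0) : EndProp p := by
  classical
  intro K _ _ _ ζ hζ α hα0 h1 h2 h3
  have : NeZero p := ⟨hp.out.ne_zero⟩
  by_contra hcon
  have hnp : ∀ z : K, z ^ p ≠ α := fun z hz => hcon ⟨z, hz.symm⟩
  apply hcon
  refine end_core hp2 hζ h3 fun s β hs hs' => ?_
  have hβ0 : (β : K) ≠ 0 := by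
    intro h
    have hβ : β = 0 := by exact_mod_cast h
    obtain ⟨v⟩ : Nonempty (HeightOneSpectrum (𝓞 K)) := by
      obtain ⟨q, -⟩ := exists_sym_ne_zero hζ hnp ∅ Set.finite_empty
      exact ⟨q⟩
    by_cases hv : v ∈ s
    · have := (hs v hv).1
      rw [hβ, map_zero] at this
      exact (WithZero.exp_ne_zero).symm this
    · have := hs' v hv
      rw [hβ, map_zero] at this
      exact zero_ne_one this
  have key := hR K ζ hζ α (hAlpha_of_end hζ hα0 h1 h2) hnp (β : K) hβ0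
  have hord : ∀ v : Pl K, dv (β : K) v = if v ∈ s then 1 else 0 := by
    intro v
    rw [dv_apply]
    apply ord_eq_of_val_eq
    have e : v.valuation K (β : K) = v.intValuation β := v.valuation_of_algebraMap β
    rw [e]
    split_ifs with hv
    · exact (hs v hv).1
    · rw [hs' v hv]
      simp
  rw [phi_eq_sum α (dv (β : K)) s (by
    intro v hv
    rw [hord, if_neg hv])] at key
  rw [← key]
  refine sum_congr rfl fun v hv => ?_
  rw [hord, if_pos hv, gs_of_unit v (hs v hv).2.2]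
  simp

end Fermat.Agent.S14Lib
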