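import Mathlib

/-!
# S14, leaf L9: (APPROX)

* `exists_val_eq`: elements with prescribed valuations at finitely many places.
-/

open IsDedekindDomain NumberField WithZero

namespace Fermat.Agent.S14Lib

variable {F : Type*} [Field F] [NumberField F]

/-- integral version of (APPROX). -/
theorem exists_intVal_eq (S : Finset (HeightOneSpectrum (𝓞 F))) (n : HeightOneSpectrum (𝓞 F) → ℕ) :
    ∃ y : 𝓞 F, y ≠ 0 ∧ ∀ v ∈ S, v.intValuation y = exp (-(n v : ℤ)) := by
  classical
  by_cases hS : S = ∅
  · subst hS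
    exact ⟨1, one_ne_zero, by simp⟩
  choose π hπ using fun v : HeightOneSpectrum (𝓞 F) => v.intValuation_exists_uniformizer
  obtain ⟨y, hy⟩ := IsDedekindDomain.exists_forall_sub_mem_ideal (s := S)
    (fun v : HeightOneSpectrum (𝓞 F) => v.asIdeal) (fun v => n v + 1) (fun v _ => v.prime)
    (fun v _ w _ hvw h => hvw (HeightOneSpectrum.ext h)) (fun v => π v.1 ^ n v.1)
  have key : ∀ v ∈ S, v.intValuation y = exp (-(n v : ℤ)) := by
    intro v hv
    have h1 := hy v hv
    rw [← v.intValuation_le_pow_iff_mem] at h1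
    have h2 : v.intValuation (π v ^ n v) = exp (-(n v : ℤ)) := by
      rw [map_pow, hπ, ← exp_nsmul]
      simp
    have h3 : v.intValuation (y - π v ^ n v) < v.intValuation (π v ^ n v) := by
      rw [h2]
      refine h1.trans_lt ?_
      rw [exp_lt_exp]
      push_cast
      omega
    have h4 := v.intValuation.map_add_eq_of_lt_left h3
    rw [add_sub_cancel, h2] at h4
    exact h4
  refine ⟨y, ?_, key⟩
  obtain ⟨v, hv⟩ := Finset.nonempty_iff_ne_empty.mpr hS
  rintro rfl
  have := key v hv
  rw [map_zero] at this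
  exact exp_ne_zero this.symm

/-- **(APPROX)** -/
theorem exists_val_eq (S : Finset (HeightOneSpectrum (𝓞 F))) (n : HeightOneSpectrum (𝓞 F) → ℤ) :
    ∃ y : Fˣ, ∀ v ∈ S, v.valuation F (y : F) = exp (-(n v)) := by
  obtain ⟨a, ha0, ha⟩ := exists_intVal_eq S fun v => (n v).toNat
  obtain ⟨b, hb0, hb⟩ := exists_intVal_eq S fun v => (-(n v)).toNat
  have haF : (a : F) ≠ 0 := by simpa using ha0
  have hbF : (b : F) ≠ 0 := by simpa using hb0
  refine ⟨Units.mk0 ((a : F) / (b : F)) (div_ne_zero haF hbF), fun v hv => ?_⟩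
  rw [Units.val_mk0, map_div₀,
    show v.valuation F (a : F) = v.intValuation a from v.valuation_of_algebraMap a,
    show v.valuation F (b : F) = v.intValuation b from v.valuation_of_algebraMap b, ha v hv, hb v hv,
    ← exp_sub]
  congr 1
  omega

end Fermat.Agent.S14Lib
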