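import Fermat.Agent.S14.CrossChoice
import Fermat.Agent.S14.Conj

/-!
# S14, leaf L11a (E), arithmetic core

`K = ℚ(ζ_p)`, `m ≡ 1 mod p` a prime.  If `γ ∈ 𝓞 K` is a `p`-th power modulo every prime `M ∣ m`
of `K`, then the rational integer `N_{K/ℚ} γ` is a `p`-th power modulo `m`.
-/

namespace Fermat.Agent.S14Lib

open IsDedekindDomain NumberField WithZero
open scoped Pointwise

variable {K : Type*} [Field K] [NumberField K] {p : ℕ} [hp : Fact p.Prime]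
  [hK : IsCyclotomicExtension {p} ℚ K]

/-- a prime `M` above `m ≡ 1 mod p` has degree one. -/
theorem absNorm_eq_of_dvd_sub_one (M : HeightOneSpectrum (𝓞 K)) {m : ℕ} (hm : m.Prime)
    (hM : (m : 𝓞 K) ∈ M.asIdeal) (hpm : p ∣ m - 1) : Ideal.absNorm M.asIdeal = m := by
  haveI : Fact m.Prime := ⟨hm⟩
  haveI := liesOver_span_of_mem M hm hM
  haveI : NeZero p := ⟨hp.out.ne_zero⟩
  haveI := M.isPrime
  have hmp : m ≠ p := (ne_of_dvd_sub_one hpm).symm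
  have hnd : ¬ m ∣ p := fun hd => hmp ((Nat.prime_dvd_prime_iff_eq hm hp.out).1 hd)
  have h1 := IsCyclotomicExtension.Rat.inertiaDeg_eq_of_not_dvd m K M.asIdeal (m := p) hnd
  have h2 := Ideal.absNorm_pow_inertiaDeg (R := ℤ) (Ideal.span {(m : ℤ)}) M.asIdeal
  have h3 : (m : ZMod p) = 1 := by
    obtain ⟨c, hc⟩ := hpm
    have : m = p * c + 1 := by have := hm.one_lt; omega
    rw [this]
    simp
  rw [h3, orderOf_one] at h1
  rw [← h2, h1]
  simp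

omit hp hK in
theorem algebraMap_norm_eq_prod_smul [IsGalois ℚ K] (γ : 𝓞 K) :
    ((Algebra.norm ℤ γ : ℤ) : 𝓞 K) = ∏ δ : Gal(K/ℚ), δ • γ := by
  apply RingOfIntegers.coe_injective
  rw [map_prod, map_intCast]
  have h1 := Algebra.norm_eq_prod_automorphisms ℚ (algebraMap (𝓞 K) K γ)
  have h2 : (Algebra.norm ℤ γ : ℚ) = Algebra.norm ℚ (algebraMap (𝓞 K) K γ) := Algebra.coe_norm_int γ
  rw [← h2] at h1
  simp only [eq_ratCast, Rat.cast_intCast] at h1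
  rw [h1]
  rfl

/-- **(E), arithmetic core.** -/
theorem norm_isPow_zmod {m : ℕ} [hm : Fact m.Prime] (hpm : p ∣ m - 1) (γ : 𝓞 K)
    (hγ : ∀ M : HeightOneSpectrum (𝓞 K), (m : 𝓞 K) ∈ M.asIdeal →
      ∃ c : 𝓞 K, γ - c ^ p ∈ M.asIdeal) :
    ∃ b : ZMod m, b ^ p = ((Algebra.norm ℤ γ : ℤ) : ZMod m) := by
  classical
  haveI : IsGalois ℚ K := IsCyclotomicExtension.isGalois {p} ℚ K
  obtain ⟨M0, hM0⟩ := exists_prime_over_nat (K := K) m
  letI := Ideal.Quotient.field M0.asIdeal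
  haveI : CharP (𝓞 K ⧸ M0.asIdeal) m := charP_quot_of_mem M0.asIdeal hM0
  let φ : ZMod m →+* (𝓞 K ⧸ M0.asIdeal) := ZMod.castHom (dvd_refl m) _
  have hφinj : Function.Injective φ := φ.injective
  have hφsurj : Function.Surjective φ := by
    have hcard : Nat.card (ZMod m) = Nat.card (𝓞 K ⧸ M0.asIdeal) := by
      rw [card_quot, absNorm_eq_of_dvd_sub_one M0 hm.out hM0 hpm, Nat.card_zmod]
    exact ((Nat.bijective_iff_injective_and_card φ).2 ⟨hφinj, hcard⟩).2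
  have hc : ∀ δ : Gal(K/ℚ), ∃ c : 𝓞 K, δ • γ - c ^ p ∈ M0.asIdeal := by
    intro δ
    have h1 : (m : 𝓞 K) ∈ (conjH δ⁻¹ M0).asIdeal := by
      rw [← val_lt_one_iff_mem, map_natCast, valuation_conjH_rat,
        ← map_natCast (algebraMap (𝓞 K) K), val_lt_one_iff_mem]
      exact hM0
    obtain ⟨c, hc⟩ := hγ _ h1
    refine ⟨δ • c, ?_⟩
    have h2 : δ • (γ - c ^ p) ∈ δ • (conjH δ⁻¹ M0).asIdeal :=
      Ideal.smul_mem_pointwise_smul _ _ _ hc
    rw [conjH_asIdeal, smul_inv_smul, smul_sub, smul_pow'] at h2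
    exact h2
  choose c hc using hc
  obtain ⟨b, hb⟩ := hφsurj (∏ δ : Gal(K/ℚ), Ideal.Quotient.mk M0.asIdeal (c δ))
  refine ⟨b, hφinj ?_⟩
  rw [map_pow, hb, map_intCast, ← map_intCast (Ideal.Quotient.mk M0.asIdeal),
    algebraMap_norm_eq_prod_smul, map_prod, ← Finset.prod_pow]
  apply Finset.prod_congr rfl
  intro δ _
  rw [← map_pow]
  exact (Ideal.Quotient.eq.2 (hc δ)).symm

/-- the same for the absolute value of the norm (`p` odd). -/
theorem natAbs_norm_isPow_zmod (hp2 : p ≠ 2) {m : ℕ} [hm : Fact m.Prime] (hpm : p ∣ m - 1)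
    (γ : 𝓞 K) (hγ : ∀ M : HeightOneSpectrum (𝓞 K), (m : 𝓞 K) ∈ M.asIdeal →
      ∃ c : 𝓞 K, γ - c ^ p ∈ M.asIdeal) :
    ∃ b : ZMod m, b ^ p = (((Algebra.norm ℤ γ : ℤ).natAbs : ℕ) : ZMod m) := by
  obtain ⟨b, hb⟩ := norm_isPow_zmod hpm γ hγ
  have hodd : Odd p := hp.out.odd_of_ne_two hp2
  rcases Int.natAbs_eq (Algebra.norm ℤ γ) with h | h
  · refine ⟨b, ?_⟩
    rw [hb]
    conv_lhs => rw [h]
    simp
  · refine ⟨-b, ?_⟩
    rw [hodd.neg_pow, hb]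
    conv_lhs => rw [h]
    simp

end Fermat.Agent.S14Lib
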