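import Fermat.Agent.S14.CrossEMul
import Fermat.Agent.S14.CrossENorm
import Fermat.Agent.S14.Approx

/-!
# S14, leaf L11a: (E), explicit reciprocity for `μ = g(χ)^p` over `F = K(x^(1/p))`
-/

namespace Fermat.Agent.S14Lib

open IsDedekindDomain NumberField WithZero

section

variable {K : Type*} [Field K] [NumberField K] {p : ℕ} [hp : Fact p.Prime]
  [hK : IsCyclotomicExtension {p} ℚ K] {F : Type*} [Field F] [NumberField F] [Algebra K F]

/-- `N_{F/ℚ} b` is a `p`-th power modulo `m` when all `M ∣ m` are totally ramified in `F / K`. -/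
theorem absNorm_span_isPow_zmod (hp2 : p ≠ 2) {ζ : K} (hζ : IsPrimitiveRoot ζ p) {m : ℕ}
    [hm : Fact m.Prime] (hpm : p ∣ m - 1) {x : K} {θ : F} (hθ : θ ^ p = algebraMap K F x)
    (htop : IntermediateField.adjoin K {θ} = ⊤) (hx : ∀ z : K, z ^ p ≠ x)
    (hram : ∀ M : HeightOneSpectrum (𝓞 K), (m : 𝓞 K) ∈ M.asIdeal →
      ∀ k : ℤ, M.valuation K x ≠ exp ((p : ℤ) * k)) (b : 𝓞 F) :
    ∃ t : ZMod m, t ^ p = ((Ideal.absNorm (Ideal.span {b}) : ℕ) : ZMod m) := by
  have h1 : Ideal.absNorm (Ideal.span {b})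
      = (Algebra.norm ℤ (Algebra.intNorm (𝓞 K) (𝓞 F) b)).natAbs := by
    rw [Ideal.absNorm_span_singleton, ← Algebra.intNorm_eq_norm, ← Algebra.intNorm_eq_norm,
      Algebra.intNorm_intNorm]
  rw [h1]
  apply natAbs_norm_isPow_zmod hp2 hpm
  intro M hM
  obtain ⟨⟨Q, hQ1, hQ2⟩⟩ := M.asIdeal.nonempty_primesOver (S := 𝓞 F)
  obtain ⟨-, -, -, -, -, h2⟩ := ramified_d hp.out hζ hθ htop hx M (hram M hM) Q
  obtain ⟨c, -, hc⟩ := h2 (algebraMap (𝓞 F) F b) ((hosOver M Q).valuation_le_one b)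
  refine ⟨c, ?_⟩
  rw [← val_lt_one_iff_mem, map_sub, map_pow, Algebra.algebraMap_intNorm (L := F)]
  exact hc

/-- **(E)** for integral `b` prime to `p m`. -/
theorem eProp_int (hp2 : p ≠ 2) {ζ : K} (hζ : IsPrimitiveRoot ζ p) {m : ℕ}
    [hm : Fact m.Prime] (hpm : p ∣ m - 1) {χ : MulChar (ZMod m) (𝓞 K)} (hχ : χ ^ p = 1)
    (hχ1 : χ ≠ 1) {x : K} {θ : F} (hθ : θ ^ p = algebraMap K F x)
    (htop : IntermediateField.adjoin K {θ} = ⊤) (hx : ∀ z : K, z ^ p ≠ x)
    (hram : ∀ M : HeightOneSpectrum (𝓞 K), (m : 𝓞 K) ∈ M.asIdeal →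
      ∀ k : ℤ, M.valuation K x ≠ exp ((p : ℤ) * k)) (b : 𝓞 F) (hb : b ≠ 0)
    (s : Finset (HeightOneSpectrum (𝓞 F))) (n : HeightOneSpectrum (𝓞 F) → ℕ)
    (hn : ∀ w, w.intValuation b = exp (-(n w : ℤ))) (hs : ∀ w, w ∉ s → n w = 0)
    (hpmw : ∀ w ∈ s, n w ≠ 0 → w.valuation F (p : F) = 1 ∧ w.valuation F (m : F) = 1) :
    ∑ w ∈ s, (n w : ZMod p) * sym p (algebraMap K F ζ) w
      (algebraMap K F (algebraMap (𝓞 K) K (gaussPow p χ))) = 0 := by
  have hζF : IsPrimitiveRoot (algebraMap K F ζ) p :=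
    hζ.map_of_injective (algebraMap K F).injective
  have hinj : Function.Injective (algebraMap (𝓞 K) (𝓞 F)) :=
    FaithfulSMul.algebraMap_injective _ _
  set χF : MulChar (ZMod m) (𝓞 F) := χ.ringHomComp (algebraMap (𝓞 K) (𝓞 F)) with hχF
  have hχFp : χF ^ p = 1 := by
    rw [hχF, MulChar.ringHomComp_pow, hχ, MulChar.ringHomComp_one]
  have hχF1 : χF ≠ 1 := (MulChar.ringHomComp_ne_one_iff hinj).2 hχ1
  have hμ : algebraMap K F (algebraMap (𝓞 K) K (gaussPow p χ))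
      = algebraMap (𝓞 F) F (gaussPow p χF) := by
    rw [hχF, ← map_gaussPow, ← IsScalarTower.algebraMap_apply, ← IsScalarTower.algebraMap_apply]
  rw [hμ]
  apply sum_sym_gaussPow hζF hχFp hχF1 b hb s n hn hs hpmw
  obtain ⟨t, ht⟩ := absNorm_span_isPow_zmod hp2 hζ hpm hθ htop hx hram b
  have h2 := mulChar_prod_absNorm hζF hχFp hχF1 s n hpmw
  rw [← absNorm_span_eq_prod_pow b hb s n hn hs, ← ht] at h2
  rw [← ht]
  have htu : IsUnit t := by
    by_contra hnu
    have h3 : ¬ IsUnit (t ^ p) := fun h => hnu ((isUnit_pow_iff hp.out.ne_zero).1 h)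
    rw [MulChar.map_nonunit χF h3, map_zero] at h2
    exact (pow_ne_zero _ (hζF.ne_zero hp.out.ne_zero)) h2.symm
  rw [map_pow, ← htu.unit_spec]
  exact mulChar_apply_pow_eq_one hχFp htu.unit

theorem exists_nat_intValuation (d : 𝓞 F) (hd : d ≠ 0) (w : HeightOneSpectrum (𝓞 F)) :
    ∃ a : ℕ, w.intValuation d = exp (-(a : ℤ)) :=
  ⟨_, w.intValuation_if_neg hd⟩

/-- **(E)**: explicit reciprocity for `μ = g(χ)^p` over `F = K(x^(1/p))`, all `M ∣ m` being
totally ramified in `F`. -/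
theorem eProp (hp2 : p ≠ 2) {ζ : K} (hζ : IsPrimitiveRoot ζ p) {m : ℕ}
    [hm : Fact m.Prime] (hpm : p ∣ m - 1) {χ : MulChar (ZMod m) (𝓞 K)} (hχ : χ ^ p = 1)
    (hχ1 : χ ≠ 1) {x : K} {θ : F} (hθ : θ ^ p = algebraMap K F x)
    (htop : IntermediateField.adjoin K {θ} = ⊤) (hx : ∀ z : K, z ^ p ≠ x)
    (hram : ∀ M : HeightOneSpectrum (𝓞 K), (m : 𝓞 K) ∈ M.asIdeal →
      ∀ k : ℤ, M.valuation K x ≠ exp ((p : ℤ) * k)) (β : F) (hβ : β ≠ 0)
    (hβu : ∀ w : HeightOneSpectrum (𝓞 F), w.valuation F ((p : F) * (m : F)) < 1 →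
      w.valuation F β = 1)
    (s : Finset (HeightOneSpectrum (𝓞 F))) (n : HeightOneSpectrum (𝓞 F) → ℤ)
    (hn : ∀ w, w.valuation F β = exp (-(n w))) (hs : ∀ w, w ∉ s → n w = 0) :
    ∑ w ∈ s, (n w : ZMod p) * sym p (algebraMap K F ζ) w
      (algebraMap K F (algebraMap (𝓞 K) K (gaussPow p χ))) = 0 := by
  classical
  have hpm0 : (p : F) * (m : F) ≠ 0 :=
    mul_ne_zero (Nat.cast_ne_zero.2 hp.out.ne_zero) (Nat.cast_ne_zero.2 hm.out.ne_zero)
  have hfin : {w : HeightOneSpectrum (𝓞 F) | w.valuation F ((p : F) * (m : F)) ≠ 1}.Finite :=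
    finite_val_ne_one hpm0
  -- clear denominators by a `p`-th power prime to `p m`
  obtain ⟨d, hd0, hd⟩ := exists_intVal_eq (s ∪ hfin.toFinset) (fun w => (-(n w)).toNat)
  choose a ha using exists_nat_intValuation d hd0
  have hdF : algebraMap (𝓞 F) F d ≠ 0 := by
    rwa [Ne, map_eq_zero_iff _ RingOfIntegers.coe_injective]
  have hdfin : {w : HeightOneSpectrum (𝓞 F) | w.valuation F (algebraMap (𝓞 F) F d) ≠ 1}.Finite :=
    finite_val_ne_one hdF
  have hval : ∀ w, w.valuation F (β * algebraMap (𝓞 F) F d ^ p)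
      = exp (-(n w + (p : ℤ) * a w)) := by
    intro w
    rw [map_mul, map_pow, hn w, val_algebraMap_eq_intVal, ha w, ← exp_nsmul, ← exp_add]
    congr 1
    simp only [nsmul_eq_mul]
    ring
  have ha' : ∀ w ∈ s ∪ hfin.toFinset, a w = (-(n w)).toNat := by
    intro w hw
    have h1 := hd w hw
    rw [ha w, exp_inj, neg_inj] at h1
    exact_mod_cast h1
  have hnonneg : ∀ w, 0 ≤ n w + (p : ℤ) * a w := by
    intro w
    have hp1 : (1 : ℤ) ≤ p := by exact_mod_cast hp.out.one_lt.le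
    have ha0 : (0 : ℤ) ≤ a w := Int.natCast_nonneg _
    by_cases hw : w ∈ s
    · have h1 := ha' w (Finset.mem_union_left _ hw)
      have h2 : -(n w) ≤ ((-(n w)).toNat : ℤ) := Int.self_le_toNat _
      rw [← h1] at h2
      nlinarith
    · rw [hs w hw, zero_add]
      positivity
  obtain ⟨b, hb⟩ : ∃ b : 𝓞 F, algebraMap (𝓞 F) F b = β * algebraMap (𝓞 F) F d ^ p := by
    apply HeightOneSpectrum.mem_integers_of_valuation_le_one
    intro w
    rw [hval w, ← exp_zero, exp_le_exp]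
    have := hnonneg w
    omega
  have hb0 : b ≠ 0 := by
    rintro rfl
    rw [map_zero] at hb
    exact (mul_ne_zero hβ (pow_ne_zero _ hdF)) hb.symm
  set N : HeightOneSpectrum (𝓞 F) → ℕ := fun w => (n w + (p : ℤ) * a w).toNat with hN
  have hNcast : ∀ w, ((N w : ℕ) : ℤ) = n w + (p : ℤ) * a w := fun w =>
    Int.toNat_of_nonneg (hnonneg w)
  have hbN : ∀ w, w.intValuation b = exp (-(N w : ℤ)) := by
    intro w
    rw [← val_algebraMap_eq_intVal, hb, hval w, hNcast w]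
  set s' := s ∪ hdfin.toFinset with hs'
  have hs'N : ∀ w, w ∉ s' → N w = 0 := by
    intro w hw
    rw [hs', Finset.mem_union, not_or] at hw
    have h1 : w.valuation F (algebraMap (𝓞 F) F d) = 1 := by
      by_contra h
      exact hw.2 (hdfin.mem_toFinset.2 h)
    rw [val_algebraMap_eq_intVal, ha w, ← exp_zero, exp_inj] at h1
    have h2 : a w = 0 := by omega
    simp [hN, hs w hw.1, h2]
  have hgood : ∀ w ∈ s', N w ≠ 0 → w.valuation F (p : F) = 1 ∧ w.valuation F (m : F) = 1 := by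
    intro w _ hNw
    by_contra hcon
    apply hNw
    have h1 : w.valuation F ((p : F) * (m : F)) < 1 := by
      rw [map_mul]
      rcases not_and_or.1 hcon with h | h
      · exact mul_lt_one_of_lt_of_le (lt_of_le_of_ne (val_natCast_le_one w p) h)
          (val_natCast_le_one w m)
      · rw [mul_comm]
        exact mul_lt_one_of_lt_of_le (lt_of_le_of_ne (val_natCast_le_one w m) h)
          (val_natCast_le_one w p)
    have h2 := hβu w h1
    rw [hn w, ← exp_zero, exp_inj] at h2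
    have h3 : n w = 0 := by omega
    have h4 := ha' w (Finset.mem_union_right _ (hfin.mem_toFinset.2 h1.ne))
    rw [h3] at h4
    simp [hN, h3, h4]
  have key := eProp_int hp2 hζ hpm hχ hχ1 hθ htop hx hram b hb0 s' N hbN hs'N hgood
  have hcast : ∀ w, ((N w : ℕ) : ZMod p) = ((n w : ℤ) : ZMod p) := by
    intro w
    have h1 : (((N w : ℕ) : ℤ) : ZMod p) = ((n w + (p : ℤ) * a w : ℤ) : ZMod p) := by
      rw [hNcast w]
    push_cast at h1
    rw [h1]
    simp
  simp only [hcast] at key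
  rw [← key]
  apply Finset.sum_subset Finset.subset_union_left
  intro w _ hw
  rw [hs w hw]
  simp

end

end Fermat.Agent.S14Lib
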