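import Fermat.Agent.S14.SymbolLocal

/-!
# S14, leaf L11: definitions (divisor language) used by the crossing argument.

`ordv w y : ℤ` is the additive valuation.  `InPN p ζ α B D` says that the divisor `D` lies in
`P + NG_B(α)`: principal divisors plus divisors which are divisible by `p` at every prime except
possibly at primes `w ∉ B`, `w ∤ p α`, with trivial symbol `(α / w)`.
-/

namespace Fermat.Agent.S14Lib

open IsDedekindDomain NumberField

section

variable {F : Type*} [Field F] [NumberField F]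

/-- the additive valuation `ord_w y` (junk value `0` at `y = 0`). -/
noncomputable def ordv (w : HeightOneSpectrum (𝓞 F)) (y : F) : ℤ :=
  - WithZero.log (w.valuation F y)

theorem val_eq_exp_ordv (w : HeightOneSpectrum (𝓞 F)) {y : F} (hy : y ≠ 0) :
    w.valuation F y = WithZero.exp (-(ordv w y)) := by
  rw [ordv, neg_neg, WithZero.exp_log ((Valuation.ne_zero_iff _).2 hy)]

theorem ordv_eq_of_val (w : HeightOneSpectrum (𝓞 F)) {y : F} {n : ℤ}
    (h : w.valuation F y = WithZero.exp (-n)) : ordv w y = n := by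
  rw [ordv, h, WithZero.log_exp, neg_neg]

theorem ordv_eq_of_val' (w : HeightOneSpectrum (𝓞 F)) {y : F} {n : ℤ}
    (h : w.valuation F y = WithZero.exp n) : ordv w y = -n := by
  rw [ordv, h, WithZero.log_exp]

theorem ordv_mul (w : HeightOneSpectrum (𝓞 F)) {x y : F} (hx : x ≠ 0) (hy : y ≠ 0) :
    ordv w (x * y) = ordv w x + ordv w y := by
  rw [ordv, ordv, ordv, map_mul, WithZero.log_mul ((Valuation.ne_zero_iff _).2 hx)
    ((Valuation.ne_zero_iff _).2 hy)]
  ring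

theorem ordv_inv (w : HeightOneSpectrum (𝓞 F)) (x : F) : ordv w x⁻¹ = - ordv w x := by
  rw [ordv, ordv, map_inv₀, WithZero.log_inv]

theorem ordv_div (w : HeightOneSpectrum (𝓞 F)) {x y : F} (hx : x ≠ 0) (hy : y ≠ 0) :
    ordv w (x / y) = ordv w x - ordv w y := by
  rw [div_eq_mul_inv, ordv_mul w hx (inv_ne_zero hy), ordv_inv]
  ring

theorem ordv_pow (w : HeightOneSpectrum (𝓞 F)) (x : F) (n : ℕ) :
    ordv w (x ^ n) = n * ordv w x := by
  rw [ordv, ordv, map_pow, WithZero.log_pow]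
  simp

theorem ordv_zpow (w : HeightOneSpectrum (𝓞 F)) (x : F) (n : ℤ) :
    ordv w (x ^ n) = n * ordv w x := by
  rw [ordv, ordv, map_zpow₀, WithZero.log_zpow]
  simp

@[simp] theorem ordv_one (w : HeightOneSpectrum (𝓞 F)) : ordv w (1 : F) = 0 := by
  rw [ordv, map_one, WithZero.log_one, neg_zero]

theorem ordv_eq_zero_iff (w : HeightOneSpectrum (𝓞 F)) {y : F} (hy : y ≠ 0) :
    ordv w y = 0 ↔ w.valuation F y = 1 := by
  rw [val_eq_exp_ordv w hy, WithZero.exp_eq_one, neg_eq_zero]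

theorem finite_ordv_ne_zero {y : F} (hy : y ≠ 0) :
    {w : HeightOneSpectrum (𝓞 F) | ordv w y ≠ 0}.Finite := by
  have h1 := HeightOneSpectrum.Support.finite (𝓞 F) y
  have h2 := HeightOneSpectrum.Support.finite (𝓞 F) y⁻¹
  apply (h1.union h2).subset
  intro v hv
  have hv' : v.valuation F y ≠ 1 := fun h => hv ((ordv_eq_zero_iff v hy).2 h)
  rcases lt_or_gt_of_ne hv' with h | h
  · right
    show 1 < v.valuation F y⁻¹
    rw [map_inv₀]
    exact (one_lt_inv₀ (zero_lt_iff.2 ((Valuation.ne_zero_iff _).2 hy))).2 h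
  · left
    exact h

open Classical in
/-- the divisor of `y`. -/
noncomputable def dvv (y : F) : HeightOneSpectrum (𝓞 F) →₀ ℤ :=
  if hy : y ≠ 0 then Finsupp.ofSupportFinite (fun w => ordv w y) (finite_ordv_ne_zero hy) else 0

theorem dvv_apply {y : F} (hy : y ≠ 0) (w : HeightOneSpectrum (𝓞 F)) : dvv y w = ordv w y := by
  rw [dvv, dif_pos hy]
  rfl

/-- hypothesis `(H α)` of the blueprint. -/
def HAlphaV (p : ℕ) (α : F) : Prop :=
  (∀ q : HeightOneSpectrum (𝓞 F), ∃ k : ℤ, q.valuation F α = WithZero.exp ((p : ℤ) * k)) ∧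
  (∀ v : HeightOneSpectrum (𝓞 F), (p : 𝓞 F) ∈ v.asIdeal → ∀ M : ℕ, ∃ y : F, y ≠ 0 ∧
      v.valuation F (α / y ^ p - 1) ≤ WithZero.exp (-(M : ℤ)))

/-- `w` is a "good split" prime for `α`: `w ∤ p α` and `(α / w) = 1`. -/
def GoodSplit (p : ℕ) [Fact p.Prime] (ζ α : F) (w : HeightOneSpectrum (𝓞 F)) : Prop :=
  w.valuation F (p : F) = 1 ∧ w.valuation F α = 1 ∧ sym p ζ w α = 0

/-- `D ∈ P + NG_B(α)`. -/
def InPN (p : ℕ) [Fact p.Prime] (ζ α : F) (B : Set (HeightOneSpectrum (𝓞 F)))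
    (D : HeightOneSpectrum (𝓞 F) → ℤ) : Prop :=
  ∃ y : F, y ≠ 0 ∧ ∀ w, ((p : ℤ) ∣ D w - ordv w y) ∨ (w ∉ B ∧ GoodSplit p ζ α w)

end

/-- **SI** in the shape used by the crossing argument. -/
def SIProp (p : ℕ) [Fact p.Prime] : Prop :=
  ∀ (F : Type) [Field F] [NumberField F] (ζ : F) (_ : IsPrimitiveRoot ζ p) (α : F)
    (_ : HAlphaV p α) (_ : ∀ z : F, z ^ p ≠ α) (B : Set (HeightOneSpectrum (𝓞 F))) (_ : B.Finite)
    (D0 D : HeightOneSpectrum (𝓞 F) →₀ ℤ), ¬ InPN p ζ α B D0 →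
    ∃ k : ℤ, InPN p ζ α B (D - k • D0)

/-- **FI** (unramified case) in the shape used by the crossing argument. -/
def FIProp (p : ℕ) [Fact p.Prime] : Prop :=
  ∀ (F : Type) [Field F] [NumberField F] (ζ : F) (_ : IsPrimitiveRoot ζ p) (α : F)
    (_ : HAlphaV p α) (_ : ∀ z : F, z ^ p ≠ α),
    ∃ D : HeightOneSpectrum (𝓞 F) →₀ ℤ, ¬ InPN p ζ α ∅ D

/-- weak approximation for valuations. -/
def ApproxProp : Prop :=
  ∀ (F : Type) [Field F] [NumberField F] (S : Finset (HeightOneSpectrum (𝓞 F)))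
    (n : HeightOneSpectrum (𝓞 F) → ℤ), ∃ y : F, y ≠ 0 ∧ ∀ v ∈ S, ordv v y = n v

end Fermat.Agent.S14Lib
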