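import Mathlib

/-!
# S14 : class group generation (CLGEN) and weak approximation for valuations (APPROX)
-/

set_option autoImplicit false
set_option linter.style.haveILetI false
set_option linter.unusedSectionVars false

open NumberField IsDedekindDomain nonZeroDivisors

namespace Fermat.Agent.S14Lib

section general
variable {R K : Type*} [CommRing R] [IsDedekindDomain R] [Field K] [Algebra R K]
  [IsFractionRing R K] (v : HeightOneSpectrum R)

theorem intValuation_eq_exp_neg_count {a : R} (ha : a ≠ 0) :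
    v.intValuation a =
      WithZero.exp (-(FractionalIdeal.count K v ((Ideal.span {a} : Ideal R) : FractionalIdeal R⁰ K))) := by
  classical
  rw [FractionalIdeal.count_coe K v (by simpa using ha), v.intValuation_if_neg ha]

theorem valuation_eq_exp_neg_count {x : K} (hx : x ≠ 0) :
    v.valuation K x = WithZero.exp (-(FractionalIdeal.count K v (FractionalIdeal.spanSingleton R⁰ x))) := by
  obtain ⟨a, b, hb, rfl⟩ := IsFractionRing.div_surjective (A := R) x
  have hb0 : b ≠ 0 := nonZeroDivisors.ne_zero hb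
  have ha0 : a ≠ 0 := by
    rintro rfl
    simp at hx
  have hA : (FractionalIdeal.spanSingleton R⁰ (algebraMap R K a)) =
      ((Ideal.span {a} : Ideal R) : FractionalIdeal R⁰ K) := by
    rw [FractionalIdeal.coeIdeal_span_singleton]
  have hB : (FractionalIdeal.spanSingleton R⁰ (algebraMap R K b)) =
      ((Ideal.span {b} : Ideal R) : FractionalIdeal R⁰ K) := by
    rw [FractionalIdeal.coeIdeal_span_singleton]
  have h1 : FractionalIdeal.spanSingleton R⁰ (algebraMap R K a / algebraMap R K b) =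
      ((Ideal.span {a} : Ideal R) : FractionalIdeal R⁰ K) *
        ((Ideal.span {b} : Ideal R) : FractionalIdeal R⁰ K)⁻¹ := by
    rw [← hA, ← hB, FractionalIdeal.spanSingleton_inv, FractionalIdeal.spanSingleton_mul_spanSingleton,
      div_eq_mul_inv]
  have hA0 : ((Ideal.span {a} : Ideal R) : FractionalIdeal R⁰ K) ≠ 0 := by
    rw [Ne, FractionalIdeal.coeIdeal_eq_zero]; simpa using ha0
  have hB0 : ((Ideal.span {b} : Ideal R) : FractionalIdeal R⁰ K) ≠ 0 := by
    rw [Ne, FractionalIdeal.coeIdeal_eq_zero]; simpa using hb0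
  rw [h1, FractionalIdeal.count_mul K v hA0 (inv_ne_zero hB0), FractionalIdeal.count_inv, map_div₀,
    v.valuation_of_algebraMap, v.valuation_of_algebraMap,
    intValuation_eq_exp_neg_count (K := K) v ha0, intValuation_eq_exp_neg_count (K := K) v hb0,
    ← WithZero.exp_sub]
  congr 1
  ring

end general

variable {F : Type*} [Field F] [NumberField F]

/-- (CLGEN) -/
theorem exists_clgen (S0 : Finset (HeightOneSpectrum (𝓞 F))) :
    ∃ S : Finset (HeightOneSpectrum (𝓞 F)), S0 ⊆ S ∧ ∀ D : HeightOneSpectrum (𝓞 F) →₀ ℤ,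
      ∃ y : Fˣ, ∀ v, v ∉ S → v.valuation F (y : F) = WithZero.exp (-(D v)) := by
  classical
  choose J hJ using (ClassGroup.mk0_surjective (R := 𝓞 F))
  have hfin : ∀ c : ClassGroup (𝓞 F), {v : HeightOneSpectrum (𝓞 F) | v.asIdeal ∣ (J c : Ideal (𝓞 F))}.Finite :=
    fun c => Ideal.finite_factors (nonZeroDivisors.ne_zero (J c).2)
  refine ⟨S0 ∪ Finset.univ.biUnion (fun c => (hfin c).toFinset), Finset.subset_union_left, ?_⟩
  intro D
  set 𝔞 : FractionalIdeal (𝓞 F)⁰ F := D.prod (HeightOneSpectrum.asIdeal · ^ ·) with h𝔞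
  have h𝔞0 : 𝔞 ≠ 0 := by
    rw [h𝔞, Finsupp.prod, Finset.prod_ne_zero_iff]
    intro v _
    exact zpow_ne_zero _ (FractionalIdeal.coeIdeal_ne_zero.mpr v.ne_bot)
  set c : ClassGroup (𝓞 F) := (ClassGroup.mk F (Units.mk0 𝔞 h𝔞0))⁻¹ with hc
  have h1 : ClassGroup.mk F (Units.mk0 𝔞 h𝔞0 * FractionalIdeal.mk0 F (J c)) = 1 := by
    rw [map_mul, ClassGroup.mk_mk0, hJ, hc, mul_inv_cancel]
  rw [ClassGroup.mk_eq_one_iff] at h1
  have h2 : ((Units.mk0 𝔞 h𝔞0 * FractionalIdeal.mk0 F (J c) : (FractionalIdeal (𝓞 F)⁰ F)ˣ) :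
      FractionalIdeal (𝓞 F)⁰ F) = 𝔞 * ((J c : Ideal (𝓞 F)) : FractionalIdeal (𝓞 F)⁰ F) := by
    simp
  obtain ⟨y, hy⟩ := (FractionalIdeal.isPrincipal_iff _).mp h1
  rw [h2] at hy
  have hJ0 : ((J c : Ideal (𝓞 F)) : FractionalIdeal (𝓞 F)⁰ F) ≠ 0 :=
    FractionalIdeal.coeIdeal_ne_zero.mpr (nonZeroDivisors.ne_zero (J c).2)
  have hy0 : y ≠ 0 := by
    rintro rfl
    rw [FractionalIdeal.spanSingleton_zero] at hy
    exact mul_ne_zero h𝔞0 hJ0 hy
  refine ⟨Units.mk0 y hy0, fun v hv => ?_⟩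
  rw [Units.val_mk0, valuation_eq_exp_neg_count v hy0, ← hy, FractionalIdeal.count_mul F v h𝔞0 hJ0,
    h𝔞, FractionalIdeal.count_finsuppProd]
  have h3 : ¬ v.asIdeal ∣ (J c : Ideal (𝓞 F)) := by
    intro hdvd
    apply hv
    apply Finset.mem_union_right
    rw [Finset.mem_biUnion]
    exact ⟨c, Finset.mem_univ _, (hfin c).mem_toFinset.mpr hdvd⟩
  have h4 : FractionalIdeal.count F v ((J c : Ideal (𝓞 F)) : FractionalIdeal (𝓞 F)⁰ F) = 0 := by
    rw [FractionalIdeal.count_coe F v (nonZeroDivisors.ne_zero (J c).2), Nat.cast_eq_zero]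
    by_contra hne
    apply h3
    exact (Associates.count_ne_zero_iff_dvd (nonZeroDivisors.ne_zero (J c).2) v.irreducible).mp hne
  rw [h4, add_zero]

end Fermat.Agent.S14Lib
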