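import Mathlib
import Fermat.Agent.S14.Splitting

/-!
# S14, leaf L7 (part 2): places of `Y` above places of `F`, Galois action, integer valuations
-/

set_option linter.unusedSectionVars false

namespace Fermat.Agent.S14Lib

namespace FI

open IsDedekindDomain NumberField Ideal WithZero
open scoped Pointwise

section Vz

variable {K : Type*} [Field K] [NumberField K]

/-- the integer `v`-adic valuation of a nonzero element (`valuation = exp vz`) -/
noncomputable def vz (v : HeightOneSpectrum (𝓞 K)) (x : Kˣ) : ℤ :=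
  Multiplicative.toAdd (v.valuationOfNeZero x)

theorem valuation_eq_exp_vz (v : HeightOneSpectrum (𝓞 K)) (x : Kˣ) :
    v.valuation K (x : K) = exp (vz v x) := by
  rw [← HeightOneSpectrum.valuationOfNeZero_eq]
  rfl

theorem vz_eq_iff (v : HeightOneSpectrum (𝓞 K)) (x : Kˣ) (n : ℤ) :
    vz v x = n ↔ v.valuation K (x : K) = exp n := by
  rw [valuation_eq_exp_vz, exp_inj]

theorem vz_mul (v : HeightOneSpectrum (𝓞 K)) (x y : Kˣ) : vz v (x * y) = vz v x + vz v y := by
  simp [vz]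

theorem vz_one (v : HeightOneSpectrum (𝓞 K)) : vz v (1 : Kˣ) = 0 := by
  simp [vz]

theorem vz_inv (v : HeightOneSpectrum (𝓞 K)) (x : Kˣ) : vz v x⁻¹ = - vz v x := by
  simp [vz]

theorem vz_div (v : HeightOneSpectrum (𝓞 K)) (x y : Kˣ) : vz v (x / y) = vz v x - vz v y := by
  simp [vz]

theorem vz_pow (v : HeightOneSpectrum (𝓞 K)) (x : Kˣ) (n : ℕ) : vz v (x ^ n) = n * vz v x := by
  simp [vz]

theorem vz_prod {ι : Type*} (v : HeightOneSpectrum (𝓞 K)) (s : Finset ι) (f : ι → Kˣ) :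
    vz v (∏ i ∈ s, f i) = ∑ i ∈ s, vz v (f i) := by
  simp [vz]

theorem vz_eq_zero_iff (v : HeightOneSpectrum (𝓞 K)) (x : Kˣ) :
    vz v x = 0 ↔ v.valuation K (x : K) = 1 := by
  rw [vz_eq_iff, exp_zero]

theorem finite_vz_ne_zero (x : Kˣ) : {v : HeightOneSpectrum (𝓞 K) | vz v x ≠ 0}.Finite := by
  refine ((HeightOneSpectrum.Support.finite (𝓞 K) (x : K)).union
    (HeightOneSpectrum.Support.finite (𝓞 K) ((x⁻¹ : Kˣ) : K))).subset ?_
  intro v hv
  simp only [Set.mem_ofPred_eq, ne_eq, vz_eq_zero_iff] at hv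
  rcases lt_or_gt_of_ne hv with h | h
  · right
    change 1 < v.valuation K ((x⁻¹ : Kˣ) : K)
    rw [Units.val_inv_eq_inv_val, map_inv₀]
    exact (one_lt_inv₀ ((Valuation.pos_iff _).mpr x.ne_zero)).mpr h
  · left
    exact h

theorem mem_unit_iff (S : Set (HeightOneSpectrum (𝓞 K))) (x : Kˣ) :
    x ∈ S.unit K ↔ ∀ v ∉ S, vz v x = 0 := by
  simp only [vz_eq_zero_iff]
  rfl

end Vz

section Galois

variable {F Y : Type*} [Field F] [NumberField F] [Field Y] [NumberField Y] [Algebra F Y]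

/-- the place of `F` below a place of `Y` -/
noncomputable def below (w : HeightOneSpectrum (𝓞 Y)) : HeightOneSpectrum (𝓞 F) :=
  ⟨w.asIdeal.under (𝓞 F), have := w.isPrime; inferInstance, fun h =>
    w.ne_bot (Ideal.eq_bot_of_comap_eq_bot h)⟩

instance liesOver_below (w : HeightOneSpectrum (𝓞 Y)) :
    w.asIdeal.LiesOver (below (F := F) w).asIdeal := ⟨rfl⟩

theorem below_eq_of_liesOver (w : HeightOneSpectrum (𝓞 Y)) (v : HeightOneSpectrum (𝓞 F))
    [h : w.asIdeal.LiesOver v.asIdeal] : below w = v :=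
  HeightOneSpectrum.ext h.over.symm

theorem liesOver_of_below_eq {w : HeightOneSpectrum (𝓞 Y)} {v : HeightOneSpectrum (𝓞 F)}
    (h : below w = v) : w.asIdeal.LiesOver v.asIdeal := by
  subst h; infer_instance

/-- there is a place above every place -/
theorem exists_above (v : HeightOneSpectrum (𝓞 F)) :
    ∃ w : HeightOneSpectrum (𝓞 Y), below w = v := by
  have : v.asIdeal.IsMaximal := v.isMaximal
  obtain ⟨⟨Q, hQ1, hQ2⟩⟩ := (inferInstance : Nonempty (primesOver v.asIdeal (𝓞 Y)))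
  exact ⟨hosOver v Q, below_eq_of_liesOver _ v⟩

/-- ramification index of `w` over `F` -/
noncomputable def eIdx (F : Type*) [Field F] [NumberField F] [Algebra F Y]
    (w : HeightOneSpectrum (𝓞 Y)) : ℕ := w.asIdeal.ramificationIdx (𝓞 F)

theorem vz_algebraMap (w : HeightOneSpectrum (𝓞 Y)) (c : Fˣ) :
    vz w (Units.map (algebraMap F Y : F →* Y) c) = eIdx F w * vz (below w) c := by
  rw [vz_eq_iff, Units.coe_map, MonoidHom.coe_coe, val_over (below w) w, valuation_eq_exp_vz,
    ← exp_nsmul]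
  simp [eIdx]

theorem eIdx_ne_zero (w : HeightOneSpectrum (𝓞 Y)) : eIdx F w ≠ 0 := by
  have := w.isPrime
  have h := Ideal.IsDedekindDomain.ramificationIdx'_ne_zero_of_liesOver w.asIdeal
    (below (F := F) w).ne_bot
  rwa [ramificationIdx'_eq_ramificationIdx (below (F := F) w).asIdeal w.asIdeal
    (below (F := F) w).ne_bot] at h

/-- Galois action on places -/
noncomputable def gsm (τ : Gal(Y/F)) (w : HeightOneSpectrum (𝓞 Y)) : HeightOneSpectrum (𝓞 Y) :=
  ⟨τ • w.asIdeal, have := w.isPrime; inferInstance, by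
    intro h
    apply w.ne_bot
    have h2 : τ⁻¹ • (τ • w.asIdeal) = τ⁻¹ • (⊥ : Ideal (𝓞 Y)) := by rw [h]
    rw [inv_smul_smul] at h2
    rw [h2]
    simp [Ideal.pointwise_smul_def]⟩

theorem gsm_asIdeal (τ : Gal(Y/F)) (w : HeightOneSpectrum (𝓞 Y)) :
    (gsm τ w).asIdeal = τ • w.asIdeal := rfl

theorem gsm_one (w : HeightOneSpectrum (𝓞 Y)) : gsm (1 : Gal(Y/F)) w = w :=
  HeightOneSpectrum.ext (by rw [gsm_asIdeal, one_smul])

theorem gsm_mul (τ τ' : Gal(Y/F)) (w : HeightOneSpectrum (𝓞 Y)) :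
    gsm (τ * τ') w = gsm τ (gsm τ' w) :=
  HeightOneSpectrum.ext (by simp only [gsm_asIdeal, mul_smul])

theorem below_gsm [IsGalois F Y] (τ : Gal(Y/F)) (w : HeightOneSpectrum (𝓞 Y)) :
    below (F := F) (gsm τ w) = below w := by
  have := w.isPrime
  have h : (τ • w.asIdeal).LiesOver (below (F := F) w).asIdeal := inferInstance
  exact HeightOneSpectrum.ext h.over.symm

theorem intValuation_gsm_le (τ : Gal(Y/F)) (w : HeightOneSpectrum (𝓞 Y)) (b : 𝓞 Y) :
    (gsm τ w).intValuation (τ • b) ≤ w.intValuation b := by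
  rcases eq_or_ne b 0 with rfl | hb
  · simp
  rw [w.intValuation_eq_exp_neg_multiplicity hb, (gsm τ w).intValuation_le_pow_iff_mem]
  have h1 : b ∈ w.asIdeal ^ (multiplicity w.asIdeal (Ideal.span {b})) := by
    rw [← w.intValuation_le_pow_iff_mem, w.intValuation_eq_exp_neg_multiplicity hb]
  have h2 : τ • b ∈ τ • (w.asIdeal ^ (multiplicity w.asIdeal (Ideal.span {b}))) :=
    Ideal.smul_mem_pointwise_smul _ _ _ h1
  rwa [Ideal.pointwise_smul_def, Ideal.map_pow, ← Ideal.pointwise_smul_def] at h2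

theorem intValuation_gsm (τ : Gal(Y/F)) (w : HeightOneSpectrum (𝓞 Y)) (b : 𝓞 Y) :
    (gsm τ w).intValuation (τ • b) = w.intValuation b := by
  refine le_antisymm (intValuation_gsm_le τ w b) ?_
  have h := intValuation_gsm_le τ⁻¹ (gsm τ w) (τ • b)
  rwa [← gsm_mul, inv_mul_cancel, gsm_one, inv_smul_smul] at h

theorem valuation_gsm (τ : Gal(Y/F)) (w : HeightOneSpectrum (𝓞 Y)) (a : Y) :
    (gsm τ w).valuation Y (τ a) = w.valuation Y a := by
  obtain ⟨b, c, hc, rfl⟩ := IsFractionRing.div_surjective (A := 𝓞 Y) a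
  rw [← AlgEquiv.smul_def, smul_div₀', ← algebraMap.coe_smul', ← algebraMap.coe_smul', map_div₀,
    map_div₀, HeightOneSpectrum.valuation_of_algebraMap, HeightOneSpectrum.valuation_of_algebraMap,
    HeightOneSpectrum.valuation_of_algebraMap, HeightOneSpectrum.valuation_of_algebraMap,
    intValuation_gsm, intValuation_gsm]

theorem vz_gsm (τ : Gal(Y/F)) (w : HeightOneSpectrum (𝓞 Y)) (a : Yˣ) :
    vz (gsm τ w) (Units.map (τ : Y →* Y) a) = vz w a := by
  rw [vz_eq_iff, Units.coe_map]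
  change (gsm τ w).valuation Y (τ (a : Y)) = _
  rw [valuation_gsm, valuation_eq_exp_vz]

/-- transitivity of the Galois action on the places above a given place -/
theorem exists_gsm_eq [IsGalois F Y] (w w' : HeightOneSpectrum (𝓞 Y))
    (h : below (F := F) w = below w') : ∃ τ : Gal(Y/F), gsm τ w = w' := by
  have := w.isPrime
  have := w'.isPrime
  have h1 : w.asIdeal.LiesOver (below (F := F) w').asIdeal := liesOver_of_below_eq h
  obtain ⟨τ, hτ⟩ := Ideal.exists_smul_eq_of_isGaloisGroup (below (F := F) w').asIdeal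
    w.asIdeal w'.asIdeal Gal(Y/F)
  exact ⟨τ, HeightOneSpectrum.ext hτ⟩

end Galois

end FI

end Fermat.Agent.S14Lib
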