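import Mathlib

/-!
# S14, leaf L5: the Herbrand quotient of a finitely generated abelian group with an
action of a cyclic group of prime order (abstract, Mathlib only).
-/

namespace Fermat.Agent.S14Lib

namespace Herbrand

section index

variable {A A' : Type*} [AddCommGroup A] [AddCommGroup A']

/-- Lang's index lemma. -/
theorem relIndex_eq_ker_mul_map (f : A →+ A') {B B' : AddSubgroup A} (h : B ≤ B') :
    B.relIndex B' = (B ⊓ f.ker).relIndex (B' ⊓ f.ker) * (B.map f).relIndex (B'.map f) := by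
  have h1 : (B.map f).relIndex (B'.map f) = (B ⊔ (f.ker ⊓ B')).relIndex B' := by
    rw [AddSubgroup.relIndex_map_map]
    have e1 : B' ⊔ f.ker = B' ⊔ (B ⊔ f.ker) := by
      rw [← sup_assoc, sup_eq_left.mpr h]
    rw [e1, AddSubgroup.relIndex_sup_right, ← AddSubgroup.inf_relIndex_right]
    congr 1
    exact (sup_inf_assoc_of_le f.ker h)
  have h2 : (B ⊓ f.ker).relIndex (B' ⊓ f.ker) = B.relIndex (B ⊔ (f.ker ⊓ B')) := by
    rw [AddSubgroup.relIndex_sup_left, ← AddSubgroup.inf_relIndex_right B (f.ker ⊓ B')]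
    have e2 : B ⊓ (f.ker ⊓ B') = B ⊓ f.ker := by
      rw [← inf_assoc, inf_right_comm, inf_eq_left.mpr h]
    rw [e2, inf_comm f.ker B']
  rw [h1, h2]
  exact (AddSubgroup.relIndex_mul_relIndex _ _ _ le_sup_left
    (sup_le h inf_le_right)).symm

end index

section compare

variable {A : Type*} [AddCommGroup A]

/-- `hq f g B = [B ∩ ker f : g B]`. -/
noncomputable def hq (f g : A →+ A) (B : AddSubgroup A) : ℕ :=
  (B.map g).relIndex (B ⊓ f.ker)

theorem hq_mul (f g : A →+ A) (hfg : ∀ x, f (g x) = 0) {B B' : AddSubgroup A} (h : B ≤ B')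
    (hB : B.map g ≤ B) (hB' : B'.map g ≤ B') :
    hq f g B' * (B.map g).relIndex (B'.map g) =
      (B ⊓ f.ker).relIndex (B' ⊓ f.ker) * hq f g B := by
  have k1 : ∀ C : AddSubgroup A, C.map g ≤ C → C.map g ≤ C ⊓ f.ker := by
    intro C hC
    refine le_inf hC ?_
    rintro _ ⟨x, -, rfl⟩
    exact hfg x
  unfold hq
  rw [mul_comm, AddSubgroup.relIndex_mul_relIndex _ _ _ (AddSubgroup.map_mono h) (k1 B' hB'),
    mul_comm, AddSubgroup.relIndex_mul_relIndex _ _ _ (k1 B hB) (inf_le_inf_right _ h)]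

/-- Invariance of the Herbrand quotient under passing to a subgroup of finite index. -/
theorem hq_compare (f g : A →+ A) (hfg : ∀ x, f (g x) = 0) (hgf : ∀ x, g (f x) = 0)
    {B B' : AddSubgroup A} (h : B ≤ B') (hn : B.relIndex B' ≠ 0)
    (hBf : B.map f ≤ B) (hBg : B.map g ≤ B) (hBf' : B'.map f ≤ B') (hBg' : B'.map g ≤ B') :
    hq f g B' * hq g f B = hq f g B * hq g f B' ∧
      (hq f g B' ≠ 0 ↔ hq f g B ≠ 0) ∧ (hq g f B' ≠ 0 ↔ hq g f B ≠ 0) := by
  have e1 := relIndex_eq_ker_mul_map f h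
  have e2 := relIndex_eq_ker_mul_map g h
  have e3 := hq_mul f g hfg h hBg hBg'
  have e4 := hq_mul g f hgf h hBf hBf'
  set n := B.relIndex B'
  set x := (B ⊓ f.ker).relIndex (B' ⊓ f.ker)
  set y := (B.map f).relIndex (B'.map f)
  set z := (B ⊓ g.ker).relIndex (B' ⊓ g.ker)
  set w := (B.map g).relIndex (B'.map g)
  have hx : x ≠ 0 := fun h0 => hn (by rw [e1, h0, zero_mul])
  have hy : y ≠ 0 := fun h0 => hn (by rw [e1, h0, mul_zero])
  have hz : z ≠ 0 := fun h0 => hn (by rw [e2, h0, zero_mul])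
  have hw : w ≠ 0 := fun h0 => hn (by rw [e2, h0, mul_zero])
  refine ⟨?_, ?_, ?_⟩
  · have : (hq f g B' * hq g f B) * n = (hq f g B * hq g f B') * n := by
      calc (hq f g B' * hq g f B) * n = (hq f g B' * w) * (z * hq g f B) := by rw [e2]; ring
        _ = (x * hq f g B) * (hq g f B' * y) := by rw [e3, e4]
        _ = (hq f g B * hq g f B') * n := by rw [e1]; ring
    exact Nat.eq_of_mul_eq_mul_right (Nat.pos_of_ne_zero hn) this
  · constructor
    · intro h1 h2
      rw [h2, mul_zero] at e3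
      exact (mul_ne_zero h1 hw) e3
    · intro h1 h2
      rw [h2, zero_mul] at e3
      exact (mul_ne_zero hx h1) e3.symm
  · constructor
    · intro h1 h2
      rw [h2, mul_zero] at e4
      exact (mul_ne_zero h1 hy) e4
    · intro h1 h2
      rw [h2, zero_mul] at e4
      exact (mul_ne_zero hz h1) e4.symm

end compare

section main

open Polynomial Module

variable {A : Type*} [AddCommGroup A]

theorem poly_identity (p : ℕ) (hp : p.Prime) :
    ∃ u v e : ℤ[X], (∑ i ∈ Finset.range p, (X : ℤ[X]) ^ i) = C (p : ℤ) * u + (X - 1) ^ (p - 1) ∧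
      u * v = 1 + e * ∑ i ∈ Finset.range p, (X : ℤ[X]) ^ i := by
  have : Fact p.Prime := ⟨hp⟩
  set N : ℤ[X] := ∑ i ∈ Finset.range p, (X : ℤ[X]) ^ i with hN
  have h1 : C (p : ℤ) ∣ N - (X - 1) ^ (p - 1) := by
    rw [Polynomial.C_dvd_iff_dvd_coeff]
    intro i
    rw [← ZMod.intCast_zmod_eq_zero_iff_dvd]
    have : (N - (X - 1) ^ (p - 1)).map (Int.castRingHom (ZMod p)) = 0 := by
      have h2 : ((X : (ZMod p)[X]) - 1) * (N - (X - 1) ^ (p - 1)).map (Int.castRingHom (ZMod p)) = 0 := by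
        simp only [hN, Polynomial.map_sub, Polynomial.map_sum, Polynomial.map_pow, Polynomial.map_X,
          Polynomial.map_one]
        rw [mul_sub, mul_geom_sum, ← pow_succ', Nat.sub_add_cancel hp.one_lt.le, sub_pow_char]
        simp
      rcases mul_eq_zero.mp h2 with h3 | h3
      · exact absurd h3 (Polynomial.X_sub_C_ne_zero (1 : ZMod p))
      · exact h3
    have h4 := congrArg (fun q => q.coeff i) this
    rw [Polynomial.coeff_map] at h4
    simpa using h4
  obtain ⟨u, hu⟩ := h1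
  have hu' : N = C (p : ℤ) * u + (X - 1) ^ (p - 1) := by rw [← hu]; ring
  have hu1 : u.eval 1 = 1 := by
    have := congrArg (Polynomial.eval 1) hu'
    simp only [hN, Polynomial.eval_finsetSum, Polynomial.eval_pow, Polynomial.eval_X, one_pow,
      Finset.sum_const, Finset.card_range, Polynomial.eval_add, Polynomial.eval_mul,
      Polynomial.eval_C, Polynomial.eval_sub, Polynomial.eval_one, sub_self] at this
    rw [zero_pow (Nat.sub_ne_zero_of_lt hp.one_lt)] at this
    have hp0 : (p : ℤ) ≠ 0 := by exact_mod_cast hp.ne_zero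
    apply mul_left_cancel₀ hp0
    simpa using this.symm
  obtain ⟨c, hc⟩ : (X - C (1 : ℤ)) ∣ u - 1 := by
    rw [Polynomial.dvd_iff_isRoot]
    simp [hu1]
  have hc' : u = 1 - (-((X - 1) * c)) := by
    have : u - 1 = (X - 1) * c := by simpa using hc
    rw [sub_neg_eq_add, ← this]; ring
  refine ⟨u, (∑ k ∈ Finset.range (p - 1), (-((X - 1) * c)) ^ k) - C (p : ℤ) * (-c) ^ (p - 1),
    -(-c) ^ (p - 1), hu', ?_⟩
  have h5 : u * (∑ k ∈ Finset.range (p - 1), (-((X - 1) * c)) ^ k) =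
      1 - (-((X - 1) * c)) ^ (p - 1) := by
    conv_lhs => rw [hc']
    exact mul_neg_geom_sum _ _
  have h6 : (-((X - 1) * c)) ^ (p - 1) = (-c) ^ (p - 1) * (N - C (p : ℤ) * u) := by
    rw [hu']
    rw [add_sub_cancel_left, ← mul_pow]
    congr 1
    ring
  rw [mul_sub, h5, h6]
  ring

theorem iter_map_le (D : A →+ A) (X : AddSubgroup A) (hX : X.map D ≤ X) (k : ℕ) :
    (AddSubgroup.map D)^[k] X ≤ X := by
  induction k with
  | zero => exact le_rfl
  | succ k ih =>
    rw [Function.iterate_succ_apply']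
    exact (AddSubgroup.map_mono ih).trans hX

theorem mem_iter_map (D : A →+ A) (X : AddSubgroup A) (k : ℕ) (y : A) :
    y ∈ (AddSubgroup.map D)^[k] X ↔ ∃ x ∈ X, D^[k] x = y := by
  induction k generalizing y with
  | zero => simp
  | succ k ih =>
    rw [Function.iterate_succ_apply', AddSubgroup.mem_map]
    constructor
    · rintro ⟨z, hz, rfl⟩
      obtain ⟨x, hx, rfl⟩ := (ih z).mp hz
      exact ⟨x, hx, Function.iterate_succ_apply' _ _ _⟩
    · rintro ⟨x, hx, rfl⟩
      exact ⟨D^[k] x, (ih _).mpr ⟨x, hx, rfl⟩, (Function.iterate_succ_apply' _ _ _).symm⟩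

theorem relIndex_iter_map (D : A →+ A) (X : AddSubgroup A) (hX : X.map D ≤ X)
    (hker : X ⊓ D.ker = ⊥) (k : ℕ) :
    ((AddSubgroup.map D)^[k] X).relIndex X = ((X.map D).relIndex X) ^ k := by
  induction k with
  | zero => simp
  | succ k ih =>
    have hle := iter_map_le D X hX k
    have e2 := relIndex_eq_ker_mul_map D hle
    rw [hker, AddSubgroup.relIndex_bot_right, one_mul] at e2
    rw [Function.iterate_succ_apply',
      ← AddSubgroup.relIndex_mul_relIndex _ _ _ (AddSubgroup.map_mono hle) hX, ← e2, ih,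
      pow_succ]

theorem core (p : ℕ) (hp : p.Prime) (S : Module.End ℤ A) (D : A →+ A) (hD : ∀ x, D x = S x - x)
    (Y : AddSubgroup A) [Module.IsTorsionFree ℤ Y.toIntSubmodule]
    [Module.Finite ℤ Y.toIntSubmodule]
    (hst : ∀ (q : ℤ[X]), ∀ x ∈ Y, aeval S q x ∈ Y)
    (hN : ∀ x ∈ Y, (∑ i ∈ Finset.range p, (S ^ i) x) = 0) :
    ((Y.map D).relIndex Y) ^ (p - 1) = p ^ (Module.finrank ℤ Y) := by
  have hDa : ∀ x, aeval S (X - 1 : ℤ[X]) x = D x := by
    intro x; simp [hD]
  have hDk : ∀ k x, aeval S ((X - 1 : ℤ[X]) ^ k) x = D^[k] x := by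
    intro k x
    rw [map_pow, Module.End.pow_apply]
    have : ⇑(aeval S (X - 1 : ℤ[X])) = ⇑D := funext hDa
    rw [this]
  have hNa : ∀ x, aeval S (∑ i ∈ Finset.range p, (X : ℤ[X]) ^ i) x =
      ∑ i ∈ Finset.range p, (S ^ i) x := by
    intro x; simp [map_sum, LinearMap.sum_apply]
  have hYD : Y.map D ≤ Y := by
    rintro _ ⟨x, hx, rfl⟩
    rw [← hDa]
    exact hst _ x hx
  have htf : ∀ x ∈ Y, p • x = 0 → x = 0 := by
    intro x hx h0
    have h1 : (p : ℤ) • (⟨x, hx⟩ : Y.toIntSubmodule) = 0 := by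
      apply Subtype.ext
      simpa using h0
    have h2 := (smul_eq_zero_iff_right (by exact_mod_cast hp.ne_zero)).mp h1
    exact congrArg Subtype.val h2
  have hker : Y ⊓ D.ker = ⊥ := by
    rw [eq_bot_iff]
    rintro x ⟨hx, hx2⟩
    have hx3 : S x = x := by
      have : D x = 0 := hx2
      rw [hD, sub_eq_zero] at this
      exact this
    have hx4 : ∀ i : ℕ, (S ^ i) x = x := by
      intro i
      induction i with
      | zero => simp
      | succ i ih => rw [pow_succ, Module.End.mul_apply, hx3, ih]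
    have := hN x hx
    simp only [hx4, Finset.sum_const, Finset.card_range] at this
    exact htf x hx this
  obtain ⟨u, v, e, h1, h2⟩ := poly_identity p hp
  have h1' : ∀ x ∈ Y, p • (aeval S u x) + D^[p - 1] x = 0 := by
    intro x hx
    have := congrArg (fun q => aeval S q x) h1
    beta_reduce at this
    rw [hNa, hN x hx, map_add, LinearMap.add_apply, hDk, map_mul, Module.End.mul_apply] at this
    rw [this]
    simp
  have h2' : ∀ x ∈ Y, aeval S u (aeval S v x) = x := by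
    intro x hx
    have := congrArg (fun q => aeval S q x) h2
    beta_reduce at this
    rw [map_mul, Module.End.mul_apply, map_add, LinearMap.add_apply, map_mul,
      Module.End.mul_apply, hNa, hN x hx] at this
    simpa using this
  have key : (AddSubgroup.map D)^[p - 1] Y = Y.map (nsmulAddMonoidHom (α := A) p) := by
    ext y
    rw [mem_iter_map, AddSubgroup.mem_map]
    constructor
    · rintro ⟨x, hx, rfl⟩
      refine ⟨-(aeval S u x), Y.neg_mem (hst u x hx), ?_⟩
      have := h1' x hx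
      simp only [nsmulAddMonoidHom_apply, smul_neg]
      rw [neg_eq_iff_add_eq_zero]
      exact this
    · rintro ⟨x, hx, rfl⟩
      refine ⟨-(aeval S v x), Y.neg_mem (hst v x hx), ?_⟩
      have := h1' _ (hst v x hx)
      rw [h2' x hx] at this
      rw [iterate_map_neg, neg_eq_iff_add_eq_zero, add_comm]
      simpa using this
  rw [← relIndex_iter_map D Y hYD hker, key]
  exact AddSubgroup.relIndex_map_nsmul p Y

theorem int_rank_nullity {M N : Type*} [AddCommGroup M] [AddCommGroup N] [Module.Finite ℤ M]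
    (f : M →ₗ[ℤ] N) :
    finrank ℤ (LinearMap.range f) + finrank ℤ (LinearMap.ker f) = finrank ℤ M := by
  rw [← f.quotKerEquivRange.finrank_eq]
  exact Submodule.finrank_quotient_add_finrank _

theorem finrank_eq_of_nsmul_le [Module.Finite ℤ A] {S S' : AddSubgroup A} (h : S ≤ S') (k : ℕ)
    (hk : k ≠ 0) (hS : ∀ x ∈ S', k • x ∈ S) : finrank ℤ S = finrank ℤ S' := by
  have hk' : (k : ℤ) ≠ 0 := by exact_mod_cast hk
  apply le_antisymm
  · exact Submodule.finrank_mono (s := S.toIntSubmodule) (t := S'.toIntSubmodule) h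
  · let φ : S'.toIntSubmodule →ₗ[ℤ] A := (k : ℤ) • S'.toIntSubmodule.subtype
    have h1 := int_rank_nullity φ
    have h2 : finrank ℤ (LinearMap.ker φ) = 0 := by
      apply Module.IsTorsion.finrank_eq_zero
      intro x
      refine ⟨⟨(k : ℤ), mem_nonZeroDivisors_of_ne_zero hk'⟩, ?_⟩
      have hx : φ x.1 = 0 := x.2
      apply Subtype.ext
      apply Subtype.ext
      simpa [φ] using hx
    have h3 : LinearMap.range φ ≤ S.toIntSubmodule := by
      rintro _ ⟨x, rfl⟩
      have := hS x.1 x.2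
      have e : φ x = k • x.1 := by simp [φ]
      rw [e]
      exact this
    have h4 := Submodule.finrank_mono h3
    rw [h2, add_zero] at h1
    rw [h1] at h4
    exact h4

theorem exists_kill_torsion (A : Type*) [AddCommGroup A] [Module.Finite ℤ A] :
    ∃ m : ℕ, m ≠ 0 ∧ ∀ x : A, ∀ k : ℕ, k ≠ 0 → k • x = 0 → m • x = 0 := by
  have hfin : Finite (Submodule.torsion ℤ A) :=
    Module.finite_of_fg_torsion _ (Submodule.torsion_isTorsion)
  refine ⟨Nat.card (Submodule.torsion ℤ A), Nat.card_pos.ne', ?_⟩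
  intro x k hk hx
  have hk' : (k : ℤ) ≠ 0 := by exact_mod_cast hk
  have hmem : x ∈ Submodule.torsion ℤ A := by
    rw [Submodule.mem_torsion_iff]
    refine ⟨⟨(k : ℤ), mem_nonZeroDivisors_of_ne_zero hk'⟩, ?_⟩
    simpa using hx
  have := card_nsmul_eq_zero' (x := (⟨x, hmem⟩ : Submodule.torsion ℤ A))
  exact congrArg Subtype.val this

theorem index_ne_zero_of_nsmul_mem [Module.Finite ℤ A] (H : AddSubgroup A) (k : ℕ) (hk : k ≠ 0)
    (h : ∀ x : A, k • x ∈ H) : H.index ≠ 0 := by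
  have hk' : (k : ℤ) ≠ 0 := by exact_mod_cast hk
  rw [AddSubgroup.index_ne_zero_iff_finite]
  have : Finite (A ⧸ H.toIntSubmodule) := by
    apply Module.finite_of_fg_torsion
    intro x
    refine ⟨⟨(k : ℤ), mem_nonZeroDivisors_of_ne_zero hk'⟩, ?_⟩
    obtain ⟨y, rfl⟩ := Submodule.Quotient.mk_surjective _ x
    change (k : ℤ) • (Submodule.Quotient.mk y : A ⧸ H.toIntSubmodule) = 0
    rw [← Submodule.Quotient.mk_smul, Submodule.Quotient.mk_eq_zero]
    have := h y
    rw [natCast_zsmul]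
    exact this
  exact this

theorem isTorsionFree_of (Y : AddSubgroup A)
    (h : ∀ x ∈ Y, ∀ k : ℕ, k ≠ 0 → k • x = 0 → x = 0) :
    Module.IsTorsionFree ℤ Y.toIntSubmodule := by
  apply Module.IsTorsionFree.of_smul_eq_zero
  intro r x hx
  by_cases hr : r = 0
  · exact Or.inl hr
  · right
    apply Subtype.ext
    apply h x.1 x.2 r.natAbs (Int.natAbs_ne_zero.mpr hr)
    have h1 : r • x.1 = 0 := congrArg Subtype.val hx
    rcases Int.natAbs_eq r with h2 | h2
    · rw [h2, natCast_zsmul] at h1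
      exact h1
    · rw [h2, neg_smul, natCast_zsmul, neg_eq_zero] at h1
      exact h1

theorem herbrand_fg [Module.Finite ℤ A] (p : ℕ) (hp : p.Prime) (s D Nm : A →+ A)
    (hs : ∀ x, s^[p] x = x) (hD : ∀ x, D x = s x - x)
    (hNm : ∀ x, Nm x = ∑ i ∈ Finset.range p, s^[i] x) :
    Nm.range.relIndex D.ker ≠ 0 ∧ D.range.relIndex Nm.ker ≠ 0 ∧
    (Nm.range.relIndex D.ker) ^ (p - 1) * p ^ (finrank ℤ A) =
      (D.range.relIndex Nm.ker) ^ (p - 1) * p ^ (p * finrank ℤ D.ker) := by
  set S : Module.End ℤ A := s.toIntLinearMap with hS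
  have hSi : ∀ (i : ℕ) x, (S ^ i) x = s^[i] x := by
    intro i x
    rw [Module.End.pow_apply]
    rfl
  have hshift : ∀ x, ∑ i ∈ Finset.range p, s^[i + 1] x = ∑ i ∈ Finset.range p, s^[i] x := by
    intro x
    have h1 := Finset.sum_range_succ (fun i => s^[i] x) p
    have h2 := Finset.sum_range_succ' (fun i => s^[i] x) p
    rw [h1] at h2
    simp only [hs, Function.iterate_zero, id_eq] at h2
    exact (add_right_cancel h2).symm
  have F1 : ∀ x, D (Nm x) = 0 := by
    intro x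
    rw [hD, hNm, map_sum, sub_eq_zero, ← hshift]
    exact Finset.sum_congr rfl (fun i _ => (Function.iterate_succ_apply' _ _ _).symm)
  have F2 : ∀ x, Nm (D x) = 0 := by
    intro x
    rw [hD, map_sub, sub_eq_zero, hNm, hNm x, ← hshift x]
    exact Finset.sum_congr rfl (fun i _ => (Function.iterate_succ_apply _ _ _).symm)
  have F3 : ∀ x, D x = 0 → Nm x = p • x := by
    intro x hx
    have hx3 : s x = x := by
      rw [hD, sub_eq_zero] at hx
      exact hx
    have hx4 : ∀ i : ℕ, s^[i] x = x := fun i => Function.iterate_fixed hx3 i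
    rw [hNm]
    simp only [hx4, Finset.sum_const, Finset.card_range]
  obtain ⟨m, hm0, hm⟩ := exists_kill_torsion A
  set A₀ : AddSubgroup A := (nsmulAddMonoidHom (α := A) m).range with hA₀
  have G0 : ∀ x, m • x ∈ A₀ := fun x => ⟨x, rfl⟩
  have G1 : ∀ φ : A →+ A, ∀ x ∈ A₀, φ x ∈ A₀ := by
    rintro φ _ ⟨y, rfl⟩
    exact ⟨φ y, by simp⟩
  have G2 : ∀ x ∈ A₀, ∀ k : ℕ, k ≠ 0 → k • x = 0 → x = 0 := by
    rintro _ ⟨y, rfl⟩ k hk h0
    simp only [nsmulAddMonoidHom_apply] at h0 ⊢
    rw [← mul_nsmul'] at h0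
    exact hm y (k * m) (mul_ne_zero hk hm0) h0
  set P : AddSubgroup A := A₀ ⊓ D.ker with hP
  set Y : AddSubgroup A := A₀ ⊓ Nm.ker with hY
  set B : AddSubgroup A := P ⊔ Y with hB
  have I1 : ∀ x ∈ A₀, D x = 0 → Nm x = 0 → x = 0 := by
    intro x hx h1 h2
    rw [F3 x h1] at h2
    exact G2 x hx p hp.ne_zero h2
  have I2 : B ⊓ D.ker = P := by
    apply le_antisymm
    · rintro x ⟨hx1, hx2⟩
      obtain ⟨u, hu, v, hv, rfl⟩ := AddSubgroup.mem_sup.mp hx1
      have h1 : D v = 0 := by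
        have : D (u + v) = 0 := hx2
        rw [map_add, (show D u = 0 from hu.2), zero_add] at this
        exact this
      rw [I1 v hv.1 h1 hv.2, add_zero]
      exact hu
    · exact le_inf le_sup_left inf_le_right
  have I3 : B ⊓ Nm.ker = Y := by
    apply le_antisymm
    · rintro x ⟨hx1, hx2⟩
      obtain ⟨u, hu, v, hv, rfl⟩ := AddSubgroup.mem_sup.mp hx1
      have h1 : Nm u = 0 := by
        have : Nm (u + v) = 0 := hx2
        rw [map_add, (show Nm v = 0 from hv.2), add_zero] at this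
        exact this
      rw [I1 u hu.1 hu.2 h1, zero_add]
      exact hv
    · exact le_inf le_sup_right inf_le_right
  have I4 : B.map Nm = P.map (nsmulAddMonoidHom (α := A) p) := by
    rw [hB, AddSubgroup.map_sup]
    have h1 : Y.map Nm = ⊥ := by
      rw [eq_bot_iff]
      rintro _ ⟨x, hx, rfl⟩
      exact hx.2
    rw [h1, sup_bot_eq]
    ext y
    simp only [AddSubgroup.mem_map]
    constructor
    · rintro ⟨x, hx, rfl⟩
      exact ⟨x, hx, (F3 x hx.2).symm⟩
    · rintro ⟨x, hx, rfl⟩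
      exact ⟨x, hx, (F3 x hx.2)⟩
  have I5 : B.map D = Y.map D := by
    rw [hB, AddSubgroup.map_sup]
    have h1 : P.map D = ⊥ := by
      rw [eq_bot_iff]
      rintro _ ⟨x, hx, rfl⟩
      exact hx.2
    rw [h1, bot_sup_eq]
  have I6 : B.index ≠ 0 := by
    apply index_ne_zero_of_nsmul_mem B (p * m) (mul_ne_zero hp.ne_zero hm0)
    intro x
    have e : (p * m) • x = Nm (m • x) + (p • (m • x) - Nm (m • x)) := by
      rw [mul_nsmul']; abel
    rw [e]
    refine B.add_mem (AddSubgroup.mem_sup_left ⟨G1 Nm _ (G0 x), F1 _⟩)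
      (AddSubgroup.mem_sup_right ⟨?_, ?_⟩)
    · exact A₀.sub_mem (A₀.nsmul_mem (G0 x) p) (G1 Nm _ (G0 x))
    · change Nm _ = 0
      rw [map_sub, map_nsmul, F3 _ (F1 _), sub_self]
  have I7 : B.map Nm ≤ B := by
    rw [I4]
    rintro _ ⟨x, hx, rfl⟩
    exact AddSubgroup.mem_sup_left (P.nsmul_mem hx p)
  have I8 : B.map D ≤ B := by
    rw [I5]
    rintro _ ⟨x, hx, rfl⟩
    exact AddSubgroup.mem_sup_right ⟨G1 D x hx.1, F2 x⟩
  have tfP : Module.IsTorsionFree ℤ P.toIntSubmodule := isTorsionFree_of P (fun x hx => G2 x hx.1)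
  have tfY : Module.IsTorsionFree ℤ Y.toIntSubmodule := isTorsionFree_of Y (fun x hx => G2 x hx.1)
  have hNa : ∀ x, aeval S (∑ i ∈ Finset.range p, (X : ℤ[X]) ^ i) x = Nm x := by
    intro x
    rw [hNm]
    simp [map_sum, LinearMap.sum_apply, hSi]
  have c1 : ((Y.map D).relIndex Y) ^ (p - 1) = p ^ (finrank ℤ Y) := by
    apply core p hp S D (fun x => hD x) Y
    · intro q x hx
      refine ⟨G1 (aeval S q).toAddMonoidHom x hx.1, ?_⟩
      change Nm _ = 0
      rw [← hNa, ← Module.End.mul_apply, ← map_mul, mul_comm, map_mul, Module.End.mul_apply, hNa,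
        (show Nm x = 0 from hx.2), map_zero]
    · intro x hx
      have : Nm x = 0 := hx.2
      rw [hNm] at this
      simpa [hSi] using this
  have c2 : (P.map (nsmulAddMonoidHom (α := A) p)).relIndex P = p ^ (finrank ℤ P) :=
    AddSubgroup.relIndex_map_nsmul p P
  have r1 : finrank ℤ P = finrank ℤ D.ker :=
    finrank_eq_of_nsmul_le inf_le_right m hm0 (fun x hx => ⟨G0 x, D.ker.nsmul_mem hx m⟩)
  have r2 : finrank ℤ Y = finrank ℤ Nm.ker :=
    finrank_eq_of_nsmul_le inf_le_right m hm0 (fun x hx => ⟨G0 x, Nm.ker.nsmul_mem hx m⟩)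
  have r3 : finrank ℤ Nm.range = finrank ℤ D.ker := by
    apply finrank_eq_of_nsmul_le _ p hp.ne_zero
    · intro x hx
      exact ⟨x, F3 x hx⟩
    · rintro _ ⟨x, rfl⟩
      exact F1 x
  have r4 : finrank ℤ Nm.range + finrank ℤ Nm.ker = finrank ℤ A :=
    int_rank_nullity Nm.toIntLinearMap
  have cmp := hq_compare D Nm F1 F2 (le_top : B ≤ ⊤)
    (by rw [AddSubgroup.relIndex_top_right]; exact I6) I8 I7 le_top le_top
  have t1 : hq D Nm ⊤ = Nm.range.relIndex D.ker := by
    unfold hq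
    rw [top_inf_eq, AddMonoidHom.range_eq_map]
  have t2 : hq Nm D ⊤ = D.range.relIndex Nm.ker := by
    unfold hq
    rw [top_inf_eq, AddMonoidHom.range_eq_map]
  have t3 : hq D Nm B = p ^ (finrank ℤ D.ker) := by
    unfold hq
    rw [I2, I4, c2, r1]
  have t4 : hq Nm D B = (Y.map D).relIndex Y := by
    unfold hq
    rw [I3, I5]
  rw [t1, t2, t3, t4] at cmp
  obtain ⟨cmp1, cmp2, cmp3⟩ := cmp
  set t := (Y.map D).relIndex Y
  set h0 := Nm.range.relIndex D.ker
  set h1 := D.range.relIndex Nm.ker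
  set a := finrank ℤ D.ker
  have ht : t ≠ 0 := by
    intro h
    rw [h, zero_pow (Nat.sub_ne_zero_of_lt hp.one_lt)] at c1
    exact (pow_ne_zero _ hp.ne_zero) c1.symm
  refine ⟨cmp2.mpr (pow_ne_zero _ hp.ne_zero), cmp3.mpr ht, ?_⟩
  rw [← r4, r3, ← r2, add_comm, pow_add, ← mul_assoc, ← c1, ← mul_pow, cmp1, mul_pow, ← pow_mul]
  have : p * a = a * (p - 1) + a := by
    obtain ⟨k, rfl⟩ : ∃ k, p = k + 1 := ⟨p - 1, (Nat.sub_add_cancel hp.one_lt.le).symm⟩
    simp only [Nat.add_sub_cancel]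
    ring
  rw [this, pow_add]
  ring

/-- `herbrand_fg` in the shape `h0 * p ^ k = h1 * p ^ a` when `rank A = a + k (p - 1)`,
`a = rank A^s`. -/
theorem herbrand_fg' [Module.Finite ℤ A] (p : ℕ) (hp : p.Prime) (s D Nm : A →+ A)
    (hs : ∀ x, s^[p] x = x) (hD : ∀ x, D x = s x - x)
    (hNm : ∀ x, Nm x = ∑ i ∈ Finset.range p, s^[i] x) (a k : ℕ)
    (ha : finrank ℤ D.ker = a) (hb : finrank ℤ A = a + k * (p - 1)) :
    Nm.range.relIndex D.ker ≠ 0 ∧ D.range.relIndex Nm.ker ≠ 0 ∧
    Nm.range.relIndex D.ker * p ^ k = D.range.relIndex Nm.ker * p ^ a := by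
  obtain ⟨h1, h2, h3⟩ := herbrand_fg p hp s D Nm hs hD hNm
  refine ⟨h1, h2, ?_⟩
  rw [ha, hb] at h3
  have hp1 : p - 1 ≠ 0 := Nat.sub_ne_zero_of_lt hp.one_lt
  have e : p * a = a + a * (p - 1) := by
    obtain ⟨j, rfl⟩ : ∃ j, p = j + 1 := ⟨p - 1, (Nat.sub_add_cancel hp.one_lt.le).symm⟩
    simp only [Nat.add_sub_cancel]
    ring
  rw [e, pow_add, pow_add, pow_mul, pow_mul] at h3
  have h4 : (Nm.range.relIndex D.ker * p ^ k) ^ (p - 1) * p ^ a =
      (D.range.relIndex Nm.ker * p ^ a) ^ (p - 1) * p ^ a := by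
    rw [mul_pow, mul_pow]
    calc _ = Nm.range.relIndex D.ker ^ (p - 1) * (p ^ a * (p ^ k) ^ (p - 1)) := by ring
      _ = D.range.relIndex Nm.ker ^ (p - 1) * (p ^ a * (p ^ a) ^ (p - 1)) := h3
      _ = _ := by ring
  have h5 := Nat.eq_of_mul_eq_mul_right (pow_pos hp.pos a) h4
  exact Nat.pow_left_injective (n := p - 1) hp1 h5

/-- The shape with `AddMonoid.End`. -/
theorem herbrand_end [Module.Finite ℤ A] (p : ℕ) [Fact p.Prime] (s : AddMonoid.End A)
    (hs : s ^ p = 1) (a k : ℕ)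
    (ha : finrank ℤ (AddMonoidHom.ker (s - 1 : AddMonoid.End A)) = a)
    (hb : finrank ℤ A = a + k * (p - 1)) :
    (AddMonoidHom.range (∑ i ∈ Finset.range p, s ^ i : AddMonoid.End A)).relIndex
        (AddMonoidHom.ker (s - 1 : AddMonoid.End A)) ≠ 0 ∧
      (AddMonoidHom.range (s - 1 : AddMonoid.End A)).relIndex
        (AddMonoidHom.ker (∑ i ∈ Finset.range p, s ^ i : AddMonoid.End A)) ≠ 0 ∧
      (AddMonoidHom.range (∑ i ∈ Finset.range p, s ^ i : AddMonoid.End A)).relIndex
        (AddMonoidHom.ker (s - 1 : AddMonoid.End A)) * p ^ k =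
      (AddMonoidHom.range (s - 1 : AddMonoid.End A)).relIndex
        (AddMonoidHom.ker (∑ i ∈ Finset.range p, s ^ i : AddMonoid.End A)) * p ^ a := by
  have hpow : ∀ (i : ℕ) (x : A), (s ^ i) x = s^[i] x := by
    intro i x
    rw [AddMonoid.End.coe_pow]
  refine herbrand_fg' p (Fact.out) s (s - 1 : AddMonoid.End A)
    (∑ i ∈ Finset.range p, s ^ i : AddMonoid.End A) ?_ ?_ ?_ a k ha hb
  · intro x
    have h1 := hpow p x
    rw [hs] at h1
    exact h1.symm
  · intro x
    rfl
  · intro x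
    have : (∑ i ∈ Finset.range p, s ^ i : AddMonoid.End A) x =
        ∑ i ∈ Finset.range p, (s ^ i) x := by
      exact AddMonoidHom.finsetSum_apply _ _ _
    exact this.trans (Finset.sum_congr rfl (fun i _ => hpow i x))

end main

end Herbrand

end Fermat.Agent.S14Lib
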