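import Mathlib

/-!
# S14, leaf L7 (part 1): finite generation and rank of the group of `S`-units
-/

namespace Fermat.Agent.S14Lib

open IsDedekindDomain NumberField Module

theorem finrank_of_ker_range {A E ι : Type*} [AddCommGroup A] [AddCommGroup E] [Fintype ι]
    [DecidableEq ι] [Module.Finite ℤ E] (g : E →ₗ[ℤ] A) (hg : Function.Injective g)
    (f : A →ₗ[ℤ] (ι → ℤ)) (hgf : LinearMap.range g = LinearMap.ker f)
    (h : ℤ) (h0 : h ≠ 0) (hf : ∀ i, ∃ a, f a = Pi.single i h) :
    Module.Finite ℤ A ∧ Module.finrank ℤ A = Module.finrank ℤ E + Fintype.card ι := by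
  have hfin : Module.Finite ℤ A := by
    constructor
    apply Submodule.fg_of_fg_map_of_fg_inf_ker f
    · exact IsNoetherian.noetherian _
    · rw [top_inf_eq, ← hgf, LinearMap.range_eq_map]
      exact Submodule.FG.map g Module.Finite.fg_top
  refine ⟨hfin, ?_⟩
  have h1 : finrank ℤ (LinearMap.range f) + finrank ℤ (LinearMap.ker f) = finrank ℤ A := by
    have e1 := (LinearMap.ker f).finrank_quotient_add_finrank
    rw [LinearEquiv.finrank_eq f.quotKerEquivRange] at e1
    exact e1
  have h2 : finrank ℤ (LinearMap.ker f) = finrank ℤ E := by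
    rw [← hgf]; exact LinearMap.finrank_range_of_inj hg
  have h3 : finrank ℤ (LinearMap.range f) = Fintype.card ι := by
    apply le_antisymm
    · have := Submodule.finrank_le (LinearMap.range f)
      simpa using this
    · have hmem : ∀ x : ι → ℤ, (LinearMap.lsmul ℤ (ι → ℤ) h) x ∈ LinearMap.range f := by
        intro x
        have hx : (LinearMap.lsmul ℤ (ι → ℤ) h) x = ∑ i, x i • (Pi.single i h : ι → ℤ) := by
          funext j
          simp [Finset.sum_apply, Pi.single_apply, mul_comm]
        rw [hx]
        refine Submodule.sum_mem _ (fun i _ => Submodule.smul_mem _ _ ?_)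
        obtain ⟨a, ha⟩ := hf i
        exact ⟨a, ha⟩
      have hinj : Function.Injective
          ((LinearMap.lsmul ℤ (ι → ℤ) h).codRestrict (LinearMap.range f) hmem) := by
        intro x y hxy
        have := congrArg Subtype.val hxy
        simp only [LinearMap.codRestrict_apply, LinearMap.lsmul_apply] at this
        exact smul_right_injective _ h0 this
      have := LinearMap.finrank_le_finrank_of_injective hinj
      simpa using this
  omega

section SUnit

variable (K : Type*) [Field K] [NumberField K]

/-- an element of `Kˣ` all of whose finite valuations are `1` comes from a unit of `𝓞 K` -/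
theorem exists_unit_of_valuation_eq_one (x : Kˣ)
    (hx : ∀ v : HeightOneSpectrum (𝓞 K), v.valuation K (x : K) = 1) :
    ∃ u : (𝓞 K)ˣ, Units.map (algebraMap (𝓞 K) K : 𝓞 K →* K) u = x := by
  obtain ⟨a, ha⟩ := HeightOneSpectrum.mem_integers_of_valuation_le_one K (x : K)
    (fun v => (hx v).le)
  obtain ⟨b, hb⟩ := HeightOneSpectrum.mem_integers_of_valuation_le_one K ((x⁻¹ : Kˣ) : K)
    (fun v => by
      rw [Units.val_inv_eq_inv_val, map_inv₀, hx v, inv_one])
  have hab : a * b = 1 := by
    apply FaithfulSMul.algebraMap_injective (𝓞 K) K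
    rw [map_mul, ha, hb, map_one]
    simp
  refine ⟨⟨a, b, hab, by rw [mul_comm]; exact hab⟩, ?_⟩
  ext
  simpa using ha

/-- a generator of `v ^ h`, `h` the class number -/
theorem exists_pow_classNumber_generator (v : HeightOneSpectrum (𝓞 K)) :
    ∃ π : Kˣ, v.valuationOfNeZero π = Multiplicative.ofAdd (-(classNumber K : ℤ)) ∧
      ∀ w : HeightOneSpectrum (𝓞 K), w ≠ v → w.valuationOfNeZero π = 1 := by
  classical
  have hv0 : v.asIdeal ∈ nonZeroDivisors (Ideal (𝓞 K)) :=
    mem_nonZeroDivisors_of_ne_zero v.ne_bot
  have h1 : (ClassGroup.mk0 ⟨v.asIdeal, hv0⟩) ^ (classNumber K) = 1 := by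
    rw [classNumber]
    exact pow_card_eq_one
  rw [← map_pow, ClassGroup.mk0_eq_one_iff] at h1
  obtain ⟨a, ha⟩ := h1.principal
  have ha' : v.asIdeal ^ classNumber K = Ideal.span {a} := by
    simpa using ha
  have ha0 : a ≠ 0 := by
    rintro rfl
    rw [Set.singleton_zero, Ideal.span_zero] at ha'
    exact pow_ne_zero _ v.ne_bot ha'
  have haK : algebraMap (𝓞 K) K a ≠ 0 := by
    simpa using ha0
  refine ⟨Units.mk0 _ haK, ?_, ?_⟩
  · rw [← WithZero.coe_inj, HeightOneSpectrum.valuationOfNeZero_eq, Units.val_mk0,
      HeightOneSpectrum.valuation_of_algebraMap,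
      HeightOneSpectrum.intValuation_eq_exp_neg_multiplicity v ha0, ← ha',
      multiplicity_pow_self v.ne_bot (fun hu => v.isPrime.ne_top (Ideal.isUnit_iff.mp hu))]
    rfl
  · intro w hw
    rw [← WithZero.coe_inj, HeightOneSpectrum.valuationOfNeZero_eq, Units.val_mk0,
      HeightOneSpectrum.valuation_of_algebraMap]
    apply le_antisymm (w.intValuation_le_one a)
    rw [← not_lt, HeightOneSpectrum.intValuation_lt_one_iff_dvd, ← ha']
    intro hdvd
    have h2 : w.asIdeal ∣ v.asIdeal := w.prime.dvd_of_dvd_pow hdvd
    have h3 : v.asIdeal ≤ w.asIdeal := Ideal.dvd_iff_le.mp h2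
    have h4 : v.asIdeal = w.asIdeal :=
      (v.isPrime.isMaximal v.ne_bot).eq_of_le w.isPrime.ne_top h3
    exact hw (HeightOneSpectrum.ext h4.symm)

variable (S : Finset (HeightOneSpectrum (𝓞 K)))

/-- units are `S`-units -/
noncomputable def unitsToSUnit : (𝓞 K)ˣ →* ((S : Set (HeightOneSpectrum (𝓞 K))).unit K) where
  toFun u := ⟨Units.map (algebraMap (𝓞 K) K : 𝓞 K →* K) u, fun v _ => by
    have := HeightOneSpectrum.valuation_of_unit_eq (K := K) v u
    rw [← WithZero.coe_inj, HeightOneSpectrum.valuationOfNeZero_eq] at this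
    exact this⟩
  map_one' := by ext; simp
  map_mul' a b := by ext; simp

/-- the vector of valuations of an `S`-unit at the places of `S` -/
noncomputable def sUnitOrd :
    Additive ((S : Set (HeightOneSpectrum (𝓞 K))).unit K) →+ (S → ℤ) :=
  AddMonoidHom.pi (fun v => MonoidHom.toAdditiveLeft
    ((v : HeightOneSpectrum (𝓞 K)).valuationOfNeZero.comp
      ((S : Set (HeightOneSpectrum (𝓞 K))).unit K).subtype))

theorem sUnit_finite_and_finrank :
    Module.Finite ℤ (Additive ((S : Set (HeightOneSpectrum (𝓞 K))).unit K)) ∧
    Module.finrank ℤ (Additive ((S : Set (HeightOneSpectrum (𝓞 K))).unit K)) =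
      NumberField.Units.rank K + S.card := by
  classical
  have key := finrank_of_ker_range (ι := S)
    (g := (MonoidHom.toAdditive (unitsToSUnit K S)).toIntLinearMap)
    (by
      intro a b hab
      have h1 : unitsToSUnit K S (Additive.toMul a) = unitsToSUnit K S (Additive.toMul b) := hab
      have h2 := congrArg
        (fun z : ((S : Set (HeightOneSpectrum (𝓞 K))).unit K) => ((z : Kˣ) : K)) h1
      simp only [unitsToSUnit, MonoidHom.coe_mk, OneHom.coe_mk, Units.coe_map,
        MonoidHom.coe_coe] at h2
      have h3 := FaithfulSMul.algebraMap_injective (𝓞 K) K h2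
      exact Units.ext h3)
    (f := (sUnitOrd K S).toIntLinearMap)
    (by
      ext a
      simp only [LinearMap.mem_range, LinearMap.mem_ker, AddMonoidHom.coe_toIntLinearMap]
      constructor
      · rintro ⟨u, rfl⟩
        funext v
        simp only [sUnitOrd, AddMonoidHom.pi_apply]
        have := HeightOneSpectrum.valuation_of_unit_eq (K := K) (v : HeightOneSpectrum (𝓞 K))
          (Additive.toMul u)
        exact congrArg Multiplicative.toAdd this
      · intro ha
        obtain ⟨u, hu⟩ := exists_unit_of_valuation_eq_one K ((Additive.toMul a : _) : Kˣ) (by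
          intro v
          by_cases hv : v ∈ S
          · have h1 := congrFun ha ⟨v, hv⟩
            simp only [sUnitOrd, AddMonoidHom.pi_apply] at h1
            have h2 : v.valuationOfNeZero ((Additive.toMul a : _) : Kˣ) = 1 :=
              congrArg Multiplicative.ofAdd h1
            rw [← WithZero.coe_inj, HeightOneSpectrum.valuationOfNeZero_eq] at h2
            exact h2
          · exact (Additive.toMul a).2 v (by simpa using hv))
        refine ⟨Additive.ofMul u, ?_⟩
        apply Additive.toMul.injective
        exact Subtype.ext hu)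
    (h := -(classNumber K : ℤ))
    (by
      have := classNumber_pos K
      omega)
    (by
      rintro ⟨v, hv⟩
      obtain ⟨π, h1, h2⟩ := exists_pow_classNumber_generator K v
      refine ⟨Additive.ofMul ⟨π, fun w hw => ?_⟩, ?_⟩
      · have hwv : w ≠ v := by
          rintro rfl
          exact hw (by simpa using hv)
        have := h2 w hwv
        rw [← WithZero.coe_inj, HeightOneSpectrum.valuationOfNeZero_eq] at this
        exact this
      · funext w
        simp only [AddMonoidHom.coe_toIntLinearMap, sUnitOrd, AddMonoidHom.pi_apply]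
        by_cases hwv : w = ⟨v, hv⟩
        · subst hwv
          rw [Pi.single_eq_same]
          exact congrArg Multiplicative.toAdd h1
        · rw [Pi.single_eq_of_ne hwv]
          have hwv' : (w : HeightOneSpectrum (𝓞 K)) ≠ v := fun h => hwv (Subtype.ext h)
          exact congrArg Multiplicative.toAdd (h2 w hwv'))
  rw [NumberField.Units.finrank_eq] at key
  simpa using key

end SUnit

end Fermat.Agent.S14Lib
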