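import Mathlib
import Fermat.Agent.S14.Herbrand
import Fermat.Agent.S14.SUnitRank
import Fermat.Agent.S14.FIBase

/-!
# S14, leaf L7 (part 3): the Herbrand quotient of the `S`-units, `S` completely split
-/

set_option linter.unusedSectionVars false

namespace Fermat.Agent.S14Lib

namespace FI

open IsDedekindDomain NumberField Ideal WithZero Module
open scoped Pointwise

variable {F Y : Type*} [Field F] [NumberField F] [Field Y] [NumberField Y] [Algebra F Y]

/-- the places of `Y` above a set of places of `F` -/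
def SY (Y : Type*) [Field Y] [NumberField Y] [Algebra F Y] (S : Finset (HeightOneSpectrum (𝓞 F))) :
    Set (HeightOneSpectrum (𝓞 Y)) := {w | below (F := F) w ∈ S}

theorem mem_SY {S : Finset (HeightOneSpectrum (𝓞 F))} {w : HeightOneSpectrum (𝓞 Y)} :
    w ∈ SY Y S ↔ below (F := F) w ∈ S := Iff.rfl

theorem image_fiber (v : HeightOneSpectrum (𝓞 F)) :
    HeightOneSpectrum.asIdeal '' {w : HeightOneSpectrum (𝓞 Y) | below w = v} =
      primesOver v.asIdeal (𝓞 Y) := by
  ext Q
  constructor
  · rintro ⟨w, hw, rfl⟩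
    exact ⟨w.isPrime, liesOver_of_below_eq hw⟩
  · rintro ⟨h1, h2⟩
    exact ⟨hosOver v Q, below_eq_of_liesOver _ v, rfl⟩

theorem asIdeal_injective {R : Type*} [CommRing R] :
    Function.Injective (HeightOneSpectrum.asIdeal : HeightOneSpectrum R → Ideal R) :=
  fun _ _ h => HeightOneSpectrum.ext h

theorem ncard_fiber (v : HeightOneSpectrum (𝓞 F)) :
    {w : HeightOneSpectrum (𝓞 Y) | below w = v}.ncard = (primesOver v.asIdeal (𝓞 Y)).ncard := by
  rw [← image_fiber, Set.ncard_image_of_injective _ asIdeal_injective]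

theorem finite_SY_and_card {p : ℕ} (hp : p ≠ 0) (S : Finset (HeightOneSpectrum (𝓞 F)))
    (hS : ∀ v ∈ S, (primesOver v.asIdeal (𝓞 Y)).ncard = p) :
    ∃ T : Finset (HeightOneSpectrum (𝓞 Y)), (T : Set (HeightOneSpectrum (𝓞 Y))) = SY Y S ∧
      T.card = p * S.card := by
  classical
  have hfib : ∀ v ∈ S, {w : HeightOneSpectrum (𝓞 Y) | below w = v}.Finite := by
    intro v hv
    apply Set.finite_of_ncard_ne_zero
    rw [ncard_fiber, hS v hv]
    exact hp
  have hfin : (SY Y S).Finite := by
    have : SY Y S = ⋃ v ∈ S, {w : HeightOneSpectrum (𝓞 Y) | below w = v} := by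
      ext w
      simp [SY]
    rw [this]
    exact Set.Finite.biUnion S.finite_toSet hfib
  refine ⟨hfin.toFinset, hfin.coe_toFinset, ?_⟩
  rw [Finset.card_eq_sum_card_fiberwise (f := fun w => below (F := F) w) (t := S)
    (fun w hw => by simpa [SY] using hw)]
  rw [Finset.sum_congr rfl (g := fun _ => p), Finset.sum_const, smul_eq_mul, mul_comm]
  intro v hv
  rw [← hS v hv, ← ncard_fiber, ← Set.ncard_coe_finset]
  congr 1
  ext w
  simp only [Finset.coe_filter, Set.Finite.mem_toFinset, Set.mem_ofPred_eq, SY]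
  constructor
  · rintro ⟨_, h⟩; exact h
  · intro h; exact ⟨h ▸ hv, h⟩

section Action

variable [IsGalois F Y] (S : Finset (HeightOneSpectrum (𝓞 F)))

/-- the group of `S`-units of `Y` -/
noncomputable abbrev UY (Y : Type*) [Field Y] [NumberField Y] [Algebra F Y]
    (S : Finset (HeightOneSpectrum (𝓞 F))) : Subgroup Yˣ := (SY Y S).unit Y

/-- the group of `S`-units of `F` -/
noncomputable abbrev UF (S : Finset (HeightOneSpectrum (𝓞 F))) : Subgroup Fˣ :=
  (S : Set (HeightOneSpectrum (𝓞 F))).unit F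

theorem map_mem_UY (τ : Gal(Y/F)) {u : Yˣ} (hu : u ∈ UY Y S) :
    Units.map (τ : Y →* Y) u ∈ UY Y S := by
  rw [mem_unit_iff] at hu ⊢
  intro w hw
  have h1 : w = gsm τ (gsm τ⁻¹ w) := by rw [← gsm_mul, mul_inv_cancel, gsm_one]
  rw [h1, vz_gsm]
  apply hu
  rw [mem_SY, below_gsm]
  exact hw

/-- the Galois action on the `S`-units of `Y` -/
noncomputable def actU (τ : Gal(Y/F)) : UY Y S →* UY Y S :=
  ((Units.map (τ : Y →* Y)).comp (UY Y S).subtype).codRestrict _
    (fun u => map_mem_UY S τ u.2)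

theorem actU_coe (τ : Gal(Y/F)) (u : UY Y S) :
    (((actU S τ u : UY Y S) : Yˣ) : Y) = τ ((u : Yˣ) : Y) := rfl

theorem algebraMap_mem_UY {c : Fˣ} (hc : c ∈ UF S) :
    Units.map (algebraMap F Y : F →* Y) c ∈ UY Y S := by
  rw [mem_unit_iff] at hc ⊢
  intro w hw
  rw [vz_algebraMap, hc (below w) (by simpa [SY] using hw), mul_zero]

theorem mem_UF_of_algebraMap_mem {c : Fˣ}
    (hc : Units.map (algebraMap F Y : F →* Y) c ∈ UY Y S) : c ∈ UF S := by
  rw [mem_unit_iff] at hc ⊢
  intro v hv
  obtain ⟨w, rfl⟩ := exists_above (Y := Y) v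
  have h := hc w (by simpa [SY] using hv)
  rw [vz_algebraMap] at h
  rcases mul_eq_zero.mp h with h | h
  · exact absurd (by exact_mod_cast h) (eIdx_ne_zero (F := F) w)
  · exact h

/-- the inclusion of the `S`-units of `F` in those of `Y` -/
noncomputable def incU : UF S →* UY Y S :=
  ((Units.map (algebraMap F Y : F →* Y)).comp (UF S).subtype).codRestrict _
    (fun u => algebraMap_mem_UY S u.2)

theorem incU_coe (u : UF S) :
    (((incU (Y := Y) S u : UY Y S) : Yˣ) : Y) = algebraMap F Y ((u : Fˣ) : F) := rfl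

theorem incU_injective : Function.Injective (incU (Y := Y) S) := by
  intro a b h
  have h1 := congrArg (fun z : UY Y S => ((z : Yˣ) : Y)) h
  simp only [incU_coe] at h1
  exact Subtype.ext (Units.ext ((algebraMap F Y).injective h1))

theorem actU_one (u : UY Y S) : actU S (1 : Gal(Y/F)) u = u :=
  Subtype.ext (Units.ext rfl)

theorem actU_mul (τ τ' : Gal(Y/F)) (u : UY Y S) :
    actU S (τ * τ') u = actU S τ (actU S τ' u) :=
  Subtype.ext (Units.ext rfl)

/-- `σ` on the additive group of `S`-units -/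
noncomputable def sA (σ : Gal(Y/F)) : Additive (UY Y S) →+ Additive (UY Y S) :=
  MonoidHom.toAdditive (actU S σ)

/-- `σ - 1` -/
noncomputable def DA (σ : Gal(Y/F)) : Additive (UY Y S) →+ Additive (UY Y S) :=
  sA S σ - AddMonoidHom.id _

/-- `1 + σ + ... + σ ^ (p - 1)` -/
noncomputable def NA (σ : Gal(Y/F)) (p : ℕ) : Additive (UY Y S) →+ Additive (UY Y S) :=
  ∑ i ∈ Finset.range p, sA S (σ ^ i)

theorem sA_iterate (σ : Gal(Y/F)) (i : ℕ) (x : Additive (UY Y S)) :
    (sA S σ)^[i] x = sA S (σ ^ i) x := by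
  induction i with
  | zero =>
    simp only [Function.iterate_zero, id_eq, pow_zero]
    exact (congrArg Additive.ofMul (actU_one S (Additive.toMul x))).symm
  | succ i ih =>
    rw [Function.iterate_succ_apply', ih, pow_succ']
    exact (congrArg Additive.ofMul (actU_mul S σ (σ ^ i) (Additive.toMul x))).symm

theorem NA_apply (σ : Gal(Y/F)) (p : ℕ) (x : Additive (UY Y S)) :
    NA S σ p x = ∑ i ∈ Finset.range p, (sA S σ)^[i] x := by
  simp only [sA_iterate]
  exact AddMonoidHom.finsetSum_apply _ _ _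

theorem sUnit_aux (K : Type*) [Field K] [NumberField K] (Sg : Set (HeightOneSpectrum (𝓞 K)))
    (T : Finset (HeightOneSpectrum (𝓞 K))) (h : (T : Set (HeightOneSpectrum (𝓞 K))) = Sg) :
    Module.Finite ℤ (Additive (Sg.unit K)) ∧
      finrank ℤ (Additive (Sg.unit K)) = NumberField.Units.rank K + T.card := by
  subst h
  exact sUnit_finite_and_finrank K T

theorem rank_of_totallyComplex (K : Type*) [Field K] [NumberField K] [IsTotallyComplex K] :
    2 * (NumberField.Units.rank K + 1) = finrank ℚ K := by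
  have h1 := IsTotallyComplex.finrank K
  have h2 := InfinitePlace.card_eq_nrRealPlaces_add_nrComplexPlaces K
  rw [IsTotallyComplex.nrRealPlaces_eq_zero K, zero_add] at h2
  have h3 : 0 < finrank ℚ K := finrank_pos
  rw [NumberField.Units.rank, h2]
  omega

theorem mem_ker_DA_iff (σ : Gal(Y/F)) (x : Additive (UY Y S)) :
    x ∈ (DA S σ).ker ↔ σ (((Additive.toMul x : UY Y S) : Yˣ) : Y) =
      (((Additive.toMul x : UY Y S) : Yˣ) : Y) := by
  rw [AddMonoidHom.mem_ker, DA, AddMonoidHom.sub_apply, sub_eq_zero]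
  constructor
  · intro h
    have h1 : actU S σ (Additive.toMul x) = Additive.toMul x := h
    have h2 := congrArg (fun z : UY Y S => ((z : Yˣ) : Y)) h1
    exact h2
  · intro h
    have h1 : actU S σ (Additive.toMul x) = Additive.toMul x := Subtype.ext (Units.ext h)
    exact h1

theorem ker_DA_eq_range (σ : Gal(Y/F)) (hσ : ∀ τ : Gal(Y/F), ∃ i : ℕ, τ = σ ^ i) :
    (DA S σ).ker = (MonoidHom.toAdditive (incU (Y := Y) S)).range := by
  ext x
  rw [mem_ker_DA_iff]
  constructor
  · intro h
    set u : UY Y S := Additive.toMul x with hu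
    have hfix : ∀ τ : Gal(Y/F), τ ((u : Yˣ) : Y) = ((u : Yˣ) : Y) := by
      intro τ
      obtain ⟨i, rfl⟩ := hσ τ
      induction i with
      | zero => simp
      | succ i ih => rw [pow_succ, AlgEquiv.mul_apply, h, ih]
    obtain ⟨c, hc⟩ := (IsGalois.mem_range_algebraMap_iff_fixed ((u : Yˣ) : Y)).mpr hfix
    have hc0 : c ≠ 0 := by
      rintro rfl
      rw [map_zero] at hc
      exact (u : Yˣ).ne_zero hc.symm
    have hcu : Units.map (algebraMap F Y : F →* Y) (Units.mk0 c hc0) = (u : Yˣ) :=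
      Units.ext hc
    have hmem : Units.mk0 c hc0 ∈ UF S := by
      apply mem_UF_of_algebraMap_mem (Y := Y) S
      rw [hcu]
      exact u.2
    refine ⟨Additive.ofMul ⟨Units.mk0 c hc0, hmem⟩, ?_⟩
    apply Additive.toMul.injective
    exact Subtype.ext hcu
  · rintro ⟨c, rfl⟩
    change σ (algebraMap F Y _) = algebraMap F Y _
    exact σ.commutes _

theorem finrank_ker_DA (σ : Gal(Y/F)) (hσ : ∀ τ : Gal(Y/F), ∃ i : ℕ, τ = σ ^ i) :
    finrank ℤ (DA S σ).ker = NumberField.Units.rank F + S.card := by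
  rw [← (sUnit_finite_and_finrank F S).2]
  have e1 : Additive (UF S) ≃+ (MonoidHom.toAdditive (incU (Y := Y) S)).range :=
    AddMonoidHom.ofInjective (f := MonoidHom.toAdditive (incU (Y := Y) S))
      (fun a b h => Additive.toMul.injective (incU_injective S h))
  have e2 : (MonoidHom.toAdditive (incU (Y := Y) S)).range ≃+ (DA S σ).ker :=
    AddEquiv.addSubgroupCongr (ker_DA_eq_range S σ hσ).symm
  exact ((e1.trans e2).toIntLinearEquiv.finrank_eq).symm

/-- **Herbrand quotient of the `S`-units**, `S` completely split, `F` totally complex. -/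
theorem herbrand_sUnits [IsTotallyComplex F] {p : ℕ} (hp : p.Prime) (σ : Gal(Y/F))
    (hσ : ∀ τ : Gal(Y/F), ∃ i : ℕ, τ = σ ^ i) (hdeg : finrank F Y = p)
    (hS : ∀ v ∈ S, (primesOver v.asIdeal (𝓞 Y)).ncard = p) :
    (NA S σ p).range.relIndex (DA S σ).ker ≠ 0 ∧ (DA S σ).range.relIndex (NA S σ p).ker ≠ 0 ∧
      (DA S σ).range.relIndex (NA S σ p).ker = p * (NA S σ p).range.relIndex (DA S σ).ker := by
  obtain ⟨T, hT, hTcard⟩ := finite_SY_and_card hp.ne_zero S hS
  obtain ⟨hfin, hrk⟩ := sUnit_aux Y (SY Y S) T hT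
  have : IsTotallyComplex Y := isTotallyComplex_of_algebra F Y
  have hrF := rank_of_totallyComplex F
  have hrY := rank_of_totallyComplex Y
  rw [← finrank_mul_finrank ℚ F Y, hdeg, ← hrF] at hrY
  have hcard : Nat.card Gal(Y/F) = p := by rw [IsGalois.card_aut_eq_finrank, hdeg]
  have hord : σ ^ p = 1 := by
    rw [← hcard]; exact pow_card_eq_one'
  set a := NumberField.Units.rank F + S.card with ha
  have hb : finrank ℤ (Additive (UY Y S)) = a + (a + 1) * (p - 1) := by
    rw [hrk, hTcard]
    obtain ⟨q, rfl⟩ : ∃ q, p = q + 1 := ⟨p - 1, (Nat.succ_pred_eq_of_pos hp.pos).symm⟩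
    simp only [Nat.add_sub_cancel]
    have h1 : NumberField.Units.rank Y + 1 = (NumberField.Units.rank F + 1) * (q + 1) := by
      have : 2 * (NumberField.Units.rank Y + 1) =
          2 * ((NumberField.Units.rank F + 1) * (q + 1)) := by
        rw [hrY]; ring
      omega
    have h2 : NumberField.Units.rank Y + (q + 1) * S.card + 1 =
        a + (a + 1) * q + 1 := by
      rw [ha]
      calc NumberField.Units.rank Y + (q + 1) * S.card + 1
          = (NumberField.Units.rank Y + 1) + (q + 1) * S.card := by ring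
        _ = (NumberField.Units.rank F + 1) * (q + 1) + (q + 1) * S.card := by rw [h1]
        _ = _ := by ring
    omega
  obtain ⟨h1, h2, h3⟩ := Herbrand.herbrand_fg' p hp (sA S σ) (DA S σ) (NA S σ p)
    (fun x => by
      rw [sA_iterate, hord]
      exact congrArg Additive.ofMul (actU_one S (Additive.toMul x)))
    (fun x => rfl) (NA_apply S σ p) a (a + 1) (finrank_ker_DA S σ hσ) hb
  refine ⟨h1, h2, ?_⟩
  rw [pow_succ] at h3
  have h4 : (DA S σ).range.relIndex (NA S σ p).ker * p ^ a =
      (p * (NA S σ p).range.relIndex (DA S σ).ker) * p ^ a := by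
    rw [← h3]; ring
  exact Nat.eq_of_mul_eq_mul_right (pow_pos hp.pos a) h4

end Action

end FI

end Fermat.Agent.S14Lib
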