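import Mathlib
import Fermat.Agent.S14.FIUnits

/-!
# S14, leaf L7 (part 4): the first inequality, `S`-unit form
-/

set_option linter.unusedSectionVars false

namespace Fermat.Agent.S14Lib

namespace FI

open IsDedekindDomain NumberField Ideal WithZero Module
open scoped Pointwise

section Count

theorem card_le_relIndex {A X : Type*} [AddCommGroup A] [AddCommGroup X]
    (H G : AddSubgroup A) (hne : H.relIndex G ≠ 0) (ψ : G →+ X) (hsurj : Function.Surjective ψ)
    (hker : ∀ x : G, (x : A) ∈ H → ψ x = 0) : Nat.card X ≤ H.relIndex G := by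
  have h1 : H.addSubgroupOf G ≤ ψ.ker := fun x hx => hker x hx
  have h2 := AddSubgroup.index_dvd_of_le h1
  have h3 : ψ.ker.index = Nat.card X := by
    rw [AddSubgroup.index_ker, AddMonoidHom.range_eq_top.mpr hsurj]
    exact Nat.card_congr (Equiv.Set.univ X)
  rw [h3] at h2
  exact Nat.le_of_dvd (Nat.pos_of_ne_zero hne) h2

theorem relIndex_le_card {A X : Type*} [AddCommGroup A] [Finite X] (H G : AddSubgroup A)
    (φ : G → X) (h : ∀ x y : G, φ x = φ y → ((x : A) - y) ∈ H) : H.relIndex G ≤ Nat.card X := by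
  rw [AddSubgroup.relIndex, AddSubgroup.index]
  apply Nat.card_le_card_of_injective (fun c : G ⧸ H.addSubgroupOf G => φ (Quotient.out c))
  intro c c' hcc
  have h1 := h _ _ hcc
  rw [← Quotient.out_eq c, ← Quotient.out_eq c']
  apply (QuotientAddGroup.eq (s := H.addSubgroupOf G)).mpr
  rw [AddSubgroup.mem_addSubgroupOf]
  have h2 := H.neg_mem h1
  simpa [sub_eq_add_neg, add_comm] using h2

end Count

variable {F Y : Type*} [Field F] [NumberField F] [Field Y] [NumberField Y] [Algebra F Y]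
  [IsGalois F Y]

theorem pow_bijective {p : ℕ} (hp : p ≠ 0) (σ : Gal(Y/F))
    (hσ : ∀ τ : Gal(Y/F), ∃ i : ℕ, τ = σ ^ i) (hdeg : finrank F Y = p) :
    σ ^ p = 1 ∧ Function.Bijective (fun i : Fin p => σ ^ (i : ℕ)) := by
  have hcard : Nat.card Gal(Y/F) = p := by rw [IsGalois.card_aut_eq_finrank, hdeg]
  have hord : σ ^ p = 1 := by
    rw [← hcard]; exact pow_card_eq_one'
  have hsurj : Function.Surjective (fun i : Fin p => σ ^ (i : ℕ)) := by
    intro τ
    obtain ⟨i, rfl⟩ := hσ τ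
    refine ⟨⟨i % p, Nat.mod_lt _ (Nat.pos_of_ne_zero hp)⟩, ?_⟩
    simp only
    conv_rhs => rw [← Nat.div_add_mod i p, pow_add, pow_mul, hord, one_pow, one_mul]
  refine ⟨hord, ?_⟩
  rw [Fintype.bijective_iff_surjective_and_card]
  refine ⟨hsurj, ?_⟩
  rw [Fintype.card_fin, ← hcard, Nat.card_eq_fintype_card]

theorem prod_gal_eq {M : Type*} [CommMonoid M] {p : ℕ} (hp : p ≠ 0) (σ : Gal(Y/F))
    (hσ : ∀ τ : Gal(Y/F), ∃ i : ℕ, τ = σ ^ i) (hdeg : finrank F Y = p) (f : Gal(Y/F) → M) :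
    ∏ τ, f τ = ∏ i ∈ Finset.range p, f (σ ^ i) := by
  rw [Finset.prod_range]
  exact ((pow_bijective hp σ hσ hdeg).2.prod_comp f).symm

/-- Hilbert 90 for a cyclic extension (any universe). -/
theorem h90_cyclic {p : ℕ} (hp : p ≠ 0) (σ : Gal(Y/F))
    (hσ : ∀ τ : Gal(Y/F), ∃ i : ℕ, τ = σ ^ i) (hdeg : finrank F Y = p) (ε : Y)
    (hε : ∏ i ∈ Finset.range p, (σ ^ i) ε = 1) : ∃ β : Yˣ, (β : Y) / σ (β : Y) = ε := by
  obtain ⟨hord, hbij⟩ := pow_bijective hp σ hσ hdeg
  let c : ℕ → Y := fun i => ∏ j ∈ Finset.range i, (σ ^ j) ε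
  have hc0 : c 0 = 1 := by simp [c]
  have hcp : c p = 1 := hε
  have hcs : ∀ i, c (i + 1) = ε * σ (c i) := by
    intro i
    simp only [c]
    rw [Finset.prod_range_succ', map_prod, mul_comm]
    congr 1
    refine Finset.prod_congr rfl (fun j _ => ?_)
    rw [pow_succ', AlgEquiv.mul_apply]
  have hli : LinearIndependent Y (fun i : Fin p => ((σ ^ (i : ℕ) : Gal(Y/F)) : Y → Y)) := by
    refine LinearIndependent.comp (ι' := Fin p) (linearIndependent_monoidHom Y Y)
      (fun i => ((σ ^ (i : ℕ) : Gal(Y/F)) : Y →* Y)) ?_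
    intro i j hij
    apply hbij.1
    ext y
    exact DFunLike.congr_fun hij y
  obtain ⟨z, hz⟩ : ∃ z, ∑ i ∈ Finset.range p, c i * (σ ^ i) z ≠ 0 := by
    by_contra hcon
    simp only [not_exists, not_not] at hcon
    have h1 := Fintype.linearIndependent_iff.mp hli (fun i => c i) (by
      funext z
      have := hcon z
      rw [Finset.sum_range] at this
      simpa [Finset.sum_apply] using this)
    have h2 := h1 ⟨0, Nat.pos_of_ne_zero hp⟩
    simp only [hc0] at h2
    exact one_ne_zero h2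
  set b := ∑ i ∈ Finset.range p, c i * (σ ^ i) z with hb
  have hσb : ε * σ b = b := by
    have e1 : ε * σ b = ∑ i ∈ Finset.range p, c (i + 1) * (σ ^ (i + 1)) z := by
      rw [hb, map_sum, Finset.mul_sum]
      refine Finset.sum_congr rfl (fun i _ => ?_)
      rw [map_mul, hcs, pow_succ', AlgEquiv.mul_apply, mul_assoc]
    have e2 := Finset.sum_range_succ' (fun i => c i * (σ ^ i) z) p
    have e3 := Finset.sum_range_succ (fun i => c i * (σ ^ i) z) p
    rw [e3] at e2
    simp only [hcp, hord, hc0, pow_zero] at e2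
    rw [e1]
    exact (add_right_cancel e2).symm
  have hσb0 : σ b ≠ 0 := by simpa using hz
  exact ⟨Units.mk0 b hz, by rw [Units.val_mk0, div_eq_iff hσb0]; exact hσb.symm⟩

section Key

variable (S : Finset (HeightOneSpectrum (𝓞 F)))

/-- if `β / σ β` is an `S`-unit, so is `τ β / β` for every `τ` -/
theorem map_div_mem_UY (σ : Gal(Y/F)) (β : Yˣ)
    (hβ : β / Units.map (σ : Y →* Y) β ∈ UY Y S) (i : ℕ) :
    Units.map ((σ ^ i : Gal(Y/F)) : Y →* Y) β / β ∈ UY Y S := by
  induction i with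
  | zero =>
    have : Units.map ((σ ^ 0 : Gal(Y/F)) : Y →* Y) β = β := Units.ext rfl
    rw [this, div_self']
    exact one_mem _
  | succ i ih =>
    have h1 : Units.map ((σ ^ (i + 1) : Gal(Y/F)) : Y →* Y) β / β =
        (Units.map ((σ ^ i : Gal(Y/F)) : Y →* Y) (β / Units.map (σ : Y →* Y) β))⁻¹ *
          (Units.map ((σ ^ i : Gal(Y/F)) : Y →* Y) β / β) := by
      have h2 : Units.map ((σ ^ (i + 1) : Gal(Y/F)) : Y →* Y) β =
          Units.map ((σ ^ i : Gal(Y/F)) : Y →* Y) (Units.map (σ : Y →* Y) β) := by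
        apply Units.ext
        simp only [Units.coe_map, MonoidHom.coe_coe, pow_succ, AlgEquiv.mul_apply]
      rw [h2, map_div, inv_div, div_mul_div_cancel]
    rw [h1]
    exact mul_mem (inv_mem (map_mem_UY S _ hβ)) ih

theorem vz_map_eq (σ : Gal(Y/F)) (hσ : ∀ τ : Gal(Y/F), ∃ i : ℕ, τ = σ ^ i) (β : Yˣ)
    (hβ : β / Units.map (σ : Y →* Y) β ∈ UY Y S) (τ : Gal(Y/F))
    (w : HeightOneSpectrum (𝓞 Y)) (hw : w ∉ SY Y S) :
    vz w (Units.map (τ : Y →* Y) β) = vz w β := by
  obtain ⟨i, rfl⟩ := hσ τ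
  have h := (mem_unit_iff _ _).mp (map_div_mem_UY S σ β hβ i) w hw
  rw [vz_div] at h
  omega

theorem vz_eq_of_below_eq (σ : Gal(Y/F)) (hσ : ∀ τ : Gal(Y/F), ∃ i : ℕ, τ = σ ^ i) (β : Yˣ)
    (hβ : β / Units.map (σ : Y →* Y) β ∈ UY Y S)
    (w w' : HeightOneSpectrum (𝓞 Y)) (hw' : w' ∉ SY Y S) (h : below (F := F) w = below w') :
    vz w β = vz w' β := by
  obtain ⟨τ, rfl⟩ := exists_gsm_eq w w' h
  rw [← vz_map_eq S σ hσ β hβ τ _ hw', vz_gsm]

/-- the norm of a unit of `Y`, as a unit of `F` -/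
noncomputable def normU (β : Yˣ) : Fˣ :=
  Units.mk0 (Algebra.norm F (β : Y)) (Algebra.norm_ne_zero_iff.mpr β.ne_zero)

theorem map_normU (β : Yˣ) :
    Units.map (algebraMap F Y : F →* Y) (normU (F := F) β) =
      ∏ τ : Gal(Y/F), Units.map (τ : Y →* Y) β := by
  apply Units.ext
  rw [Units.coe_map, Units.coe_prod]
  simp only [normU, Units.val_mk0, MonoidHom.coe_coe, Units.coe_map]
  exact Algebra.norm_eq_prod_automorphisms F (β : Y)

/-- a chosen place above `v` -/
noncomputable def ab (Y : Type*) [Field Y] [NumberField Y] [Algebra F Y]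
    (v : HeightOneSpectrum (𝓞 F)) : HeightOneSpectrum (𝓞 Y) := (exists_above (Y := Y) v).choose

theorem below_ab (v : HeightOneSpectrum (𝓞 F)) : below (ab Y v) = v :=
  (exists_above (Y := Y) v).choose_spec

/-- **Key lemma**: an element `β` with `β / σ β` an `S`-unit, whose valuations outside `S` are
divisible by the ramification indices, is the product of an element of `F` and an `S`-unit,
provided the `S`-class group of `F` has no `p`-torsion. -/
theorem key_lemma {p : ℕ} (σ : Gal(Y/F)) (hσ : ∀ τ : Gal(Y/F), ∃ i : ℕ, τ = σ ^ i)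
    (hdeg : finrank F Y = p) (e : HeightOneSpectrum (𝓞 F) → ℕ)
    (he : ∀ w : HeightOneSpectrum (𝓞 Y), below (F := F) w ∉ S → eIdx F w = e (below w))
    (H1 : ∀ D : HeightOneSpectrum (𝓞 F) →₀ ℤ, (∃ c : Fˣ, ∀ v ∉ S, vz v c = p * D v) →
      ∃ c : Fˣ, ∀ v ∉ S, vz v c = D v)
    (β : Yˣ) (hβ : β / Units.map (σ : Y →* Y) β ∈ UY Y S)
    (hdvd : ∀ v ∉ S, (e v : ℤ) ∣ vz (ab Y v) β) :
    ∃ c : Fˣ, β / Units.map (algebraMap F Y : F →* Y) c ∈ UY Y S := by
  classical
  have he0 : ∀ v ∉ S, (e v : ℤ) ≠ 0 := by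
    intro v hv
    have h1 := he (ab Y v) (by rw [below_ab]; exact hv)
    rw [below_ab] at h1
    rw [← h1]
    exact_mod_cast eIdx_ne_zero (F := F) (ab Y v)
  let D₀ : HeightOneSpectrum (𝓞 F) → ℤ := fun v => if v ∈ S then 0 else vz (ab Y v) β / e v
  have hD₀ : ∀ v ∉ S, (e v : ℤ) * D₀ v = vz (ab Y v) β := by
    intro v hv
    simp only [D₀, if_neg hv]
    exact Int.mul_ediv_cancel' (hdvd v hv)
  have hfin : (Function.support D₀).Finite := by
    refine ((finite_vz_ne_zero β).image (below (F := F))).subset ?_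
    intro v hv
    refine ⟨ab Y v, ?_, below_ab v⟩
    simp only [Set.mem_ofPred_eq]
    intro h0
    apply hv
    simp only [D₀]
    split_ifs
    · rfl
    · rw [h0, Int.zero_ediv]
  let D : HeightOneSpectrum (𝓞 F) →₀ ℤ := Finsupp.ofSupportFinite D₀ hfin
  have hDv : ∀ v, D v = D₀ v := fun v => rfl
  obtain ⟨c, hc⟩ := H1 D ⟨normU β, by
    intro v hv
    have hw : ab Y v ∉ SY Y S := by rw [mem_SY, below_ab]; exact hv
    have h1 := vz_algebraMap (F := F) (ab Y v) (normU β)
    rw [map_normU, vz_prod, he (ab Y v) (by rw [below_ab]; exact hv), below_ab] at h1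
    rw [Finset.sum_congr rfl (fun τ _ => vz_map_eq S σ hσ β hβ τ _ hw), Finset.sum_const,
      Finset.card_univ, ← Nat.card_eq_fintype_card, IsGalois.card_aut_eq_finrank, hdeg,
      ← hD₀ v hv] at h1
    rw [hDv]
    have h2 : (e v : ℤ) * (p * D₀ v) = (e v : ℤ) * vz v (normU β) := by
      rw [← h1]; simp; ring
    exact (mul_left_cancel₀ (he0 v hv) h2).symm⟩
  refine ⟨c, ?_⟩
  rw [mem_unit_iff]
  intro w hw
  have hv : below (F := F) w ∉ S := hw
  rw [vz_div, vz_algebraMap, he w hv, hc _ hv, hDv, hD₀ _ hv]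
  have hw' : ab Y (below (F := F) w) ∉ SY Y S := by rw [mem_SY, below_ab]; exact hv
  rw [vz_eq_of_below_eq S σ hσ β hβ w _ hw' (below_ab _).symm, sub_self]

end Key

section Main

variable (S : Finset (HeightOneSpectrum (𝓞 F)))

/-- the `S`-units of `F` are the `σ`-invariant `S`-units of `Y` -/
noncomputable def kerEquiv (σ : Gal(Y/F)) (hσ : ∀ τ : Gal(Y/F), ∃ i : ℕ, τ = σ ^ i) :
    Additive (UF S) ≃+ (DA (Y := Y) S σ).ker :=
  (AddMonoidHom.ofInjective (f := MonoidHom.toAdditive (incU (Y := Y) S))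
      (fun _ _ h => Additive.toMul.injective (incU_injective S h))).trans
    (AddEquiv.addSubgroupCongr (ker_DA_eq_range S σ hσ).symm)

theorem kerEquiv_coe (σ : Gal(Y/F)) (hσ : ∀ τ : Gal(Y/F), ∃ i : ℕ, τ = σ ^ i)
    (x : Additive (UF S)) :
    ((kerEquiv (Y := Y) S σ hσ x : (DA (Y := Y) S σ).ker) : Additive (UY Y S)) =
      Additive.ofMul (incU (Y := Y) S (Additive.toMul x)) := rfl

theorem NA_coe (σ : Gal(Y/F)) (p : ℕ) (y : Additive (UY Y S)) :
    (((Additive.toMul (NA S σ p y) : UY Y S) : Yˣ) : Y) =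
      ∏ i ∈ Finset.range p, (σ ^ i) (((Additive.toMul y : UY Y S) : Yˣ) : Y) := by
  have h1 : NA S σ p y = ∑ i ∈ Finset.range p, sA S (σ ^ i) y :=
    AddMonoidHom.finsetSum_apply _ _ _
  rw [h1, toMul_sum, Subgroup.val_finsetProd, Units.coe_prod]
  rfl

theorem exists_h90 {p : ℕ} (hp : p ≠ 0) (σ : Gal(Y/F))
    (hσ : ∀ τ : Gal(Y/F), ∃ i : ℕ, τ = σ ^ i) (hdeg : finrank F Y = p)
    (x : (NA (Y := Y) S σ p).ker) :
    ∃ β : Yˣ, β / Units.map (σ : Y →* Y) β = ((Additive.toMul (x : Additive (UY Y S)) : UY Y S) : Yˣ) := by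
  obtain ⟨β, hβ⟩ := h90_cyclic hp σ hσ hdeg
    (((Additive.toMul (x : Additive (UY Y S)) : UY Y S) : Yˣ) : Y) (by
      rw [← NA_coe]
      have h0 : NA S σ p (x : Additive (UY Y S)) = 0 := x.2
      rw [h0]
      rfl)
  refine ⟨β, Units.ext ?_⟩
  rw [Units.val_div_eq_div_val]
  exact hβ

/-- **First inequality, `S`-unit form.**  `Y / F` cyclic of prime degree `p`, `F` totally complex,
`S` a finite set of completely split places, `R` the set of (totally) ramified places.  It is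
impossible that the `S`-class group of `F` has no `p`-torsion and that the `S`-units of `F`
surject, by a homomorphism killing norms of `S`-units of `Y`, onto `(ℤ/p)^R`. -/
theorem fi_core [IsTotallyComplex F] {p : ℕ} (hp : p.Prime) (σ : Gal(Y/F))
    (hσ : ∀ τ : Gal(Y/F), ∃ i : ℕ, τ = σ ^ i) (hdeg : finrank F Y = p)
    (R : Finset (HeightOneSpectrum (𝓞 F)))
    (hS : ∀ v ∈ S, (primesOver v.asIdeal (𝓞 Y)).ncard = p)
    (hram : ∀ w : HeightOneSpectrum (𝓞 Y), below (F := F) w ∉ S → below (F := F) w ∈ R →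
      eIdx F w = p)
    (hunr : ∀ w : HeightOneSpectrum (𝓞 Y), below (F := F) w ∉ S → below (F := F) w ∉ R →
      eIdx F w = 1)
    (H1 : ∀ D : HeightOneSpectrum (𝓞 F) →₀ ℤ, (∃ c : Fˣ, ∀ v ∉ S, vz v c = p * D v) →
      ∃ c : Fˣ, ∀ v ∉ S, vz v c = D v)
    (χ : UF S →* Multiplicative (R → ZMod p)) (hχ : Function.Surjective χ)
    (hχN : ∀ (η : UY Y S) (c : UF S), algebraMap F Y ((c : Fˣ) : F) =
      ∏ i ∈ Finset.range p, (σ ^ i) ((η : Yˣ) : Y) → χ c = 1) : False := by
  classical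
  have : Fact p.Prime := ⟨hp⟩
  obtain ⟨h0ne, h1ne, hh⟩ := herbrand_sUnits S hp σ hσ hdeg hS
  have hcardX : Nat.card (R → ZMod p) = p ^ R.card := by
    rw [Nat.card_fun, Nat.card_zmod, Nat.card_eq_fintype_card, Fintype.card_coe]
  -- lower bound for `h0`
  have hLB : p ^ R.card ≤ (NA S σ p).range.relIndex (DA S σ).ker := by
    rw [← hcardX]
    refine card_le_relIndex _ _ h0ne
      ((MonoidHom.toAdditiveLeft χ).comp (kerEquiv (Y := Y) S σ hσ).symm.toAddMonoidHom) ?_ ?_
    · intro f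
      obtain ⟨u, hu⟩ := hχ (Multiplicative.ofAdd f)
      refine ⟨kerEquiv (Y := Y) S σ hσ (Additive.ofMul u), ?_⟩
      simp only [AddMonoidHom.coe_comp, Function.comp_apply, AddEquiv.coe_toAddMonoidHom,
        AddEquiv.symm_apply_apply]
      exact congrArg Multiplicative.toAdd hu
    · rintro x ⟨y, hy⟩
      set c := (kerEquiv (Y := Y) S σ hσ).symm x with hc
      have hx : x = kerEquiv (Y := Y) S σ hσ c := by rw [hc, AddEquiv.apply_symm_apply]
      have h1 : χ (Additive.toMul c) = 1 := by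
        apply hχN (Additive.toMul y) (Additive.toMul c)
        rw [← NA_coe, hy, hx, kerEquiv_coe]
        rfl
      exact congrArg Multiplicative.toAdd h1
  -- upper bound for `h1`
  have hUB : (DA S σ).range.relIndex (NA S σ p).ker ≤ p ^ R.card := by
    rw [← hcardX]
    choose βof hβof using exists_h90 S hp.ne_zero σ hσ hdeg
    refine relIndex_le_card _ _
      (fun x => fun v : R => ((vz (ab Y (v : HeightOneSpectrum (𝓞 F))) (βof x) : ℤ) : ZMod p)) ?_
    intro x y hxy
    set β : Yˣ := βof x / βof y with hβdef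
    have hβ : β / Units.map (σ : Y →* Y) β =
        ((Additive.toMul (x : Additive (UY Y S)) : UY Y S) : Yˣ) /
          ((Additive.toMul (y : Additive (UY Y S)) : UY Y S) : Yˣ) := by
      rw [← hβof x, ← hβof y, hβdef, map_div]
      rw [div_div_div_comm]
    have hβmem : β / Units.map (σ : Y →* Y) β ∈ UY Y S := by
      rw [hβ]
      exact div_mem (Subtype.prop _) (Subtype.prop _)
    obtain ⟨c, hc⟩ := key_lemma S σ hσ hdeg (fun v => if v ∈ R then p else 1)
      (by
        intro w hw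
        by_cases hR : below (F := F) w ∈ R
        · rw [if_pos hR]; exact hram w hw hR
        · rw [if_neg hR]; exact hunr w hw hR)
      H1 β hβmem
      (by
        intro v _
        by_cases hR : v ∈ R
        · rw [if_pos hR, hβdef, vz_div]
          have h1 := congrFun hxy ⟨v, hR⟩
          simp only at h1
          exact (ZMod.intCast_eq_intCast_iff_dvd_sub _ _ _).mp h1.symm
        · rw [if_neg hR]; simp)
    refine ⟨Additive.ofMul (⟨_, hc⟩ : UY Y S)⁻¹, ?_⟩
    apply Additive.toMul.injective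
    apply Subtype.ext
    change Units.map (σ : Y →* Y) (β / Units.map (algebraMap F Y : F →* Y) c)⁻¹ /
      (β / Units.map (algebraMap F Y : F →* Y) c)⁻¹ = _
    have hσc : Units.map (σ : Y →* Y) (Units.map (algebraMap F Y : F →* Y) c) =
        Units.map (algebraMap F Y : F →* Y) c := Units.ext (σ.commutes _)
    rw [map_inv, map_div, hσc, inv_div_inv, div_div_div_cancel_right, hβ]
    rfl
  have hpos : 0 < p ^ R.card := pow_pos hp.pos _
  have h2 := hp.two_le
  have : p * p ^ R.card ≤ p ^ R.card := by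
    calc p * p ^ R.card ≤ p * (NA S σ p).range.relIndex (DA S σ).ker :=
          Nat.mul_le_mul_left p hLB
      _ = (DA S σ).range.relIndex (NA S σ p).ker := hh.symm
      _ ≤ p ^ R.card := hUB
  nlinarith

end Main

end FI

end Fermat.Agent.S14Lib
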