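import Mathlib
import Fermat.Agent.S14.FICore
import Fermat.Agent.S14.ClGen

/-!
# S14, leaf L7 (part 5): the first inequality for everywhere unramified cyclic extensions
-/

set_option linter.unusedSectionVars false
set_option linter.style.haveILetI false

namespace Fermat.Agent.S14Lib

namespace FI

open IsDedekindDomain NumberField Ideal WithZero Module
open scoped Pointwise

section Abs

/-- a `p`-divisible quotient of bounded exponent has no `p`-torsion -/
theorem no_torsion_of_divisible {A : Type*} [AddCommGroup A] (N : AddSubgroup A) {p : ℕ}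
    (hp : p.Prime) (h : ℕ) (h0 : h ≠ 0) (hexp : ∀ D : A, h • D ∈ N)
    (hdiv : ∀ D : A, ∃ D' : A, D - p • D' ∈ N) (D : A) (hD : p • D ∈ N) : D ∈ N := by
  have hpow : ∀ (a : ℕ) (D : A), ∃ D' : A, D - p ^ a • D' ∈ N := by
    intro a
    induction a with
    | zero => intro D; exact ⟨D, by simp⟩
    | succ a ih =>
      intro D
      obtain ⟨D1, h1⟩ := ih D
      obtain ⟨D2, h2⟩ := hdiv D1
      refine ⟨D2, ?_⟩
      have h3 : D - p ^ (a + 1) • D2 = (D - p ^ a • D1) + p ^ a • (D1 - p • D2) := by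
        rw [smul_sub, pow_succ, mul_smul]; abel
      rw [h3]
      exact N.add_mem h1 (N.nsmul_mem h2 _)
  obtain ⟨a, m, hm, rfl⟩ := Nat.exists_eq_pow_mul_and_not_dvd h0 p hp.ne_one
  obtain ⟨D', hD'⟩ := hpow a D
  have h1 : m • D ∈ N := by
    have h2 : m • D = m • (D - p ^ a • D') + (p ^ a * m) • D' := by
      rw [smul_sub, mul_comm, mul_smul]; abel
    rw [h2]
    exact N.add_mem (N.nsmul_mem hD' _) (hexp D')
  have hcop : IsCoprime (p : ℤ) (m : ℤ) := by
    rw [Nat.isCoprime_iff_coprime]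
    exact (Nat.Prime.coprime_iff_not_dvd hp).mpr hm
  obtain ⟨x, y, hxy⟩ := hcop
  have h3 : D = x • (p • D) + y • (m • D) := by
    rw [← natCast_zsmul, ← natCast_zsmul, smul_smul, smul_smul, ← add_smul, hxy, one_smul]
  rw [h3]
  exact N.add_mem (N.zsmul_mem hD _) (N.zsmul_mem h1 _)

end Abs

section Cl

variable {F : Type*} [Field F] [NumberField F]

/-- the divisor of an element (in the `vz` normalisation) -/
noncomputable def divz (c : Fˣ) : HeightOneSpectrum (𝓞 F) →₀ ℤ :=
  Finsupp.ofSupportFinite (fun v => vz v c) (finite_vz_ne_zero c)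

theorem divz_apply (c : Fˣ) (v : HeightOneSpectrum (𝓞 F)) : divz c v = vz v c := rfl

/-- divisors which are principal outside `S` -/
def prinS (S : Set (HeightOneSpectrum (𝓞 F))) : AddSubgroup (HeightOneSpectrum (𝓞 F) →₀ ℤ) where
  carrier := {D | ∃ c : Fˣ, ∀ v ∉ S, vz v c = D v}
  zero_mem' := ⟨1, fun v _ => by simp [vz_one]⟩
  add_mem' := by
    rintro D D' ⟨c, hc⟩ ⟨c', hc'⟩
    exact ⟨c * c', fun v hv => by rw [vz_mul, hc v hv, hc' v hv]; rfl⟩
  neg_mem' := by
    rintro D ⟨c, hc⟩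
    exact ⟨c⁻¹, fun v hv => by rw [vz_inv, hc v hv]; rfl⟩

theorem mem_prinS {S : Set (HeightOneSpectrum (𝓞 F))} {D : HeightOneSpectrum (𝓞 F) →₀ ℤ} :
    D ∈ prinS S ↔ ∃ c : Fˣ, ∀ v ∉ S, vz v c = D v := Iff.rfl

theorem divz_mem_prinS (S : Set (HeightOneSpectrum (𝓞 F))) (c : Fˣ) : divz c ∈ prinS S :=
  ⟨c, fun _ _ => rfl⟩

theorem classNumber_smul_mem (S : Set (HeightOneSpectrum (𝓞 F)))
    (D : HeightOneSpectrum (𝓞 F) →₀ ℤ) : classNumber F • D ∈ prinS S := by
  classical
  induction D using Finsupp.induction_linear with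
  | zero => simp
  | add D D' h h' => rw [smul_add]; exact (prinS S).add_mem h h'
  | single v n =>
    obtain ⟨π, h1, h2⟩ := exists_pow_classNumber_generator F v
    have h3 : classNumber F • Finsupp.single v n = (-n) • divz π := by
      ext w
      rw [Finsupp.smul_apply, Finsupp.smul_apply, divz_apply]
      by_cases hw : w = v
      · subst hw
        have : vz w π = -(classNumber F : ℤ) := congrArg Multiplicative.toAdd h1
        rw [this, Finsupp.single_eq_same]
        simp; ring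
      · have : vz w π = 0 := congrArg Multiplicative.toAdd (h2 w hw)
        rw [this, Finsupp.single_eq_of_ne hw]
        simp
    rw [h3]
    exact (prinS S).zsmul_mem (divz_mem_prinS S π) _

/-- If every divisor is, modulo principal divisors and `p`-th multiples, supported on a set `Spl`
of places, then there is a finite subset `S` of `Spl` such that the `S`-class group has
no `p`-torsion. -/
theorem exists_finset_no_torsion {p : ℕ} (hp : p.Prime) (Spl : Set (HeightOneSpectrum (𝓞 F)))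
    (Hall : ∀ D : HeightOneSpectrum (𝓞 F) →₀ ℤ, ∃ c : Fˣ, ∀ v, ¬ (p : ℤ) ∣ (D v - vz v c) →
      v ∈ Spl) :
    ∃ S : Finset (HeightOneSpectrum (𝓞 F)), (∀ v ∈ S, v ∈ Spl) ∧
      ∀ D : HeightOneSpectrum (𝓞 F) →₀ ℤ, (∃ c : Fˣ, ∀ v ∉ S, vz v c = p * D v) →
        ∃ c : Fˣ, ∀ v ∉ S, vz v c = D v := by
  classical
  obtain ⟨S₁, -, hS₁⟩ := exists_clgen (F := F) ∅
  choose cc hcc using fun v₁ : HeightOneSpectrum (𝓞 F) => Hall (Finsupp.single v₁ 1)
  let E : HeightOneSpectrum (𝓞 F) → (HeightOneSpectrum (𝓞 F) →₀ ℤ) :=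
    fun v₁ => Finsupp.single v₁ 1 - divz (cc v₁)
  let S : Finset (HeightOneSpectrum (𝓞 F)) :=
    S₁.biUnion (fun v₁ => (E v₁).support.filter (fun v => ¬ (p : ℤ) ∣ E v₁ v))
  have hSmem : ∀ v₁ ∈ S₁, ∀ v, ¬ (p : ℤ) ∣ E v₁ v → v ∈ S := by
    intro v₁ hv₁ v hv
    simp only [S, Finset.mem_biUnion, Finset.mem_filter, Finsupp.mem_support_iff]
    refine ⟨v₁, hv₁, ?_, hv⟩
    intro h0
    exact hv (by rw [h0]; exact dvd_zero _)
  refine ⟨S, ?_, ?_⟩
  · intro v hv
    simp only [S, Finset.mem_biUnion, Finset.mem_filter] at hv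
    obtain ⟨v₁, -, -, h2⟩ := hv
    exact hcc v₁ v h2
  · -- the subgroup of divisors divisible by `p` modulo `prinS S`
    let M : AddSubgroup (HeightOneSpectrum (𝓞 F) →₀ ℤ) :=
      { carrier := {D | ∃ D', D - p • D' ∈ prinS (S : Set (HeightOneSpectrum (𝓞 F)))}
        zero_mem' := ⟨0, by simp⟩
        add_mem' := by
          rintro D D' ⟨D1, h1⟩ ⟨D2, h2⟩
          refine ⟨D1 + D2, ?_⟩
          have : D + D' - p • (D1 + D2) = (D - p • D1) + (D' - p • D2) := by
            rw [smul_add]; abel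
          rw [this]
          exact AddSubgroup.add_mem _ h1 h2
        neg_mem' := by
          rintro D ⟨D1, h1⟩
          refine ⟨-D1, ?_⟩
          have : -D - p • (-D1) = -(D - p • D1) := by
            rw [smul_neg]; abel
          rw [this]
          exact AddSubgroup.neg_mem _ h1 }
    have hNM : ∀ D ∈ prinS (S : Set (HeightOneSpectrum (𝓞 F))), D ∈ M := by
      intro D hD
      exact ⟨0, by simpa using hD⟩
    have hsingle : ∀ v₁ ∈ S₁, Finsupp.single v₁ (1 : ℤ) ∈ M := by
      intro v₁ hv₁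
      let D' : HeightOneSpectrum (𝓞 F) →₀ ℤ :=
        (E v₁).mapRange (fun n => if (p : ℤ) ∣ n then n / p else 0) (by simp)
      refine ⟨D', ?_⟩
      have h1 : Finsupp.single v₁ (1 : ℤ) - p • D' = divz (cc v₁) + (E v₁ - p • D') := by
        simp only [E]; abel
      rw [h1]
      refine AddSubgroup.add_mem _ (divz_mem_prinS _ _) ⟨1, fun v hv => ?_⟩
      have hdvd : (p : ℤ) ∣ E v₁ v := by
        by_contra hcon
        exact hv (by exact_mod_cast hSmem v₁ hv₁ v hcon)
      rw [vz_one, Finsupp.sub_apply, Finsupp.smul_apply, Finsupp.mapRange_apply, if_pos hdvd,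
        nsmul_eq_mul, Int.mul_ediv_cancel' hdvd, sub_self]
    have hall : ∀ D : HeightOneSpectrum (𝓞 F) →₀ ℤ, D ∈ M := by
      intro D
      obtain ⟨y, hy⟩ := hS₁ D
      have hy' : ∀ v ∉ S₁, vz v y⁻¹ = D v := by
        intro v hv
        rw [vz_inv, (vz_eq_iff v y _).mpr (hy v hv), neg_neg]
      have h1 : D = divz y⁻¹ + (D - divz y⁻¹) := by abel
      rw [h1]
      refine M.add_mem (hNM _ (divz_mem_prinS _ _)) ?_
      set D₂ := D - divz y⁻¹ with hD₂
      rw [← Finsupp.sum_single D₂]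
      refine M.sum_mem (fun v hv => ?_)
      have hvS : v ∈ S₁ := by
        by_contra hcon
        rw [Finsupp.mem_support_iff] at hv
        apply hv
        rw [hD₂, Finsupp.sub_apply, divz_apply, hy' v hcon, sub_self]
      have : Finsupp.single v (D₂ v) = (D₂ v) • Finsupp.single v (1 : ℤ) := by
        rw [Finsupp.smul_single, smul_eq_mul, mul_one]
      rw [this]
      exact M.zsmul_mem (hsingle v hvS) _
    intro D hD
    have key := no_torsion_of_divisible (prinS (S : Set (HeightOneSpectrum (𝓞 F)))) hp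
      (classNumber F) (classNumber_pos F).ne' (classNumber_smul_mem _) hall D (by
        obtain ⟨c, hc⟩ := hD
        refine ⟨c, fun v hv => ?_⟩
        rw [hc v (by exact_mod_cast hv), Finsupp.smul_apply, nsmul_eq_mul])
    obtain ⟨c, hc⟩ := key
    exact ⟨c, fun v hv => hc v (by exact_mod_cast hv)⟩

end Cl

section Unram

variable {F Y : Type*} [Field F] [NumberField F] [Field Y] [NumberField Y] [Algebra F Y]
  [IsGalois F Y]

/-- **First inequality, unramified case** (`Y / F` form): the principal divisors, the completely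
split places and the multiples of `p` do not generate all divisors. -/
theorem fi_unram_core [IsTotallyComplex F] {p : ℕ} (hp : p.Prime) (σ : Gal(Y/F))
    (hσ : ∀ τ : Gal(Y/F), ∃ i : ℕ, τ = σ ^ i) (hdeg : finrank F Y = p)
    (hunr : ∀ w : HeightOneSpectrum (𝓞 Y), eIdx F w = 1) :
    ∃ D : HeightOneSpectrum (𝓞 F) →₀ ℤ, ∀ c : Fˣ, ∃ v, ¬ (p : ℤ) ∣ (D v - vz v c) ∧
      (primesOver v.asIdeal (𝓞 Y)).ncard ≠ p := by
  by_contra hcon
  push Not at hcon
  obtain ⟨S, hS, H1⟩ := exists_finset_no_torsion hp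
    {v : HeightOneSpectrum (𝓞 F) | (primesOver v.asIdeal (𝓞 Y)).ncard = p} hcon
  refine fi_core S hp σ hσ hdeg ∅ hS (fun w _ h => absurd h (by simp)) (fun w _ _ => hunr w) H1
    1 ?_ (fun _ _ _ => rfl)
  intro f
  refine ⟨1, ?_⟩
  apply Multiplicative.toAdd.injective
  funext v
  exact absurd v.2 (Finset.notMem_empty _)

end Unram

section Alpha

open Polynomial IntermediateField

variable {F : Type*} [Field F] [NumberField F]

/-- a number field containing a primitive `p`-th root of unity, `p` odd, is totally complex -/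
theorem isTotallyComplex_of_primitiveRoot {p : ℕ} (hp : p.Prime) (hp2 : p ≠ 2) {ζ : F}
    (hζ : IsPrimitiveRoot ζ p) : IsTotallyComplex F := by
  refine ⟨fun v => ?_⟩
  rw [← InfinitePlace.not_isReal_iff_isComplex]
  intro hv
  obtain ⟨φ, hφ, -⟩ := InfinitePlace.isReal_iff.mp hv |> fun h => (⟨v.embedding, h, rfl⟩ :
    ∃ φ : F →+* ℂ, ComplexEmbedding.IsReal φ ∧ φ = v.embedding)
  have h1 : IsPrimitiveRoot (φ ζ) p := hζ.map_of_injective φ.injective
  have h2 : (φ ζ) = ((hφ.embedding ζ : ℝ) : ℂ) := (hφ.coe_embedding_apply ζ).symm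
  have h3 : IsPrimitiveRoot (hφ.embedding ζ) p := hζ.map_of_injective hφ.embedding.injective
  have h4 : (hφ.embedding ζ) ^ p = 1 := h3.pow_eq_one
  have hodd : Odd p := hp.odd_of_ne_two hp2
  have h5 : hφ.embedding ζ = 1 := by
    have := hodd.strictMono_pow (R := ℝ)
    apply this.injective
    simp only [h4, one_pow]
  rw [h5] at h3
  have := h3.eq_orderOf
  rw [orderOf_one] at this
  exact hp.one_lt.ne' this

/-- **First inequality, unramified case** (Kummer form). -/
theorem fi_unram_mid {p : ℕ} (hp : p.Prime) (hp2 : p ≠ 2) {ζ : F} (hζ : IsPrimitiveRoot ζ p)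
    {α : F} (hnp : ∀ z : F, z ^ p ≠ α)
    (hdvd : ∀ v : HeightOneSpectrum (𝓞 F), v.valuation F (p : F) = 1 →
      ∃ k : ℤ, v.valuation F α = exp ((p : ℤ) * k))
    (hlp : ∀ v : HeightOneSpectrum (𝓞 F), v.valuation F (p : F) ≠ 1 →
      ∃ y : F, y ≠ 0 ∧ v.valuation F (α / y ^ p - 1) < v.valuation F (1 - ζ) ^ p) :
    ∃ D : HeightOneSpectrum (𝓞 F) →₀ ℤ, ∀ c : Fˣ, ∃ v, ¬ (p : ℤ) ∣ (D v - vz v c) ∧
      ¬ ∃ y : F, y ≠ 0 ∧ v.valuation F (α / y ^ p - 1) < v.valuation F (1 - ζ) ^ p := by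
  have H : Irreducible (X ^ p - C α) := X_pow_sub_C_irreducible_of_prime hp hnp
  haveI : Fact (Irreducible (X ^ p - C α)) := ⟨H⟩
  let Y := AdjoinRoot (X ^ p - C α)
  haveI : Module.Finite F Y := (AdjoinRoot.powerBasis H.ne_zero).finite
  haveI : NumberField Y := NumberField.of_module_finite F Y
  have hθ : (AdjoinRoot.root (X ^ p - C α)) ^ p = algebraMap F Y α := by
    have := AdjoinRoot.eval₂_root (X ^ p - C α)
    simp only [eval₂_sub, eval₂_pow, eval₂_X, eval₂_C, sub_eq_zero] at this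
    exact this
  have htop : F⟮AdjoinRoot.root (X ^ p - C α)⟯ = ⊤ := by
    apply IntermediateField.adjoin_eq_top_of_algebra
    exact AdjoinRoot.adjoinRoot_eq_top
  obtain ⟨hgal, hdeg, σ, -, hσ⟩ := kummer_setup hp hζ hθ htop hnp
  haveI := hgal
  haveI := isTotallyComplex_of_primitiveRoot hp hp2 hζ
  obtain ⟨D, hD⟩ := fi_unram_core (F := F) (Y := Y) hp σ hσ hdeg (by
    intro w
    have := w.isPrime
    by_cases hv : (below (F := F) w).valuation F (p : F) = 1
    · obtain ⟨k, hk⟩ := hdvd _ hv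
      exact unramified_c' hp hζ hθ htop hnp (below w) (val_one_sub_zeta hp hζ _ hv) k hk w.asIdeal
    · obtain ⟨y, hy0, hy⟩ := hlp _ hv
      exact ((splitting_ab hp hζ hθ htop hnp (below w) y hy0 hy).2 w.asIdeal inferInstance
        inferInstance).1)
  refine ⟨D, fun c => ?_⟩
  obtain ⟨v, h1, h2⟩ := hD c
  refine ⟨v, h1, ?_⟩
  rintro ⟨y, hy0, hy⟩
  exact h2 (splitting_ab hp hζ hθ htop hnp v y hy0 hy).1

end Alpha

end FI

end Fermat.Agent.S14Lib
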