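import Mathlib
import Fermat.Agent.S14.FIUnram
import Fermat.Agent.S14.Defs
import Fermat.Agent.S14.CrossDefs

/-!
# S14, leaf L7: the first inequality (unramified case) in the two shapes used downstream
-/

set_option linter.unusedSectionVars false

open IsDedekindDomain NumberField

namespace Fermat.Agent.S14Lib

universe u

/-- [FI] `Prin + NG ∅ α ≠ Divs F` (unramified case; used for Theorem R). -/
theorem fi_unram {F : Type u} [Field F] [NumberField F] (p : ℕ) [Fact p.Prime] (hp2 : p ≠ 2)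
    {ζ : F} (hζ : IsPrimitiveRoot ζ p) {α : F} (hα : HAlpha p ζ α) (hnp : ∀ z : F, z ^ p ≠ α) :
    ∃ D : Divs F, ∀ y : F, y ≠ 0 → D - dv y ∉ NG p ζ ∅ α := by
  obtain ⟨D, hD⟩ := FI.fi_unram_mid (Fact.out : p.Prime) hp2 hζ hnp
    (fun v _ => by
      obtain ⟨k, hk⟩ := hα.dvd v
      refine ⟨-k, ?_⟩
      rw [val_eq_exp_neg_ord v hα.ne, hk]
      congr 1
      ring)
    (fun v hv => hα.lp v hv)
  refine ⟨D, fun y hy hmem => ?_⟩
  obtain ⟨v, h1, h2⟩ := hD (Units.mk0 y hy)⁻¹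
  apply h2
  refine (hmem v ?_).2
  have h3 : FI.vz v (Units.mk0 y hy)⁻¹ = ord v y := by
    rw [FI.vz_inv, (FI.vz_eq_iff v (Units.mk0 y hy) (-ord v y)).mpr
      (by rw [Units.val_mk0]; exact val_eq_exp_neg_ord v hy), neg_neg]
  rw [h3] at h1
  simpa using h1

/-- [FI] in the shape of `CrossDefs`. -/
theorem fiProp (p : ℕ) [Fact p.Prime] (hp2 : p ≠ 2) : FIProp p := by
  intro F _ _ ζ hζ α hα hnp
  have hp : p.Prime := Fact.out
  have hζ1 : (1 : F) - ζ ≠ 0 := by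
    intro h
    exact hζ.ne_one hp.one_lt (sub_eq_zero.mp h).symm
  obtain ⟨D, hD⟩ := FI.fi_unram_mid hp hp2 hζ hnp (fun v _ => hα.1 v)
    (fun v hv => by
      have hmem : (p : 𝓞 F) ∈ v.asIdeal := by
        rw [← v.valuation_lt_one_iff_mem (K := F)]
        have h1 : v.valuation F (algebraMap (𝓞 F) F (p : 𝓞 F)) ≤ 1 := v.valuation_le_one _
        have h2 : algebraMap (𝓞 F) F (p : 𝓞 F) = (p : F) := by simp
        change v.valuation F (algebraMap (𝓞 F) F (p : 𝓞 F)) < 1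
        rw [h2] at h1 ⊢
        exact lt_of_le_of_ne h1 hv
      have h0 : v.valuation F (1 - ζ) ^ p ≠ 0 :=
        pow_ne_zero _ ((Valuation.ne_zero_iff _).mpr hζ1)
      obtain ⟨n, hn⟩ : ∃ n : ℤ, v.valuation F (1 - ζ) ^ p = WithZero.exp n :=
        ⟨_, (WithZero.exp_log h0).symm⟩
      obtain ⟨y, hy0, hy⟩ := hα.2 v hmem (n.natAbs + 1)
      refine ⟨y, hy0, lt_of_le_of_lt hy ?_⟩
      rw [hn, WithZero.exp_lt_exp]
      have := neg_abs_le n
      push_cast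
      linarith)
  refine ⟨D, ?_⟩
  rintro ⟨y, hy, hall⟩
  obtain ⟨v, h1, h2⟩ := hD (Units.mk0 y hy)⁻¹
  have h3 : FI.vz v (Units.mk0 y hy)⁻¹ = ordv v y := by
    rw [FI.vz_inv, (FI.vz_eq_iff v (Units.mk0 y hy) (-ordv v y)).mpr
      (by rw [Units.val_mk0]; exact val_eq_exp_ordv v hy), neg_neg]
  rw [h3] at h1
  rcases hall v with h | ⟨-, hg1, hg2, hg3⟩
  · exact h1 h
  · apply h2
    obtain ⟨z, hz0, hz⟩ := (sym_eq_zero_iff hζ hg1 hg2).mp hg3
    refine ⟨z, hz0, ?_⟩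
    rw [val_one_sub_zeta hp hζ v hg1, one_pow]
    exact hz

end Fermat.Agent.S14Lib
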