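import Mathlib

/-!
# S14, leaf L10 (SI): abstract group-theoretic parts
-/

set_option autoImplicit false

namespace Fermat.Agent.S14Lib

section AbsCount

variable {G X ι : Type*} [CommGroup G] [Group X] [Fintype ι]

/-- Abstract index count used for the second inequality. -/
theorem abs_count (p a : ℕ) [Fact p.Prime] (LP : Subgroup G) (hLP0 : LP.index ≠ 0)
    (hLP : LP.index ≤ p ^ a) (Θ : G →* X) (hΘ : Function.Surjective Θ) (hker : LP ≤ Θ.ker)
    (g : ι → G) (hg : ∀ i, g i ∈ Θ.ker)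
    (hind : ∀ e : ι → ℤ, ∏ i, g i ^ e i ∈ LP → ∀ i, (p : ℤ) ∣ e i) :
    Nat.card X * p ^ Fintype.card ι ≤ p ^ a := by
  classical
  have h1 : Θ.ker.index = Nat.card X := by
    rw [Subgroup.index_ker, MonoidHom.range_eq_top.2 hΘ]
    exact Nat.card_congr Subgroup.topEquiv.toEquiv
  have h2 : LP.relIndex Θ.ker * Θ.ker.index = LP.index := Subgroup.relIndex_mul_index hker
  have hrel0 : LP.relIndex Θ.ker ≠ 0 := fun h => hLP0 (by rw [← h2, h, zero_mul])
  have hfin : Finite (Θ.ker ⧸ LP.subgroupOf Θ.ker) := Nat.finite_of_card_ne_zero hrel0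
  let φ : (ι → ZMod p) → Θ.ker ⧸ LP.subgroupOf Θ.ker := fun e =>
    QuotientGroup.mk ⟨∏ i, g i ^ (e i).val, Subgroup.prod_mem _ fun i _ => Subgroup.pow_mem _ (hg i) _⟩
  have hφ : Function.Injective φ := by
    intro e e' h
    have h' := QuotientGroup.eq.1 h
    rw [Subgroup.mem_subgroupOf] at h'
    have h3 : ∏ i, g i ^ (((e' i).val : ℤ) - ((e i).val : ℤ)) ∈ LP := by
      convert h' using 1
      simp only [Subgroup.coe_mul, Subgroup.coe_inv, zpow_sub, zpow_natCast,
        Finset.prod_mul_distrib, Finset.prod_inv_distrib]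
      rw [mul_comm]
    funext i
    have h4 := hind _ h3 i
    have h5 : (((e' i).val : ℤ) : ZMod p) = (((e i).val : ℤ) : ZMod p) := by
      rw [← sub_eq_zero, ← Int.cast_sub]
      exact (ZMod.intCast_zmod_eq_zero_iff_dvd _ _).2 h4
    simpa using h5.symm
  have h6 : p ^ Fintype.card ι ≤ LP.relIndex Θ.ker := by
    have := Nat.card_le_card_of_injective φ hφ
    have h7 : Nat.card (ι → ZMod p) = p ^ Fintype.card ι := by
      simp [Nat.card_eq_fintype_card, ZMod.card]
    rw [h7] at this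
    exact this
  calc Nat.card X * p ^ Fintype.card ι ≤ Nat.card X * LP.relIndex Θ.ker :=
        Nat.mul_le_mul_left _ h6
    _ = LP.index := by rw [← h2, h1, mul_comm]
    _ ≤ p ^ a := hLP

omit [Fintype ι] in
theorem abs_card_ne_zero (LP : Subgroup G) (hLP0 : LP.index ≠ 0) (Θ : G →* X)
    (hΘ : Function.Surjective Θ) (hker : LP ≤ Θ.ker) : Nat.card X ≠ 0 := by
  have h1 : Θ.ker.index = Nat.card X := by
    rw [Subgroup.index_ker, MonoidHom.range_eq_top.2 hΘ]
    exact Nat.card_congr Subgroup.topEquiv.toEquiv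
  have h2 : LP.relIndex Θ.ker * Θ.ker.index = LP.index := Subgroup.relIndex_mul_index hker
  intro h
  rw [h1, h, mul_zero] at h2
  exact hLP0 h2.symm

/-- a group of order at most `p` and exponent `p` is generated by any nontrivial element. -/
theorem mem_zpowers_of_card_le {X : Type*} [Group X] (p : ℕ) [hp : Fact p.Prime]
    (h0 : Nat.card X ≠ 0) (hle : Nat.card X ≤ p) (hexp : ∀ x : X, x ^ p = 1) {x0 : X}
    (hx0 : x0 ≠ 1) (x : X) : x ∈ Subgroup.zpowers x0 := by
  have : Finite X := Nat.finite_of_card_ne_zero h0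
  have h1 : orderOf x0 = p := by
    rcases (Nat.dvd_prime hp.out).1 (orderOf_dvd_of_pow_eq_one (hexp x0)) with h | h
    · exact absurd (orderOf_eq_one_iff.1 h) hx0
    · exact h
  have h2 : Nat.card X = p := le_antisymm hle (h1 ▸ orderOf_le_card)
  exact mem_zpowers_of_prime_card h2 hx0

end AbsCount

section Indep

variable {G : Type*} [CommGroup G]

/-- `α, u_0, …, u_{n-1}` are independent modulo `p`-th powers. -/
def IndepP (p : ℕ) (α : G) {n : ℕ} (u : Fin n → G) : Prop :=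
  ∀ (e0 : ℤ) (e : Fin n → ℤ), (∃ z : G, α ^ e0 * ∏ j, u j ^ e j = z ^ p) →
    (p : ℤ) ∣ e0 ∧ ∀ j, (p : ℤ) ∣ e j

theorem eq_pow_of_zpow_eq_pow (p : ℕ) [hp : Fact p.Prime] {y w z : G} {f : ℤ}
    (hf : ¬ (p : ℤ) ∣ f) (h : y ^ f * w = z ^ p) :
    ∃ (a : ℤ) (t : G), y = w ^ a * t ^ p := by
  have hcop : IsCoprime f (p : ℤ) := by
    have := (Nat.prime_iff_prime_int.1 hp.out)
    exact (this.coprime_iff_not_dvd.2 hf).symm
  obtain ⟨a, b, hab⟩ := hcop
  refine ⟨-a, z ^ a * y ^ b, ?_⟩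
  have h1 : y ^ f = z ^ p * w⁻¹ := by rw [← h]; group
  calc y = y ^ (a * f + b * p) := by rw [hab, zpow_one]
    _ = (y ^ f) ^ a * (y ^ b) ^ p := by
        rw [zpow_add, mul_comm a f, zpow_mul, zpow_mul, zpow_natCast]
    _ = w ^ (-a) * (z ^ a * y ^ b) ^ p := by
        rw [h1, mul_zpow, mul_pow, inv_zpow', ← zpow_natCast (z ^ a) p, ← zpow_mul,
          ← zpow_natCast z p, ← zpow_mul, mul_comm (p : ℤ) a, mul_comm (z ^ (a * (p : ℤ))),
          mul_assoc]

theorem exists_not_mem_span (p : ℕ) [hp : Fact p.Prime] (H : Subgroup G)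
    (hsat : ∀ z : G, z ^ p ∈ H → z ∈ H) (α : G) (hα : α ∈ H) {n : ℕ} (u : Fin n → G)
    (hu : ∀ j, u j ∈ H)
    (hcard : p ^ (n + 1) < Nat.card (H ⧸ (powMonoidHom p : H →* H).range)) :
    ∃ y ∈ H, ∀ (e0 : ℤ) (e : Fin n → ℤ) (t : G), y ≠ α ^ e0 * (∏ j, u j ^ e j) * t ^ p := by
  classical
  by_contra hcon
  push Not at hcon
  have hfin : Finite (H ⧸ (powMonoidHom p : H →* H).range) :=
    Nat.finite_of_card_ne_zero (by omega)
  let φ : (ZMod p × (Fin n → ZMod p)) → H ⧸ (powMonoidHom p : H →* H).range := fun e =>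
    QuotientGroup.mk ⟨α ^ e.1.val * ∏ j, u j ^ (e.2 j).val,
      H.mul_mem (H.pow_mem hα _) (Subgroup.prod_mem _ fun j _ => H.pow_mem (hu j) _)⟩
  have hdecomp : ∀ k : ℤ, k = (((k : ZMod p).val : ℕ) : ℤ) + p * (k / p) := by
    intro k
    rw [ZMod.val_intCast]
    exact (Int.emod_add_mul_ediv k p).symm
  have hφ : Function.Surjective φ := by
    intro c
    obtain ⟨⟨y, hy⟩, rfl⟩ := QuotientGroup.mk_surjective c
    obtain ⟨e0, e, t, ht⟩ := hcon y hy
    refine ⟨((e0 : ZMod p), fun j => (e j : ZMod p)), ?_⟩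
    rw [QuotientGroup.eq]
    set s : G := α ^ (e0 / p) * (∏ j, u j ^ (e j / p)) * t with hs
    have hsp : s ^ p = (α ^ ((e0 : ZMod p).val) * ∏ j, u j ^ ((e j : ZMod p).val))⁻¹ * y := by
      rw [ht, hs, mul_pow, mul_pow, ← Finset.prod_pow]
      have key : ∀ (g : G) (k : ℤ), g ^ k = g ^ ((k : ZMod p).val) * (g ^ (k / p)) ^ p := by
        intro g k
        conv_lhs => rw [hdecomp k]
        rw [zpow_add, zpow_natCast, mul_comm (p : ℤ), zpow_mul, zpow_natCast]
      have : ∀ j, u j ^ e j = u j ^ ((e j : ZMod p).val) * (u j ^ (e j / p)) ^ p :=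
        fun j => key _ _
      simp_rw [this]
      rw [Finset.prod_mul_distrib, key α e0]
      rw [mul_inv]
      generalize α ^ ((e0 : ZMod p).val) = A
      generalize ∏ j, u j ^ ((e j : ZMod p).val) = B
      generalize (α ^ (e0 / (p : ℤ))) ^ p = C
      generalize ∏ j, (u j ^ (e j / (p : ℤ))) ^ p = D
      generalize t ^ p = E
      have : A⁻¹ * B⁻¹ * (A * C * (B * D) * E) = (A⁻¹ * A) * (B⁻¹ * B) * (C * D * E) := by
        simp only [mul_assoc, mul_left_comm, mul_comm]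
      rw [this, inv_mul_cancel, inv_mul_cancel, one_mul, one_mul]
    have hsH : s ∈ H := by
      apply hsat
      rw [hsp]
      exact H.mul_mem (H.inv_mem (H.mul_mem (H.pow_mem hα _)
        (Subgroup.prod_mem _ fun j _ => H.pow_mem (hu j) _))) hy
    refine ⟨⟨s, hsH⟩, ?_⟩
    apply Subtype.ext
    simpa using hsp
  have h1 := Nat.card_le_card_of_surjective φ hφ
  have h2 : Nat.card (ZMod p × (Fin n → ZMod p)) = p ^ (n + 1) := by
    simp [Nat.card_eq_fintype_card, ZMod.card, pow_succ, mul_comm]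
  omega

theorem exists_indep (p : ℕ) [hp : Fact p.Prime] (H : Subgroup G)
    (hsat : ∀ z : G, z ^ p ∈ H → z ∈ H) (α : G) (hα : α ∈ H) (hαp : ∀ z : G, z ^ p ≠ α) (n : ℕ)
    (hcard : p ^ (n + 1) ≤ Nat.card (H ⧸ (powMonoidHom p : H →* H).range)) :
    ∃ u : Fin n → G, (∀ j, u j ∈ H) ∧ IndepP p α u := by
  induction n with
  | zero =>
    refine ⟨Fin.elim0, fun j => j.elim0, fun e0 e ⟨z, hz⟩ => ⟨?_, fun j => j.elim0⟩⟩
    by_contra hnd
    obtain ⟨a, t, hat⟩ := eq_pow_of_zpow_eq_pow p hnd (y := α) (w := (1 : G)) (z := z)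
      (by simpa using hz)
    exact hαp t (by rw [hat]; simp)
  | succ n ih =>
    have hlt : p ^ (n + 1) < p ^ (n + 1 + 1) := Nat.pow_lt_pow_right hp.out.one_lt (by omega)
    obtain ⟨u, hu, hind⟩ := ih (by omega)
    obtain ⟨y, hy, hyn⟩ := exists_not_mem_span p H hsat α hα u hu (by omega)
    refine ⟨Fin.cons y u, fun j => ?_, fun e0 e ⟨z, hz⟩ => ?_⟩
    · refine Fin.cases ?_ (fun j => ?_) j
      · simpa using hy
      · simpa using hu j
    · rw [Fin.prod_univ_succ] at hz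
      simp only [Fin.cons_zero, Fin.cons_succ] at hz
      have h0 : (p : ℤ) ∣ e 0 := by
        by_contra hnd
        obtain ⟨a, t, hat⟩ := eq_pow_of_zpow_eq_pow p hnd
          (w := α ^ e0 * ∏ j : Fin n, u j ^ e j.succ) (z := z) (by rw [← hz]; exact mul_left_comm _ _ _)
        refine hyn (e0 * a) (fun j => e j.succ * a) t ?_
        rw [hat, mul_zpow, ← zpow_mul, ← Finset.prod_zpow]
        simp_rw [zpow_mul]
      obtain ⟨f, hf⟩ := h0
      have h1 := hind e0 (fun j => e j.succ) ⟨z * y ^ (-f), by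
        rw [mul_pow, ← hz, hf, ← zpow_natCast (y ^ (-f)) p, ← zpow_mul, zpow_mul, zpow_natCast,
          neg_mul, zpow_neg, mul_comm f, zpow_mul, zpow_natCast]
        generalize (y ^ p) ^ f = A
        rw [mul_left_comm, mul_comm A, mul_assoc, mul_assoc, mul_inv_cancel, mul_one]⟩
      refine ⟨h1.1, fun j => ?_⟩
      refine Fin.cases ?_ (fun j => ?_) j
      · exact ⟨f, hf⟩
      · exact h1.2 j

end Indep

end Fermat.Agent.S14Lib
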