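import Mathlib

/-!
# S14, leaf L3: the analytic density lemma

If almost every prime of `X` has two "partner" primes of `Y` of the same absolute norm
(injectively), then `ζ_X(s)^2 ≤ C ζ_Y(s)` for `s > 1`, contradicting the simple poles at `s = 1`.
-/

namespace Fermat.Agent.S14Lib

open Filter Topology NumberField

section Euler

variable {R : Type*} [CommRing R] [IsDedekindDomain R]

/-- nonzero ideals all of whose prime divisors lie in `T` -/
def suppOn (T : Finset (Ideal R)) : Set (Ideal R) :=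
  {I | I ≠ ⊥ ∧ ∀ P : Ideal R, P.IsPrime → I ≤ P → P ∈ T}

theorem pow_mul_inj_aux {M : Type*} [CommMonoidWithZero M] [IsCancelMulZero M] {p a b : M} (hp : p ≠ 0)
    (ha : ¬ p ∣ a) (hb : ¬ p ∣ b) {k m : ℕ} (h : p ^ k * a = p ^ m * b) : k = m ∧ a = b := by
  rcases le_total k m with hkm | hkm
  · obtain ⟨d, rfl⟩ := Nat.exists_eq_add_of_le hkm
    rw [pow_add, mul_assoc] at h
    have h2 := mul_left_cancel₀ (pow_ne_zero k hp) h
    cases d with
    | zero => simpa using h2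
    | succ d =>
      exact absurd ⟨p ^ d * b, by rw [h2, pow_succ', mul_assoc]⟩ ha
  · obtain ⟨d, rfl⟩ := Nat.exists_eq_add_of_le hkm
    rw [pow_add, mul_assoc] at h
    have h2 := mul_left_cancel₀ (pow_ne_zero m hp) h
    cases d with
    | zero => simpa using h2
    | succ d =>
      exact absurd ⟨p ^ d * a, by rw [← h2, pow_succ', mul_assoc]⟩ hb

theorem hasSum_suppOn (w : Ideal R → ℝ) (w1 : w ⊤ = 1) (wmul : ∀ I J, w (I * J) = w I * w J)
    (w0 : ∀ I, 0 ≤ w I) (T : Finset (Ideal R)) (hT : ∀ P ∈ T, P.IsPrime ∧ P ≠ ⊥ ∧ w P < 1) :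
    HasSum ((suppOn T).indicator w) (∏ P ∈ T, (1 - w P)⁻¹) := by
  classical
  induction T using Finset.induction_on with
  | empty =>
    have h := hasSum_single (f := (suppOn (∅ : Finset (Ideal R))).indicator w) ⊤ (by
      intro I hI
      apply Set.indicator_of_notMem
      rintro ⟨-, h2⟩
      obtain ⟨M, hM, hIM⟩ := Ideal.exists_le_maximal I hI
      exact absurd (h2 M hM.isPrime hIM) (by simp))
    have h3 : (⊤ : Ideal R) ∈ suppOn (∅ : Finset (Ideal R)) := by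
      refine ⟨top_ne_bot, fun P hP hle => absurd (top_le_iff.mp hle) hP.ne_top⟩
    rw [Set.indicator_of_mem h3, w1] at h
    simpa using h
  | insert P T hPT ih =>
    obtain ⟨hPp, hP0, hP1⟩ := hT P (Finset.mem_insert_self _ _)
    have ih' := ih (fun Q hQ => hT Q (Finset.mem_insert_of_mem hQ))
    rw [Finset.prod_insert hPT]
    have wpow : ∀ k : ℕ, w (P ^ k) = w P ^ k := by
      intro k
      induction k with
      | zero => simpa using w1
      | succ k ihk => rw [pow_succ, wmul, ihk, pow_succ]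
    have hgeo : HasSum (fun k : ℕ => w P ^ k) (1 - w P)⁻¹ :=
      hasSum_geometric_of_lt_one (w0 P) hP1
    have ih2 : HasSum (fun I : suppOn T => w I) (∏ P ∈ T, (1 - w P)⁻¹) :=
      (hasSum_subtype_iff_indicator).mpr ih'
    have hprod : HasSum (fun x : ℕ × suppOn T => w P ^ x.1 * w x.2)
        ((1 - w P)⁻¹ * ∏ P ∈ T, (1 - w P)⁻¹) :=
      hgeo.mul ih2 (hgeo.summable.mul_of_nonneg ih2.summable (fun k => pow_nonneg (w0 P) k)
        (fun I => w0 _))
    have hndvd : ∀ I ∈ suppOn T, ¬ P ∣ I := by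
      intro I hI hdvd
      exact hPT (hI.2 P hPp (Ideal.dvd_iff_le.mp hdvd))
    let φ : ℕ × suppOn T → Ideal R := fun x => P ^ x.1 * x.2
    have hφinj : Function.Injective φ := by
      rintro ⟨k, I, hI⟩ ⟨m, J, hJ⟩ h
      obtain ⟨h1, h2⟩ := pow_mul_inj_aux hP0 (hndvd I hI) (hndvd J hJ) h
      subst h1; subst h2; rfl
    have hφmem : ∀ x, φ x ∈ suppOn (insert P T) := by
      rintro ⟨k, I, hI⟩
      refine ⟨mul_ne_zero (pow_ne_zero k hP0) hI.1, fun Q hQ hle => ?_⟩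
      rcases (Ideal.IsPrime.mul_le hQ).mp hle with h | h
      · have h2 : P ≤ Q := Ideal.IsPrime.le_of_pow_le (hP := hQ) h
        have : P = Q := (hPp.isMaximal hP0).eq_of_le hQ.ne_top h2
        rw [← this]; exact Finset.mem_insert_self _ _
      · exact Finset.mem_insert_of_mem (hI.2 Q hQ h)
    have hφrange : ∀ I ∉ Set.range φ, (suppOn (insert P T)).indicator w I = 0 := by
      intro I hI
      apply Set.indicator_of_notMem
      intro hmem
      apply hI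
      have hfin : FiniteMultiplicity P I :=
        FiniteMultiplicity.of_not_isUnit (fun hu => hPp.ne_top (Ideal.isUnit_iff.mp hu)) hmem.1
      obtain ⟨J, hJ, hJn⟩ := hfin.exists_eq_pow_mul_and_not_dvd
      have hJmem : J ∈ suppOn T := by
        refine ⟨?_, fun Q hQ hle => ?_⟩
        · rintro rfl
          exact hmem.1 (by rw [hJ]; simp)
        · have h1 : I ≤ Q := by
            rw [hJ]; exact le_trans Ideal.mul_le_right hle
          rcases Finset.mem_insert.mp (hmem.2 Q hQ h1) with rfl | h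
          · exact absurd (Ideal.dvd_iff_le.mpr hle) hJn
          · exact h
      exact ⟨⟨_, J, hJmem⟩, hJ.symm⟩
    rw [← hφinj.hasSum_iff hφrange]
    convert hprod using 1
    funext x
    simp only [Function.comp]
    rw [Set.indicator_of_mem (hφmem x)]
    simp only [φ]
    rw [wmul, wpow]

end Euler

section Zeta

variable (K : Type*) [Field K] [NumberField K]

/-- the weight `N(I)^{-s}` -/
noncomputable def wt (s : ℝ) (I : Ideal (𝓞 K)) : ℝ := (Ideal.absNorm I : ℝ) ^ (-s)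

theorem wt_nonneg (s : ℝ) (I : Ideal (𝓞 K)) : 0 ≤ wt K s I :=
  Real.rpow_nonneg (Nat.cast_nonneg _) _

theorem wt_top (s : ℝ) : wt K s ⊤ = 1 := by
  simp [wt]

theorem wt_mul (s : ℝ) (I J : Ideal (𝓞 K)) : wt K s (I * J) = wt K s I * wt K s J := by
  simp only [wt, map_mul, Nat.cast_mul]
  exact Real.mul_rpow (Nat.cast_nonneg _) (Nat.cast_nonneg _)

theorem two_le_absNorm {P : Ideal (𝓞 K)} (hP : P.IsPrime) (hP0 : P ≠ ⊥) :
    2 ≤ Ideal.absNorm P := by
  have h0 : Ideal.absNorm P ≠ 0 := by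
    rw [Ne, Ideal.absNorm_eq_zero_iff]; exact hP0
  have h1 : Ideal.absNorm P ≠ 1 := by
    rw [Ne, Ideal.absNorm_eq_one_iff]; exact hP.ne_top
  omega

theorem wt_le_half {s : ℝ} (hs : 1 < s) {P : Ideal (𝓞 K)} (hP : P.IsPrime) (hP0 : P ≠ ⊥) :
    wt K s P ≤ 1 / 2 := by
  have h2 : (2 : ℝ) ≤ (Ideal.absNorm P : ℝ) := by exact_mod_cast two_le_absNorm K hP hP0
  have h3 : (Ideal.absNorm P : ℝ) ^ (-s) ≤ (2 : ℝ) ^ (-s) :=
    Real.rpow_le_rpow_of_nonpos (by norm_num) h2 (by linarith)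
  have h4 : (2 : ℝ) ^ (-s) ≤ (2 : ℝ) ^ (-1 : ℝ) :=
    Real.rpow_le_rpow_of_exponent_le (by norm_num) (by linarith)
  have h5 : (2 : ℝ) ^ (-1 : ℝ) = 1 / 2 := by
    rw [Real.rpow_neg_one]; norm_num
  unfold wt
  exact h3.trans (h4.trans h5.le)

theorem lseriesSummable_card {s : ℝ} (hs : 1 < s) :
    LSeriesSummable (fun n ↦ ((Nat.card {I : Ideal (𝓞 K) // Ideal.absNorm I = n} : ℝ) : ℂ)) s := by
  refine LSeriesSummable_of_sum_norm_bigO_and_nonneg
    (f := fun n ↦ (Nat.card {I : Ideal (𝓞 K) // Ideal.absNorm I = n} : ℝ)) (r := 1) ?_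
    (fun _ ↦ Nat.cast_nonneg _) zero_le_one (by simpa using hs)
  refine Asymptotics.isBigO_atTop_natCast_rpow_of_tendsto_div_rpow
    (a := dedekindZeta_residue K) ?_
  simp only [Real.rpow_one]
  refine ((Ideal.tendsto_norm_le_div_atTop₀ K).comp tendsto_natCast_atTop_atTop).congr fun n ↦ ?_
  simp only [Function.comp_apply, Nat.cast_le, ← Nat.cast_sum]
  congr
  rw [← add_left_inj 1, ← Ideal.card_norm_le_eq_card_norm_le_add_one,
    show Finset.Icc 1 n = Finset.Ioc 0 n from Finset.Icc_succ_left_eq_Ioc _ _,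
    show 1 = Nat.card {I : Ideal (𝓞 K) // Ideal.absNorm I = 0} by simp [Ideal.absNorm_eq_zero_iff],
    Finset.sum_Ioc_add_eq_sum_Icc (n.zero_le),
    ← Finset.card_preimage_eq_sum_card_image_eq (fun k _ ↦ Ideal.finite_setOfPred_absNorm_eq k)]
  simp [Set.coe_eq_subtype]

theorem hasSum_card_mul {s : ℝ} (hs : 1 < s) :
    HasSum (fun n : ℕ ↦ (Nat.card {I : Ideal (𝓞 K) // Ideal.absNorm I = n} : ℝ) * (n : ℝ) ^ (-s))
      (dedekindZeta K s).re := by
  have h1 := Complex.hasSum_re (lseriesSummable_card K hs).hasSum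
  have h2 : (∑' n, LSeries.term
      (fun n ↦ ((Nat.card {I : Ideal (𝓞 K) // Ideal.absNorm I = n} : ℝ) : ℂ)) s n)
      = dedekindZeta K s := by
    unfold dedekindZeta LSeries
    simp
  rw [h2] at h1
  convert h1 using 1
  funext n
  rcases Nat.eq_zero_or_pos n with rfl | hn
  · simp [Real.zero_rpow (show -s ≠ 0 by linarith)]
  · rw [LSeries.term_of_ne_zero hn.ne']
    have h3 : ((n : ℂ)) ^ (s : ℂ) = (((n : ℝ) ^ s : ℝ) : ℂ) := by
      rw [Complex.ofReal_cpow (Nat.cast_nonneg n)]; simp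
    rw [h3, ← Complex.ofReal_div, Complex.ofReal_re, Real.rpow_neg (Nat.cast_nonneg n)]
    rfl

theorem hasSum_wt {s : ℝ} (hs : 1 < s) : HasSum (wt K s) (dedekindZeta K s).re := by
  rw [← (Equiv.sigmaFiberEquiv (Ideal.absNorm (S := 𝓞 K))).hasSum_iff]
  have hfib : ∀ n : ℕ, HasSum (fun c : {I : Ideal (𝓞 K) // Ideal.absNorm I = n} =>
      (wt K s ∘ (Equiv.sigmaFiberEquiv (Ideal.absNorm (S := 𝓞 K)))) ⟨n, c⟩)
      ((Nat.card {I : Ideal (𝓞 K) // Ideal.absNorm I = n} : ℝ) * (n : ℝ) ^ (-s)) := by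
    intro n
    have : Finite {I : Ideal (𝓞 K) // Ideal.absNorm I = n} :=
      (Ideal.finite_setOfPred_absNorm_eq n).to_subtype
    have := Fintype.ofFinite {I : Ideal (𝓞 K) // Ideal.absNorm I = n}
    have h := hasSum_fintype (fun c : {I : Ideal (𝓞 K) // Ideal.absNorm I = n} =>
      (wt K s ∘ (Equiv.sigmaFiberEquiv (Ideal.absNorm (S := 𝓞 K)))) ⟨n, c⟩)
    convert h using 1
    have : ∀ c : {I : Ideal (𝓞 K) // Ideal.absNorm I = n},
        (wt K s ∘ (Equiv.sigmaFiberEquiv (Ideal.absNorm (S := 𝓞 K)))) ⟨n, c⟩ = (n : ℝ) ^ (-s) := by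
      rintro ⟨I, hI⟩
      simp [wt, Equiv.sigmaFiberEquiv, hI]
    simp only [this]
    simp [Nat.card_eq_fintype_card]
  refine HasSum.sigma_of_hasSum (hasSum_card_mul K hs) hfib ?_
  refine (summable_sigma_of_nonneg (fun x => wt_nonneg K s _)).mpr ?_
  refine ⟨fun n => (hfib n).summable, ?_⟩
  have : (fun n : ℕ => ∑' c : {I : Ideal (𝓞 K) // Ideal.absNorm I = n},
      (wt K s ∘ (Equiv.sigmaFiberEquiv (Ideal.absNorm (S := 𝓞 K)))) ⟨n, c⟩) =
      fun n : ℕ ↦ (Nat.card {I : Ideal (𝓞 K) // Ideal.absNorm I = n} : ℝ) * (n : ℝ) ^ (-s) := by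
    funext n
    exact (hfib n).tsum_eq
  have h := (hasSum_card_mul K hs).summable
  rw [← this] at h
  exact h

/-- lower bound: every finite Euler product is at most `ζ_K(s)` -/
theorem euler_le_zeta {s : ℝ} (hs : 1 < s) (T : Finset (Ideal (𝓞 K)))
    (hT : ∀ P ∈ T, P.IsPrime ∧ P ≠ ⊥) :
    ∏ P ∈ T, (1 - wt K s P)⁻¹ ≤ (dedekindZeta K s).re := by
  have h1 := hasSum_suppOn (wt K s) (wt_top K s) (wt_mul K s) (wt_nonneg K s) T
    (fun P hP => ⟨(hT P hP).1, (hT P hP).2, by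
      have := wt_le_half K hs (hT P hP).1 (hT P hP).2
      linarith⟩)
  refine hasSum_le (fun I => ?_) h1 (hasSum_wt K hs)
  exact Set.indicator_le_self' (fun _ _ => wt_nonneg K s _) I

/-- upper bound: every finite partial sum of `ζ_K(s)` is at most a finite Euler product -/
theorem sum_le_euler {s : ℝ} (hs : 1 < s) (F : Finset (Ideal (𝓞 K))) :
    ∃ T : Finset (Ideal (𝓞 K)), (∀ P ∈ T, P.IsPrime ∧ P ≠ ⊥) ∧
      ∑ I ∈ F, wt K s I ≤ ∏ P ∈ T, (1 - wt K s P)⁻¹ := by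
  classical
  let T : Finset (Ideal (𝓞 K)) :=
    (F.filter (fun I => I ≠ ⊥)).biUnion
      (fun I => (UniqueFactorizationMonoid.normalizedFactors I).toFinset)
  have hT : ∀ P ∈ T, P.IsPrime ∧ P ≠ ⊥ := by
    intro P hP
    simp only [T, Finset.mem_biUnion, Finset.mem_filter, Multiset.mem_toFinset] at hP
    obtain ⟨I, ⟨-, hI0⟩, hPI⟩ := hP
    have hpr := UniqueFactorizationMonoid.prime_of_normalized_factor P hPI
    exact ⟨Ideal.isPrime_of_prime hpr, hpr.ne_zero⟩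
  refine ⟨T, hT, ?_⟩
  have h1 := hasSum_suppOn (wt K s) (wt_top K s) (wt_mul K s) (wt_nonneg K s) T
    (fun P hP => ⟨(hT P hP).1, (hT P hP).2, by
      have := wt_le_half K hs (hT P hP).1 (hT P hP).2
      linarith⟩)
  have h2 := sum_le_hasSum F (fun I _ => Set.indicator_nonneg (fun _ _ => wt_nonneg K s _) I) h1
  refine le_trans (Finset.sum_le_sum fun I hI => ?_) h2
  by_cases hI0 : I = ⊥
  · subst hI0
    have : wt K s ⊥ = 0 := by
      simp [wt, Real.zero_rpow (show -s ≠ 0 by linarith)]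
    rw [this]
    exact Set.indicator_nonneg (fun _ _ => wt_nonneg K s _) _
  · have hmem : I ∈ suppOn T := by
      refine ⟨hI0, fun P hP hle => ?_⟩
      simp only [T, Finset.mem_biUnion, Finset.mem_filter, Multiset.mem_toFinset]
      refine ⟨I, ⟨hI, hI0⟩, ?_⟩
      have hP0 : P ≠ ⊥ := by
        rintro rfl
        exact hI0 (le_bot_iff.mp hle)
      rw [Ideal.mem_normalizedFactors_iff hI0]
      exact ⟨hP, hle⟩
    rw [Set.indicator_of_mem hmem]

theorem tendsto_sub_one_mul_re :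
    Tendsto (fun s : ℝ => (s - 1) * (dedekindZeta K s).re) (𝓝[>] 1)
      (𝓝 (dedekindZeta_residue K)) := by
  have h := (Complex.continuous_re.tendsto _).comp (tendsto_sub_one_mul_dedekindZeta_nhdsGT K)
  simp only [Complex.ofReal_re] at h
  refine h.congr (fun s => ?_)
  simp only [Function.comp]
  rw [← Complex.ofReal_one, ← Complex.ofReal_sub, Complex.re_ofReal_mul]

end Zeta

section Core

variable (X Y : Type*) [Field X] [NumberField X] [Field Y] [NumberField Y]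

/-- the key inequality `ζ_X(s)^2 ≤ 4^n ζ_Y(s)` -/
theorem zeta_sq_le (B : Finset (Ideal (𝓞 X)))
    (P : Ideal (𝓞 X) → Fin 2 → Ideal (𝓞 Y))
    (hP : ∀ Q : Ideal (𝓞 X), Q.IsPrime → Q ≠ ⊥ → Q ∉ B → ∀ i,
      (P Q i).IsPrime ∧ P Q i ≠ ⊥ ∧ Ideal.absNorm (P Q i) = Ideal.absNorm Q)
    (hinj : ∀ (Q Q' : Ideal (𝓞 X)) (i i' : Fin 2), Q.IsPrime → Q ≠ ⊥ → Q ∉ B →
      Q'.IsPrime → Q' ≠ ⊥ → Q' ∉ B → P Q i = P Q' i' → Q = Q' ∧ i = i')
    {s : ℝ} (hs : 1 < s) :
    (dedekindZeta X s).re ^ 2 ≤ 4 ^ B.card * (dedekindZeta Y s).re := by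
  classical
  have hZY : 0 ≤ (dedekindZeta Y s).re := (hasSum_wt Y hs).nonneg (wt_nonneg Y s)
  have hZX : 0 ≤ (dedekindZeta X s).re := (hasSum_wt X hs).nonneg (wt_nonneg X s)
  have hfin : ∀ F : Finset (Ideal (𝓞 X)),
      ∑ I ∈ F, wt X s I ≤ √(4 ^ B.card * (dedekindZeta Y s).re) := by
    intro F
    obtain ⟨T, hT, hle⟩ := sum_le_euler X hs F
    apply Real.le_sqrt_of_sq_le
    have hfac : ∀ Q ∈ T, 0 ≤ (1 - wt X s Q)⁻¹ ∧ (1 - wt X s Q)⁻¹ ≤ 2 := by
      intro Q hQ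
      have h1 := wt_le_half X hs (hT Q hQ).1 (hT Q hQ).2
      constructor
      · apply inv_nonneg.mpr; linarith
      · rw [inv_le_comm₀ (by linarith) (by norm_num)]; linarith
    have hsplit := Finset.prod_filter_mul_prod_filter_not T (fun Q => Q ∈ B)
      (fun Q => (1 - wt X s Q)⁻¹)
    have h1 : ∏ Q ∈ T.filter (fun Q => Q ∈ B), (1 - wt X s Q)⁻¹ ≤ 2 ^ B.card := by
      calc ∏ Q ∈ T.filter (fun Q => Q ∈ B), (1 - wt X s Q)⁻¹
          ≤ ∏ Q ∈ T.filter (fun Q => Q ∈ B), (2 : ℝ) :=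
            Finset.prod_le_prod (fun Q hQ => (hfac Q (Finset.mem_filter.mp hQ).1).1)
              (fun Q hQ => (hfac Q (Finset.mem_filter.mp hQ).1).2)
        _ = 2 ^ (T.filter (fun Q => Q ∈ B)).card := by rw [Finset.prod_const]
        _ ≤ 2 ^ B.card := by
            apply pow_le_pow_right₀ (by norm_num)
            apply Finset.card_le_card
            intro Q hQ
            exact (Finset.mem_filter.mp hQ).2
    have h1' : 0 ≤ ∏ Q ∈ T.filter (fun Q => Q ∈ B), (1 - wt X s Q)⁻¹ :=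
      Finset.prod_nonneg (fun Q hQ => (hfac Q (Finset.mem_filter.mp hQ).1).1)
    set T' := T.filter (fun Q => ¬ Q ∈ B) with hT'
    have hT'mem : ∀ Q ∈ T', Q.IsPrime ∧ Q ≠ ⊥ ∧ Q ∉ B := by
      intro Q hQ
      have := Finset.mem_filter.mp hQ
      exact ⟨(hT Q this.1).1, (hT Q this.1).2, this.2⟩
    have h2' : 0 ≤ ∏ Q ∈ T', (1 - wt X s Q)⁻¹ :=
      Finset.prod_nonneg (fun Q hQ => (hfac Q (Finset.mem_filter.mp hQ).1).1)
    have h2 : (∏ Q ∈ T', (1 - wt X s Q)⁻¹) ^ 2 ≤ (dedekindZeta Y s).re := by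
      have hinjOn : Set.InjOn (fun x : Ideal (𝓞 X) × Fin 2 => P x.1 x.2)
          ((T' ×ˢ (Finset.univ : Finset (Fin 2)) : Finset _) : Set (Ideal (𝓞 X) × Fin 2)) := by
        rintro ⟨Q, i⟩ hx ⟨Q', i'⟩ hx' h
        have hQ := hT'mem Q (Finset.mem_product.mp (Finset.mem_coe.mp hx)).1
        have hQ' := hT'mem Q' (Finset.mem_product.mp (Finset.mem_coe.mp hx')).1
        obtain ⟨e1, e2⟩ := hinj Q Q' i i' hQ.1 hQ.2.1 hQ.2.2 hQ'.1 hQ'.2.1 hQ'.2.2 h
        rw [e1, e2]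
      have h3 := euler_le_zeta Y hs
        ((T' ×ˢ (Finset.univ : Finset (Fin 2))).image (fun x => P x.1 x.2)) (by
          intro P' hP'
          obtain ⟨⟨Q, i⟩, hx, rfl⟩ := Finset.mem_image.mp hP'
          have hQ := hT'mem Q (Finset.mem_product.mp hx).1
          exact ⟨(hP Q hQ.1 hQ.2.1 hQ.2.2 i).1, (hP Q hQ.1 hQ.2.1 hQ.2.2 i).2.1⟩)
      rw [Finset.prod_image hinjOn, Finset.prod_product] at h3
      refine le_trans (le_of_eq ?_) h3
      rw [← Finset.prod_pow]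
      refine Finset.prod_congr rfl (fun Q hQ => ?_)
      have hQ' := hT'mem Q hQ
      have hw : ∀ i, wt Y s (P Q i) = wt X s Q := by
        intro i
        unfold wt
        rw [(hP Q hQ'.1 hQ'.2.1 hQ'.2.2 i).2.2]
      simp only [hw]
      simp [pow_two]
    have hsum0 : 0 ≤ ∑ I ∈ F, wt X s I := Finset.sum_nonneg (fun I _ => wt_nonneg X s I)
    calc (∑ I ∈ F, wt X s I) ^ 2 ≤ (∏ Q ∈ T, (1 - wt X s Q)⁻¹) ^ 2 :=
          pow_le_pow_left₀ hsum0 hle 2
      _ = (∏ Q ∈ T.filter (fun Q => Q ∈ B), (1 - wt X s Q)⁻¹) ^ 2 *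
            (∏ Q ∈ T', (1 - wt X s Q)⁻¹) ^ 2 := by rw [← hsplit, mul_pow]
      _ ≤ (2 ^ B.card) ^ 2 * (dedekindZeta Y s).re :=
          mul_le_mul (pow_le_pow_left₀ h1' h1 2) h2 (by positivity) (by positivity)
      _ = 4 ^ B.card * (dedekindZeta Y s).re := by
          rw [← pow_mul, mul_comm B.card 2, pow_mul]; norm_num
  have h := (hasSum_wt X hs).summable.tsum_le_of_sum_le hfin
  rw [(hasSum_wt X hs).tsum_eq] at h
  calc (dedekindZeta X s).re ^ 2 ≤ (√(4 ^ B.card * (dedekindZeta Y s).re)) ^ 2 :=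
        pow_le_pow_left₀ hZX h 2
    _ = 4 ^ B.card * (dedekindZeta Y s).re := Real.sq_sqrt (by positivity)

/-- **Density lemma, analytic core** (ideal version): it is impossible that almost every prime
`Q` of `X` has two partner primes of `Y` of the same absolute norm, injectively in `(Q, i)`. -/
theorem zeta_core_ideal (B : Set (Ideal (𝓞 X))) (hB : B.Finite)
    (P : Ideal (𝓞 X) → Fin 2 → Ideal (𝓞 Y))
    (hP : ∀ Q : Ideal (𝓞 X), Q.IsPrime → Q ≠ ⊥ → Q ∉ B → ∀ i,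
      (P Q i).IsPrime ∧ P Q i ≠ ⊥ ∧ Ideal.absNorm (P Q i) = Ideal.absNorm Q)
    (hinj : ∀ (Q Q' : Ideal (𝓞 X)) (i i' : Fin 2), Q.IsPrime → Q ≠ ⊥ → Q ∉ B →
      Q'.IsPrime → Q' ≠ ⊥ → Q' ∉ B → P Q i = P Q' i' → Q = Q' ∧ i = i') : False := by
  have key : ∀ s : ℝ, 1 < s → (dedekindZeta X s).re ^ 2 ≤
      4 ^ hB.toFinset.card * (dedekindZeta Y s).re := by
    intro s hs
    exact zeta_sq_le X Y hB.toFinset P (by simpa using hP) (by simpa using hinj) hs
  have hX := (tendsto_sub_one_mul_re X).pow 2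
  have h0 : Tendsto (fun s : ℝ => s - 1) (𝓝[>] 1) (𝓝 0) :=
    ((continuous_id.sub continuous_const).tendsto' (1 : ℝ) 0 (by simp)).mono_left
      nhdsWithin_le_nhds
  have hY := (h0.const_mul ((4 : ℝ) ^ hB.toFinset.card)).mul (tendsto_sub_one_mul_re Y)
  have hle : dedekindZeta_residue X ^ 2 ≤ 4 ^ hB.toFinset.card * 0 * dedekindZeta_residue Y := by
    refine le_of_tendsto_of_tendsto hX hY ?_
    filter_upwards [self_mem_nhdsWithin] with s hs
    have hs' : (1 : ℝ) < s := hs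
    have h1 := key s hs'
    have h2 : 0 ≤ (s - 1) ^ 2 := by positivity
    calc ((s - 1) * (dedekindZeta X s).re) ^ 2 = (s - 1) ^ 2 * (dedekindZeta X s).re ^ 2 := by
          ring
      _ ≤ (s - 1) ^ 2 * (4 ^ hB.toFinset.card * (dedekindZeta Y s).re) :=
          mul_le_mul_of_nonneg_left h1 h2
      _ = 4 ^ hB.toFinset.card * (s - 1) * ((s - 1) * (dedekindZeta Y s).re) := by ring
  have hpos := dedekindZeta_residue_pos X
  have : 0 < dedekindZeta_residue X ^ 2 := by positivity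
  simp at hle
  linarith

open IsDedekindDomain in
/-- **Density lemma, analytic core** (`HeightOneSpectrum` version). -/
theorem zeta_core (B : Set (HeightOneSpectrum (𝓞 X))) (hB : B.Finite)
    (P : HeightOneSpectrum (𝓞 X) → Fin 2 → HeightOneSpectrum (𝓞 Y))
    (hinj : ∀ Q Q1 i i1, Q ∉ B → Q1 ∉ B → P Q i = P Q1 i1 → Q = Q1 ∧ i = i1)
    (hN : ∀ Q ∉ B, ∀ i, Ideal.absNorm (P Q i).asIdeal = Ideal.absNorm Q.asIdeal) : False := by
  classical
  refine zeta_core_ideal X Y (HeightOneSpectrum.asIdeal '' B) (hB.image _)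
    (fun Q i => if h : Q.IsPrime ∧ Q ≠ ⊥ then (P ⟨Q, h.1, h.2⟩ i).asIdeal else ⊥) ?_ ?_
  · intro Q hQ hQ0 hQB i
    have hQB' : (⟨Q, hQ, hQ0⟩ : HeightOneSpectrum (𝓞 X)) ∉ B := fun h => hQB ⟨_, h, rfl⟩
    simp only [dif_pos (And.intro hQ hQ0)]
    exact ⟨(P ⟨Q, hQ, hQ0⟩ i).isPrime, (P ⟨Q, hQ, hQ0⟩ i).ne_bot, hN _ hQB' i⟩
  · intro Q Q' i i' hQ hQ0 hQB hQ' hQ0' hQB' h
    have hQB1 : (⟨Q, hQ, hQ0⟩ : HeightOneSpectrum (𝓞 X)) ∉ B := fun h => hQB ⟨_, h, rfl⟩
    have hQB2 : (⟨Q', hQ', hQ0'⟩ : HeightOneSpectrum (𝓞 X)) ∉ B := fun h => hQB' ⟨_, h, rfl⟩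
    simp only [dif_pos (And.intro hQ hQ0), dif_pos (And.intro hQ' hQ0')] at h
    obtain ⟨e1, e2⟩ := hinj _ _ i i' hQB1 hQB2 (HeightOneSpectrum.ext h)
    exact ⟨congrArg HeightOneSpectrum.asIdeal e1, e2⟩

/-- **Density lemma, relative form**: for an extension `Y / X` of number fields it is impossible
that every prime `Q` of `X` outside a finite set has two distinct primes of `Y` above it
with the same absolute norm as `Q`. -/
theorem density_core [Algebra X Y] (B : Set (Ideal (𝓞 X))) (hB : B.Finite)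
    (h : ∀ Q : Ideal (𝓞 X), Q.IsPrime → Q ≠ ⊥ → Q ∉ B → ∃ P₁ P₂ : Ideal (𝓞 Y), P₁ ≠ P₂ ∧
      (P₁.IsPrime ∧ P₁.LiesOver Q ∧ Ideal.absNorm P₁ = Ideal.absNorm Q) ∧
      (P₂.IsPrime ∧ P₂.LiesOver Q ∧ Ideal.absNorm P₂ = Ideal.absNorm Q)) : False := by
  classical
  choose! P₁ P₂ hne h1 h2 using h
  have hbot : ∀ (Q : Ideal (𝓞 X)) (P : Ideal (𝓞 Y)), Q ≠ ⊥ →
      Ideal.absNorm P = Ideal.absNorm Q → P ≠ ⊥ := by
    rintro Q P hQ0 hN rfl
    rw [Ideal.absNorm_bot] at hN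
    exact hQ0 (Ideal.absNorm_eq_zero_iff.mp hN.symm)
  have hall : ∀ Q : Ideal (𝓞 X), Q.IsPrime → Q ≠ ⊥ → Q ∉ B → ∀ i : Fin 2,
      (![P₁ Q, P₂ Q] i).IsPrime ∧ (![P₁ Q, P₂ Q] i).LiesOver Q ∧
        Ideal.absNorm (![P₁ Q, P₂ Q] i) = Ideal.absNorm Q := by
    intro Q hQ hQ0 hQB i
    fin_cases i
    · exact h1 Q hQ hQ0 hQB
    · exact h2 Q hQ hQ0 hQB
  refine zeta_core_ideal X Y B hB (fun Q => ![P₁ Q, P₂ Q]) ?_ ?_
  · intro Q hQ hQ0 hQB i
    obtain ⟨a, -, c⟩ := hall Q hQ hQ0 hQB i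
    exact ⟨a, hbot Q _ hQ0 c, c⟩
  · intro Q Q' i i' hQ hQ0 hQB hQ' hQ0' hQB' he
    have e1 : Q = Q' := by
      have a1 := (hall Q hQ hQ0 hQB i).2.1.over
      have a2 := (hall Q' hQ' hQ0' hQB' i').2.1.over
      rw [a1, a2, he]
    subst e1
    refine ⟨rfl, ?_⟩
    have hne' := hne Q hQ hQ0 hQB
    fin_cases i <;> fin_cases i'
    · rfl
    · exact absurd he hne'
    · exact absurd he.symm hne'
    · rfl

end Core

end Fermat.Agent.S14Lib
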