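import Mathlib

/-!
# S14, leaf L4 (KUM): Kummer theory for `p`-th roots

`kummer_step_top`, `kummer_step`: if `η ∈ K(θ)`, `θ ^ p ∈ K`, `η ^ p ∈ K` and `K` contains a
primitive `p`-th root of unity then `η = z θ ^ c` with `z ∈ K`.
`kummer_mem`: the same for `F(S)`, `S` a finite set of `p`-th roots.
-/

namespace Fermat.Agent.S14Lib

open Polynomial IntermediateField

/-- two elements with the same `p`-th power differ by a power of `ζ`. -/
theorem eq_zeta_pow_mul_of_pow_eq {L : Type*} [Field L] {p : ℕ} (hp : 0 < p) {ζ : L}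
    (hζ : IsPrimitiveRoot ζ p) {x y : L} (h : x ^ p = y ^ p) :
    ∃ c : ℕ, c < p ∧ x = ζ ^ c * y := by
  by_cases hy : y = 0
  · subst hy
    rw [zero_pow hp.ne'] at h
    exact ⟨0, hp, by simp [pow_eq_zero_iff hp.ne' |>.1 h]⟩
  · have h1 : (x / y) ^ p = 1 := by
      rw [div_pow, h, div_self (pow_ne_zero _ hy)]
    haveI : NeZero p := ⟨hp.ne'⟩
    obtain ⟨c, hc, hc'⟩ := hζ.eq_pow_of_pow_eq_one h1
    exact ⟨c, hc, by rw [hc', div_mul_cancel₀ _ hy]⟩

theorem isSplittingField_of_adjoin_eq_top {K L : Type*} [Field K] [Field L] [Algebra K L] {p : ℕ}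
    (hp : 0 < p) {ζ : K} (hζ : IsPrimitiveRoot ζ p) {θ : L} {a : K}
    (hθ : θ ^ p = algebraMap K L a) (htop : K⟮θ⟯ = ⊤) :
    IsSplittingField K L (X ^ p - C a) := by
  have hint : IsIntegral K θ :=
    ⟨X ^ p - C a, monic_X_pow_sub_C _ hp.ne', by simp [hθ]⟩
  constructor
  · rw [Polynomial.map_sub, Polynomial.map_pow, Polynomial.map_C, Polynomial.map_X]
    exact X_pow_sub_C_splits_of_isPrimitiveRoot (hζ.map_of_injective (algebraMap K _).injective) hθ
  · rw [eq_top_iff, ← IntermediateField.top_toSubalgebra, ← htop,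
      IntermediateField.adjoin_simple_toSubalgebra_of_isAlgebraic hint.isAlgebraic]
    apply Algebra.adjoin_mono
    rw [Set.singleton_subset_iff, mem_rootSet_of_ne (X_pow_sub_C_ne_zero hp a),
      aeval_def, eval₂_sub, eval₂_X_pow, eval₂_C, hθ, sub_self]

theorem kummer_step_top {K L : Type*} [Field K] [Field L] [Algebra K L] {p : ℕ} (hp : p.Prime)
    {ζ : K} (hζ : IsPrimitiveRoot ζ p) {θ : L} {a : K} (hθ : θ ^ p = algebraMap K L a)
    (htop : K⟮θ⟯ = ⊤) {η : L} {y : K} (hη : η ^ p = algebraMap K L y) :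
    ∃ (c : ℕ) (z : K), η = algebraMap K L z * θ ^ c := by
  have hζL : IsPrimitiveRoot (algebraMap K L ζ) p :=
    hζ.map_of_injective (algebraMap K L).injective
  by_cases h : ∃ b : K, b ^ p = a
  · obtain ⟨b, rfl⟩ := h
    rw [map_pow] at hθ
    obtain ⟨c, -, hc⟩ := eq_zeta_pow_mul_of_pow_eq hp.pos hζL hθ
    have h1 : θ ∈ (⊥ : IntermediateField K L) := by
      rw [IntermediateField.mem_bot]
      exact ⟨ζ ^ c * b, by rw [hc, map_mul, map_pow]⟩
    have h2 : K⟮θ⟯ = ⊥ := IntermediateField.adjoin_simple_eq_bot_iff.2 h1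
    have h3 : η ∈ (⊥ : IntermediateField K L) := by
      rw [← h2, htop]; exact IntermediateField.mem_top
    rw [IntermediateField.mem_bot] at h3
    obtain ⟨z, hz⟩ := h3
    exact ⟨0, z, by simp [hz]⟩
  · push Not at h
    have H : Irreducible (X ^ p - C a) := X_pow_sub_C_irreducible_of_prime hp h
    haveI := isSplittingField_of_adjoin_eq_top hp.pos hζ hθ htop
    haveI : NeZero p := ⟨hp.ne_zero⟩
    have hne : (primitiveRoots p K).Nonempty := ⟨ζ, (mem_primitiveRoots hp.pos).2 hζ⟩
    haveI : IsGalois K L := isGalois_of_isSplittingField_X_pow_sub_C hne H L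
    haveI : FiniteDimensional K L := Polynomial.IsSplittingField.finiteDimensional L (X ^ p - C a)
    have hθ0 : θ ≠ 0 := by
      rintro rfl
      rw [zero_pow hp.ne_zero] at hθ
      have : a = 0 := by
        apply (algebraMap K L).injective
        rw [← hθ, map_zero]
      exact h 0 (by rw [this, zero_pow hp.ne_zero])
    set σ : Gal(L/K) := (autEquivZmod H L hζ).symm (Multiplicative.ofAdd (1 : ZMod p)) with hσ
    have hσθ : σ θ = algebraMap K L ζ * θ := by
      have := autEquivZmod_symm_apply_natCast H L hθ hζ 1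
      rw [Nat.cast_one, pow_one, Algebra.smul_def] at this
      exact this
    have hgen : ∀ τ : Gal(L/K), ∃ m : ℕ, τ = σ ^ m := by
      intro τ
      obtain ⟨m, rfl⟩ := (autEquivZmod H L hζ).symm.surjective τ
      refine ⟨(Multiplicative.toAdd m).val, ?_⟩
      rw [hσ, ← map_pow]
      congr 1
      rw [← ofAdd_nsmul, nsmul_eq_mul, mul_one, ZMod.natCast_val, ZMod.cast_id', id, ofAdd_toAdd]
    have h1 : (σ η) ^ p = η ^ p := by
      rw [← map_pow, hη, AlgEquiv.commutes]
    obtain ⟨c, -, hc⟩ := eq_zeta_pow_mul_of_pow_eq hp.pos hζL h1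
    have h2 : σ (η / θ ^ c) = η / θ ^ c := by
      rw [map_div₀, map_pow, hσθ, hc, mul_pow, mul_div_mul_left]
      exact pow_ne_zero _ (hζL.ne_zero hp.ne_zero)
    have h3 : η / θ ^ c ∈ Set.range (algebraMap K L) := by
      rw [IsGalois.mem_range_algebraMap_iff_fixed]
      intro τ
      obtain ⟨m, rfl⟩ := hgen τ
      induction m with
      | zero => simp
      | succ m ih => rw [pow_succ, AlgEquiv.mul_apply, h2, ih]
    obtain ⟨z, hz⟩ := h3
    exact ⟨c, z, by rw [hz, div_mul_cancel₀ _ (pow_ne_zero _ hθ0)]⟩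

theorem kummer_step {K E : Type*} [Field K] [Field E] [Algebra K E] {p : ℕ} (hp : p.Prime)
    {ζ : K} (hζ : IsPrimitiveRoot ζ p) {θ : E} (hθ : θ ^ p ∈ Set.range (algebraMap K E))
    {η : E} (hη : η ∈ K⟮θ⟯) (hηp : η ^ p ∈ Set.range (algebraMap K E)) :
    ∃ (c : ℕ) (z : K), η = algebraMap K E z * θ ^ c := by
  obtain ⟨a, ha⟩ := hθ
  obtain ⟨y, hy⟩ := hηp
  have hint : IsIntegral K θ :=
    ⟨X ^ p - C a, monic_X_pow_sub_C _ hp.ne_zero, by simp [ha]⟩
  have htop : K⟮AdjoinSimple.gen K θ⟯ = ⊤ := by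
    apply IntermediateField.adjoin_eq_top_of_algebra
    exact (IntermediateField.adjoin.powerBasis hint).adjoin_gen_eq_top
  have h1 : (AdjoinSimple.gen K θ) ^ p = algebraMap K K⟮θ⟯ a := by
    apply Subtype.ext
    simp [ha]
  have h2 : (⟨η, hη⟩ : K⟮θ⟯) ^ p = algebraMap K K⟮θ⟯ y := by
    apply Subtype.ext
    simp [hy]
  obtain ⟨c, z, hz⟩ := kummer_step_top hp hζ h1 htop h2
  refine ⟨c, z, ?_⟩
  have := congrArg (Subtype.val) hz
  simpa using this

/-- **KUM**: if `η ∈ F(S)` where all elements of `S` have their `p`-th power in `F`, and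
`η ^ p ∈ F`, then `η` is an element of `F` times a monomial in the elements of `S`. -/
theorem kummer_mem {F E : Type*} [Field F] [Field E] [Algebra F E] {p : ℕ} (hp : p.Prime)
    {ζ : F} (hζ : IsPrimitiveRoot ζ p) (S : Finset E)
    (hS : ∀ t ∈ S, t ^ p ∈ Set.range (algebraMap F E)) (η : E)
    (h1 : η ∈ IntermediateField.adjoin F (S : Set E))
    (h2 : η ^ p ∈ Set.range (algebraMap F E)) :
    ∃ (e : E → ℕ) (z : F), η = algebraMap F E z * ∏ t ∈ S, t ^ e t := by
  classical
  induction S using Finset.induction_on generalizing η with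
  | empty =>
    rw [Finset.coe_empty, IntermediateField.adjoin_empty, IntermediateField.mem_bot] at h1
    obtain ⟨z, hz⟩ := h1
    exact ⟨fun _ => 0, z, by simp [hz]⟩
  | insert θ S hθS ih =>
    set K : IntermediateField F E := IntermediateField.adjoin F (S : Set E) with hK
    have hζK : IsPrimitiveRoot (algebraMap F K ζ) p :=
      hζ.map_of_injective (algebraMap F K).injective
    have hrange : ∀ x : E, x ∈ Set.range (algebraMap F E) → x ∈ Set.range (algebraMap K E) := by
      rintro x ⟨a, rfl⟩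
      exact ⟨algebraMap F K a, rfl⟩
    have h3 : η ∈ K⟮θ⟯ := by
      have : η ∈ (K⟮θ⟯).restrictScalars F := by
        rw [hK, IntermediateField.adjoin_adjoin_left, Set.union_comm, ← Set.insert_eq,
          ← Finset.coe_insert]
        exact h1
      exact this
    obtain ⟨c, z, hz⟩ := kummer_step hp hζK (hrange _ (hS θ (Finset.mem_insert_self _ _))) h3
      (hrange _ h2)
    by_cases hθ0 : θ = 0
    · -- then `K(θ) = K`
      by_cases hc : c = 0
      · subst hc
        obtain ⟨e, w, hw⟩ := ih (fun t ht => hS t (Finset.mem_insert_of_mem ht)) η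
          (by rw [hz]; simp) h2
        refine ⟨fun t => if t = θ then 0 else e t, w, ?_⟩
        rw [Finset.prod_insert hθS]
        beta_reduce
        rw [if_pos rfl, pow_zero, one_mul, hw]
        congr 1
        apply Finset.prod_congr rfl
        intro t ht
        rw [if_neg]
        rintro rfl
        exact hθS ht
      · refine ⟨fun _ => 1, 0, ?_⟩
        rw [hz, hθ0, zero_pow hc]
        simp
    · have hzp : (z : E) ^ p ∈ Set.range (algebraMap F E) := by
        obtain ⟨a, ha⟩ := hS θ (Finset.mem_insert_self _ _)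
        obtain ⟨y, hy⟩ := h2
        refine ⟨y / a ^ c, ?_⟩
        have h5 : (z : E) = η / θ ^ c := by
          rw [hz, mul_div_assoc, div_self (pow_ne_zero _ hθ0), mul_one]
          rfl
        rw [h5, div_pow, map_div₀, hy, map_pow, ha, ← pow_mul, ← pow_mul, mul_comm]
      obtain ⟨e, w, hw⟩ := ih (fun t ht => hS t (Finset.mem_insert_of_mem ht)) (z : E) z.2 hzp
      refine ⟨fun t => if t = θ then c else e t, w, ?_⟩
      rw [Finset.prod_insert hθS]
      beta_reduce
      rw [if_pos rfl, hz]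
      have h6 : algebraMap K E z = (z : E) := rfl
      rw [h6, hw]
      have h7 : ∏ t ∈ S, t ^ (if t = θ then c else e t) = ∏ t ∈ S, t ^ e t := by
        apply Finset.prod_congr rfl
        intro t ht
        rw [if_neg]
        rintro rfl
        exact hθS ht
      rw [h7]
      ring

/-- **KUM**, base-field form: `y = z ^ p * ∏ x_t ^ e_t`. -/
theorem kummer_mem' {F E : Type*} [Field F] [Field E] [Algebra F E] {p : ℕ} (hp : p.Prime)
    {ζ : F} (hζ : IsPrimitiveRoot ζ p) {ι : Type*} (s : Finset ι) (x : ι → F) (θ : ι → E)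
    (hθ : ∀ i ∈ s, θ i ^ p = algebraMap F E (x i)) (y : F) (η : E)
    (h1 : η ∈ IntermediateField.adjoin F (θ '' (s : Set ι)))
    (h2 : η ^ p = algebraMap F E y) :
    ∃ (e : ι → ℕ) (z : F), y = z ^ p * ∏ i ∈ s, x i ^ e i := by
  classical
  have hS : ∀ t ∈ s.image θ, t ^ p ∈ Set.range (algebraMap F E) := by
    intro t ht
    obtain ⟨i, hi, rfl⟩ := Finset.mem_image.1 ht
    exact ⟨x i, (hθ i hi).symm⟩
  obtain ⟨e, z, hz⟩ := kummer_mem hp hζ (s.image θ) hS η (by rwa [Finset.coe_image]) ⟨y, h2.symm⟩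
  rcases isEmpty_or_nonempty ι with hι | hι
  · refine ⟨fun _ => 0, z, ?_⟩
    apply (algebraMap F E).injective
    rw [← h2, hz, Finset.eq_empty_of_isEmpty s]
    simp
  -- choose one index for every element of the image
  have hch : ∀ t ∈ s.image θ, ∃ i ∈ s, θ i = t := by
    intro t ht
    obtain ⟨i, hi, rfl⟩ := Finset.mem_image.1 ht
    exact ⟨i, hi, rfl⟩
  choose! g hg hg' using hch
  refine ⟨fun i => if g (θ i) = i then e (θ i) else 0, z, ?_⟩
  apply (algebraMap F E).injective
  rw [← h2, hz, mul_pow, map_mul, map_pow, map_prod, ← Finset.prod_pow]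
  congr 1
  have h3 : ∏ i ∈ s, algebraMap F E (x i ^ (if g (θ i) = i then e (θ i) else 0))
      = ∏ i ∈ s, (if g (θ i) = i then (θ i ^ e (θ i)) ^ p else 1) := by
    apply Finset.prod_congr rfl
    intro i hi
    split_ifs with h
    · rw [map_pow, ← hθ i hi, ← pow_mul, ← pow_mul, mul_comm]
    · simp
  rw [h3, ← Finset.prod_filter]
  symm
  apply Finset.prod_bij (fun i _ => θ i)
  · intro i hi
    exact Finset.mem_image_of_mem _ (Finset.mem_filter.1 hi).1
  · intro i hi j hj hij
    rw [← (Finset.mem_filter.1 hi).2, ← (Finset.mem_filter.1 hj).2]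
    rw [hij]
  · intro t ht
    refine ⟨g t, Finset.mem_filter.2 ⟨hg t ht, by rw [hg' t ht]⟩, hg' t ht⟩
  · intro i hi
    rfl

end Fermat.Agent.S14Lib
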