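import Fermat.Agent.S14.SymbolLocal
import Fermat.Agent.S14.Kummer
import Fermat.Agent.S14.Density
import Fermat.Agent.S14.Splitting

/-!
# S14, leaves L3 (DL) and L4 (DL-cor): existence of primes with prescribed symbols
-/

namespace Fermat.Agent.S14Lib

open IsDedekindDomain NumberField Polynomial IntermediateField

theorem finite_val_ne_one {F : Type*} [Field F] [NumberField F] {x : F} (hx : x ≠ 0) :
    {v : HeightOneSpectrum (𝓞 F) | v.valuation F x ≠ 1}.Finite := by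
  have h1 := HeightOneSpectrum.Support.finite (𝓞 F) x
  have h2 := HeightOneSpectrum.Support.finite (𝓞 F) x⁻¹
  apply (h1.union h2).subset
  intro v hv
  rcases lt_or_gt_of_ne hv with h | h
  · right
    show 1 < v.valuation F x⁻¹
    rw [map_inv₀]
    exact (one_lt_inv₀ (zero_lt_iff.2 ((Valuation.ne_zero_iff _).2 hx))).2 h
  · left
    exact h

theorem split_two {X Y : Type*} [Field X] [NumberField X] [Field Y] [NumberField Y] [Algebra X Y]
    {p : ℕ} [Fact p.Prime] {ζ : X} (hζ : IsPrimitiveRoot ζ p) {y : X} (hy : ∀ z : X, z ^ p ≠ y)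
    {θ : Y} (hθ : θ ^ p = algebraMap X Y y) (htop : X⟮θ⟯ = ⊤) (Q : HeightOneSpectrum (𝓞 X))
    (hQp : Q.valuation X (p : X) = 1) (hQ : ∃ z : X, z ≠ 0 ∧ Q.valuation X (y / z ^ p - 1) < 1) :
    ∃ P₁ P₂ : Ideal (𝓞 Y), P₁ ≠ P₂ ∧
      (P₁.IsPrime ∧ P₁.LiesOver Q.asIdeal ∧ Ideal.absNorm P₁ = Ideal.absNorm Q.asIdeal) ∧
      (P₂.IsPrime ∧ P₂.LiesOver Q.asIdeal ∧ Ideal.absNorm P₂ = Ideal.absNorm Q.asIdeal) := by
  obtain ⟨z, hz0, hz⟩ := hQ
  obtain ⟨h1, h2⟩ := splitting_a (Fact.out : p.Prime) hζ hθ htop hy Q hQp z hz0 hz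
  have h3 : 1 < (Ideal.primesOver Q.asIdeal (𝓞 Y)).ncard := by
    rw [h1]
    exact (Fact.out : p.Prime).one_lt
  obtain ⟨P₁, P₂, hP₁, hP₂, hne⟩ := (Set.one_lt_ncard_iff
    (IsDedekindDomain.primesOver_finite Q.asIdeal (𝓞 Y))).1 h3
  refine ⟨P₁, P₂, hne, ⟨hP₁.1, hP₁.2, ?_⟩, ⟨hP₂.1, hP₂.2, ?_⟩⟩
  · rw [← (h2 P₁ hP₁.1 hP₁.2).2.2, Ideal.absNorm_relNorm]
  · rw [← (h2 P₂ hP₂.1 hP₂.2).2.2, Ideal.absNorm_relNorm]

/-- **DL**: if `y` is not a `p`-th power in `K` then there is a prime `Q` outside any given finite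
set, prime to `p y`, with `(y / Q) ≠ 1`. -/
theorem exists_sym_ne_zero {K : Type*} [Field K] [NumberField K] {p : ℕ} [hp : Fact p.Prime]
    {ζ : K} (hζ : IsPrimitiveRoot ζ p) {y : K} (hy : ∀ z : K, z ^ p ≠ y)
    (B0 : Set (HeightOneSpectrum (𝓞 K))) (hB0 : B0.Finite) :
    ∃ Q : HeightOneSpectrum (𝓞 K), Q ∉ B0 ∧ Q.valuation K (p : K) = 1 ∧ Q.valuation K y = 1 ∧
      sym p ζ Q y ≠ 0 := by
  by_contra hcon
  push Not at hcon
  have hy0 : y ≠ 0 := by
    rintro rfl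
    exact hy 0 (zero_pow hp.out.ne_zero)
  have H : Irreducible (X ^ p - C y) := X_pow_sub_C_irreducible_of_prime hp.out hy
  haveI : Fact (Irreducible (X ^ p - C y)) := ⟨H⟩
  let Y := AdjoinRoot (X ^ p - C y)
  haveI : Module.Finite K Y := (AdjoinRoot.powerBasis H.ne_zero).finite
  haveI : NumberField Y := NumberField.of_module_finite K Y
  have hθ : (AdjoinRoot.root (X ^ p - C y)) ^ p = algebraMap K Y y := by
    have := AdjoinRoot.eval₂_root (X ^ p - C y)
    simp only [eval₂_sub, eval₂_pow, eval₂_X, eval₂_C, sub_eq_zero] at this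
    exact this
  have htop : K⟮AdjoinRoot.root (X ^ p - C y)⟯ = ⊤ := by
    apply IntermediateField.adjoin_eq_top_of_algebra
    exact AdjoinRoot.adjoinRoot_eq_top
  have hpX : (p : K) ≠ 0 := Nat.cast_ne_zero.2 hp.out.ne_zero
  set B : Set (HeightOneSpectrum (𝓞 K)) :=
    B0 ∪ {v | v.valuation K (p : K) ≠ 1} ∪ {v | v.valuation K y ≠ 1} with hB
  have hBfin : B.Finite := (hB0.union (finite_val_ne_one hpX)).union (finite_val_ne_one hy0)
  refine density_core K Y (HeightOneSpectrum.asIdeal '' B) (hBfin.image _) ?_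
  intro Q hQ hQ0 hQB
  set v : HeightOneSpectrum (𝓞 K) := ⟨Q, hQ, hQ0⟩ with hv
  have hvB : v ∉ B := fun h => hQB ⟨v, h, rfl⟩
  simp only [hB, Set.mem_union, Set.mem_ofPred_eq, not_or, not_not] at hvB
  obtain ⟨⟨h1, h2⟩, h3⟩ := hvB
  have h4 := hcon v h1 h2 h3
  rw [sym_eq_zero_iff hζ h2 h3] at h4
  exact split_two hζ hy hθ htop v h2 h4

theorem finite_under_preimage {F F' : Type*} [Field F] [NumberField F] [Field F'] [NumberField F']
    [Algebra F F'] (B : Set (HeightOneSpectrum (𝓞 F))) (hB : B.Finite) :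
    {R : HeightOneSpectrum (𝓞 F') | R.under (𝓞 F) ∈ B}.Finite := by
  have : {R : HeightOneSpectrum (𝓞 F') | R.under (𝓞 F) ∈ B}
      = (fun R : HeightOneSpectrum (𝓞 F') => R.under (𝓞 F)) ⁻¹' B := rfl
  rw [this]
  apply Set.Finite.preimage' hB
  intro r _
  have h1 := IsDedekindDomain.primesOver_finite r.asIdeal (𝓞 F')
  apply Set.Finite.of_finite_image (f := HeightOneSpectrum.asIdeal)
  · apply h1.subset
    rintro _ ⟨R, hR, rfl⟩
    refine ⟨R.isPrime, ⟨?_⟩⟩
    simp only [Set.mem_preimage, Set.mem_singleton_iff] at hR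
    rw [← hR]
    rfl
  · intro a _ b _ hab
    exact HeightOneSpectrum.ext hab

/-- **DL-cor**: if `y ∉ ⟨x_i⟩ F^{*p}` then there is a prime `r` outside any given finite set, prime
to `p`, `x_i`, `y`, with `(x_i / r) = 1` for all `i` and `(y / r) ≠ 1`. -/
theorem exists_sym_eq_zero_ne_zero {F : Type*} [Field F] [NumberField F] {p : ℕ}
    [hp : Fact p.Prime] {ζ : F} (hζ : IsPrimitiveRoot ζ p) {ι : Type*} (s : Finset ι) (x : ι → F)
    (hx : ∀ i ∈ s, x i ≠ 0) (y : F)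
    (hy : ∀ (e : ι → ℕ) (z : F), y ≠ z ^ p * ∏ i ∈ s, x i ^ e i)
    (B0 : Set (HeightOneSpectrum (𝓞 F))) (hB0 : B0.Finite) :
    ∃ r : HeightOneSpectrum (𝓞 F), r ∉ B0 ∧ r.valuation F (p : F) = 1 ∧
      (∀ i ∈ s, r.valuation F (x i) = 1 ∧ sym p ζ r (x i) = 0) ∧
      r.valuation F y = 1 ∧ sym p ζ r y ≠ 0 := by
  classical
  let E := AlgebraicClosure F
  have hroot : ∀ i, ∃ t : E, t ^ p = algebraMap F E (x i) := fun i =>
    IsAlgClosed.exists_pow_nat_eq _ hp.out.pos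
  choose θ hθ using hroot
  let K : IntermediateField F E := IntermediateField.adjoin F (θ '' (s : Set ι))
  haveI : FiniteDimensional F K := by
    haveI : Finite (θ '' (s : Set ι)) := (s.finite_toSet.image θ).to_subtype
    exact IntermediateField.finiteDimensional_adjoin fun t _ =>
      (Algebra.IsAlgebraic.isAlgebraic t).isIntegral
  haveI : NumberField K := NumberField.of_module_finite F K
  have hζK : IsPrimitiveRoot (algebraMap F K ζ) p :=
    hζ.map_of_injective (algebraMap F K).injective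
  have hyK : ∀ z : K, z ^ p ≠ algebraMap F K y := by
    intro z hz
    obtain ⟨e, w, hw⟩ := kummer_mem' hp.out hζ s x θ (fun i _ => hθ i) y (z : E) z.2
      (by
        have := congrArg (algebraMap K E) hz
        simpa using this)
    exact hy e w hw
  set B : Set (HeightOneSpectrum (𝓞 F)) := B0 ∪ ⋃ i ∈ s, {v | v.valuation F (x i) ≠ 1} with hB
  have hBfin : B.Finite :=
    hB0.union (s.finite_toSet.biUnion fun i hi => finite_val_ne_one (hx i hi))
  obtain ⟨R, hR, hRp, hRy, hRs⟩ := exists_sym_ne_zero hζK hyK _ (finite_under_preimage (F' := K) B hBfin)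
  set r := R.under (𝓞 F) with hr
  haveI : R.asIdeal.LiesOver r.asIdeal := ⟨rfl⟩
  have hrB : r ∉ B := hR
  simp only [hB, Set.mem_union, Set.mem_iUnion, Set.mem_ofPred_eq, not_or, not_exists,
    not_not] at hrB
  rw [sym_algebraMap hζ r R] at hRs
  have hf : (r.asIdeal.inertiaDeg' R.asIdeal : ZMod p) ≠ 0 := left_ne_zero_of_mul hRs
  refine ⟨r, hrB.1, ?_, ?_, (val_algebraMap_eq_one_iff r R y).1 hRy, right_ne_zero_of_mul hRs⟩
  · rw [← val_algebraMap_eq_one_iff r R, map_natCast (algebraMap F K)]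
    exact hRp
  · intro i hi
    refine ⟨hrB.2 i hi, ?_⟩
    have h1 : algebraMap F K (x i)
        = (⟨θ i, IntermediateField.subset_adjoin F _ ⟨i, hi, rfl⟩⟩ : K) ^ p := by
      apply Subtype.ext
      simp [hθ i]
    have h2 := sym_algebraMap hζ r R (x i)
    rw [h1, sym_pow_p hζK] at h2
    exact (mul_eq_zero.1 h2.symm).resolve_left hf

end Fermat.Agent.S14Lib
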