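import Mathlib

/-!
# S14, leaf L8: the local count

`LPsub p v M` is the subgroup of `Fˣ` of the elements that are `p`-th powers modulo `v ^ M`
(up to `p`-th powers of `Fˣ`).  We bound its index.
-/

open IsDedekindDomain NumberField WithZero

namespace Fermat.Agent.S14Lib

section Abstract

/-- In a finite commutative group, `G / G ^ p` and `G[p]` have the same cardinality. -/
theorem lc_card_quot_pow_range {G : Type*} [CommGroup G] [Finite G] (p : ℕ) :
    Nat.card (G ⧸ (powMonoidHom p : G →* G).range) = Nat.card (powMonoidHom p : G →* G).ker := by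
  have h1 := Subgroup.card_eq_card_quotient_mul_card_subgroup (powMonoidHom p : G →* G).range
  have h2 := Subgroup.card_eq_card_quotient_mul_card_subgroup (powMonoidHom p : G →* G).ker
  have h3 : Nat.card (G ⧸ (powMonoidHom p : G →* G).ker) = Nat.card (powMonoidHom p : G →* G).range :=
    Nat.card_congr (QuotientGroup.quotientKerEquivRange _).toEquiv
  rw [h3] at h2
  have hpos : 0 < Nat.card (powMonoidHom p : G →* G).range := Nat.card_pos
  have : Nat.card (G ⧸ (powMonoidHom p : G →* G).range) * Nat.card (powMonoidHom p : G →* G).range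
      = Nat.card (powMonoidHom p : G →* G).ker * Nat.card (powMonoidHom p : G →* G).range := by
    rw [← h1, h2, mul_comm]
  exact Nat.eq_of_mul_eq_mul_right hpos this

/-- If a function on a group separates the cosets of `H`, the index of `H` is bounded. -/
theorem lc_index_le_card_of_separates {G X : Type*} [Group G] [Finite X] (H : Subgroup G) (c : G → X)
    (hc : ∀ x y, c x = c y → x⁻¹ * y ∈ H) : H.index ≤ Nat.card X ∧ H.index ≠ 0 := by
  have hinj : Function.Injective (fun q : G ⧸ H => c q.out) := by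
    intro a b hab
    have := hc _ _ hab
    rw [← QuotientGroup.eq] at this
    simpa using this
  have : Finite (G ⧸ H) := Finite.of_injective _ hinj
  refine ⟨?_, ?_⟩
  · rw [Subgroup.index_eq_card]
    exact Nat.card_le_card_of_injective _ hinj
  · rw [Subgroup.index_eq_card]
    exact Nat.card_pos.ne'

end Abstract

section Roots

variable {F : Type*} [Field F] {Γ : Type*} [LinearOrderedCommGroupWithZero Γ] (w : Valuation F Γ)

theorem lc_val_eq_one_of_pow_eq_one {η : F} {n : ℕ} (hn : n ≠ 0) (h : η ^ n = 1) : w η = 1 := by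
  have : w η ^ n = 1 := by rw [← map_pow, h, map_one]
  exact (pow_eq_one_iff_left hn).mp this

theorem lc_val_geom_le_one {η : F} {n : ℕ} (hn : n ≠ 0) (h : η ^ n = 1) (k : ℕ) :
    w (∑ i ∈ Finset.range k, η ^ i) ≤ 1 := by
  refine w.map_sum_le fun i _ => ?_
  rw [map_pow, lc_val_eq_one_of_pow_eq_one w hn h, one_pow]

/-- two distinct `p`-th roots of unity are at distance at least that of `1` and `ζ`. -/
theorem lc_val_one_sub_le {p : ℕ} (hp : p.Prime) {ζ : F} (hζ : IsPrimitiveRoot ζ p) {η η' : F}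
    (h : η ^ p = 1) (h' : η' ^ p = 1) (hne : η ≠ η') : w (1 - ζ) ≤ w (η - η') := by
  have hη'0 : η' ≠ 0 := by
    rintro rfl
    rw [zero_pow hp.ne_zero] at h'
    exact zero_ne_one h'
  set ξ := η / η' with hξ
  have hξp : ξ ^ p = 1 := by rw [hξ, div_pow, h, h', div_one]
  have hξ1 : ξ ≠ 1 := by
    intro h1
    apply hne
    rw [hξ, div_eq_one_iff_eq hη'0] at h1
    exact h1
  have hprim : IsPrimitiveRoot ξ p := by
    have := IsPrimitiveRoot.orderOf ξ
    have hdvd : orderOf ξ ∣ p := orderOf_dvd_of_pow_eq_one hξp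
    rcases (Nat.dvd_prime hp).mp hdvd with h1 | h1
    · exact absurd (orderOf_eq_one_iff.mp h1) hξ1
    · rwa [h1] at this
  have : NeZero p := ⟨hp.ne_zero⟩
  obtain ⟨k, -, hk⟩ := hprim.eq_pow_of_pow_eq_one hζ.pow_eq_one
  have h1 : 1 - ζ = (1 - ξ) * ∑ i ∈ Finset.range k, ξ ^ i := by
    rw [← hk, mul_neg_geom_sum]
  have h2 : η - η' = - (η' * (1 - ξ)) := by
    rw [hξ]; field_simp; ring
  rw [h2, Valuation.map_neg, map_mul, lc_val_eq_one_of_pow_eq_one w hp.ne_zero h', one_mul, h1, map_mul]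
  exact mul_le_of_le_one_right' (lc_val_geom_le_one w hp.ne_zero hξp k)

/-- If `x ^ p` is close to `1`, then `x` is close to a `p`-th root of unity. -/
theorem lc_exists_root_close {p : ℕ} (hp : p.Prime) {ζ : F} (hζ : IsPrimitiveRoot ζ p) (x : F) :
    ∃ j < p, w (x - ζ ^ j) * w (1 - ζ) ^ (p - 1) ≤ w (x ^ p - 1) := by
  classical
  have : NeZero p := ⟨hp.ne_zero⟩
  have hprod : x ^ p - 1 = ∏ η ∈ Polynomial.nthRootsFinset p (1 : F), (x - η) := by
    have := hζ.pow_sub_pow_eq_prod_sub_mul x 1 hp.pos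
    simpa using this
  have hne : (Polynomial.nthRootsFinset p (1 : F)).Nonempty :=
    ⟨1, by rw [Polynomial.mem_nthRootsFinset hp.pos]; simp⟩
  obtain ⟨η0, hη0, hmin⟩ := Finset.exists_min_image _ (fun η => w (x - η)) hne
  have hη0p : η0 ^ p = 1 := by rwa [Polynomial.mem_nthRootsFinset hp.pos] at hη0
  obtain ⟨j, hj, rfl⟩ := hζ.eq_pow_of_pow_eq_one hη0p
  refine ⟨j, hj, ?_⟩
  rw [hprod, map_prod, ← Finset.mul_prod_erase _ _ hη0]
  gcongr
  have hcard : ((Polynomial.nthRootsFinset p (1 : F)).erase (ζ ^ j)).card = p - 1 := by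
    rw [Finset.card_erase_of_mem hη0, hζ.card_nthRootsFinset]
  rw [← hcard]
  refine Finset.pow_card_le_prod _ _ _ fun η hη => ?_
  rw [Finset.mem_erase] at hη
  have hηp : η ^ p = 1 := by
    have := hη.2
    rwa [Polynomial.mem_nthRootsFinset hp.pos] at this
  calc w (1 - ζ) ≤ w (ζ ^ j - η) := lc_val_one_sub_le w hp hζ hη0p hηp hη.1.symm
    _ = w ((x - η) - (x - ζ ^ j)) := by congr 1; ring
    _ ≤ max (w (x - η)) (w (x - ζ ^ j)) := w.map_sub _ _
    _ = w (x - η) := max_eq_left (hmin η hη.2)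

end Roots

section Count

theorem lc_card_fiber_le {A B : Type*} [AddGroup A] [AddGroup B] [Finite A] (f : A →+ B) (y : B) :
    Nat.card {z // f z = y} ≤ Nat.card f.ker := by
  by_cases hne : Nonempty {z // f z = y}
  · obtain ⟨z0, hz0⟩ := hne
    refine Nat.card_le_card_of_injective
      (fun z : {z // f z = y} => (⟨z.1 - z0, by
        rw [AddMonoidHom.mem_ker, map_sub, z.2, hz0, sub_self]⟩ : f.ker)) ?_
    intro a b hab
    simp only [Subtype.mk.injEq, sub_left_inj] at hab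
    exact Subtype.ext hab
  · rw [not_nonempty_iff] at hne
    simp

variable {F : Type*} [Field F] [NumberField F]

theorem lc_finite_quot_pow (v : HeightOneSpectrum (𝓞 F)) (M : ℕ) : Finite (𝓞 F ⧸ v.asIdeal ^ M) :=
  Ideal.finiteQuotientOfFreeOfNeBot _ (pow_ne_zero _ v.ne_bot)

theorem lc_card_quot_pow (v : HeightOneSpectrum (𝓞 F)) (M : ℕ) :
    Nat.card (𝓞 F ⧸ v.asIdeal ^ M) = (Ideal.absNorm v.asIdeal) ^ M := by
  rw [← map_pow, Ideal.absNorm_apply, Submodule.cardQuot_apply]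

theorem lc_absNorm_pos (v : HeightOneSpectrum (𝓞 F)) : 0 < Ideal.absNorm v.asIdeal := by
  rw [Nat.pos_iff_ne_zero, Ne, Ideal.absNorm_eq_zero_iff]
  exact v.ne_bot

theorem lc_card_ker_factor_le (v : HeightOneSpectrum (𝓞 F)) (M e : ℕ) :
    Nat.card (Ideal.Quotient.factor (Ideal.pow_le_pow_right (Nat.sub_le M e)) :
      𝓞 F ⧸ v.asIdeal ^ M →+* 𝓞 F ⧸ v.asIdeal ^ (M - e)).toAddMonoidHom.ker
      ≤ (Ideal.absNorm v.asIdeal) ^ e := by
  set f := (Ideal.Quotient.factor (Ideal.pow_le_pow_right (Nat.sub_le M e)) :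
      𝓞 F ⧸ v.asIdeal ^ M →+* 𝓞 F ⧸ v.asIdeal ^ (M - e)).toAddMonoidHom with hf
  have hsurj : Function.Surjective f :=
    Ideal.Quotient.factor_surjective (Ideal.pow_le_pow_right (Nat.sub_le M e))
  have h1 := AddSubgroup.card_eq_card_quotient_mul_card_addSubgroup f.ker
  have h2 : Nat.card ((𝓞 F ⧸ v.asIdeal ^ M) ⧸ f.ker) = Nat.card (𝓞 F ⧸ v.asIdeal ^ (M - e)) :=
    Nat.card_congr (QuotientAddGroup.quotientKerEquivOfSurjective f hsurj).toEquiv
  rw [h2, lc_card_quot_pow, lc_card_quot_pow] at h1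
  have hpos := lc_absNorm_pos v
  have h3 : (Ideal.absNorm v.asIdeal) ^ (M - e) * Nat.card f.ker
      ≤ (Ideal.absNorm v.asIdeal) ^ (M - e) * (Ideal.absNorm v.asIdeal) ^ e := by
    rw [← h1, ← pow_add]
    exact Nat.pow_le_pow_right hpos (by omega)
  exact Nat.le_of_mul_le_mul_left h3 (pow_pos hpos _)

theorem lc_val_le_exp_iff_mem (v : HeightOneSpectrum (𝓞 F)) (x : 𝓞 F) (n : ℕ) :
    v.valuation F (x : F) ≤ exp (-(n : ℤ)) ↔ x ∈ v.asIdeal ^ n := by
  rw [← v.intValuation_le_pow_iff_mem, ← v.valuation_of_algebraMap (K := F)]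

/-- The number of solutions of `z ^ p = 1` modulo `v ^ M`. -/
theorem lc_card_pow_eq_one_le {p : ℕ} (hp : p.Prime) {ζ : F} (hζ : IsPrimitiveRoot ζ p)
    (v : HeightOneSpectrum (𝓞 F)) (c : ℕ) (hc : v.valuation F (1 - ζ) = exp (-(c : ℤ))) (M : ℕ) :
    Nat.card {z : 𝓞 F ⧸ v.asIdeal ^ M // z ^ p = 1}
      ≤ p * (Ideal.absNorm v.asIdeal) ^ ((p - 1) * c) := by
  classical
  have : NeZero p := ⟨hp.ne_zero⟩
  have := lc_finite_quot_pow v M
  set e := (p - 1) * c with he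
  set f := (Ideal.Quotient.factor (Ideal.pow_le_pow_right (Nat.sub_le M e)) :
      𝓞 F ⧸ v.asIdeal ^ M →+* 𝓞 F ⧸ v.asIdeal ^ (M - e)) with hf
  set ζ' : 𝓞 F := hζ.toInteger with hζ'
  have key : ∀ z : {z : 𝓞 F ⧸ v.asIdeal ^ M // z ^ p = 1}, ∃ j : Fin p,
      f.toAddMonoidHom z.1 = Ideal.Quotient.mk _ (ζ' ^ (j : ℕ)) := by
    rintro ⟨z, hz⟩
    obtain ⟨x, rfl⟩ := Ideal.Quotient.mk_surjective z
    have hx : x ^ p - 1 ∈ v.asIdeal ^ M := by
      rw [← Ideal.Quotient.eq_zero_iff_mem, map_sub, map_pow, hz, map_one, sub_self]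
    rw [← lc_val_le_exp_iff_mem] at hx
    obtain ⟨j, hj, hle⟩ := lc_exists_root_close (v.valuation F) hp hζ (x : F)
    refine ⟨⟨j, hj⟩, ?_⟩
    have h1 : v.valuation F ((x : F) - ζ ^ j) * exp (-(e : ℤ)) ≤ exp (-(M : ℤ)) := by
      have : exp (-(e : ℤ)) = v.valuation F (1 - ζ) ^ (p - 1) := by
        rw [hc, ← exp_nsmul, he]; congr 1; push_cast; ring
      rw [this]
      refine hle.trans ?_
      simpa using hx
    have h2 : v.valuation F ((x - ζ' ^ j : 𝓞 F) : F) ≤ exp (-((M - e : ℕ) : ℤ)) := by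
      have hcoe : ((x - ζ' ^ j : 𝓞 F) : F) = (x : F) - ζ ^ j := by
        simp only [hζ', map_sub, map_pow]
        rfl
      by_cases hMe : e ≤ M
      · rw [hcoe]
        have h3 : v.valuation F ((x : F) - ζ ^ j) * exp (-(e : ℤ)) ≤
            exp (-((M - e : ℕ) : ℤ)) * exp (-(e : ℤ)) := by
          refine h1.trans (le_of_eq ?_)
          rw [← exp_add]; congr 1; push_cast [hMe]; ring
        exact (mul_le_mul_iff_of_pos_right (by simp)).mp h3
      · have : M - e = 0 := by omega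
        rw [this]
        simpa using v.valuation_le_one (K := F) (x - ζ' ^ j)
    rw [lc_val_le_exp_iff_mem] at h2
    show f (Ideal.Quotient.mk _ x) = _
    rw [hf, Ideal.Quotient.factor_mk, Ideal.Quotient.eq]
    exact h2
  choose j hj using key
  have hinj : Function.Injective (fun z : {z : 𝓞 F ⧸ v.asIdeal ^ M // z ^ p = 1} =>
      (⟨j z, ⟨z.1, hj z⟩⟩ : Σ i : Fin p, {z : 𝓞 F ⧸ v.asIdeal ^ M //
        f.toAddMonoidHom z = Ideal.Quotient.mk _ (ζ' ^ (i : ℕ))})) := by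
    intro a b hab
    simp only [Sigma.mk.injEq] at hab
    obtain ⟨h1, h2⟩ := hab
    apply Subtype.ext
    have := (Sigma.mk.inj_iff.mp (show (⟨j a, ⟨a.1, hj a⟩⟩ : Σ i : Fin p,
      {z : 𝓞 F ⧸ v.asIdeal ^ M // f.toAddMonoidHom z = Ideal.Quotient.mk _ (ζ' ^ (i : ℕ))}) =
      ⟨j b, ⟨b.1, hj b⟩⟩ from Sigma.ext h1 h2))
    have h3 : ∀ (i i' : Fin p) (u : {z : 𝓞 F ⧸ v.asIdeal ^ M //
        f.toAddMonoidHom z = Ideal.Quotient.mk _ (ζ' ^ (i : ℕ))})
        (u' : {z : 𝓞 F ⧸ v.asIdeal ^ M //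
        f.toAddMonoidHom z = Ideal.Quotient.mk _ (ζ' ^ (i' : ℕ))}), i = i' → HEq u u' →
        u.1 = u'.1 := by
      intro i i' u u' hi hu
      subst hi
      rw [eq_of_heq hu]
    exact h3 _ _ _ _ h1 h2
  refine (Nat.card_le_card_of_injective _ hinj).trans ?_
  rw [Nat.card_sigma]
  calc ∑ i : Fin p, Nat.card {z : 𝓞 F ⧸ v.asIdeal ^ M //
        f.toAddMonoidHom z = Ideal.Quotient.mk _ (ζ' ^ (i : ℕ))}
      ≤ ∑ _i : Fin p, (Ideal.absNorm v.asIdeal) ^ e :=
        Finset.sum_le_sum fun i _ => (lc_card_fiber_le _ _).trans (lc_card_ker_factor_le v M e)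
    _ = p * (Ideal.absNorm v.asIdeal) ^ e := by simp

end Count

section LP

variable {F : Type*} [Field F] [NumberField F]

/-- The `v`-units of `F` congruent to `1` modulo `v ^ M`. -/
def UvM (v : HeightOneSpectrum (𝓞 F)) (M : ℕ) : Subgroup Fˣ where
  carrier := {a | v.valuation F (a : F) = 1 ∧ v.valuation F ((a : F) - 1) ≤ exp (-(M : ℤ))}
  one_mem' := by simp
  mul_mem' := by
    rintro a b ⟨ha, ha'⟩ ⟨hb, hb'⟩
    refine ⟨by simp [ha, hb], ?_⟩
    have : ((a * b : Fˣ) : F) - 1 = ((a : F) - 1) * b + ((b : F) - 1) := by push_cast; ring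
    rw [this]
    refine (Valuation.map_add _ _ _).trans (max_le ?_ hb')
    rw [map_mul, hb, mul_one]
    exact ha'
  inv_mem' := by
    rintro a ⟨ha, ha'⟩
    refine ⟨by simp [ha], ?_⟩
    have : ((a⁻¹ : Fˣ) : F) - 1 = -(((a : F) - 1) * (a : F)⁻¹) := by
      have : (a : F) ≠ 0 := a.ne_zero
      push_cast; field_simp; ring
    rw [this, Valuation.map_neg, map_mul, map_inv₀, ha, inv_one, mul_one]
    exact ha'

theorem mem_UvM {v : HeightOneSpectrum (𝓞 F)} {M : ℕ} {a : Fˣ} :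
    a ∈ UvM v M ↔ v.valuation F (a : F) = 1 ∧ v.valuation F ((a : F) - 1) ≤ exp (-(M : ℤ)) :=
  Iff.rfl

/-- `LPsub p v M`: the elements of `Fˣ` which are, up to `p`-th powers, congruent to `1`
modulo `v ^ M`. -/
def LPsub (p : ℕ) (v : HeightOneSpectrum (𝓞 F)) (M : ℕ) : Subgroup Fˣ :=
  UvM v M ⊔ (powMonoidHom p : Fˣ →* Fˣ).range

theorem mem_LPsub {p : ℕ} {v : HeightOneSpectrum (𝓞 F)} {M : ℕ} {x : Fˣ} :
    x ∈ LPsub p v M ↔ ∃ a ∈ UvM v M, ∃ y : Fˣ, a * y ^ p = x := by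
  rw [LPsub, Subgroup.mem_sup]
  constructor
  · rintro ⟨a, ha, _, ⟨y, rfl⟩, h⟩
    exact ⟨a, ha, y, h⟩
  · rintro ⟨a, ha, y, h⟩
    exact ⟨a, ha, _, ⟨y, rfl⟩, h⟩

theorem lc_val_eq_one_of_sub_one_lt {v : HeightOneSpectrum (𝓞 F)} {a : F}
    (h : v.valuation F (a - 1) < 1) : v.valuation F a = 1 := by
  have := (v.valuation F).map_one_add_of_lt h
  simpa using this

/-- The plain characterisation of `LPsub` for `1 ≤ M`. -/
theorem mem_LPsub_iff {p : ℕ} {v : HeightOneSpectrum (𝓞 F)} {M : ℕ} (hM : 1 ≤ M) {x : Fˣ} :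
    x ∈ LPsub p v M ↔ ∃ y : F, y ≠ 0 ∧ v.valuation F ((x : F) / y ^ p - 1) ≤ exp (-(M : ℤ)) := by
  rw [mem_LPsub]
  constructor
  · rintro ⟨a, ha, y, rfl⟩
    refine ⟨y, y.ne_zero, ?_⟩
    have : (((a * y ^ p : Fˣ) : F)) / (y : F) ^ p = a := by
      have : (y : F) ≠ 0 := y.ne_zero
      push_cast; field_simp
    rw [this]
    exact ha.2
  · rintro ⟨y, hy, h⟩
    have hx : (x : F) / y ^ p ≠ 0 := div_ne_zero x.ne_zero (pow_ne_zero _ hy)
    refine ⟨Units.mk0 _ hx, ⟨?_, h⟩, Units.mk0 y hy, ?_⟩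
    · refine lc_val_eq_one_of_sub_one_lt (lt_of_le_of_lt h ?_)
      rw [← exp_zero, exp_lt_exp]
      omega
    · ext
      push_cast [Units.val_mk0]
      field_simp

theorem LPsub_anti {p : ℕ} {v : HeightOneSpectrum (𝓞 F)} {M M' : ℕ} (h : M ≤ M') :
    LPsub p v M' ≤ LPsub p v M := by
  refine sup_le_sup_right ?_ _
  rintro a ⟨h1, h2⟩
  refine ⟨h1, h2.trans ?_⟩
  rw [exp_le_exp]
  omega

theorem lc_isUnit_mk_pow_of_notMem (v : HeightOneSpectrum (𝓞 F)) (M : ℕ) {a : 𝓞 F}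
    (ha : a ∉ v.asIdeal) : IsUnit (Ideal.Quotient.mk (v.asIdeal ^ M) a) := by
  have hmax : v.asIdeal.IsMaximal := v.isMaximal
  obtain ⟨b, hb⟩ := hmax.exists_inv ha
  obtain ⟨i, hi, hb⟩ := hb
  -- `b * a + i = 1`
  have hnil : IsNilpotent (Ideal.Quotient.mk (v.asIdeal ^ M) i) := by
    refine ⟨M, ?_⟩
    rw [← map_pow, Ideal.Quotient.eq_zero_iff_mem]
    exact Ideal.pow_mem_pow hi M
  have h1 : Ideal.Quotient.mk (v.asIdeal ^ M) b * Ideal.Quotient.mk (v.asIdeal ^ M) a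
      = 1 - Ideal.Quotient.mk (v.asIdeal ^ M) i := by
    rw [← map_mul, ← map_one (Ideal.Quotient.mk (v.asIdeal ^ M)), ← map_sub]
    congr 1
    rw [← hb]; ring
  have h2 : IsUnit (Ideal.Quotient.mk (v.asIdeal ^ M) b * Ideal.Quotient.mk (v.asIdeal ^ M) a) := by
    rw [h1]
    exact hnil.isUnit_one_sub
  exact isUnit_of_mul_isUnit_right h2

omit [NumberField F] in
theorem lc_notMem_of_isUnit_mk_pow (v : HeightOneSpectrum (𝓞 F)) {M : ℕ} (hM : 1 ≤ M) {a : 𝓞 F}
    (ha : IsUnit (Ideal.Quotient.mk (v.asIdeal ^ M) a)) : a ∉ v.asIdeal := by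
  intro hmem
  obtain ⟨b, hb⟩ := ha.exists_right_inv
  obtain ⟨b, rfl⟩ := Ideal.Quotient.mk_surjective b
  rw [← map_mul, ← map_one (Ideal.Quotient.mk (v.asIdeal ^ M)), Ideal.Quotient.eq] at hb
  have h1 : a * b - 1 ∈ v.asIdeal := Ideal.pow_le_self (by omega) hb
  have h2 : (1 : 𝓞 F) ∈ v.asIdeal := by
    have := v.asIdeal.sub_mem (v.asIdeal.mul_mem_right b hmem) h1
    simpa using this
  exact v.isPrime.ne_top ((Ideal.eq_top_iff_one _).mpr h2)

/-- normalisation + approximation of an element of `Fˣ`. -/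
theorem lc_exists_approx (v : HeightOneSpectrum (𝓞 F)) (M : ℕ) {π : F}
    (hπ : v.valuation F π = exp (-1 : ℤ)) (x : Fˣ) :
    ∃ (n : ℤ) (a : 𝓞 F), a ∉ v.asIdeal ∧ v.valuation F ((x : F) * π ^ n) = 1 ∧
      v.valuation F ((a : F) - (x : F) * π ^ n) ≤ exp (-(M : ℤ)) := by
  have hx : v.valuation F (x : F) ≠ 0 := (Valuation.ne_zero_iff _).mpr x.ne_zero
  set n : ℤ := log (v.valuation F (x : F)) with hn
  have hu : v.valuation F ((x : F) * π ^ n) = 1 := by
    rw [map_mul, map_zpow₀, hπ, ← exp_zsmul, ← exp_log hx, ← exp_add, ← hn]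
    simp
  obtain ⟨a, ha⟩ := v.exists_valuation_sub_lt_of_integer hu.le
    (Units.mk0 (exp (-(M : ℤ))) exp_ne_zero)
  rw [Units.val_mk0] at ha
  refine ⟨n, a, ?_, hu, ha.le⟩
  rw [← v.valuation_eq_one_iff_notMem (K := F)]
  have hlt : v.valuation F ((a : F) - (x : F) * π ^ n) < v.valuation F ((x : F) * π ^ n) := by
    rw [hu]
    refine ha.trans_le ?_
    rw [← exp_zero, exp_le_exp]
    omega
  have := (v.valuation F).map_add_eq_of_lt_left hlt
  rw [add_sub_cancel, hu] at this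
  exact this

/-- **Local count.** -/
theorem index_LPsub_le {p : ℕ} (hp : p.Prime) {ζ : F} (hζ : IsPrimitiveRoot ζ p)
    (v : HeightOneSpectrum (𝓞 F)) (c : ℕ) (hc : v.valuation F (1 - ζ) = exp (-(c : ℤ)))
    {M : ℕ} (hM : 1 ≤ M) :
    (LPsub p v M).index ≤ p ^ 2 * (Ideal.absNorm v.asIdeal) ^ ((p - 1) * c) ∧
      (LPsub p v M).index ≠ 0 := by
  classical
  have : NeZero p := ⟨hp.ne_zero⟩
  have := lc_finite_quot_pow v M
  obtain ⟨π, hπ⟩ := v.valuation_exists_uniformizer F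
  have hπ0 : π ≠ 0 := by
    intro h
    rw [h, map_zero] at hπ
    exact exp_ne_zero hπ.symm
  choose n a ha hu hau using lc_exists_approx v M hπ
  let A := (𝓞 F ⧸ v.asIdeal ^ M)ˣ
  let Q := A ⧸ (powMonoidHom p : A →* A).range
  let cl : Fˣ → ZMod p × Q := fun x =>
    ((n x : ZMod p), QuotientGroup.mk (lc_isUnit_mk_pow_of_notMem v M (ha x)).unit)
  have hsep : ∀ x y, cl x = cl y → x⁻¹ * y ∈ LPsub p v M := by
    intro x y hxy
    simp only [cl, Prod.mk.injEq] at hxy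
    obtain ⟨h1, h2⟩ := hxy
    rw [ZMod.intCast_eq_intCast_iff_dvd_sub] at h1
    obtain ⟨k, hk⟩ := h1
    rw [QuotientGroup.eq] at h2
    obtain ⟨b, hb⟩ := h2
    obtain ⟨b0, hb0⟩ := Ideal.Quotient.mk_surjective (b : 𝓞 F ⧸ v.asIdeal ^ M)
    have hb0P : b0 ∉ v.asIdeal := lc_notMem_of_isUnit_mk_pow v hM (by rw [hb0]; exact b.isUnit)
    have hvb0 : v.valuation F (b0 : F) = 1 := (v.valuation_eq_one_iff_notMem (K := F)).mpr hb0P
    have hb00 : (b0 : F) ≠ 0 := by
      intro h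
      rw [h, map_zero] at hvb0
      exact zero_ne_one hvb0
    have hcong : a y - a x * b0 ^ p ∈ v.asIdeal ^ M := by
      rw [← Ideal.Quotient.eq, map_mul, map_pow, hb0]
      have h3 : (lc_isUnit_mk_pow_of_notMem v M (ha y)).unit
          = (lc_isUnit_mk_pow_of_notMem v M (ha x)).unit * b ^ p := by
        rw [powMonoidHom_apply] at hb
        rw [hb]; group
      have h4 := congrArg (Units.val) h3
      rw [Units.val_mul, Units.val_pow_eq_pow_val, IsUnit.unit_spec, IsUnit.unit_spec] at h4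
      exact h4
    rw [← lc_val_le_exp_iff_mem] at hcong
    set ux : F := (x : F) * π ^ n x with hux
    set uy : F := (y : F) * π ^ n y with huy
    have hux0 : ux ≠ 0 := mul_ne_zero x.ne_zero (zpow_ne_zero _ hπ0)
    have huy0 : uy ≠ 0 := mul_ne_zero y.ne_zero (zpow_ne_zero _ hπ0)
    have hclose : v.valuation F (uy - ux * (b0 : F) ^ p) ≤ exp (-(M : ℤ)) := by
      have : uy - ux * (b0 : F) ^ p = -((a y : F) - uy) + (((a y - a x * b0 ^ p : 𝓞 F) : F)
          + ((a x : F) - ux) * (b0 : F) ^ p) := by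
        push_cast; ring
      rw [this]
      refine (Valuation.map_add _ _ _).trans (max_le ?_
        ((Valuation.map_add _ _ _).trans (max_le hcong ?_)))
      · rw [Valuation.map_neg]; exact hau y
      · rw [map_mul, map_pow, hvb0, one_pow, mul_one]; exact hau x
    set t : F := uy / (ux * (b0 : F) ^ p) with ht
    have hden : ux * (b0 : F) ^ p ≠ 0 := mul_ne_zero hux0 (pow_ne_zero _ hb00)
    have hvden : v.valuation F (ux * (b0 : F) ^ p) = 1 := by
      rw [map_mul, map_pow, hvb0, one_pow, mul_one]; exact hu x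
    have ht0 : t ≠ 0 := div_ne_zero huy0 hden
    rw [mem_LPsub]
    refine ⟨Units.mk0 t ht0, ⟨?_, ?_⟩, Units.mk0 ((b0 : F) * π ^ (-k)) (mul_ne_zero hb00
      (zpow_ne_zero _ hπ0)), ?_⟩
    · rw [Units.val_mk0, ht, map_div₀, hvden, div_one]; exact hu y
    · rw [Units.val_mk0]
      have : t - 1 = (uy - ux * (b0 : F) ^ p) / (ux * (b0 : F) ^ p) := by
        rw [ht]; field_simp
      rw [this, map_div₀, hvden, div_one]
      exact hclose
    · ext
      push_cast [Units.val_mk0]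
      rw [ht, huy, hux, mul_pow, ← zpow_natCast (π ^ (-k)) p, ← zpow_mul]
      have hx0 : (x : F) ≠ 0 := x.ne_zero
      have h5 : π ^ n y = π ^ n x * π ^ ((p : ℤ) * k) := by
        rw [← zpow_add₀ hπ0]; congr 1; omega
      have h6 : π ^ (-k * (p : ℤ)) = (π ^ ((p : ℤ) * k))⁻¹ := by
        rw [← zpow_neg]; congr 1; ring
      rw [h5, h6]
      have h7 : π ^ n x ≠ 0 := zpow_ne_zero _ hπ0
      have h8 : π ^ ((p : ℤ) * k) ≠ 0 := zpow_ne_zero _ hπ0
      field_simp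
  obtain ⟨h1, h2⟩ := lc_index_le_card_of_separates (LPsub p v M) cl hsep
  refine ⟨h1.trans ?_, h2⟩
  rw [Nat.card_prod, Nat.card_zmod, lc_card_quot_pow_range]
  have h3 : Nat.card (powMonoidHom p : A →* A).ker ≤
      Nat.card {z : 𝓞 F ⧸ v.asIdeal ^ M // z ^ p = 1} := by
    refine Nat.card_le_card_of_injective (fun z => ⟨((z : A) : 𝓞 F ⧸ v.asIdeal ^ M), ?_⟩) ?_
    · have := z.2
      rw [MonoidHom.mem_ker, powMonoidHom_apply] at this
      have := congrArg Units.val this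
      rw [Units.val_pow_eq_pow_val, Units.val_one] at this
      exact this
    · intro z z' h
      simp only [Subtype.mk.injEq] at h
      exact Subtype.ext (Units.ext h)
  calc p * Nat.card (powMonoidHom p : A →* A).ker
      ≤ p * (p * (Ideal.absNorm v.asIdeal) ^ ((p - 1) * c)) :=
        Nat.mul_le_mul_left _ (h3.trans (lc_card_pow_eq_one_le hp hζ v c hc M))
    _ = p ^ 2 * (Ideal.absNorm v.asIdeal) ^ ((p - 1) * c) := by ring

end LP

section Package

variable {F : Type*} [Field F] [NumberField F]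

theorem lc_one_sub_pow_dvd_prime {R : Type*} [CommRing R] [IsDomain R] {p : ℕ} (hp : p.Prime) {ζ : R}
    (hζ : IsPrimitiveRoot ζ p) : (1 - ζ) ^ (p - 1) ∣ (p : R) := by
  obtain ⟨n, rfl⟩ : ∃ n, p = n + 1 := ⟨p - 1, by have := hp.pos; omega⟩
  have h := hζ.prod_one_sub_pow_eq_order
  have h2 : ((n + 1 : ℕ) : R) = ∏ k ∈ Finset.range n, (1 - ζ ^ (k + 1)) := by
    rw [h]; push_cast; ring
  rw [h2, Nat.add_sub_cancel]
  calc (1 - ζ) ^ n = ∏ _k ∈ Finset.range n, (1 - ζ) := by simp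
    _ ∣ ∏ k ∈ Finset.range n, (1 - ζ ^ (k + 1)) :=
      Finset.prod_dvd_prod_of_dvd _ _ fun k _ => by
        simpa using sub_dvd_pow_sub_pow (1 : R) ζ (k + 1)

theorem lc_exists_val_one_sub {p : ℕ} (hp : p.Prime) {ζ : F} (hζ : IsPrimitiveRoot ζ p)
    (v : HeightOneSpectrum (𝓞 F)) : ∃ c : ℕ, v.valuation F (1 - ζ) = exp (-(c : ℤ)) := by
  have : NeZero p := ⟨hp.ne_zero⟩
  have hne : (1 - ζ) ≠ 0 := sub_ne_zero.mpr (hζ.ne_one hp.one_lt).symm
  have hv0 : v.valuation F (1 - ζ) ≠ 0 := (Valuation.ne_zero_iff _).mpr hne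
  have hle : v.valuation F (1 - ζ) ≤ 1 := by
    have : v.valuation F (algebraMap (𝓞 F) F (1 - hζ.toInteger)) ≤ 1 :=
      v.valuation_le_one (K := F) (1 - hζ.toInteger)
    have h2 : algebraMap (𝓞 F) F (1 - hζ.toInteger) = 1 - ζ := by
      simp only [map_sub, map_one]; rfl
    rwa [h2] at this
  refine ⟨(-(log (v.valuation F (1 - ζ)))).toNat, ?_⟩
  have hlog : log (v.valuation F (1 - ζ)) ≤ 0 := by
    rw [← exp_log hv0, ← exp_zero, exp_le_exp] at hle
    exact hle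
  rw [Int.toNat_of_nonneg (by omega), neg_neg, exp_log hv0]

theorem lc_prod_absNorm_le {p : ℕ} (hp : p.Prime) {ζ : F} (hζ : IsPrimitiveRoot ζ p)
    (S : Finset (HeightOneSpectrum (𝓞 F))) (c : HeightOneSpectrum (𝓞 F) → ℕ)
    (hc : ∀ v, v.valuation F (1 - ζ) = exp (-(c v : ℤ))) :
    ∏ v ∈ S, (Ideal.absNorm v.asIdeal) ^ ((p - 1) * c v) ≤ p ^ Module.finrank ℚ F := by
  have : NeZero p := ⟨hp.ne_zero⟩
  set ζ' : 𝓞 F := hζ.toInteger with hζ'
  have hζ'prim : IsPrimitiveRoot ζ' p := hζ.toInteger_isPrimitiveRoot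
  have hdvd : ∏ v ∈ S, v.asIdeal ^ ((p - 1) * c v) ∣ Ideal.span {(p : 𝓞 F)} := by
    refine Finset.prod_dvd_of_coprime ?_ ?_
    · intro v _ w _ hvw
      refine IsCoprime.pow ?_
      rw [Ideal.isCoprime_iff_sup_eq]
      exact v.isMaximal.coprime_of_ne w.isMaximal fun h => hvw (HeightOneSpectrum.ext h)
    · intro v _
      have h1 : (1 - ζ') ∈ v.asIdeal ^ c v := by
        rw [← lc_val_le_exp_iff_mem]
        have h2 : ((1 - ζ' : 𝓞 F) : F) = 1 - ζ := by
          simp only [map_sub, map_one]; rfl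
        rw [h2, hc v]
      have h2 : v.asIdeal ^ c v ∣ Ideal.span {1 - ζ'} := by
        rw [Ideal.dvd_span_singleton]; exact h1
      have h3 : (v.asIdeal ^ c v) ^ (p - 1) ∣ Ideal.span {1 - ζ'} ^ (p - 1) := pow_dvd_pow_of_dvd h2 _
      rw [← pow_mul, mul_comm, Ideal.span_singleton_pow] at h3
      refine h3.trans ?_
      rw [Ideal.dvd_span_singleton, Ideal.mem_span_singleton]
      exact lc_one_sub_pow_dvd_prime hp hζ'prim
  have h1 := map_dvd Ideal.absNorm hdvd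
  rw [map_prod, Ideal.absNorm_span_natCast, RingOfIntegers.rank] at h1
  simp only [map_pow] at h1
  exact Nat.le_of_dvd (pow_pos hp.pos _) h1

/-- **Local count, packaged form.** -/
theorem index_iInf_LPsub_le {p : ℕ} (hp : p.Prime) {ζ : F} (hζ : IsPrimitiveRoot ζ p)
    (S : Finset (HeightOneSpectrum (𝓞 F))) (M : HeightOneSpectrum (𝓞 F) → ℕ)
    (hM : ∀ v ∈ S, 1 ≤ M v) :
    (⨅ v : S, LPsub p v.1 (M v.1)).index ≤ p ^ (2 * S.card + Module.finrank ℚ F) ∧
      (⨅ v : S, LPsub p v.1 (M v.1)).index ≠ 0 := by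
  classical
  choose c hc using lc_exists_val_one_sub hp hζ
  refine ⟨?_, Subgroup.index_iInf_ne_zero fun v => (index_LPsub_le hp hζ v.1 _ (hc v.1) (hM v.1 v.2)).2⟩
  refine (Subgroup.index_iInf_le _).trans ?_
  calc ∏ v : S, (LPsub p v.1 (M v.1)).index
      ≤ ∏ v : S, (p ^ 2 * (Ideal.absNorm v.1.asIdeal) ^ ((p - 1) * c v.1)) :=
        Finset.prod_le_prod' fun v _ => (index_LPsub_le hp hζ v.1 _ (hc v.1) (hM v.1 v.2)).1
    _ = ∏ v ∈ S, (p ^ 2 * (Ideal.absNorm v.asIdeal) ^ ((p - 1) * c v)) :=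
        Finset.prod_coe_sort S fun v => p ^ 2 * (Ideal.absNorm v.asIdeal) ^ ((p - 1) * c v)
    _ = p ^ (2 * S.card) * ∏ v ∈ S, (Ideal.absNorm v.asIdeal) ^ ((p - 1) * c v) := by
        rw [Finset.prod_mul_distrib, Finset.prod_const, ← pow_mul]
    _ ≤ p ^ (2 * S.card) * p ^ Module.finrank ℚ F :=
        Nat.mul_le_mul_left _ (lc_prod_absNorm_le hp hζ S c hc)
    _ = p ^ (2 * S.card + Module.finrank ℚ F) := (pow_add _ _ _).symm

end Package

end Fermat.Agent.S14Lib
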