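import Mathlib
import Fermat.Agent.S14.SymbolLocal
import Fermat.Agent.S14.DL
import Fermat.Agent.S14.LocalCount

/-!
# S14, leaf L10 (SI): orders, divisors, symbols of products
-/

set_option autoImplicit false

namespace Fermat.Agent.S14Lib

open IsDedekindDomain NumberField WithZero

section Ord

variable {F : Type*} [Field F] [NumberField F]

/-- the (additive) order of `x` at `v`. -/
noncomputable def siOrd (v : HeightOneSpectrum (𝓞 F)) (x : Fˣ) : ℤ :=
  -(log (v.valuation F (x : F)))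

theorem val_ne_zero_units (v : HeightOneSpectrum (𝓞 F)) (x : Fˣ) : v.valuation F (x : F) ≠ 0 :=
  (Valuation.ne_zero_iff _).2 x.ne_zero

theorem val_eq_exp_siOrd (v : HeightOneSpectrum (𝓞 F)) (x : Fˣ) :
    v.valuation F (x : F) = exp (-(siOrd v x)) := by
  rw [siOrd, neg_neg, exp_log (val_ne_zero_units v x)]

theorem siOrd_eq_iff (v : HeightOneSpectrum (𝓞 F)) (x : Fˣ) (n : ℤ) :
    siOrd v x = n ↔ v.valuation F (x : F) = exp (-n) := by
  rw [val_eq_exp_siOrd, exp_inj, neg_inj]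

theorem siOrd_eq_zero_iff (v : HeightOneSpectrum (𝓞 F)) (x : Fˣ) :
    siOrd v x = 0 ↔ v.valuation F (x : F) = 1 := by
  rw [siOrd_eq_iff, neg_zero, exp_zero]

theorem siOrd_mul (v : HeightOneSpectrum (𝓞 F)) (x y : Fˣ) :
    siOrd v (x * y) = siOrd v x + siOrd v y := by
  rw [siOrd_eq_iff, Units.val_mul, map_mul, val_eq_exp_siOrd, val_eq_exp_siOrd, ← exp_add]
  congr 1; ring

theorem siOrd_one (v : HeightOneSpectrum (𝓞 F)) : siOrd v (1 : Fˣ) = 0 := by
  rw [siOrd_eq_zero_iff]; simp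

/-- `siOrd` as a homomorphism. -/
noncomputable def siOrdHom (v : HeightOneSpectrum (𝓞 F)) : Fˣ →* Multiplicative ℤ :=
  MonoidHom.mk' (fun x => Multiplicative.ofAdd (siOrd v x)) (fun x y => by
    rw [siOrd_mul, ofAdd_add])

theorem siOrd_inv (v : HeightOneSpectrum (𝓞 F)) (x : Fˣ) : siOrd v x⁻¹ = -siOrd v x :=
  congrArg Multiplicative.toAdd (map_inv (siOrdHom v) x)

theorem siOrd_zpow (v : HeightOneSpectrum (𝓞 F)) (x : Fˣ) (n : ℤ) :
    siOrd v (x ^ n) = n * siOrd v x := by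
  have := congrArg Multiplicative.toAdd (map_zpow (siOrdHom v) x n)
  simpa [siOrdHom] using this

theorem siOrd_pow (v : HeightOneSpectrum (𝓞 F)) (x : Fˣ) (n : ℕ) :
    siOrd v (x ^ n) = n * siOrd v x := by
  rw [← zpow_natCast, siOrd_zpow]

theorem siOrd_prod {ι : Type*} (v : HeightOneSpectrum (𝓞 F)) (s : Finset ι) (f : ι → Fˣ) :
    siOrd v (∏ i ∈ s, f i) = ∑ i ∈ s, siOrd v (f i) := by
  classical
  induction s using Finset.induction_on with
  | empty => simp [siOrd_one]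
  | insert i s hi ih => rw [Finset.prod_insert hi, Finset.sum_insert hi, siOrd_mul, ih]

theorem finite_siOrd_ne_zero (x : Fˣ) : {v : HeightOneSpectrum (𝓞 F) | siOrd v x ≠ 0}.Finite := by
  refine (finite_val_ne_one x.ne_zero).subset fun v hv => ?_
  simpa [siOrd_eq_zero_iff] using hv

/-- the divisor of `x`. -/
noncomputable def siDiv (x : Fˣ) : HeightOneSpectrum (𝓞 F) →₀ ℤ :=
  Finsupp.ofSupportFinite (fun v => siOrd v x) (finite_siOrd_ne_zero x)

@[simp] theorem siDiv_apply (x : Fˣ) (v : HeightOneSpectrum (𝓞 F)) : siDiv x v = siOrd v x := rfl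

theorem siDiv_mul (x y : Fˣ) : siDiv (x * y) = siDiv x + siDiv y := by
  ext v; simp [siOrd_mul]

end Ord

section SymProd

variable {F : Type*} [Field F] [NumberField F] {p : ℕ} [hp : Fact p.Prime] {ζ : F}

theorem val_prod_eq_one {ι : Type*} (q : HeightOneSpectrum (𝓞 F)) (s : Finset ι) (f : ι → F)
    (hf : ∀ i ∈ s, q.valuation F (f i) = 1) : q.valuation F (∏ i ∈ s, f i) = 1 := by
  rw [map_prod]
  exact Finset.prod_eq_one hf

theorem sym_prod (hζ : IsPrimitiveRoot ζ p) {ι : Type*} (q : HeightOneSpectrum (𝓞 F))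
    (hq : q.valuation F (p : F) = 1) (s : Finset ι) (f : ι → F)
    (hf : ∀ i ∈ s, q.valuation F (f i) = 1) :
    sym p ζ q (∏ i ∈ s, f i) = ∑ i ∈ s, sym p ζ q (f i) := by
  classical
  induction s using Finset.induction_on with
  | empty => simp [sym_one hζ]
  | insert i s hi ih =>
    rw [Finset.prod_insert hi, Finset.sum_insert hi,
      sym_mul hζ hq (hf i (Finset.mem_insert_self i s))
        (val_prod_eq_one q s f fun j hj => hf j (Finset.mem_insert_of_mem hj)),
      ih fun j hj => hf j (Finset.mem_insert_of_mem hj)]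

end SymProd

section LP

variable {F : Type*} [Field F] [NumberField F]

/-- the "split" predicate at `v` for `F(x^(1/p))`. -/
def SiLP (p : ℕ) (ζ : F) (v : HeightOneSpectrum (𝓞 F)) (x : F) : Prop :=
  ∃ y : F, y ≠ 0 ∧ v.valuation F (x / y ^ p - 1) < v.valuation F (1 - ζ) ^ p

theorem siLP_of_mem_LPsub {p : ℕ} {ζ : F} {v : HeightOneSpectrum (𝓞 F)} {c : ℕ}
    (hc : v.valuation F (1 - ζ) = exp (-(c : ℤ))) {x : Fˣ} (hx : x ∈ LPsub p v (p * c + 1)) :
    SiLP p ζ v (x : F) := by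
  obtain ⟨y, hy, h⟩ := (mem_LPsub_iff (by omega)).1 hx
  refine ⟨y, hy, lt_of_le_of_lt h ?_⟩
  rw [hc, ← exp_nsmul, exp_lt_exp]
  simp only [nsmul_eq_mul]
  push_cast
  nlinarith

theorem dvd_siOrd_of_mem_LPsub {p : ℕ} {v : HeightOneSpectrum (𝓞 F)} {M : ℕ} {x : Fˣ}
    (hx : x ∈ LPsub p v M) : (p : ℤ) ∣ siOrd v x := by
  obtain ⟨a, ha, y, rfl⟩ := mem_LPsub.1 hx
  rw [siOrd_mul, siOrd_pow, (siOrd_eq_zero_iff v a).2 ha.1, zero_add]
  exact dvd_mul_right _ _

theorem siLP_of_sym_eq_zero {p : ℕ} [hp : Fact p.Prime] {ζ : F} (hζ : IsPrimitiveRoot ζ p)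
    {q : HeightOneSpectrum (𝓞 F)} (hq : q.valuation F (p : F) = 1) {x : F}
    (hx : q.valuation F x = 1) (h : sym p ζ q x = 0) : SiLP p ζ q x := by
  obtain ⟨z, hz, hz'⟩ := (sym_eq_zero_iff hζ hq hx).1 h
  refine ⟨z, hz, ?_⟩
  have h1 : q.valuation F (1 - ζ) = 1 := by
    obtain ⟨c, hc⟩ := lc_exists_val_one_sub hp.out hζ q
    by_contra hne
    have hlt : q.valuation F (1 - ζ) < 1 := by
      refine lt_of_le_of_ne ?_ hne
      rw [hc, ← exp_zero, exp_le_exp]; omega
    have hzq : red q ζ = 1 := by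
      have h1 : q.valuation F (1 : F) ≤ 1 := by simp
      have := (red_eq_red_iff q h1 (val_zeta hζ q).le).2 hlt
      rw [← this]
      have h2 := red_natCast q 1
      rw [Nat.cast_one, Nat.cast_one] at h2
      exact h2
    exact (red_zeta_prim hζ hq).ne_one hp.out.one_lt hzq
  rwa [h1, one_pow]

end LP

end Fermat.Agent.S14Lib
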