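import Mathlib
import Fermat.Agent.S14.Splitting
import Fermat.Agent.S14.SIAbs
import Fermat.Agent.S14.SIOrd

/-!
# S14, leaf L10 (SI): the auxiliary data `(S, u, q, π)` and Claims A, B
-/

set_option autoImplicit false

namespace Fermat.Agent.S14Lib

open IsDedekindDomain NumberField WithZero

universe u

variable {F : Type u} [Field F] [NumberField F]

/-- The form of the first inequality needed for Claim B. -/
def FIAProp (p : ℕ) [Fact p.Prime] (F : Type u) [Field F] [NumberField F] (ζ : F) : Prop :=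
  ∀ (Y : Type u) [Field Y] [NumberField Y] [Algebra F Y] [IsGalois F Y],
    Module.finrank F Y = p →
    ∀ (S R : Finset (HeightOneSpectrum (𝓞 F))),
      (∀ v ∈ S, (Ideal.primesOver v.asIdeal (𝓞 Y)).ncard = p) →
      (∀ q ∈ R, q.valuation F (p : F) = 1) →
      (∀ q ∈ R, ∀ Q : Ideal (𝓞 Y), Q.IsPrime → Q.LiesOver q.asIdeal →
        Q.ramificationIdx (𝓞 F) = p) →
      (∀ q ∉ R, ∀ Q : Ideal (𝓞 Y), Q.IsPrime → Q.LiesOver q.asIdeal →
        Q.ramificationIdx (𝓞 F) = 1) →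
      (∀ D : HeightOneSpectrum (𝓞 F) →₀ ℤ, ∃ y : Fˣ, ∀ v ∉ S,
        v.valuation F (y : F) = exp (-(D v))) →
      (∀ c : HeightOneSpectrum (𝓞 F) → ZMod p, ∃ u : Fˣ,
        (∀ v ∉ S, v.valuation F (u : F) = 1) ∧ ∀ q ∈ R, sym p ζ q (u : F) = c q) →
      False

/-- The auxiliary data of the proof of the second inequality. -/
structure SIData (p : ℕ) [Fact p.Prime] (ζ : F) (α : Fˣ) (S : Finset (HeightOneSpectrum (𝓞 F))) (n : ℕ) where
  u : Fin n → Fˣ
  q : Fin n → HeightOneSpectrum (𝓞 F)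
  π : Fin n → Fˣ
  hαS : ∀ v ∉ S, siOrd v α = 0
  huS : ∀ j, ∀ v ∉ S, siOrd v (u j) = 0
  hind : IndepP p α u
  hqS : ∀ j, q j ∉ S
  hqp : ∀ j, (q j).valuation F (p : F) = 1
  hqα : ∀ j, sym p ζ (q j) (α : F) = 0
  hqu : ∀ i j, i ≠ j → sym p ζ (q i) (u j : F) = 0
  hquu : ∀ j, sym p ζ (q j) (u j : F) ≠ 0
  hπq : ∀ j, siOrd (q j) (π j) = 1
  hπ0 : ∀ j, ∀ v ∉ S, v ≠ q j → siOrd v (π j) = 0

namespace SIData

variable {p : ℕ} [hp : Fact p.Prime] {ζ : F} {α : Fˣ} {S : Finset (HeightOneSpectrum (𝓞 F))}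
  {n : ℕ} (d : SIData p ζ α S n)

theorem q_inj : Function.Injective d.q := by
  intro i j hij
  by_contra hne
  exact d.hquu j (hij ▸ d.hqu i j hne)

/-- the general element of the group `V`. -/
noncomputable def elt (e0 : ℤ) (e f : Fin n → ℤ) : Fˣ :=
  α ^ e0 * (∏ j, d.u j ^ e j) * ∏ j, d.π j ^ f j

theorem siOrd_elt (e0 : ℤ) (e f : Fin n → ℤ) (v : HeightOneSpectrum (𝓞 F)) (hv : v ∉ S) :
    siOrd v (d.elt e0 e f) = ∑ j, f j * siOrd v (d.π j) := by
  rw [elt, siOrd_mul, siOrd_mul, siOrd_zpow, d.hαS v hv, siOrd_prod, siOrd_prod]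
  simp only [siOrd_zpow, d.huS _ v hv]
  simp

theorem siOrd_elt_q (e0 : ℤ) (e f : Fin n → ℤ) (j : Fin n) :
    siOrd (d.q j) (d.elt e0 e f) = f j := by
  rw [d.siOrd_elt e0 e f _ (d.hqS j), Finset.sum_eq_single j]
  · rw [d.hπq, mul_one]
  · intro i _ hi
    rw [d.hπ0 i _ (d.hqS j) (fun h => hi (d.q_inj h).symm), mul_zero]
  · simp

theorem siOrd_elt_of_ne (e0 : ℤ) (e f : Fin n → ℤ) (v : HeightOneSpectrum (𝓞 F)) (hv : v ∉ S)
    (hvq : ∀ j, v ≠ d.q j) : siOrd v (d.elt e0 e f) = 0 := by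
  rw [d.siOrd_elt e0 e f _ hv]
  exact Finset.sum_eq_zero fun j _ => by rw [d.hπ0 j v hv (hvq j), mul_zero]

/-- **Claim A**. -/
theorem claimA (hζ : IsPrimitiveRoot ζ p) (c : HeightOneSpectrum (𝓞 F) → ZMod p) :
    ∃ w : Fˣ, (∀ v ∉ S, v.valuation F (w : F) = 1) ∧
      ∀ j, sym p ζ (d.q j) (w : F) = c (d.q j) := by
  classical
  let m : Fin n → ℕ := fun j => (c (d.q j) * (sym p ζ (d.q j) (d.u j : F))⁻¹).val
  refine ⟨∏ j, d.u j ^ m j, fun v hv => ?_, fun i => ?_⟩
  · rw [← siOrd_eq_zero_iff, siOrd_prod]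
    simp [siOrd_pow, d.huS _ v hv]
  · have hunit : ∀ j, (d.q i).valuation F (d.u j : F) = 1 := fun j =>
      (siOrd_eq_zero_iff _ _).1 (d.huS j _ (d.hqS i))
    rw [Units.coe_prod, sym_prod hζ _ (d.hqp i)]
    · simp only [Units.val_pow_eq_pow_val, sym_pow hζ]
      rw [Finset.sum_eq_single i]
      · simp only [m]
        rw [ZMod.natCast_zmod_val, mul_assoc, inv_mul_cancel₀ (d.hquu i), mul_one]
      · intro j _ hj
        rw [d.hqu i j (Ne.symm hj), mul_zero]
      · simp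
    · intro j _
      rw [Units.val_pow_eq_pow_val, map_pow, hunit j, one_pow]

open Polynomial in
/-- **Claim B**. -/
theorem claimB (hζ : IsPrimitiveRoot ζ p) (hFI : FIAProp p F ζ)
    (hSp : ∀ v : HeightOneSpectrum (𝓞 F), v.valuation F (p : F) ≠ 1 → v ∈ S)
    (hcl : ∀ D : HeightOneSpectrum (𝓞 F) →₀ ℤ, ∃ y : Fˣ, ∀ v ∉ S,
      v.valuation F (y : F) = exp (-(D v)))
    (e0 : ℤ) (e f : Fin n → ℤ) (hLP : ∀ v ∈ S, SiLP p ζ v (d.elt e0 e f : F)) :
    ∃ z : Fˣ, d.elt e0 e f = z ^ p := by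
  classical
  by_contra hcon
  push Not at hcon
  set x : Fˣ := d.elt e0 e f with hxdef
  have hx : ∀ z : F, z ^ p ≠ (x : F) := by
    intro z hz
    have hz0 : z ≠ 0 := by
      rintro rfl
      rw [zero_pow hp.out.ne_zero] at hz
      exact x.ne_zero hz.symm
    exact hcon (Units.mk0 z hz0) (Units.ext (by simpa using hz.symm))
  have H : Irreducible (X ^ p - C (x : F)) := X_pow_sub_C_irreducible_of_prime hp.out hx
  have : Fact (Irreducible (X ^ p - C (x : F))) := ⟨H⟩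
  let Y := AdjoinRoot (X ^ p - C (x : F))
  have : Module.Finite F Y := (AdjoinRoot.powerBasis H.ne_zero).finite
  have : NumberField Y := NumberField.of_module_finite F Y
  have hθ : (AdjoinRoot.root (X ^ p - C (x : F))) ^ p = algebraMap F Y (x : F) := by
    have := AdjoinRoot.eval₂_root (X ^ p - C (x : F))
    simp only [eval₂_sub, eval₂_pow, eval₂_X, eval₂_C, sub_eq_zero] at this
    exact this
  have htop : IntermediateField.adjoin F {AdjoinRoot.root (X ^ p - C (x : F))} = ⊤ := by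
    apply IntermediateField.adjoin_eq_top_of_algebra
    exact AdjoinRoot.adjoinRoot_eq_top
  obtain ⟨hgal, hdeg, -⟩ := kummer_setup hp.out hζ hθ htop hx
  let R : Finset (HeightOneSpectrum (𝓞 F)) :=
    (Finset.univ.filter fun j : Fin n => ¬ (p : ℤ) ∣ f j).image d.q
  have hR : ∀ v, v ∈ R ↔ ∃ j, ¬ (p : ℤ) ∣ f j ∧ d.q j = v := by
    intro v; simp [R]
  refine hFI Y hdeg S R ?_ ?_ ?_ ?_ hcl ?_
  · intro v hv
    obtain ⟨y, hy, hy'⟩ := hLP v hv
    exact (splitting_ab hp.out hζ hθ htop hx v y hy hy').1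
  · intro v hv
    obtain ⟨j, -, rfl⟩ := (hR v).1 hv
    exact d.hqp j
  · intro v hv Q hQ1 hQ2
    obtain ⟨j, hj, rfl⟩ := (hR v).1 hv
    refine (ramified_d hp.out hζ hθ htop hx (d.q j) ?_ Q).1
    intro k hk
    rw [val_eq_exp_siOrd, exp_inj, d.siOrd_elt_q] at hk
    exact hj ⟨-k, by linarith⟩
  · intro v hv Q hQ1 hQ2
    by_cases hvS : v ∈ S
    · obtain ⟨y, hy, hy'⟩ := hLP v hvS
      exact ((splitting_ab hp.out hζ hθ htop hx v y hy hy').2 Q hQ1 hQ2).1
    · have hvp : v.valuation F (p : F) = 1 := by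
        by_contra h
        exact hvS (hSp v h)
      have hdvd : (p : ℤ) ∣ siOrd v x := by
        by_cases hq : ∃ j, v = d.q j
        · obtain ⟨j, rfl⟩ := hq
          rw [d.siOrd_elt_q]
          by_contra hj
          exact hv ((hR _).2 ⟨j, hj, rfl⟩)
        · push Not at hq
          rw [d.siOrd_elt_of_ne e0 e f v hvS hq]
          exact dvd_zero _
      obtain ⟨k, hk⟩ := hdvd
      exact unramified_c' hp.out hζ hθ htop hx v (val_one_sub_zeta hp.out hζ v hvp) (-k)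
        (by rw [val_eq_exp_siOrd, hk]; congr 1; ring) Q
  · intro c
    obtain ⟨w, hw1, hw2⟩ := d.claimA hζ c
    refine ⟨w, hw1, fun v hv => ?_⟩
    obtain ⟨j, -, rfl⟩ := (hR v).1 hv
    exact hw2 j

/-- independence of the generators of `V` modulo `LP_S`. -/
theorem indep_mod_LP (hζ : IsPrimitiveRoot ζ p) (hFI : FIAProp p F ζ)
    (hSp : ∀ v : HeightOneSpectrum (𝓞 F), v.valuation F (p : F) ≠ 1 → v ∈ S)
    (hcl : ∀ D : HeightOneSpectrum (𝓞 F) →₀ ℤ, ∃ y : Fˣ, ∀ v ∉ S,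
      v.valuation F (y : F) = exp (-(D v)))
    (e0 : ℤ) (e f : Fin n → ℤ) (hLP : ∀ v ∈ S, SiLP p ζ v (d.elt e0 e f : F)) :
    (p : ℤ) ∣ e0 ∧ (∀ j, (p : ℤ) ∣ e j) ∧ ∀ j, (p : ℤ) ∣ f j := by
  obtain ⟨z, hz⟩ := d.claimB hζ hFI hSp hcl e0 e f hLP
  have hf : ∀ j, (p : ℤ) ∣ f j := by
    intro j
    rw [← d.siOrd_elt_q e0 e f j, hz, siOrd_pow]
    exact dvd_mul_right _ _
  choose f' hf' using hf
  have h := d.hind e0 e ⟨z * (∏ j, d.π j ^ f' j)⁻¹, by
    rw [mul_pow, ← hz, elt, inv_pow, ← Finset.prod_pow]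
    have : ∀ j, (d.π j ^ f' j) ^ p = d.π j ^ f j := by
      intro j
      rw [hf' j, ← zpow_natCast, ← zpow_mul, mul_comm]
    simp_rw [this]
    rw [mul_inv_cancel_right]⟩
  exact ⟨h.1, h.2, fun j => ⟨f' j, hf' j⟩⟩

end SIData

section Exists

variable {p : ℕ} [hp : Fact p.Prime] {ζ : F}

theorem exists_prime_for (hζ : IsPrimitiveRoot ζ p) (α : Fˣ) {n : ℕ} (u : Fin n → Fˣ)
    (hind : IndepP p α u) (S : Finset (HeightOneSpectrum (𝓞 F))) (j : Fin n) :
    ∃ r : HeightOneSpectrum (𝓞 F), r ∉ S ∧ r.valuation F (p : F) = 1 ∧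
      sym p ζ r (α : F) = 0 ∧ (∀ i, i ≠ j → sym p ζ r (u i : F) = 0) ∧
      sym p ζ r (u j : F) ≠ 0 := by
  classical
  let x : Option (Fin n) → F := fun o => o.elim (α : F) (fun i => if i = j then 1 else (u i : F))
  have hx : ∀ o ∈ (Finset.univ : Finset (Option (Fin n))), x o ≠ 0 := by
    intro o _
    cases o with
    | none => exact α.ne_zero
    | some i =>
      simp only [x, Option.elim_some]
      split_ifs
      · exact one_ne_zero
      · exact (u i).ne_zero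
  have hy : ∀ (e : Option (Fin n) → ℕ) (z : F),
      (u j : F) ≠ z ^ p * ∏ o ∈ (Finset.univ : Finset (Option (Fin n))), x o ^ e o := by
    intro e z hz
    have hz0 : z ≠ 0 := by
      rintro rfl
      rw [zero_pow hp.out.ne_zero, zero_mul] at hz
      exact (u j).ne_zero hz
    rw [Fintype.prod_option] at hz
    simp only [x, Option.elim_none, Option.elim_some] at hz
    have hz' : u j = (Units.mk0 z hz0) ^ p *
        (α ^ e none * ∏ i, (if i = j then 1 else u i) ^ e (some i)) := by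
      ext
      rw [hz]
      simp only [Units.val_mul, Units.val_pow_eq_pow_val, Units.val_mk0, Units.coe_prod]
      congr 2
      refine Finset.prod_congr rfl fun i _ => ?_
      split_ifs <;> simp
    have key := hind (-(e none : ℤ)) (fun i => if i = j then 1 else -(e (some i) : ℤ))
      ⟨Units.mk0 z hz0, by
        have h1 : ∀ i, u i ^ (if i = j then (1 : ℤ) else -(e (some i) : ℤ)) =
            (if i = j then u j else 1) * ((if i = j then 1 else u i) ^ e (some i))⁻¹ := by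
          intro i
          split_ifs with h
          · subst h; simp
          · simp
        simp_rw [h1]
        rw [Finset.prod_mul_distrib, Finset.prod_ite_eq' Finset.univ j (fun _ => u j),
          if_pos (Finset.mem_univ j), Finset.prod_inv_distrib, zpow_neg, zpow_natCast]
        conv_lhs => rw [hz']
        generalize (Units.mk0 z hz0) ^ p = A
        generalize α ^ e none = B
        generalize ∏ i, (if i = j then 1 else u i) ^ e (some i) = C
        have : B⁻¹ * (A * (B * C) * C⁻¹) = A * (B⁻¹ * B) * (C * C⁻¹) := by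
          simp only [mul_assoc, mul_left_comm, mul_comm]
        rw [this, inv_mul_cancel, mul_inv_cancel, mul_one, mul_one]⟩
    have h2 := key.2 j
    rw [if_pos rfl] at h2
    have := Int.eq_one_of_dvd_one (by positivity) h2
    have hp1 := hp.out.one_lt
    omega
  obtain ⟨r, hrS, hrp, hr1, -, hr3⟩ := exists_sym_eq_zero_ne_zero hζ Finset.univ x hx (u j : F) hy
    (S : Set (HeightOneSpectrum (𝓞 F))) S.finite_toSet
  refine ⟨r, by simpa using hrS, hrp, (hr1 none (Finset.mem_univ _)).2, fun i hi => ?_, hr3⟩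
  have := (hr1 (some i) (Finset.mem_univ _)).2
  simpa [x, hi] using this

theorem exists_SIData (hζ : IsPrimitiveRoot ζ p) (α : Fˣ) (hα : ∀ z : Fˣ, z ^ p ≠ α)
    (S : Finset (HeightOneSpectrum (𝓞 F))) (hαS : ∀ v ∉ S, siOrd v α = 0)
    (hcl : ∀ D : HeightOneSpectrum (𝓞 F) →₀ ℤ, ∃ y : Fˣ, ∀ v ∉ S,
      v.valuation F (y : F) = exp (-(D v)))
    (n : ℕ)
    (hcard : p ^ (n + 1) ≤ Nat.card (((S : Set (HeightOneSpectrum (𝓞 F))).unit F) ⧸
      (powMonoidHom p : ((S : Set (HeightOneSpectrum (𝓞 F))).unit F) →*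
        ((S : Set (HeightOneSpectrum (𝓞 F))).unit F)).range)) :
    Nonempty (SIData p ζ α S n) := by
  classical
  have hmem : ∀ z : Fˣ, z ∈ (S : Set (HeightOneSpectrum (𝓞 F))).unit F ↔
      ∀ v ∉ S, siOrd v z = 0 := by
    intro z
    constructor
    · intro h v hv
      exact (siOrd_eq_zero_iff v z).2 (h v (by simpa using hv))
    · intro h v hv
      exact (siOrd_eq_zero_iff v z).1 (h v (by simpa using hv))
  have hsat : ∀ z : Fˣ, z ^ p ∈ (S : Set (HeightOneSpectrum (𝓞 F))).unit F →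
      z ∈ (S : Set (HeightOneSpectrum (𝓞 F))).unit F := by
    intro z hz
    rw [hmem] at hz ⊢
    intro v hv
    have := hz v hv
    rw [siOrd_pow] at this
    rcases mul_eq_zero.1 this with h | h
    · exact absurd (by exact_mod_cast h) hp.out.ne_zero
    · exact h
  obtain ⟨u, hu, hind⟩ := exists_indep p _ hsat α ((hmem α).2 hαS) hα n hcard
  choose q hq using exists_prime_for hζ α u hind S
  choose π hπ using fun j => hcl (Finsupp.single (q j) 1)
  refine ⟨⟨u, q, π, hαS, fun j => (hmem _).1 (hu j), hind, fun j => (hq j).1, fun j => (hq j).2.1,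
    fun j => (hq j).2.2.1, fun i j hij => (hq i).2.2.2.1 j (Ne.symm hij),
    fun j => (hq j).2.2.2.2, fun j => ?_, fun j v hv hvq => ?_⟩⟩
  · rw [siOrd_eq_iff, hπ j _ (hq j).1, Finsupp.single_eq_same]
  · rw [siOrd_eq_iff, hπ j _ hv, Finsupp.single_eq_of_ne hvq]

end Exists

end Fermat.Agent.S14Lib
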