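import Fermat.Agent.S14.FICore
import Fermat.Agent.S14.SIData

/-!
# S14 : adapter from `FI.fi_core` to `FIAProp` (the form of the first inequality used by SI)
-/

set_option autoImplicit false
set_option linter.style.haveILetI false
set_option linter.unusedSectionVars false

open NumberField IsDedekindDomain WithZero
open scoped Pointwise

namespace Fermat.Agent.S14Lib

universe u

theorem isTotallyComplex_of_primitiveRoot {F : Type*} [Field F] [NumberField F] {p : ℕ}
    (hp : p.Prime) (hp2 : p ≠ 2) {ζ : F} (hζ : IsPrimitiveRoot ζ p) : IsTotallyComplex F := by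
  constructor
  intro w
  rw [← InfinitePlace.not_isReal_iff_isComplex]
  intro hw
  have h1 : (InfinitePlace.embedding_of_isReal hw ζ) ^ p = 1 := by
    rw [← map_pow, hζ.pow_eq_one, map_one]
  have hodd : Odd p := hp.odd_of_ne_two hp2
  have h2 : InfinitePlace.embedding_of_isReal hw ζ = 1 :=
    hodd.strictMono_pow.injective (by simpa using h1)
  have h3 : ζ = 1 := (InfinitePlace.embedding_of_isReal hw).injective (by rw [h2, map_one])
  exact hζ.ne_one hp.one_lt h3

theorem exists_gal_generator {F Y : Type*} [Field F] [Field Y] [Algebra F Y] [FiniteDimensional F Y]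
    [IsGalois F Y] {p : ℕ} (hp : p.Prime) (hdeg : Module.finrank F Y = p) :
    ∃ σ : Gal(Y/F), ∀ τ : Gal(Y/F), ∃ i : ℕ, τ = σ ^ i := by
  haveI : Fact p.Prime := ⟨hp⟩
  have hcard : Nat.card Gal(Y/F) = p := by rw [IsGalois.card_aut_eq_finrank, hdeg]
  haveI := isCyclic_of_prime_card hcard
  obtain ⟨σ, hσ⟩ := IsCyclic.exists_generator (α := Gal(Y/F))
  refine ⟨σ, fun τ => ?_⟩
  have h1 := hσ τ
  rw [← mem_powers_iff_mem_zpowers] at h1
  obtain ⟨i, hi⟩ := h1
  exact ⟨i, hi.symm⟩

theorem fiaProp {F : Type u} [Field F] [NumberField F] (p : ℕ) [Fact p.Prime] (hp2 : p ≠ 2)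
    {ζ : F} (hζ : IsPrimitiveRoot ζ p) : FIAProp p F ζ := by
  classical
  intro Y _ _ _ _ hdeg S R hS hRp hRram hunr hcl honto
  have hp : p.Prime := Fact.out
  haveI := isTotallyComplex_of_primitiveRoot hp hp2 hζ
  obtain ⟨σ, hσ⟩ := exists_gal_generator (F := F) (Y := Y) hp hdeg
  -- `R` and `S` are disjoint
  have hdisj : ∀ q ∈ R, q ∉ S := by
    intro q hqR hqS
    haveI := q.isPrime
    obtain ⟨w, hw⟩ := FI.exists_above (Y := Y) q
    haveI := FI.liesOver_of_below_eq hw
    haveI := w.isPrime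
    have hc := count_eq (F := F) (Y := Y) hdeg q.asIdeal
    rw [hS q hqS, Ideal.ramificationIdxIn_eq_ramificationIdx q.asIdeal w.asIdeal Gal(Y/F),
      hRram q hqR w.asIdeal inferInstance inferInstance] at hc
    have h2 := hp.two_le
    have h3 : p * (q.asIdeal.inertiaDegIn (𝓞 Y)) = 1 := by
      apply Nat.eq_of_mul_eq_mul_left hp.pos
      rw [mul_one]; exact hc
    have h4 := Nat.eq_one_of_mul_eq_one_right h3
    omega
  have hunit : ∀ (u : FI.UF S), ∀ q ∈ R, q.valuation F ((u : Fˣ) : F) = 1 := by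
    intro u q hq
    have := (FI.mem_unit_iff _ _).mp u.2 q (by simpa using hdisj q hq)
    rwa [FI.vz_eq_zero_iff] at this
  let χ : FI.UF S →* Multiplicative (R → ZMod p) :=
    { toFun := fun u => Multiplicative.ofAdd (fun q : R => sym p ζ q.1 ((u : Fˣ) : F))
      map_one' := by
        apply Multiplicative.toAdd.injective
        funext q
        simp [sym_one hζ]
      map_mul' := by
        intro a b
        apply Multiplicative.toAdd.injective
        funext q
        simp only [toAdd_ofAdd, toAdd_mul, Pi.add_apply]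
        exact sym_mul hζ (hRp q.1 q.2) (hunit a q.1 q.2) (hunit b q.1 q.2) }
  refine FI.fi_core (F := F) (Y := Y) S hp σ hσ hdeg R hS ?_ ?_ ?_ χ ?_ ?_
  · intro w _ hwR
    exact hRram _ hwR w.asIdeal w.isPrime inferInstance
  · intro w _ hwR
    exact hunr _ hwR w.asIdeal w.isPrime inferInstance
  · intro D _
    obtain ⟨y, hy⟩ := hcl (-D)
    refine ⟨y, fun v hv => ?_⟩
    rw [FI.vz_eq_iff, hy v hv]
    simp
  · intro c
    obtain ⟨u, hu1, hu2⟩ := honto (fun v => if h : v ∈ R then Multiplicative.toAdd c ⟨v, h⟩ else 0)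
    have huS : u ∈ FI.UF S := by
      rw [FI.mem_unit_iff]
      intro v hv
      rw [FI.vz_eq_zero_iff]
      exact hu1 v (by simpa using hv)
    refine ⟨⟨u, huS⟩, ?_⟩
    apply Multiplicative.toAdd.injective
    funext q
    show sym p ζ q.1 (u : F) = _
    rw [hu2 q.1 q.2, dif_pos q.2]
  · intro η c hc
    apply Multiplicative.toAdd.injective
    funext q
    show sym p ζ q.1 ((c : Fˣ) : F) = 0
    rw [sym_eq_zero_iff hζ (hRp q.1 q.2) (hunit c q.1 q.2)]
    obtain ⟨w, hw⟩ := FI.exists_above (Y := Y) q.1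
    haveI := FI.liesOver_of_below_eq hw
    haveI := w.isPrime
    haveI := q.1.isMaximal
    have he : w.asIdeal.ramificationIdx (𝓞 F) ≠ 1 := by
      rw [hRram q.1 q.2 w.asIdeal inferInstance inferInstance]
      exact hp.one_lt.ne'
    obtain ⟨-, hf, huniq⟩ := totally_ramified_of_ne_one hp hdeg q.1.asIdeal w.asIdeal he
    have hfix : ∀ τ : Gal(Y/F), τ • w.asIdeal = w.asIdeal :=
      fun τ => huniq _ inferInstance inferInstance
    have hη1 : w.valuation Y ((η : Yˣ) : Y) = 1 := by
      have := (FI.mem_unit_iff _ _).mp η.2 w (by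
        rw [FI.mem_SY, hw]; exact hdisj q.1 q.2)
      rwa [FI.vz_eq_zero_iff] at this
    obtain ⟨b, -, hb⟩ := norm_congr_pow hdeg q.1 w hf hfix ((η : Yˣ) : Y) hη1.le
    have hnorm : Algebra.norm F ((η : Yˣ) : Y) = ((c : Fˣ) : F) := by
      apply (algebraMap F Y).injective
      rw [Algebra.norm_eq_prod_automorphisms, hc]
      exact FI.prod_gal_eq hp.ne_zero σ hσ hdeg (fun τ => τ ((η : Yˣ) : Y))
    rw [hnorm] at hb
    have hc1 := hunit c q.1 q.2
    have hbp : q.1.valuation F ((b : F) ^ p) = 1 := by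
      have h1 : ((b : F) ^ p) = ((c : Fˣ) : F) - (((c : Fˣ) : F) - (b : F) ^ p) := by ring
      rw [h1, Valuation.map_sub_eq_of_lt_left _ (by rw [hc1]; exact hb), hc1]
    have hb0 : (b : F) ≠ 0 := by
      intro h0
      rw [h0, zero_pow hp.ne_zero, map_zero] at hbp
      exact zero_ne_one hbp
    refine ⟨(b : F), hb0, ?_⟩
    have h2 : ((c : Fˣ) : F) / (b : F) ^ p - 1 = (((c : Fˣ) : F) - (b : F) ^ p) / (b : F) ^ p := by
      field_simp
    rw [h2, map_div₀, hbp, div_one]
    exact hb

end Fermat.Agent.S14Lib
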