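import Fermat.Agent.S14.CrossMain
import Fermat.Agent.S14.FI
import Fermat.Agent.S14.FIA
import Fermat.Agent.S14.CrossEFinal

/-!
# S14, leaf L11: **Theorem R** (reciprocity for `K(α^(1/p))/K`, `K = ℚ(ζ_p)`, `α` with `(H α)`)
-/

open IsDedekindDomain NumberField

namespace Fermat.Agent.S14Lib

/-- **Theorem R.** -/
theorem thmR {K : Type} [Field K] [NumberField K] (p : ℕ) [Fact p.Prime] (hp2 : p ≠ 2)
    [IsCyclotomicExtension {p} ℚ K] {ζ : K} (hζ : IsPrimitiveRoot ζ p)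
    {α : K} (hα : HAlpha p ζ α) (hnp : ∀ z : K, z ^ p ≠ α) {β : K} (hβ : β ≠ 0) :
    phi p ζ α (dv β) = 0 :=
  thmR_aux hζ (fun _ _ _ _ hζ' => fiaProp p hp2 hζ')
    (fun _ _ hpm _ hχ hχ1 _ _ _ _ _ _ hθ htop hx hram =>
      eProp hp2 hζ hpm hχ hχ1 hθ htop hx hram)
    hα hnp (fi_unram p hp2 hζ hα hnp) hβ

end Fermat.Agent.S14Lib
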