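import Fermat.Agent.S14.Approx
import Fermat.Agent.S14.CrossDefs

/-! # S14: `ApproxProp` (shape consumed by L11) -/

open IsDedekindDomain NumberField

namespace Fermat.Agent.S14Lib

theorem approxProp : ApproxProp := by
  intro F _ _ S n
  obtain ⟨y, hy⟩ := exists_val_eq S n
  exact ⟨y, y.ne_zero, fun v hv => ordv_eq_of_val v (hy v hv)⟩

end Fermat.Agent.S14Lib
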