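import Mathlib

/-!
# S14, L2 (S4) : the power residue symbol of `μ = g(χ)^p`

`μ = χ(-1) m ∏_{i=1}^{p-2} J(χ, χ^i)`.  For a ring homomorphism `φ : R → κ` to a finite field with
`q` elements, `q ≡ 1 mod p`, `m ≠ 0` in `κ`: `φ(μ)^((q-1)/p) φ(χ(q)) = 1`.
-/

set_option autoImplicit false

namespace Fermat.Agent.S14Lib

open Finset

/-- `μ = g(χ)^p`, written with Jacobi sums -/
noncomputable def gaussPow {m : ℕ} [Fact m.Prime] {R : Type*} [CommRing R] (p : ℕ)
    (χ : MulChar (ZMod m) R) : R :=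
  χ (-1) * (m : R) * ∏ i ∈ Ico 1 (p - 1), jacobiSum χ (χ ^ i)

theorem map_gaussPow {m : ℕ} [Fact m.Prime] {R R' : Type*} [CommRing R] [CommRing R'] (p : ℕ)
    (χ : MulChar (ZMod m) R) (f : R →+* R') :
    f (gaussPow p χ) = gaussPow p (χ.ringHomComp f) := by
  unfold gaussPow
  rw [map_mul, map_mul, map_natCast, map_prod, MulChar.ringHomComp_apply]
  congr 1
  refine prod_congr rfl fun i _ => ?_
  rw [MulChar.ringHomComp_pow, jacobiSum_ringHomComp]

theorem gaussSum_frob_iter' {A : Type*} [CommRing A] [Fintype A] {A' : Type*} [CommRing A']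
    (r : ℕ) [Fact r.Prime] [CharP A' r] (n : ℕ) (χ : MulChar A A') (ψ : AddChar A A') :
    gaussSum χ ψ ^ (r ^ n) = gaussSum (χ ^ (r ^ n)) (ψ ^ (r ^ n)) := by
  induction n generalizing χ ψ with
  | zero => simp
  | succ n ih =>
    rw [pow_succ, pow_mul, ih, gaussSum_frob, ← pow_mul, ← pow_mul]

/-- **(S4)**, in a field `κ'` containing a primitive additive character -/
theorem gaussPow_pow_mul_field {m p : ℕ} [Fact m.Prime] [Fact p.Prime] (hp2 : 2 ≤ p)
    {κ' : Type*} [Field κ'] (r : ℕ) [Fact r.Prime] [CharP κ' r] (n : ℕ) (hrm : r ≠ m)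
    (hq : p ∣ r ^ n - 1) (χ : MulChar (ZMod m) κ') (hχ : χ ^ p = 1) (hχ1 : χ ≠ 1)
    (ψ : AddChar (ZMod m) κ') (hψ : ψ.IsPrimitive) :
    gaussPow p χ ^ ((r ^ n - 1) / p) * χ ((r ^ n : ℕ) : ZMod m) = 1 := by
  have hm : m.Prime := Fact.out
  have hr : r.Prime := Fact.out
  have hord : orderOf χ = p := orderOf_eq_prime hχ hχ1
  have hcard : ((Fintype.card (ZMod m) : ℕ) : κ') ≠ 0 := by
    rw [ZMod.card]
    intro h
    rw [CharP.cast_eq_zero_iff κ' r] at h
    exact hrm ((Nat.prime_dvd_prime_iff_eq hr hm).1 h)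
  have hg0 : gaussSum χ ψ ≠ 0 := gaussSum_ne_zero_of_nontrivial hcard hχ1 hψ
  have hgp : gaussSum χ ψ ^ p = gaussPow p χ := by
    have := gaussSum_pow_eq_prod_jacobiSum (χ := χ) (ψ := ψ) (by rw [hord]; exact hp2) hψ
    rw [hord, ZMod.card] at this
    exact this
  have hqpos : 0 < r ^ n := pow_pos hr.pos n
  obtain ⟨c, hc⟩ := hq
  have hq' : r ^ n = p * c + 1 := by omega
  have hχq : χ ^ (r ^ n) = χ := by
    rw [hq', pow_succ, pow_mul, hχ, one_pow, one_mul]
  have hunit : IsUnit ((r ^ n : ℕ) : ZMod m) := by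
    rw [ZMod.isUnit_iff_coprime]
    exact Nat.Coprime.pow_left n ((Nat.coprime_primes hr hm).2 hrm)
  have h1 : gaussSum χ ψ ^ (r ^ n) = χ⁻¹ ((r ^ n : ℕ) : ZMod m) * gaussSum χ ψ := by
    rw [gaussSum_frob_iter' r n, hχq, AddChar.pow_mulShift]
    have := gaussSum_mulShift_eq χ ψ hunit.unit
    rw [hunit.unit_spec] at this
    exact this
  have h2 : gaussSum χ ψ ^ (r ^ n - 1) = χ⁻¹ ((r ^ n : ℕ) : ZMod m) := by
    apply mul_right_cancel₀ hg0
    rw [← pow_succ, Nat.sub_add_cancel hqpos, h1]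
  have h3 : (r ^ n - 1) / p = c := by
    rw [hc, Nat.mul_div_cancel_left _ (Fact.out : p.Prime).pos]
  rw [h3, ← hgp, ← pow_mul, ← hc, h2, ← hunit.unit_spec, MulChar.inv_apply_eq_inv,
    Ring.inverse_mul_cancel _ ((hunit.unit.isUnit).map χ)]

/-- **(S4)** -/
theorem gaussPow_pow_mul {m p : ℕ} [Fact m.Prime] [Fact p.Prime] (hp2 : 2 ≤ p)
    {R : Type*} [CommRing R] {κ : Type*} [Field κ] [Fintype κ] (φ : R →+* κ)
    (hmκ : (m : κ) ≠ 0) (hq : p ∣ Fintype.card κ - 1) (χ : MulChar (ZMod m) R) (hχ : χ ^ p = 1)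
    (hχ1 : χ.ringHomComp φ ≠ 1) :
    φ (gaussPow p χ) ^ ((Fintype.card κ - 1) / p) * φ (χ ((Fintype.card κ : ℕ) : ZMod m)) = 1 := by
  have hm : m.Prime := Fact.out
  obtain ⟨n, hr, hcard⟩ := FiniteField.card κ (ringChar κ)
  set r := ringChar κ with hrdef
  have : Fact r.Prime := ⟨hr⟩
  have hrm : r ≠ m := by
    intro h
    apply hmκ
    rw [← h]
    exact ringChar.Nat.cast_ringChar
  have hne : ringChar κ ≠ ringChar (ZMod m) := by
    rw [ZMod.ringChar_zmod_n]
    exact hrm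
  let ψ := AddChar.FiniteField.primitiveChar (ZMod m) κ hne
  let κ' := CyclotomicField ψ.n κ
  have hinj : Function.Injective (algebraMap κ κ') := (algebraMap κ κ').injective
  have : CharP κ r := ringChar.charP κ
  have : CharP κ' r := charP_of_injective_algebraMap hinj r
  have key := gaussPow_pow_mul_field (m := m) (p := p) hp2 (κ' := κ') r n hrm
    (by rw [← hcard]; exact hq)
    ((χ.ringHomComp φ).ringHomComp (algebraMap κ κ'))
    (by rw [MulChar.ringHomComp_pow, MulChar.ringHomComp_pow, hχ, MulChar.ringHomComp_one,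
      MulChar.ringHomComp_one])
    ((MulChar.ringHomComp_ne_one_iff hinj).2 hχ1) ψ.char ψ.prim
  apply hinj
  rw [← map_gaussPow, ← map_gaussPow, MulChar.ringHomComp_apply, MulChar.ringHomComp_apply,
    ← hcard] at key
  rw [map_mul, map_pow, map_one]
  exact key

end Fermat.Agent.S14Lib
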