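import Fermat.Agent.S14.JacobiRing
import Fermat.Agent.S14.GaussSymbol

/-!
# S14, L2 (J2) : the valuations of `μ = g(χ)^p`
-/

set_option autoImplicit false

namespace Fermat.Agent.S14Lib

open Finset IsDedekindDomain HeightOneSpectrum WithZero

section count

variable {p : ℕ} [Fact p.Prime]

theorem mulMod_injOn (u : ℕ) (hu : ¬ p ∣ u) :
    Set.InjOn (fun i => (i * u) % p) (Ico 1 p : Finset ℕ) := by
  have hp : p.Prime := Fact.out
  intro i hi j hj hij
  simp only [coe_Ico, Set.mem_Ico] at hi hj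
  have h1 : i * u ≡ j * u [MOD p] := hij
  have h2 : i ≡ j [MOD p] :=
    Nat.ModEq.cancel_right_of_coprime ((Nat.Prime.coprime_iff_not_dvd hp).2 hu) h1
  have h3 := Nat.ModEq.eq_of_lt_of_lt h2 hi.2 hj.2
  exact h3

theorem image_mulMod (u : ℕ) (hu : ¬ p ∣ u) :
    (Ico 1 p).image (fun i => (i * u) % p) = Ico 1 p := by
  have hp : p.Prime := Fact.out
  apply eq_of_subset_of_card_le
  · intro j hj
    rw [mem_image] at hj
    obtain ⟨i, hi, rfl⟩ := hj
    rw [mem_Ico] at hi ⊢
    refine ⟨Nat.pos_of_ne_zero fun h => ?_, Nat.mod_lt _ hp.pos⟩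
    rcases (hp.dvd_mul).1 (Nat.dvd_of_mod_eq_zero h) with h | h
    · have := Nat.le_of_dvd (by omega) h
      omega
    · exact hu h
  · rw [card_image_of_injOn (mulMod_injOn u hu)]

theorem card_filter_mulMod (u : ℕ) (hu : 0 < u) (hu' : u < p) :
    ((Ico 1 (p - 1)).filter (fun i => u + (i * u) % p < p)).card = p - u - 1 := by
  have hp : p.Prime := Fact.out
  have hnd : ¬ p ∣ u := fun h => by
    have := Nat.le_of_dvd hu h
    omega
  have h1 : (Ico 1 (p - 1)).filter (fun i => u + (i * u) % p < p) =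
      (Ico 1 p).filter (fun i => u + (i * u) % p < p) := by
    ext i
    simp only [mem_filter, mem_Ico]
    constructor
    · rintro ⟨⟨h1, h2⟩, h3⟩
      exact ⟨⟨h1, by omega⟩, h3⟩
    · rintro ⟨⟨h1, h2⟩, h3⟩
      refine ⟨⟨h1, ?_⟩, h3⟩
      by_contra hc
      have hi : i = p - 1 := by omega
      have h4 : (p - 1) * u = p - u + p * (u - 1) := by
        obtain ⟨a, rfl⟩ : ∃ a, p = a + 1 := ⟨p - 1, by omega⟩
        obtain ⟨b, rfl⟩ : ∃ b, u = b + 1 := ⟨u - 1, by omega⟩
        simp only [Nat.add_sub_cancel]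
        have : a + 1 - (b + 1) = a - b := by omega
        rw [this]
        have hab : b ≤ a := by omega
        obtain ⟨c, rfl⟩ := Nat.exists_eq_add_of_le hab
        have : b + c - b = c := by omega
        rw [this]
        ring
      rw [hi, h4, Nat.add_mul_mod_self_left, Nat.mod_eq_of_lt (by omega)] at h3
      omega
  have h2 : ((Ico 1 p).filter (fun i => u + (i * u) % p < p)).card =
      (((Ico 1 p).image (fun i => (i * u) % p)).filter (fun j => u + j < p)).card := by
    rw [filter_image, card_image_of_injOn]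
    exact (mulMod_injOn u hnd).mono (by
      intro i hi
      simp only [coe_filter, Set.mem_ofPred_eq] at hi
      exact_mod_cast hi.1)
  rw [h1, h2, image_mulMod u hnd]
  have h3 : (Ico 1 p).filter (fun j => u + j < p) = Ico 1 (p - u) := by
    ext j
    simp only [mem_filter, mem_Ico]
    omega
  rw [h3, Nat.card_Ico]

end count

variable {m p : ℕ} [Fact m.Prime] [Fact p.Prime] {R : Type*} [CommRing R] [IsDedekindDomain R]
  (v : HeightOneSpectrum R)

open scoped Classical in
omit [Fact m.Prime] [Fact p.Prime] in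
theorem intValuation_of_mul_eq_exp {x y : R} (h : v.intValuation (x * y) = exp (-1 : ℤ)) :
    v.intValuation x = if x ∈ v.asIdeal then exp (-1 : ℤ) else 1 := by
  split_ifs with hx
  · apply le_antisymm
    · have := (v.intValuation_le_pow_iff_mem x 1).2 (by rwa [pow_one])
      simpa using this
    · rw [← h, map_mul]
      exact mul_le_of_le_one_right zero_le (v.intValuation_le_one y)
  · exact intValuation_eq_one_iff.2 hx

omit [Fact m.Prime] [Fact p.Prime] in
theorem intValuation_of_mul_eq_one {x y : R} (h : v.intValuation (x * y) = 1) :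
    v.intValuation x = 1 := by
  apply le_antisymm (v.intValuation_le_one x)
  rw [← h, map_mul]
  exact mul_le_of_le_one_right zero_le (v.intValuation_le_one y)

omit [Fact m.Prime] [Fact p.Prime] in
theorem intValuation_of_isUnit {x : R} (h : IsUnit x) : v.intValuation x = 1 := by
  obtain ⟨y, hy⟩ := h.exists_right_inv
  exact intValuation_of_mul_eq_one v (y := y) (by rw [hy, map_one])

theorem pow_ne_one_of_lt {χ : MulChar (ZMod m) R} (hχ : χ ^ p = 1) (hχ1 : χ ≠ 1) {i : ℕ}
    (hi : 0 < i) (hi' : i < p) : χ ^ i ≠ 1 := by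
  have hord : orderOf χ = p := orderOf_eq_prime hχ hχ1
  exact pow_ne_one_of_lt_orderOf hi.ne' (by rw [hord]; exact hi')

variable [CharZero R]

theorem jacobiSum_mul_eq {χ : MulChar (ZMod m) R} (hχ : χ ^ p = 1) (hχ1 : χ ≠ 1) {i : ℕ}
    (hi : i ∈ Ico 1 (p - 1)) : jacobiSum χ (χ ^ i) * jacobiSum χ⁻¹ (χ ^ i)⁻¹ = (m : R) := by
  rw [mem_Ico] at hi
  refine jacobiSum_mul_jacobiSum_inv_domain hχ1 (pow_ne_one_of_lt hχ hχ1 (by omega) (by omega)) ?_
  rw [← pow_succ']
  exact pow_ne_one_of_lt hχ hχ1 (by omega) (by omega)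

/-- **(J2)** `v_M(μ) = p - u(M)` -/
theorem intValuation_gaussPow (hm : (m : R) ∈ v.asIdeal)
    (hv : v.intValuation (m : R) = exp (-1 : ℤ)) (hpm : p ∣ m - 1) {χ : MulChar (ZMod m) R}
    (hχ : χ ^ p = 1) (hχ1 : χ ≠ 1) {u : ℕ} (hu : IsExpoAt p χ v.asIdeal u) (hu0 : 0 < u)
    (hup : u < p) : v.intValuation (gaussPow p χ) = exp (-((p - u : ℕ) : ℤ)) := by
  have hp : p.Prime := Fact.out
  have hnd : ∀ i, 0 < i → i < p → ¬ p ∣ i * u := by
    intro i h0 h1 h
    rcases (hp.dvd_mul).1 h with h | h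
    · have := Nat.le_of_dvd h0 h
      omega
    · have := Nat.le_of_dvd hu0 h
      omega
  unfold gaussPow
  rw [map_mul, map_mul, hv, intValuation_of_isUnit v ((isUnit_one.neg).map χ), one_mul, map_prod]
  have h1 : ∀ i ∈ Ico 1 (p - 1), v.intValuation (jacobiSum χ (χ ^ i)) =
      if u + (i * u) % p < p then exp (-1 : ℤ) else 1 := by
    intro i hi
    have h2 := intValuation_of_mul_eq_exp v (x := jacobiSum χ (χ ^ i))
      (y := jacobiSum χ⁻¹ (χ ^ i)⁻¹) (by rw [jacobiSum_mul_eq hχ hχ1 hi, hv])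
    rw [h2]
    rw [mem_Ico] at hi
    have h3 := jacobiSum_pow_mem_iff v.asIdeal hm hpm hu 1 i (hnd 1 one_pos hp.one_lt)
      (hnd i (by omega) (by omega))
    rw [pow_one, one_mul, Nat.mod_eq_of_lt hup] at h3
    simp only [h3]
  rw [prod_congr rfl h1, prod_ite, prod_const, prod_const_one, mul_one, card_filter_mulMod u hu0 hup,
    ← exp_nsmul, ← exp_add]
  congr 1
  have : ((p - u : ℕ) : ℤ) = ((p - u - 1 : ℕ) : ℤ) + 1 := by
    have : p - u = (p - u - 1) + 1 := by omega
    rw [this]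
    push_cast
    simp
  rw [this]
  simp

/-- **(J2)** `μ` is a unit outside `m` -/
theorem intValuation_gaussPow_of_notMem (hm : (m : R) ∉ v.asIdeal) {χ : MulChar (ZMod m) R}
    (hχ : χ ^ p = 1) (hχ1 : χ ≠ 1) : v.intValuation (gaussPow p χ) = 1 := by
  have hv : v.intValuation (m : R) = 1 := intValuation_eq_one_iff.2 hm
  unfold gaussPow
  rw [map_mul, map_mul, hv, intValuation_of_isUnit v ((isUnit_one.neg).map χ), one_mul, one_mul,
    map_prod]
  refine prod_eq_one fun i hi => ?_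
  exact intValuation_of_mul_eq_one v (y := jacobiSum χ⁻¹ (χ ^ i)⁻¹)
    (by rw [jacobiSum_mul_eq hχ hχ1 hi, hv])

theorem gaussPow_ne_zero {χ : MulChar (ZMod m) R} (hχ : χ ^ p = 1) (hχ1 : χ ≠ 1) :
    gaussPow p χ ≠ 0 := by
  have hm0 : (m : R) ≠ 0 := Nat.cast_ne_zero.2 (Fact.out : m.Prime).ne_zero
  unfold gaussPow
  refine mul_ne_zero (mul_ne_zero ((isUnit_one.neg).map χ).ne_zero hm0) ?_
  rw [prod_ne_zero_iff]
  intro i hi h
  have := jacobiSum_mul_eq hχ hχ1 hi
  rw [h, zero_mul] at this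
  exact hm0 this.symm

end Fermat.Agent.S14Lib
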