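import Fermat.Agent.S14.DL
import Fermat.Agent.S14.GaussPow

/-!
# S14, leaf L11 (choice part): Gauss-sum twists

* `exists_mulChar_kernel`: a character of order `p` on `ZMod m` whose kernel is the `p`-th powers;
* `sym_gaussPow`: the symbol of `μ = g(χ)^p` at a prime `B` in terms of `χ (N B)`;
* `exists_prime_not_pow`: a rational prime `m ≡ 1 mod p` modulo which `a` is not a `p`-th power;
* `exists_gauss_twist`: for a prime `q` of `ℚ(ζ_p)` a character `χ` with `(μ / q) ≠ 1`.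
-/

namespace Fermat.Agent.S14Lib

open IsDedekindDomain NumberField WithZero

section MulCharKernel

variable {m p : ℕ} [hm : Fact m.Prime] [hp : Fact p.Prime] {R : Type*} [CommRing R] [IsDomain R]

theorem mulChar_apply_pow_eq_one {χ : MulChar (ZMod m) R} (hχ : χ ^ p = 1) (a : (ZMod m)ˣ) :
    χ (a : ZMod m) ^ p = 1 := by
  rw [← MulChar.pow_apply_coe, hχ, MulChar.one_apply_coe]

/-- the kernel of a character of order `p` consists of the `p`-th powers. -/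
theorem exists_pow_eq_of_mulChar_eq_one {χ : MulChar (ZMod m) R} (hχ : χ ^ p = 1) (hχ1 : χ ≠ 1)
    (a : (ZMod m)ˣ) (ha : χ (a : ZMod m) = 1) : ∃ b : (ZMod m)ˣ, b ^ p = a := by
  obtain ⟨g, hg⟩ := IsCyclic.exists_generator (α := (ZMod m)ˣ)
  have hg1 : χ (g : ZMod m) ≠ 1 := by
    intro h
    apply hχ1
    ext x
    obtain ⟨j, rfl⟩ := mem_powers_iff_mem_zpowers.2 (hg x)
    rw [MulChar.one_apply_coe, Units.val_pow_eq_pow_val, map_pow, h, one_pow]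
  have hord : orderOf (χ (g : ZMod m)) = p :=
    orderOf_eq_prime (mulChar_apply_pow_eq_one hχ g) hg1
  obtain ⟨j, rfl⟩ := mem_powers_iff_mem_zpowers.2 (hg a)
  rw [Units.val_pow_eq_pow_val, map_pow] at ha
  obtain ⟨i, rfl⟩ : p ∣ j := hord ▸ orderOf_dvd_of_pow_eq_one ha
  exact ⟨g ^ i, by rw [← pow_mul, mul_comm]⟩

theorem exists_mulChar_kernel (hpm : p ∣ m - 1) {ζ : R} (hζ : IsPrimitiveRoot ζ p) :
    ∃ χ : MulChar (ZMod m) R, χ ^ p = 1 ∧ χ ≠ 1 := by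
  obtain ⟨χ, hχ⟩ := MulChar.exists_mulChar_orderOf (ZMod m) (by rwa [ZMod.card]) hζ
  refine ⟨χ, ?_, ?_⟩
  · rw [← hχ]
    exact pow_orderOf_eq_one χ
  · rintro rfl
    rw [orderOf_one] at hχ
    exact hp.out.one_lt.ne hχ

end MulCharKernel

section SymGauss

variable {F : Type*} [Field F] [NumberField F] {m p : ℕ} [hm : Fact m.Prime] [hp : Fact p.Prime]
  {ζ : F} (hζ : IsPrimitiveRoot ζ p) {χ : MulChar (ZMod m) (𝓞 F)} (hχ : χ ^ p = 1)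

include hζ hχ in
/-- the values of `χ` are powers of `ζ`. -/
theorem exists_mulChar_eq_zeta_pow (a : (ZMod m)ˣ) :
    ∃ k : ZMod p, algebraMap (𝓞 F) F (χ (a : ZMod m)) = ζ ^ k.val := by
  haveI : NeZero p := ⟨hp.out.ne_zero⟩
  have h1 : (algebraMap (𝓞 F) F (χ (a : ZMod m))) ^ p = 1 := by
    rw [← map_pow, mulChar_apply_pow_eq_one hχ, map_one]
  obtain ⟨i, hi, hi'⟩ := hζ.eq_pow_of_pow_eq_one h1
  exact ⟨(i : ZMod p), by rw [ZMod.val_natCast, Nat.mod_eq_of_lt hi, hi']⟩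

variable {B : HeightOneSpectrum (𝓞 F)}

include hζ hχ in
theorem ringHomComp_mk_ne_one (hχ1 : χ ≠ 1) (hBp : B.valuation F (p : F) = 1) :
    χ.ringHomComp (Ideal.Quotient.mk B.asIdeal) ≠ 1 := by
  intro h
  apply hχ1
  apply MulChar.ext
  intro a
  rw [MulChar.one_apply_coe]
  obtain ⟨k, hk⟩ := exists_mulChar_eq_zeta_pow hζ hχ a
  have h1 : Ideal.Quotient.mk B.asIdeal (χ (a : ZMod m)) = 1 := by
    rw [← MulChar.ringHomComp_apply, h, MulChar.one_apply_coe]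
  rw [← red_algebraMap, hk, red_pow B (val_zeta hζ B).le] at h1
  haveI : NeZero p := ⟨hp.out.ne_zero⟩
  have h2 : k.val = 0 := by
    by_contra h0
    exact (red_zeta_prim hζ hBp).pow_ne_one_of_pos_of_lt h0 (ZMod.val_lt k) h1
  rw [h2, pow_zero] at hk
  apply RingOfIntegers.coe_injective
  rw [map_one]
  exact hk

include hζ hχ in
theorem red_gaussPow_pow_mul (hχ1 : χ ≠ 1) (hBp : B.valuation F (p : F) = 1)
    (hBm : B.valuation F (m : F) = 1) :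
    Ideal.Quotient.mk B.asIdeal (gaussPow p χ) ^ symExp p B *
      Ideal.Quotient.mk B.asIdeal (χ ((Ideal.absNorm B.asIdeal : ℕ) : ZMod m)) = 1 := by
  letI := Ideal.Quotient.field B.asIdeal
  letI := Fintype.ofFinite (𝓞 F ⧸ B.asIdeal)
  have hcard : Fintype.card (𝓞 F ⧸ B.asIdeal) = Ideal.absNorm B.asIdeal := by
    rw [← Nat.card_eq_fintype_card, card_quot]
  have h := gaussPow_pow_mul (m := m) (p := p) hp.out.two_le (Ideal.Quotient.mk B.asIdeal)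
    (by
      rw [← red_natCast]
      exact red_ne_zero B hBm)
    (by
      rw [hcard]
      exact dvd_absNorm_sub_one hζ hBp) χ hχ (ringHomComp_mk_ne_one hζ hχ hχ1 hBp)
  rw [hcard] at h
  exact h

include hζ hχ in
theorem isUnit_absNorm_zmod (hχ1 : χ ≠ 1) (hBp : B.valuation F (p : F) = 1)
    (hBm : B.valuation F (m : F) = 1) : IsUnit ((Ideal.absNorm B.asIdeal : ℕ) : ZMod m) := by
  by_contra h
  have h1 := red_gaussPow_pow_mul hζ hχ hχ1 hBp hBm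
  rw [MulChar.map_nonunit χ h, map_zero, mul_zero] at h1
  exact zero_ne_one h1

theorem val_gaussPow (hχ : χ ^ p = 1) (hχ1 : χ ≠ 1) (hBm : B.valuation F (m : F) = 1) :
    B.valuation F (algebraMap (𝓞 F) F (gaussPow p χ)) = 1 := by
  rw [HeightOneSpectrum.valuation_of_algebraMap]
  apply intValuation_gaussPow_of_notMem B _ hχ hχ1
  rw [← val_eq_one_iff_notMem, map_natCast]
  exact hBm

include hζ hχ in
/-- **(S4)** in terms of `sym`: `(μ / B) = χ (N B)⁻¹`. -/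
theorem sym_gaussPow (hχ1 : χ ≠ 1) (hBp : B.valuation F (p : F) = 1)
    (hBm : B.valuation F (m : F) = 1) (k : ZMod p)
    (hk : algebraMap (𝓞 F) F (χ ((Ideal.absNorm B.asIdeal : ℕ) : ZMod m)) = ζ ^ k.val) :
    sym p ζ B (algebraMap (𝓞 F) F (gaussPow p χ)) = -k := by
  have h1 := red_gaussPow_pow_mul hζ hχ hχ1 hBp hBm
  have hz1 := (red_zeta_prim hζ hBp).pow_eq_one
  rw [← red_algebraMap, ← red_algebraMap, hk, red_pow B (val_zeta hζ B).le] at h1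
  rw [sym_eq_iff_red hζ hBp (val_gaussPow hχ hχ1 hBm)]
  have h2 : red B ζ ^ (-k).val * red B ζ ^ k.val = 1 := by
    rw [← pow_val_add hz1, neg_add_cancel, ZMod.val_zero, pow_zero]
  have h3 : IsUnit (red B ζ ^ k.val) := IsUnit.of_mul_eq_one _ ((mul_comm _ _).trans h2)
  exact h3.mul_right_cancel (h1.trans h2.symm)

end SymGauss

section RatPrime

variable {K : Type*} [Field K] [NumberField K] {p : ℕ} [hp : Fact p.Prime]
  {ζ : K} (hζ : IsPrimitiveRoot ζ p)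

include hζ in
/-- **(A1)** if the natural number `a` is not a `p`-th power in `K`, there is a rational prime
`m ≡ 1 mod p`, outside a given finite set, modulo which `a` is not a `p`-th power. -/
theorem exists_prime_not_pow (a : ℕ) (ha : ∀ z : K, z ^ p ≠ (a : K)) (E : Finset ℕ) :
    ∃ m : ℕ, m.Prime ∧ m ∉ E ∧ p ∣ m - 1 ∧ IsUnit (a : ZMod m) ∧
      ∀ b : ZMod m, b ^ p ≠ (a : ZMod m) := by
  classical
  set B0 : Set (HeightOneSpectrum (𝓞 K)) :=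
    ⋃ e ∈ E.filter (fun e => e ≠ 0), {v | v.valuation K (e : K) ≠ 1} with hB0
  have hB0fin : B0.Finite := by
    apply (Finset.finite_toSet _).biUnion
    intro e he
    apply finite_val_ne_one
    have := (Finset.mem_filter.1 (Finset.mem_coe.1 he)).2
    exact_mod_cast this
  obtain ⟨M, hM, hMp, hMa, hMs⟩ := exists_sym_ne_zero hζ ha B0 hB0fin
  letI := Ideal.Quotient.field M.asIdeal
  letI := Fintype.ofFinite (𝓞 K ⧸ M.asIdeal)
  have hcard : Fintype.card (𝓞 K ⧸ M.asIdeal) = Ideal.absNorm M.asIdeal := by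
    rw [← Nat.card_eq_fintype_card, card_quot]
  obtain ⟨n, hmp, hn⟩ := FiniteField.card (𝓞 K ⧸ M.asIdeal) (ringChar (𝓞 K ⧸ M.asIdeal))
  set m := ringChar (𝓞 K ⧸ M.asIdeal) with hm
  haveI : Fact m.Prime := ⟨hmp⟩
  haveI : CharP (𝓞 K ⧸ M.asIdeal) m := ringChar.charP _
  let φ : ZMod m →+* (𝓞 K ⧸ M.asIdeal) := ZMod.castHom (dvd_refl m) _
  have hφa : φ (a : ZMod m) = red M (a : K) := by
    rw [map_natCast, red_natCast]
  have hred0 : red M (a : K) ≠ 0 := red_ne_zero M hMa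
  have hsym : red M (a : K) ^ symExp p M ≠ 1 := by
    intro h
    apply hMs
    rw [sym_eq_iff_red hζ hMp hMa, h, ZMod.val_zero, pow_zero]
  have ha0 : (a : ZMod m) ≠ 0 := by
    intro h
    rw [h, map_zero] at hφa
    exact hred0 hφa.symm
  have hpe := p_mul_symExp hζ hMp
  refine ⟨m, hmp, ?_, ?_, ha0.isUnit, ?_⟩
  · intro hmE
    apply hM
    simp only [hB0, Set.mem_iUnion, Set.mem_ofPred_eq]
    refine ⟨m, Finset.mem_filter.2 ⟨hmE, hmp.ne_zero⟩, ?_⟩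
    intro h
    have h1 := red_ne_zero M h
    rw [red_natCast] at h1
    exact h1 (CharP.cast_eq_zero _ m)
  · by_contra hnd
    have h2 := geom_sum_mul_add (m - 1) (n : ℕ)
    rw [Nat.sub_add_cancel hmp.one_lt.le] at h2
    have h3 : p * symExp p M = (∑ i ∈ Finset.range (n : ℕ), m ^ i) * (m - 1) := by
      rw [hpe, ← hcard, hn, ← h2, Nat.add_sub_cancel]
    have h4 : p ∣ ∑ i ∈ Finset.range (n : ℕ), m ^ i :=
      ((hp.out.dvd_mul).1 ⟨_, h3.symm⟩).resolve_right hnd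
    obtain ⟨g, hg⟩ := h4
    have h5 : symExp p M = (m - 1) * g := by
      rw [hg, mul_assoc] at h3
      rw [Nat.eq_of_mul_eq_mul_left hp.out.pos h3, mul_comm]
    apply hsym
    rw [h5, pow_mul, ← hφa, ← map_pow, ZMod.pow_card_sub_one_eq_one ha0, map_one, one_pow]
  · intro b hb
    apply hsym
    have hb0 : φ b ≠ 0 := by
      intro h
      apply hred0
      rw [← hφa, ← hb, map_pow, h, zero_pow hp.out.ne_zero]
    rw [← hφa, ← hb, map_pow, ← pow_mul, hpe, ← hcard]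
    exact FiniteField.pow_card_sub_one_eq_one _ hb0

end RatPrime

section Under

variable {K : Type*} [Field K] [NumberField K]

theorem val_algebraMap_eq_intVal (q : HeightOneSpectrum (𝓞 K)) (a : 𝓞 K) :
    q.valuation K (algebraMap (𝓞 K) K a) = q.intValuation a :=
  q.valuation_of_algebraMap a

theorem val_natCast_eq_intVal (q : HeightOneSpectrum (𝓞 K)) (n : ℕ) :
    q.valuation K (n : K) = q.intValuation (n : 𝓞 K) := by
  rw [← val_algebraMap_eq_intVal, map_natCast (algebraMap (𝓞 K) K)]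

/-- the rational prime below a prime of `K`. -/
theorem exists_rat_prime_under (q : HeightOneSpectrum (𝓞 K)) :
    ∃ ℓ : ℕ, ℓ.Prime ∧ q.asIdeal.LiesOver (Ideal.span {(ℓ : ℤ)}) := by
  set v := q.under ℤ with hv
  have h1 : Ideal.span {((Ideal.absNorm v.asIdeal : ℕ) : ℤ)} = v.asIdeal :=
    Int.ideal_span_absNorm_eq_self _
  have h0 : ((Ideal.absNorm v.asIdeal : ℕ) : ℤ) ≠ 0 := by
    intro h
    rw [h] at h1
    simp only [Ideal.span_singleton_zero] at h1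
    exact v.ne_bot h1.symm
  have hprime : Prime ((Ideal.absNorm v.asIdeal : ℕ) : ℤ) :=
    (Ideal.span_singleton_prime h0).1 (by rw [h1]; exact v.isPrime)
  refine ⟨Ideal.absNorm v.asIdeal, Nat.prime_iff_prime_int.2 hprime, ⟨?_⟩⟩
  rw [h1]
  rfl

theorem liesOver_span_of_mem (q : HeightOneSpectrum (𝓞 K)) {ℓ : ℕ} (hℓ : ℓ.Prime)
    (h : (ℓ : 𝓞 K) ∈ q.asIdeal) : q.asIdeal.LiesOver (Ideal.span {(ℓ : ℤ)}) := by
  constructor
  haveI : Fact ℓ.Prime := ⟨hℓ⟩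
  have : (Ideal.span {(ℓ : ℤ)}).IsMaximal := Int.ideal_span_isMaximal_of_prime ℓ
  apply Ideal.IsMaximal.eq_of_le this
  · exact (Ideal.IsPrime.under ℤ q.asIdeal).ne_top
  · rw [Ideal.span_singleton_le_iff_mem, Ideal.mem_comap]
    simpa using h

theorem natCast_mem_of_liesOver (q : HeightOneSpectrum (𝓞 K)) {ℓ : ℕ}
    [h : q.asIdeal.LiesOver (Ideal.span {(ℓ : ℤ)})] : (ℓ : 𝓞 K) ∈ q.asIdeal := by
  have h1 : (ℓ : ℤ) ∈ q.asIdeal.under ℤ := by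
    rw [← h.over]
    exact Ideal.mem_span_singleton_self _
  rw [Ideal.mem_comap] at h1
  simpa using h1

end Under

section Cyc

variable {K : Type*} [Field K] [NumberField K] {p : ℕ} [hp : Fact p.Prime]
  [hK : IsCyclotomicExtension {p} ℚ K]

/-- a rational prime `ℓ ≠ p` is unramified in `ℚ(ζ_p)`. -/
theorem intValuation_rat_prime (q : HeightOneSpectrum (𝓞 K)) {ℓ : ℕ} (hℓ : ℓ.Prime)
    (h : (ℓ : 𝓞 K) ∈ q.asIdeal) (hℓp : ℓ ≠ p) : q.intValuation (ℓ : 𝓞 K) = exp (-1 : ℤ) := by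
  haveI : Fact ℓ.Prime := ⟨hℓ⟩
  haveI hlo := liesOver_span_of_mem q hℓ h
  haveI : NeZero p := ⟨hp.out.ne_zero⟩
  have hℓ0 : (ℓ : ℤ) ≠ 0 := by exact_mod_cast hℓ.ne_zero
  let v : HeightOneSpectrum ℤ := ⟨Ideal.span {(ℓ : ℤ)},
    (Ideal.span_singleton_prime hℓ0).2 (Nat.prime_iff_prime_int.1 hℓ), by simpa using hℓ0⟩
  haveI : q.asIdeal.LiesOver v.asIdeal := hlo
  have h1 := HeightOneSpectrum.intValuation_liesOver v q (ℓ : ℤ)
  have h2 : v.asIdeal.ramificationIdx' q.asIdeal = 1 := by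
    haveI := q.isPrime
    rw [Ideal.ramificationIdx'_eq_ramificationIdx v.asIdeal q.asIdeal v.ne_bot]
    exact IsCyclotomicExtension.Rat.ramificationIdx_eq_of_not_dvd ℓ K q.asIdeal (m := p)
      (fun hd => hℓp ((Nat.prime_dvd_prime_iff_eq hℓ hp.out).1 hd))
  rw [h2, pow_one, v.intValuation_singleton hℓ0 rfl] at h1
  rw [h1]
  simp

theorem exists_absNorm_eq_pow (q : HeightOneSpectrum (𝓞 K)) {ℓ : ℕ} (hℓ : ℓ.Prime)
    (h : (ℓ : 𝓞 K) ∈ q.asIdeal) (hℓp : ℓ ≠ p) :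
    ∃ f : ℕ, 0 < f ∧ f < p ∧ Ideal.absNorm q.asIdeal = ℓ ^ f := by
  haveI : Fact ℓ.Prime := ⟨hℓ⟩
  haveI := liesOver_span_of_mem q hℓ h
  haveI : NeZero p := ⟨hp.out.ne_zero⟩
  haveI := q.isPrime
  have hnd : ¬ ℓ ∣ p := fun hd => hℓp ((Nat.prime_dvd_prime_iff_eq hℓ hp.out).1 hd)
  have h1 := IsCyclotomicExtension.Rat.inertiaDeg_eq_of_not_dvd ℓ K q.asIdeal (m := p) hnd
  have h2 := Ideal.absNorm_pow_inertiaDeg (R := ℤ) (Ideal.span {(ℓ : ℤ)}) q.asIdeal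
  have hℓ0 : (ℓ : ZMod p) ≠ 0 := by
    rw [Ne, ZMod.natCast_eq_zero_iff]
    exact fun hd => hℓp ((Nat.prime_dvd_prime_iff_eq hp.out hℓ).1 hd).symm
  have h3 : orderOf (ℓ : ZMod p) ∣ p - 1 :=
    orderOf_dvd_of_pow_eq_one (ZMod.pow_card_sub_one_eq_one hℓ0)
  have hp1 : 0 < p - 1 := Nat.sub_pos_of_lt hp.out.one_lt
  refine ⟨orderOf (ℓ : ZMod p), Nat.pos_of_dvd_of_pos h3 hp1, ?_, ?_⟩
  · have := Nat.le_of_dvd hp1 h3
    omega
  · rw [← h2, h1]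
    simp

/-- **(A2)** the norm of a prime `q ∤ p` of `ℚ(ζ_p)` is not a `p`-th power in `ℚ(ζ_p)`. -/
theorem absNorm_ne_pow (q : HeightOneSpectrum (𝓞 K)) (hq : q.valuation K (p : K) = 1) (z : K) :
    z ^ p ≠ ((Ideal.absNorm q.asIdeal : ℕ) : K) := by
  intro hz
  obtain ⟨ℓ, hℓ, hover⟩ := exists_rat_prime_under q
  have hmem : (ℓ : 𝓞 K) ∈ q.asIdeal := natCast_mem_of_liesOver q
  have hℓp : ℓ ≠ p := by
    rintro rfl
    have h1 := (val_lt_one_iff_mem q (ℓ : 𝓞 K)).2 hmem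
    rw [map_natCast, hq] at h1
    exact lt_irrefl _ h1
  obtain ⟨f, hf0, hfp, hf⟩ := exists_absNorm_eq_pow q hℓ hmem hℓp
  have h1 := intValuation_rat_prime q hℓ hmem hℓp
  have h2 : q.valuation K (ℓ : K) = exp (-1 : ℤ) := by
    rw [← h1, val_natCast_eq_intVal]
  have h3 := congrArg (q.valuation K) hz
  rw [hf, Nat.cast_pow, map_pow, map_pow, h2] at h3
  have hz0 : q.valuation K z ≠ 0 := by
    intro h0
    rw [h0, zero_pow hp.out.ne_zero] at h3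
    exact (pow_ne_zero f exp_ne_zero) h3.symm
  rw [← exp_log hz0, ← exp_nsmul, ← exp_nsmul, exp_inj] at h3
  simp only [nsmul_eq_mul, mul_neg, mul_one] at h3
  have h4 : (p : ℤ) ∣ (f : ℤ) := ⟨-log (q.valuation K z), by linarith⟩
  have h5 := Nat.le_of_dvd hf0 (Int.natCast_dvd_natCast.1 h4)
  omega

/-- **(J2)** in valuation form: `v_M(μ) = exp (-u)` with `0 < u < p` for `M ∣ m`. -/
theorem exists_val_gaussPow {m : ℕ} [hm : Fact m.Prime] (hpm : p ∣ m - 1)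
    {χ : MulChar (ZMod m) (𝓞 K)} (hχ : χ ^ p = 1) (hχ1 : χ ≠ 1) (M : HeightOneSpectrum (𝓞 K))
    (hM : (m : 𝓞 K) ∈ M.asIdeal) :
    ∃ u : ℕ, 0 < u ∧ u < p ∧
      M.valuation K (algebraMap (𝓞 K) K (gaussPow p χ)) = exp (-(u : ℤ)) := by
  obtain ⟨u, hu0, hup, hu⟩ := exists_isExpoAt M.asIdeal hM hpm χ hχ hχ1
  have hv := intValuation_rat_prime M hm.out hM (ne_of_dvd_sub_one hpm).symm
  refine ⟨p - u, by omega, by omega, ?_⟩
  rw [val_algebraMap_eq_intVal]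
  exact intValuation_gaussPow M hM hv hpm hχ hχ1 hu hu0 hup

/-- the twist `α μ ^ j` has valuation prime to `p` at all `M ∣ m`. -/
theorem val_twist_ne {m : ℕ} [hm : Fact m.Prime] (hpm : p ∣ m - 1)
    {χ : MulChar (ZMod m) (𝓞 K)} (hχ : χ ^ p = 1) (hχ1 : χ ≠ 1) (M : HeightOneSpectrum (𝓞 K))
    (hM : (m : 𝓞 K) ∈ M.asIdeal) {α : K} (hα : ∃ k : ℤ, M.valuation K α = exp ((p : ℤ) * k))
    {j : ℕ} (hj : ¬ p ∣ j) (k : ℤ) :
    M.valuation K (α * algebraMap (𝓞 K) K (gaussPow p χ) ^ j) ≠ exp ((p : ℤ) * k) := by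
  obtain ⟨u, hu0, hup, hu⟩ := exists_val_gaussPow hpm hχ hχ1 M hM
  obtain ⟨k0, hk0⟩ := hα
  rw [map_mul, map_pow, hu, hk0, ← exp_nsmul, ← exp_add, Ne, exp_inj]
  intro h
  simp only [nsmul_eq_mul, mul_neg] at h
  have h1 : (p : ℤ) ∣ ((j * u : ℕ) : ℤ) := ⟨k0 - k, by push_cast; linarith⟩
  rcases (hp.out.dvd_mul).1 (Int.natCast_dvd_natCast.1 h1) with h2 | h2
  · exact hj h2
  · have := Nat.le_of_dvd hu0 h2
    omega

variable {ζ : K} (hζ : IsPrimitiveRoot ζ p)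

include hζ in
/-- for every prime `q ∤ p` of `ℚ(ζ_p)` there is a Gauss sum `μ = g(χ)^p` (of prime conductor `m`
outside a given finite set) with `(μ / q) ≠ 1`. -/
theorem exists_gauss_twist (q : HeightOneSpectrum (𝓞 K)) (hq : q.valuation K (p : K) = 1)
    (E : Finset ℕ) :
    ∃ (m : ℕ) (_ : Fact m.Prime) (χ : MulChar (ZMod m) (𝓞 K)), m ∉ E ∧ p ∣ m - 1 ∧
      q.valuation K (m : K) = 1 ∧ χ ^ p = 1 ∧ χ ≠ 1 ∧
      sym p ζ q (algebraMap (𝓞 K) K (gaussPow p χ)) ≠ 0 := by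
  obtain ⟨m, hm, hmE, hpm, hunit, hpow⟩ :=
    exists_prime_not_pow hζ (Ideal.absNorm q.asIdeal) (absNorm_ne_pow q hq) E
  haveI : Fact m.Prime := ⟨hm⟩
  haveI : NeZero p := ⟨hp.out.ne_zero⟩
  obtain ⟨χ, hχ, hχ1⟩ := exists_mulChar_kernel (m := m) hpm hζ.toInteger_isPrimitiveRoot
  have hqm : q.valuation K (m : K) = 1 := by
    rw [← map_natCast (algebraMap (𝓞 K) K), val_eq_one_iff_notMem]
    intro hmem
    obtain ⟨f, hf0, -, hf⟩ := exists_absNorm_eq_pow q hm hmem (ne_of_dvd_sub_one hpm).symm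
    rw [hf] at hunit
    simp [hf0.ne'] at hunit
  refine ⟨m, inferInstance, χ, hmE, hpm, hqm, hχ, hχ1, ?_⟩
  obtain ⟨k, hk⟩ := exists_mulChar_eq_zeta_pow hζ hχ hunit.unit
  rw [hunit.unit_spec] at hk
  rw [sym_gaussPow hζ hχ hχ1 hq hqm k hk, neg_ne_zero]
  rintro rfl
  rw [ZMod.val_zero, pow_zero] at hk
  have h1 : χ ((hunit.unit : (ZMod m)ˣ) : ZMod m) = 1 := by
    rw [hunit.unit_spec]
    apply RingOfIntegers.coe_injective
    rw [map_one]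
    exact hk
  obtain ⟨b, hb⟩ := exists_pow_eq_of_mulChar_eq_one hχ hχ1 _ h1
  apply hpow (b : ZMod m)
  rw [← Units.val_pow_eq_pow_val, hb, hunit.unit_spec]

include hζ in
/-- choice of the exponent `j`. -/
theorem exists_twist_exponent {q : HeightOneSpectrum (𝓞 K)} (hq : q.valuation K (p : K) = 1)
    {α μ : K} (hα : q.valuation K α = 1) (hμ : q.valuation K μ = 1) (hα' : sym p ζ q α ≠ 0)
    (hμ' : sym p ζ q μ ≠ 0) :
    ∃ j : ℕ, ¬ p ∣ j ∧ q.valuation K (α * μ ^ j) = 1 ∧ sym p ζ q (α * μ ^ j) = 0 := by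
  refine ⟨(- sym p ζ q α / sym p ζ q μ).val, ?_, ?_, ?_⟩
  · rw [← ZMod.natCast_eq_zero_iff, ZMod.natCast_val, ZMod.cast_id', id]
    exact div_ne_zero (neg_ne_zero.2 hα') hμ'
  · rw [map_mul, map_pow, hα, hμ, one_pow, one_mul]
  · rw [sym_mul hζ hq hα (by rw [map_pow, hμ, one_pow]), sym_pow hζ, ZMod.natCast_val,
      ZMod.cast_id', id, div_mul_cancel₀ _ hμ', add_neg_cancel]

end Cyc

section Indep

variable {K : Type*} [Field K] [NumberField K]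

/-- `p ∣ v_M(x)`. -/
def PVal (p : ℕ) (M : HeightOneSpectrum (𝓞 K)) (x : K) : Prop :=
  ∃ k : ℤ, M.valuation K x = exp ((p : ℤ) * k)

variable {p : ℕ} {M : HeightOneSpectrum (𝓞 K)}

theorem PVal.mul {x y : K} (hx : PVal p M x) (hy : PVal p M y) : PVal p M (x * y) := by
  obtain ⟨a, ha⟩ := hx
  obtain ⟨b, hb⟩ := hy
  exact ⟨a + b, by rw [map_mul, ha, hb, ← exp_add, mul_add]⟩

theorem PVal.inv {x : K} (hx : PVal p M x) : PVal p M x⁻¹ := by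
  obtain ⟨a, ha⟩ := hx
  exact ⟨-a, by rw [map_inv₀, ha, ← exp_neg, mul_neg]⟩

theorem PVal.pow {x : K} (hx : PVal p M x) (n : ℕ) : PVal p M (x ^ n) := by
  obtain ⟨a, ha⟩ := hx
  exact ⟨n * a, by rw [map_pow, ha, ← exp_nsmul, nsmul_eq_mul]; congr 1; ring⟩

theorem pVal_pow_p {z : K} (hz : z ≠ 0) : PVal p M (z ^ p) := by
  have h0 : M.valuation K z ≠ 0 := (Valuation.ne_zero_iff _).2 hz
  exact ⟨log (M.valuation K z), by
    rw [map_pow]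
    conv_lhs => rw [← exp_log h0]
    rw [← exp_nsmul, nsmul_eq_mul]⟩

theorem pVal_of_val_eq_one {x : K} (hx : M.valuation K x = 1) : PVal p M x :=
  ⟨0, by rw [hx, mul_zero, exp_zero]⟩

theorem dvd_of_pVal_pow (hp : p.Prime) {T : K} (hT0 : T ≠ 0) (hT : ¬ PVal p M T) {e : ℕ}
    (h : PVal p M (T ^ e)) : p ∣ e := by
  have h0 : M.valuation K T ≠ 0 := (Valuation.ne_zero_iff _).2 hT0
  obtain ⟨k, hk⟩ := h
  rw [map_pow, ← exp_log h0, ← exp_nsmul, exp_inj, nsmul_eq_mul] at hk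
  have h1 : (p : ℤ) ∣ (e : ℤ) * log (M.valuation K T) := ⟨k, hk⟩
  rcases (Nat.prime_iff_prime_int.1 hp).dvd_or_dvd h1 with h2 | h2
  · exact Int.natCast_dvd_natCast.1 h2
  · exfalso
    obtain ⟨c, hc⟩ := h2
    exact hT ⟨c, by rw [← hc, exp_log h0]⟩

theorem exists_prime_over_nat (m : ℕ) [hm : Fact m.Prime] :
    ∃ M : HeightOneSpectrum (𝓞 K), (m : 𝓞 K) ∈ M.asIdeal := by
  have hm0 : (m : ℤ) ≠ 0 := by exact_mod_cast hm.out.ne_zero
  haveI : (Ideal.span {(m : ℤ)}).IsPrime :=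
    (Ideal.span_singleton_prime hm0).2 (Nat.prime_iff_prime_int.1 hm.out)
  obtain ⟨⟨P, hP1, hP2⟩⟩ := (Ideal.span {(m : ℤ)}).nonempty_primesOver (S := 𝓞 K)
  have hbot : P ≠ ⊥ := Ideal.ne_bot_of_liesOver_of_ne_bot (p := Ideal.span {(m : ℤ)})
    (by simpa using hm0) P
  let M : HeightOneSpectrum (𝓞 K) := ⟨P, hP1, hbot⟩
  haveI : M.asIdeal.LiesOver (Ideal.span {(m : ℤ)}) := hP2
  exact ⟨M, natCast_mem_of_liesOver M⟩

theorem natCast_notMem_of_ne {m₁ m₂ : ℕ} (h₁ : m₁.Prime) (h₂ : m₂.Prime) (h12 : m₁ ≠ m₂)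
    (hM : (m₁ : 𝓞 K) ∈ M.asIdeal) : (m₂ : 𝓞 K) ∉ M.asIdeal := by
  intro hM2
  have hco : IsCoprime (m₁ : ℤ) (m₂ : ℤ) := Nat.isCoprime_iff_coprime.2 ((Nat.coprime_primes h₁ h₂).2 h12)
  obtain ⟨a, b, hab⟩ := hco
  apply M.isPrime.ne_top
  rw [Ideal.eq_top_iff_one]
  have h1 : ((a * m₁ + b * m₂ : ℤ) : 𝓞 K) = 1 := by rw [hab]; simp
  rw [← h1]
  push_cast
  exact M.asIdeal.add_mem (M.asIdeal.mul_mem_left _ hM) (M.asIdeal.mul_mem_left _ hM2)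

variable [hp : Fact p.Prime] [hK : IsCyclotomicExtension {p} ℚ K]

/-- `α ∉ ⟨α μ₁ ^ j₁, α μ₂ ^ j₂⟩ K^{*p}`. -/
theorem twist_indep {α : K} (hα0 : α ≠ 0) (hα : ∀ M : HeightOneSpectrum (𝓞 K), PVal p M α)
    (hαp : ∀ z : K, z ^ p ≠ α) {m₁ m₂ : ℕ} [hm₁ : Fact m₁.Prime] [hm₂ : Fact m₂.Prime]
    (h12 : m₁ ≠ m₂) (hpm₁ : p ∣ m₁ - 1) (hpm₂ : p ∣ m₂ - 1)
    {χ₁ : MulChar (ZMod m₁) (𝓞 K)} {χ₂ : MulChar (ZMod m₂) (𝓞 K)}
    (hχ₁ : χ₁ ^ p = 1) (hχ₁' : χ₁ ≠ 1) (hχ₂ : χ₂ ^ p = 1) (hχ₂' : χ₂ ≠ 1)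
    {j₁ j₂ : ℕ} (hj₁ : ¬ p ∣ j₁) (hj₂ : ¬ p ∣ j₂) (e₁ e₂ : ℕ) (z : K) :
    α ≠ z ^ p * (α * algebraMap (𝓞 K) K (gaussPow p χ₁) ^ j₁) ^ e₁ *
      (α * algebraMap (𝓞 K) K (gaussPow p χ₂) ^ j₂) ^ e₂ := by
  intro h
  set T₁ := α * algebraMap (𝓞 K) K (gaussPow p χ₁) ^ j₁ with hT₁
  set T₂ := α * algebraMap (𝓞 K) K (gaussPow p χ₂) ^ j₂ with hT₂
  have hz0 : z ≠ 0 := by
    rintro rfl
    rw [zero_pow hp.out.ne_zero, zero_mul, zero_mul] at h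
    exact hα0 h
  have hμ₁ : algebraMap (𝓞 K) K (gaussPow p χ₁) ≠ 0 := by
    rw [Ne, map_eq_zero_iff _ RingOfIntegers.coe_injective]
    exact gaussPow_ne_zero hχ₁ hχ₁'
  have hμ₂ : algebraMap (𝓞 K) K (gaussPow p χ₂) ≠ 0 := by
    rw [Ne, map_eq_zero_iff _ RingOfIntegers.coe_injective]
    exact gaussPow_ne_zero hχ₂ hχ₂'
  have hT₁0 : T₁ ≠ 0 := mul_ne_zero hα0 (pow_ne_zero _ hμ₁)
  have hT₂0 : T₂ ≠ 0 := mul_ne_zero hα0 (pow_ne_zero _ hμ₂)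
  -- `p ∣ e₁`
  have he₁ : p ∣ e₁ := by
    obtain ⟨M, hM⟩ := exists_prime_over_nat (K := K) m₁
    have hM2 : M.valuation K (m₂ : K) = 1 := by
      rw [← map_natCast (algebraMap (𝓞 K) K), val_eq_one_iff_notMem]
      exact natCast_notMem_of_ne hm₁.out hm₂.out h12 hM
    have h1 : ¬ PVal p M T₁ := fun ⟨k, hk⟩ => val_twist_ne hpm₁ hχ₁ hχ₁' M hM (hα M) hj₁ k hk
    have h2 : PVal p M T₂ :=
      (hα M).mul ((pVal_of_val_eq_one (val_gaussPow hχ₂ hχ₂' hM2)).pow _)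
    apply dvd_of_pVal_pow hp.out hT₁0 h1
    have h3 : T₁ ^ e₁ = α * (z ^ p)⁻¹ * (T₂ ^ e₂)⁻¹ := by
      have hz' : z ^ p ≠ 0 := pow_ne_zero _ hz0
      have hT' : T₂ ^ e₂ ≠ 0 := pow_ne_zero _ hT₂0
      rw [h]
      field_simp
    rw [h3]
    exact ((hα M).mul (pVal_pow_p hz0).inv).mul (h2.pow _).inv
  have he₂ : p ∣ e₂ := by
    obtain ⟨M, hM⟩ := exists_prime_over_nat (K := K) m₂
    have hM1 : M.valuation K (m₁ : K) = 1 := by
      rw [← map_natCast (algebraMap (𝓞 K) K), val_eq_one_iff_notMem]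
      exact natCast_notMem_of_ne hm₂.out hm₁.out h12.symm hM
    have h1 : ¬ PVal p M T₂ := fun ⟨k, hk⟩ => val_twist_ne hpm₂ hχ₂ hχ₂' M hM (hα M) hj₂ k hk
    have h2 : PVal p M T₁ :=
      (hα M).mul ((pVal_of_val_eq_one (val_gaussPow hχ₁ hχ₁' hM1)).pow _)
    apply dvd_of_pVal_pow hp.out hT₂0 h1
    have h3 : T₂ ^ e₂ = α * (z ^ p)⁻¹ * (T₁ ^ e₁)⁻¹ := by
      have hz' : z ^ p ≠ 0 := pow_ne_zero _ hz0
      have hT' : T₁ ^ e₁ ≠ 0 := pow_ne_zero _ hT₁0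
      rw [h]
      field_simp
    rw [h3]
    exact ((hα M).mul (pVal_pow_p hz0).inv).mul (h2.pow _).inv
  obtain ⟨a, rfl⟩ := he₁
  obtain ⟨b, rfl⟩ := he₂
  apply hαp (z * T₁ ^ a * T₂ ^ b)
  rw [h, mul_pow, mul_pow, ← pow_mul, ← pow_mul, mul_comm a p, mul_comm b p]

/-- `twist_indep` in the shape of the hypothesis `hy` of `exists_sym_eq_zero_ne_zero`. -/
theorem twist_indep' {α : K} (hα0 : α ≠ 0) (hα : ∀ M : HeightOneSpectrum (𝓞 K), PVal p M α)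
    (hαp : ∀ z : K, z ^ p ≠ α) {m₁ m₂ : ℕ} [hm₁ : Fact m₁.Prime] [hm₂ : Fact m₂.Prime]
    (h12 : m₁ ≠ m₂) (hpm₁ : p ∣ m₁ - 1) (hpm₂ : p ∣ m₂ - 1)
    {χ₁ : MulChar (ZMod m₁) (𝓞 K)} {χ₂ : MulChar (ZMod m₂) (𝓞 K)}
    (hχ₁ : χ₁ ^ p = 1) (hχ₁' : χ₁ ≠ 1) (hχ₂ : χ₂ ^ p = 1) (hχ₂' : χ₂ ≠ 1)
    {j₁ j₂ : ℕ} (hj₁ : ¬ p ∣ j₁) (hj₂ : ¬ p ∣ j₂) (e : Fin 2 → ℕ) (z : K) :
    α ≠ z ^ p * ∏ i ∈ (Finset.univ : Finset (Fin 2)),
      (![α * algebraMap (𝓞 K) K (gaussPow p χ₁) ^ j₁,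
        α * algebraMap (𝓞 K) K (gaussPow p χ₂) ^ j₂] i) ^ e i := by
  rw [Fin.prod_univ_two, ← mul_assoc]
  exact twist_indep hα0 hα hαp h12 hpm₁ hpm₂ hχ₁ hχ₁' hχ₂ hχ₂' hj₁ hj₂ (e 0) (e 1) z

end Indep

end Fermat.Agent.S14Lib
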