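import Fermat.Agent.S14.GaussPow
import Fermat.Agent.S14.Conj

/-!
# S14, L12 : Jacobi sums in the cyclotomic field `ℚ(ζ_p)`
-/

set_option autoImplicit false

namespace Fermat.Agent.S14Lib

open IsDedekindDomain NumberField HeightOneSpectrum WithZero IsCyclotomicExtension.Rat
open scoped Pointwise

theorem intValuation_eq_exp_neg_one {R : Type*} [CommRing R] [IsDedekindDomain R]
    (v : HeightOneSpectrum R) {r : R} (h1 : r ∈ v.asIdeal) (h2 : r ∉ v.asIdeal ^ 2) :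
    v.intValuation r = exp (-1 : ℤ) := by
  have hr : r ≠ 0 := by
    rintro rfl
    exact h2 (Submodule.zero_mem _)
  have e := v.intValuation_if_neg hr
  set n := (Associates.mk v.asIdeal).count (Associates.mk (Ideal.span {r} : Ideal R)).factors
  have h3 := (v.intValuation_le_pow_iff_mem r 1).2 (by rwa [pow_one])
  have h4 := (v.intValuation_le_pow_iff_mem r 2).not.2 h2
  rw [e, exp_le_exp] at h3 h4
  rw [e]
  congr 1
  push_cast at h3 h4
  omega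

section

variable {K : Type*} [Field K] [NumberField K]

theorem liesOver_span_natCast_of_mem (ℓ : ℕ) [Fact ℓ.Prime] (v : HeightOneSpectrum (𝓞 K))
    (hv : (ℓ : 𝓞 K) ∈ v.asIdeal) : v.asIdeal.LiesOver (Ideal.span {(ℓ : ℤ)}) := by
  have hmax : (Ideal.span {(ℓ : ℤ)}).IsMaximal := Int.ideal_span_isMaximal_of_prime ℓ
  refine ⟨hmax.eq_of_le (Ideal.comap_ne_top _ v.isPrime.ne_top) ?_⟩
  rw [Ideal.span_le, Set.singleton_subset_iff]
  show algebraMap ℤ (𝓞 K) (ℓ : ℤ) ∈ v.asIdeal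
  simpa using hv

variable {p : ℕ} [hp : Fact p.Prime] [IsCyclotomicExtension {p} ℚ K]

/-- a prime `ℓ ≠ p` is unramified in `ℚ(ζ_p)` -/
theorem intValuation_prime_cyc (ℓ : ℕ) [Fact ℓ.Prime] (hℓp : ℓ ≠ p) (v : HeightOneSpectrum (𝓞 K))
    (hv : (ℓ : 𝓞 K) ∈ v.asIdeal) : v.intValuation (ℓ : 𝓞 K) = exp (-1 : ℤ) := by
  have hℓ : ℓ.Prime := Fact.out
  have : NeZero p := ⟨hp.out.ne_zero⟩
  have := liesOver_span_natCast_of_mem ℓ v hv
  have : v.asIdeal.IsPrime := v.isPrime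
  have h1 := ramificationIdx_eq_of_not_dvd ℓ K v.asIdeal (m := p)
    (fun h => hℓp ((Nat.prime_dvd_prime_iff_eq hℓ hp.out).1 h))
  have hne : Ideal.span {(ℓ : ℤ)} ≠ ⊥ := by
    rw [Ne, Ideal.span_singleton_eq_bot]
    exact_mod_cast hℓ.ne_zero
  rw [← Ideal.ramificationIdx'_eq_ramificationIdx (Ideal.span {(ℓ : ℤ)}) v.asIdeal hne] at h1
  have hmap : Ideal.map (algebraMap ℤ (𝓞 K)) (Ideal.span {(ℓ : ℤ)}) = Ideal.span {(ℓ : 𝓞 K)} := by
    rw [Ideal.map_span, Set.image_singleton]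
    simp
  have hle : Ideal.map (algebraMap ℤ (𝓞 K)) (Ideal.span {(ℓ : ℤ)}) ≤ v.asIdeal := by
    rw [hmap, Ideal.span_le, Set.singleton_subset_iff]
    exact hv
  refine intValuation_eq_exp_neg_one v hv fun h2 => ?_
  have h3 := (Ideal.ramificationIdx'_ne_one_iff hle).2 (by
    rw [hmap, Ideal.span_le, Set.singleton_subset_iff]
    exact h2)
  exact h3 h1

/-- the exponent `k` with `δ ζ = ζ ^ k` -/
noncomputable def galExp (p : ℕ) [NeZero p] [IsCyclotomicExtension {p} ℚ K] (δ : Gal(K/ℚ)) : ℕ :=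
  (galEquivZMod p K δ).val.val

end

section

variable {K : Type*} [Field K] [NumberField K] {p : ℕ} [hp : Fact p.Prime] [NeZero p]
  [IsCyclotomicExtension {p} ℚ K]

theorem galExp_cast (δ : Gal(K/ℚ)) : ((galExp p δ : ℕ) : ZMod p) = (galEquivZMod p K δ).val := by
  unfold galExp
  rw [ZMod.natCast_zmod_val]

theorem galExp_cast_ne_zero (δ : Gal(K/ℚ)) : ((galExp p δ : ℕ) : ZMod p) ≠ 0 := by
  rw [galExp_cast]
  exact (galEquivZMod p K δ).ne_zero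

theorem galExp_ne_zero (δ : Gal(K/ℚ)) : galExp p δ ≠ 0 := by
  intro h
  apply galExp_cast_ne_zero (p := p) δ
  rw [h, Nat.cast_zero]

theorem galExp_injective : Function.Injective (fun δ : Gal(K/ℚ) => ((galExp p δ : ℕ) : ZMod p)) := by
  intro δ ε h
  simp only [galExp_cast] at h
  exact (galEquivZMod p K).injective (Units.ext h)

theorem galExp_spec (δ : Gal(K/ℚ)) {x : K} (hx : x ^ p = 1) : δ x = x ^ galExp p δ :=
  galEquivZMod_apply_of_pow_eq p K δ hx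

theorem galExp_smul (δ : Gal(K/ℚ)) {x : 𝓞 K} (hx : x ^ p = 1) : δ • x = x ^ galExp p δ :=
  galEquivZMod_smul_of_pow_eq p K δ hx

theorem card_gal_cyc : Nat.card Gal(K/ℚ) = p - 1 := by
  rw [Nat.card_congr (galEquivZMod p K).toEquiv, Nat.card_eq_fintype_card, ZMod.card_units]

variable {ℓ : ℕ} [Fact ℓ.Prime]

theorem smul_mulChar_apply (δ : Gal(K/ℚ)) (χ : MulChar (ZMod ℓ) (𝓞 K)) (hχ : χ ^ p = 1)
    (x : ZMod ℓ) : δ • χ x = (χ ^ galExp p δ) x := by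
  rw [MulChar.pow_apply' _ (galExp_ne_zero δ)]
  by_cases hx : IsUnit x
  · apply galExp_smul
    rw [← MulChar.pow_apply' _ hp.out.ne_zero, hχ, MulChar.one_apply hx]
  · rw [MulChar.map_nonunit _ hx, smul_zero, zero_pow (galExp_ne_zero δ)]

theorem IsExpoAt.conj {χ : MulChar (ZMod ℓ) (𝓞 K)} (hχ : χ ^ p = 1)
    {q : HeightOneSpectrum (𝓞 K)} {u : ℕ} (h : IsExpoAt p χ q.asIdeal u) (δ : Gal(K/ℚ)) :
    IsExpoAt p (χ ^ galExp p δ) (conjH δ q).asIdeal u := by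
  intro x
  have h1 := Ideal.smul_mem_pointwise_smul δ _ _ (h x)
  rw [smul_sub, smul_mulChar_apply δ χ hχ, smul_pow'] at h1
  have h2 : δ • ((x : ℤ) : 𝓞 K) = ((x : ℤ) : 𝓞 K) :=
    map_intCast (MulSemiringAction.toRingHom Gal(K/ℚ) (𝓞 K) δ) x
  rw [h2] at h1
  exact h1

/-- `u(q) = ⟨k u(δ q)⟩` -/
theorem IsExpoAt.conj_rel (hpℓ : p ∣ ℓ - 1) {χ : MulChar (ZMod ℓ) (𝓞 K)} (hχ : χ ^ p = 1)
    {q : HeightOneSpectrum (𝓞 K)} (hq : (ℓ : 𝓞 K) ∈ q.asIdeal) {u u' : ℕ}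
    (h : IsExpoAt p χ q.asIdeal u) (hu : u < p) (δ : Gal(K/ℚ))
    (h' : IsExpoAt p χ (conjH δ q).asIdeal u') (hu0' : 0 < u') (hu' : u' < p) :
    (u : ZMod p) = (galExp p δ : ZMod p) * (u' : ZMod p) := by
  have hq' : (ℓ : 𝓞 K) ∈ (conjH δ q).asIdeal := by
    have h1 := Ideal.smul_mem_pointwise_smul δ _ _ hq
    have h2 : δ • ((ℓ : ℕ) : 𝓞 K) = ((ℓ : ℕ) : 𝓞 K) :=
      map_natCast (MulSemiringAction.toRingHom Gal(K/ℚ) (𝓞 K) δ) ℓ
    rwa [h2] at h1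
  have : (conjH δ q).asIdeal.IsMaximal := (conjH δ q).isMaximal
  have hnd : ¬ p ∣ galExp p δ * u' := by
    intro hd
    rcases (hp.out.dvd_mul).1 hd with hd | hd
    · exact galExp_cast_ne_zero (p := p) δ ((ZMod.natCast_eq_zero_iff _ _).2 hd)
    · have := Nat.le_of_dvd hu0' hd
      omega
  have h1 := h'.pow_mod (conjH δ q).asIdeal hq' hpℓ (galExp p δ) hnd
  have h2 := (h.conj hχ δ).unique (conjH δ q).asIdeal hq' hpℓ h1 hu (Nat.mod_lt _ hp.out.pos)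
  rw [h2, ZMod.natCast_mod, Nat.cast_mul]

end

end Fermat.Agent.S14Lib
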