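import Mathlib
import Fermat.Agent.S14.SymbolLocal
import Fermat.Agent.S14.GaussSymbol
import Fermat.Agent.S14.Conj
import Fermat.Agent.S14.JacobiCyc
import Fermat.Agent.S14.Defs
import Fermat.Agent.S14.CrossChoice

/-!
# S14, leaf L11a : the explicit reciprocity (E)
-/

set_option autoImplicit false

namespace Fermat.Agent.S14Lib

open IsDedekindDomain NumberField WithZero

section General

variable {F : Type*} [Field F] [NumberField F]

/-- the factorisation of a principal ideal, in valuation language. -/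
theorem crossE_span_eq_prod (b : 𝓞 F) (hb : b ≠ 0) (s : Finset (HeightOneSpectrum (𝓞 F)))
    (n : HeightOneSpectrum (𝓞 F) → ℤ)
    (hn : ∀ w : HeightOneSpectrum (𝓞 F), w.valuation F (b : F) = exp (-(n w)))
    (hs : ∀ w, w ∉ s → n w = 0) :
    (∀ w, 0 ≤ n w) ∧ Ideal.span {b} = ∏ w ∈ s, w.asIdeal ^ (n w).toNat := by
  have hI : Ideal.span {b} ≠ 0 := by
    rw [Ne, Ideal.zero_eq_bot, Ideal.span_singleton_eq_bot]
    exact hb
  have hc : ∀ w : HeightOneSpectrum (𝓞 F),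
      n w = ((Associates.mk w.asIdeal).count (Associates.mk (Ideal.span {b})).factors : ℤ) := by
    intro w
    have h1 := hn w
    rw [show ((b : 𝓞 F) : F) = algebraMap (𝓞 F) F b from rfl,
      HeightOneSpectrum.valuation_of_algebraMap, HeightOneSpectrum.intValuation_if_neg _ hb,
      exp_inj] at h1
    omega
  refine ⟨fun w => by rw [hc w]; positivity, ?_⟩
  conv_lhs => rw [← Ideal.finprod_heightOneSpectrum_factorization hI]
  rw [finprod_eq_prod_of_mulSupport_subset (s := s)]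
  · refine Finset.prod_congr rfl fun w _ => ?_
    rw [HeightOneSpectrum.maxPowDividing, hc w, Int.toNat_natCast]
  · intro w hw
    by_contra hws
    apply hw
    have h0 := hs w hws
    rw [hc w] at h0
    show w.maxPowDividing (Ideal.span {b}) = 1
    rw [HeightOneSpectrum.maxPowDividing, Nat.cast_eq_zero.mp h0, pow_zero]

/-- a field element which is a unit at finitely many primes is a quotient of integers prime
to these primes. -/
theorem crossE_exists_frac (β : F) (hβ : β ≠ 0) (T : Finset (HeightOneSpectrum (𝓞 F)))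
    (hT : ∀ w ∈ T, w.valuation F β = 1) :
    ∃ b₁ b₂ : 𝓞 F, b₁ ≠ 0 ∧ b₂ ≠ 0 ∧ β * (b₂ : F) = (b₁ : F) ∧
      ∀ w ∈ T, b₁ ∉ w.asIdeal ∧ b₂ ∉ w.asIdeal := by
  classical
  rcases T.eq_empty_or_nonempty with rfl | ⟨w₀, hw₀⟩
  · obtain ⟨x, y, hy, hxy⟩ := IsFractionRing.div_surjective (A := 𝓞 F) β
    have hy0 : y ≠ 0 := nonZeroDivisors.ne_zero hy
    have hy0' : algebraMap (𝓞 F) F y ≠ 0 := by
      rwa [Ne, FaithfulSMul.algebraMap_eq_zero_iff]
    refine ⟨x, y, ?_, hy0, ?_, by simp⟩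
    · rintro rfl
      rw [map_zero, zero_div] at hxy
      exact hβ hxy.symm
    · rw [← hxy]
      exact div_mul_cancel₀ _ hy0'
  -- the ideal of denominators
  let D : Ideal (𝓞 F) :=
    { carrier := {c | ∃ a : 𝓞 F, β * (c : F) = (a : F)}
      add_mem' := by
        rintro c c' ⟨a, ha⟩ ⟨a', ha'⟩
        exact ⟨a + a', by push_cast; rw [mul_add, ha, ha']⟩
      zero_mem' := ⟨0, by simp⟩
      smul_mem' := by
        rintro r c ⟨a, ha⟩
        exact ⟨r * a, by rw [smul_eq_mul]; push_cast; rw [mul_left_comm, ha]⟩ }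
  have hD : ¬ ((D : Set (𝓞 F)) ⊆ ⋃ w ∈ (T : Set (HeightOneSpectrum (𝓞 F))), (w.asIdeal : Set (𝓞 F))) := by
    rw [Ideal.subset_union_prime (f := fun w : HeightOneSpectrum (𝓞 F) => w.asIdeal)
      w₀ w₀ (fun w _ _ _ => w.isPrime)]
    rintro ⟨w, hw, hle⟩
    obtain ⟨a, d, had⟩ := w.exists_primeCompl_mul_eq_of_integer β (hT w hw).le
    exact d.2 (hle ⟨a, had⟩)
  rw [Set.not_subset] at hD
  obtain ⟨b₂, ⟨b₁, h12⟩, hb₂⟩ := hD
  have hb₂' : ∀ w ∈ T, b₂ ∉ w.asIdeal := by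
    intro w hw h
    exact hb₂ (Set.mem_biUnion (Finset.mem_coe.mpr hw) h)
  have hb₂0 : b₂ ≠ 0 := by
    rintro rfl
    exact hb₂' w₀ hw₀ (zero_mem _)
  have hb₂0' : (b₂ : F) ≠ 0 := by
    rwa [Ne, show ((b₂ : 𝓞 F) : F) = algebraMap (𝓞 F) F b₂ from rfl,
      FaithfulSMul.algebraMap_eq_zero_iff]
  refine ⟨b₁, b₂, ?_, hb₂0, h12, fun w hw => ⟨?_, hb₂' w hw⟩⟩
  · rintro rfl
    rw [show (((0 : 𝓞 F) : 𝓞 F) : F) = 0 from rfl] at h12
    exact (mul_ne_zero hβ hb₂0') h12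
  · rw [← val_eq_one_iff_notMem, show algebraMap (𝓞 F) F b₁ = (b₁ : F) from rfl, ← h12, map_mul,
      hT w hw, one_mul]
    exact (val_eq_one_iff_notMem w b₂).mpr (hb₂' w hw)

end General

section NormPow

open scoped Pointwise

variable {K : Type*} [Field K] [NumberField K] {p : ℕ} [hp : Fact p.Prime]
  [IsCyclotomicExtension {p} ℚ K]

theorem crossE_prod_smul [IsGalois ℚ K] (γ : 𝓞 K) :
    ∏ δ : Gal(K/ℚ), δ • γ = ((Algebra.norm ℤ γ : ℤ) : 𝓞 K) := by
  apply RingOfIntegers.ext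
  have h1 := Algebra.norm_eq_prod_automorphisms ℚ (γ : K)
  have h2 := Algebra.coe_norm_int γ
  rw [← h2] at h1
  simp only [map_prod, map_intCast] at h1 ⊢
  exact h1.symm

/-- a prime of `ℚ(ζ_p)` above `m ≡ 1 mod p` has norm `m`. -/
theorem crossE_absNorm_eq (m : ℕ) [hm : Fact m.Prime] (hpm : p ∣ m - 1)
    (M : HeightOneSpectrum (𝓞 K)) (hM : (m : 𝓞 K) ∈ M.asIdeal) :
    Ideal.absNorm M.asIdeal = m := by
  have : NeZero p := ⟨hp.out.ne_zero⟩
  have := liesOver_span_of_mem M hm.out hM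
  have : M.asIdeal.IsPrime := M.isPrime
  have hmp : ¬ m ∣ p := by
    intro h
    have h1 := (Nat.prime_dvd_prime_iff_eq hm.out hp.out).1 h
    have h0 := hm.out.two_le
    have h2 := Nat.le_of_dvd (by omega) hpm
    omega
  have h1 := IsCyclotomicExtension.Rat.inertiaDeg_eq_of_not_dvd m K M.asIdeal (m := p) hmp
  have h2 : orderOf ((m : ℕ) : ZMod p) = 1 := by
    rw [orderOf_eq_one_iff]
    have h3 : ((m - 1 : ℕ) : ZMod p) = 0 := (ZMod.natCast_eq_zero_iff _ _).2 hpm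
    rw [Nat.cast_sub hm.out.one_le, Nat.cast_one, sub_eq_zero] at h3
    exact h3
  rw [h2] at h1
  have h3 := Ideal.pow_inertiaDeg m M.asIdeal
  rw [h1, pow_one] at h3
  exact h3.symm

/-- if `γ` is a `p`-th power modulo every prime above `m`, then `N_{K/ℚ} γ` is a `p`-th power
modulo `m`. -/
theorem crossE_norm_pow (m : ℕ) [hm : Fact m.Prime] (hpm : p ∣ m - 1) (γ : 𝓞 K)
    (h : ∀ M : HeightOneSpectrum (𝓞 K), (m : 𝓞 K) ∈ M.asIdeal →
      ∃ c : 𝓞 K, γ - c ^ p ∈ M.asIdeal) :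
    ∃ a : ZMod m, ((Algebra.norm ℤ γ : ℤ) : ZMod m) = a ^ p := by
  classical
  have : NeZero p := ⟨hp.out.ne_zero⟩
  have : IsGalois ℚ K := IsCyclotomicExtension.isGalois {p} ℚ K
  have hmax : (Ideal.span {(m : ℤ)}).IsMaximal := Int.ideal_span_isMaximal_of_prime m
  obtain ⟨Q, hQ1, hQ2⟩ :=
    Ideal.exists_maximal_ideal_liesOver_of_isIntegral (S := 𝓞 K) (Ideal.span {(m : ℤ)})
  have hmQ : (m : 𝓞 K) ∈ Q := by
    have h1 : (m : ℤ) ∈ Ideal.span {(m : ℤ)} := Ideal.mem_span_singleton_self _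
    rw [Ideal.mem_of_liesOver Q] at h1
    simpa using h1
  have hQ0 : Q ≠ ⊥ := by
    rintro rfl
    rw [Ideal.mem_bot] at hmQ
    exact hm.out.ne_zero (by exact_mod_cast hmQ)
  let M₀ : HeightOneSpectrum (𝓞 K) := ⟨Q, hQ1.isPrime, hQ0⟩
  have hM₀ : (m : 𝓞 K) ∈ M₀.asIdeal := hmQ
  have hcard : Nat.card (𝓞 K ⧸ M₀.asIdeal) = m := by
    rw [card_quot, crossE_absNorm_eq m hpm M₀ hM₀]
  have : M₀.asIdeal.IsMaximal := hQ1
  let _ : Field (𝓞 K ⧸ M₀.asIdeal) := Ideal.Quotient.field _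
  have hchar : CharP (𝓞 K ⧸ M₀.asIdeal) m := by
    rw [CharP.charP_iff_prime_eq_zero hm.out]
    have : ((m : 𝓞 K ⧸ M₀.asIdeal)) = Ideal.Quotient.mk M₀.asIdeal (m : 𝓞 K) := by simp
    rw [this, Ideal.Quotient.eq_zero_iff_mem]
    exact hM₀
  let ι : ZMod m →+* (𝓞 K ⧸ M₀.asIdeal) := ZMod.castHom (dvd_refl m) _
  have hιinj : Function.Injective ι := ι.injective
  have hfin : Finite (𝓞 K ⧸ M₀.asIdeal) := Nat.finite_of_card_ne_zero (by
    rw [hcard]; exact hm.out.ne_zero)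
  have hιsurj : Function.Surjective ι := by
    refine (Function.Injective.bijective_of_nat_card_le hιinj ?_).2
    rw [hcard, Nat.card_zmod]
  -- the conjugates
  have hc : ∀ δ : Gal(K/ℚ), ∃ c : 𝓞 K, δ • γ - c ^ p ∈ M₀.asIdeal := by
    intro δ
    have h1 : (m : 𝓞 K) ∈ (conjH δ⁻¹ M₀).asIdeal := by
      rw [← val_lt_one_iff_mem, map_natCast, valuation_conjH_rat, ← map_natCast (algebraMap (𝓞 K) K),
        val_lt_one_iff_mem]
      exact hM₀
    obtain ⟨c, hc⟩ := h _ h1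
    refine ⟨δ • c, ?_⟩
    have h2 : δ • (γ - c ^ p) ∈ δ • (conjH δ⁻¹ M₀).asIdeal :=
      Ideal.smul_mem_pointwise_smul _ _ _ hc
    rw [← conjH_asIdeal, conjH_conjH_inv, smul_sub, smul_pow'] at h2
    exact h2
  choose c hc using hc
  obtain ⟨a, ha⟩ := hιsurj (∏ δ : Gal(K/ℚ), Ideal.Quotient.mk M₀.asIdeal (c δ))
  refine ⟨a, hιinj ?_⟩
  rw [map_pow, ha, map_intCast, ← map_intCast (Ideal.Quotient.mk M₀.asIdeal),
    ← crossE_prod_smul, map_prod, ← Finset.prod_pow]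
  refine Finset.prod_congr rfl fun δ _ => ?_
  rw [← map_pow, Ideal.Quotient.eq]
  exact hc δ

end NormPow

section Char

theorem crossE_pow_val_sum {p : ℕ} [Fact p.Prime] {M : Type*} [CommMonoid M] {g : M}
    (hg : g ^ p = 1) {ι : Type*} (s : Finset ι) (k : ι → ℕ) (a : ι → ZMod p) :
    g ^ (∑ i ∈ s, (k i : ZMod p) * a i).val = ∏ i ∈ s, (g ^ (a i).val) ^ k i := by
  classical
  induction s using Finset.induction_on with
  | empty => simp
  | insert i s hi ih =>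
    rw [Finset.sum_insert hi, Finset.prod_insert hi, pow_val_add hg, ih, pow_val_mul hg,
      pow_val_natCast hg, ← pow_mul, ← pow_mul, mul_comm (k i)]

theorem crossE_chi_neg_one {p m : ℕ} [Fact p.Prime] [Fact m.Prime] (hp2 : p ≠ 2)
    {R : Type*} [CommRing R] (χ : MulChar (ZMod m) R) (hχ : χ ^ p = 1) : χ (-1) = 1 := by
  have hodd : Odd p := (Fact.out : p.Prime).odd_of_ne_two hp2
  obtain ⟨k, hk⟩ := hodd
  have h1 : χ (-1) ^ 2 = 1 := by
    rw [← map_pow]; simp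
  have h2 : χ (-1) ^ p = 1 := by
    rw [← MulChar.pow_apply' _ (Fact.out : p.Prime).ne_zero, hχ,
      MulChar.one_apply (isUnit_one.neg)]
  rw [hk, pow_succ, pow_mul, h1, one_pow, one_mul] at h2
  exact h2

end Char

section Main

variable {K F : Type*} [Field K] [NumberField K] [Field F] [NumberField F] [Algebra K F]
  {p : ℕ} [hp : Fact p.Prime] [IsCyclotomicExtension {p} ℚ K]

theorem crossE_norm_int (b : 𝓞 F) :
    Algebra.norm ℤ b = Algebra.norm ℤ (Algebra.intNorm (𝓞 K) (𝓞 F) b) := by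
  have h1 := Algebra.coe_norm_int b
  have h2 := Algebra.coe_norm_int (Algebra.intNorm (𝓞 K) (𝓞 F) b)
  have h3 : ((Algebra.intNorm (𝓞 K) (𝓞 F) b : 𝓞 K) : K) = Algebra.norm K (b : F) :=
    Algebra.algebraMap_intNorm (A := 𝓞 K) (K := K) (L := F) (B := 𝓞 F) b
  rw [h3, Algebra.norm_norm] at h2
  have : ((Algebra.norm ℤ b : ℤ) : ℚ) = ((Algebra.norm ℤ (Algebra.intNorm (𝓞 K) (𝓞 F) b) : ℤ) : ℚ) := by
    rw [h1, h2]
  exact_mod_cast this

/-- `χ(absNorm (b)) = 1` or `0`. -/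
theorem crossE_chi_absNorm (hp2 : p ≠ 2) (m : ℕ) [hm : Fact m.Prime] (hpm : p ∣ m - 1)
    (χ : MulChar (ZMod m) (𝓞 K)) (hχ : χ ^ p = 1)
    (hram : ∀ M : HeightOneSpectrum (𝓞 K), (m : 𝓞 K) ∈ M.asIdeal → ∀ b : 𝓞 F,
      ∃ c : 𝓞 K, M.valuation K (Algebra.norm K (b : F) - (c : K) ^ p) < 1)
    (b : 𝓞 F) (hne : χ ((Ideal.absNorm (Ideal.span {b}) : ℕ) : ZMod m) ≠ 0) :
    χ ((Ideal.absNorm (Ideal.span {b}) : ℕ) : ZMod m) = 1 := by
  obtain ⟨a, ha⟩ := crossE_norm_pow (K := K) (p := p) m hpm (Algebra.intNorm (𝓞 K) (𝓞 F) b) (by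
    intro M hM
    obtain ⟨c, hc⟩ := hram M hM b
    refine ⟨c, ?_⟩
    rw [← val_lt_one_iff_mem, map_sub, map_pow]
    have h3 : algebraMap (𝓞 K) K (Algebra.intNorm (𝓞 K) (𝓞 F) b) = Algebra.norm K (b : F) :=
      Algebra.algebraMap_intNorm (A := 𝓞 K) (K := K) (L := F) (B := 𝓞 F) b
    rw [h3]
    exact hc)
  rw [← crossE_norm_int] at ha
  have habs : χ ((Ideal.absNorm (Ideal.span {b}) : ℕ) : ZMod m) = χ a ^ p := by
    rw [Ideal.absNorm_span_singleton, ← map_pow, ← ha]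
    rcases Int.natAbs_eq (Algebra.norm ℤ b) with h | h
    · conv_rhs => rw [h]
      simp
    · conv_rhs => rw [h]
      rw [Int.cast_neg, ← neg_one_mul, map_mul, crossE_chi_neg_one hp2 χ hχ, one_mul]
      simp
  rw [habs] at hne ⊢
  have hau : IsUnit a := by
    by_contra h
    rw [MulChar.map_nonunit χ h, zero_pow hp.out.ne_zero] at hne
    exact hne rfl
  rw [← MulChar.pow_apply' _ hp.out.ne_zero, hχ, MulChar.one_apply hau]

/-- **(E)** for integral elements prime to `p m`. -/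
theorem crossE_int (hp2 : p ≠ 2) {ζ : K} (hζ : IsPrimitiveRoot ζ p) (m : ℕ) [hm : Fact m.Prime]
    (hpm : p ∣ m - 1) (χ : MulChar (ZMod m) (𝓞 K)) (hχ : χ ^ p = 1) (μ : F)
    (hC : ∀ w : HeightOneSpectrum (𝓞 F), w.valuation F (p : F) = 1 → w.valuation F (m : F) = 1 →
      (algebraMap K F ζ) ^ (sym p (algebraMap K F ζ) w μ).val *
        algebraMap K F ((χ ((Ideal.absNorm w.asIdeal : ℕ) : ZMod m) : 𝓞 K) : K) = 1)
    (hram : ∀ M : HeightOneSpectrum (𝓞 K), (m : 𝓞 K) ∈ M.asIdeal → ∀ b : 𝓞 F,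
      ∃ c : 𝓞 K, M.valuation K (Algebra.norm K (b : F) - (c : K) ^ p) < 1)
    (b : 𝓞 F) (hb : b ≠ 0)
    (hbT : ∀ w : HeightOneSpectrum (𝓞 F),
      (w.valuation F (p : F) ≠ 1 ∨ w.valuation F (m : F) ≠ 1) → b ∉ w.asIdeal)
    (s : Finset (HeightOneSpectrum (𝓞 F))) (n : HeightOneSpectrum (𝓞 F) → ℤ)
    (hn : ∀ w : HeightOneSpectrum (𝓞 F), w.valuation F (b : F) = exp (-(n w)))
    (hs : ∀ w, w ∉ s → n w = 0) :
    ∑ w ∈ s, (n w : ZMod p) * sym p (algebraMap K F ζ) w μ = 0 := by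
  set g := algebraMap K F ζ with hgdef
  have hgprim : IsPrimitiveRoot g p := hζ.map_of_injective (algebraMap K F).injective
  have hg : g ^ p = 1 := hgprim.pow_eq_one
  obtain ⟨hn0, hspan⟩ := crossE_span_eq_prod b hb s n hn hs
  have hnat : ∀ w, (n w : ZMod p) = (((n w).toNat : ℕ) : ZMod p) := by
    intro w
    conv_lhs => rw [← Int.toNat_of_nonneg (hn0 w)]
    rw [Int.cast_natCast]
  simp_rw [hnat]
  set S := ∑ w ∈ s, (((n w).toNat : ℕ) : ZMod p) * sym p g w μ with hS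
  have h1 := crossE_pow_val_sum hg s (fun w => (n w).toNat) (fun w => sym p g w μ)
  have h2 : algebraMap K F ((χ ((Ideal.absNorm (Ideal.span {b}) : ℕ) : ZMod m) : 𝓞 K) : K) =
      ∏ w ∈ s, (algebraMap K F ((χ ((Ideal.absNorm w.asIdeal : ℕ) : ZMod m) : 𝓞 K) : K)) ^
        (n w).toNat := by
    rw [hspan, map_prod, Nat.cast_prod, map_prod]
    rw [show ((∏ w ∈ s, χ ((Ideal.absNorm (w.asIdeal ^ (n w).toNat) : ℕ) : ZMod m) : 𝓞 K) : K) =
      algebraMap (𝓞 K) K (∏ w ∈ s, χ ((Ideal.absNorm (w.asIdeal ^ (n w).toNat) : ℕ) : ZMod m))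
      from rfl, map_prod, map_prod]
    refine Finset.prod_congr rfl fun w _ => ?_
    rw [map_pow, Nat.cast_pow, map_pow, map_pow, map_pow]
  have h3 : g ^ S.val *
      algebraMap K F ((χ ((Ideal.absNorm (Ideal.span {b}) : ℕ) : ZMod m) : 𝓞 K) : K) = 1 := by
    rw [h1, h2, ← Finset.prod_mul_distrib]
    refine Finset.prod_eq_one fun w _ => ?_
    rw [← mul_pow]
    by_cases h0 : n w = 0
    · rw [h0]; simp
    · have hbw : b ∈ w.asIdeal := by
        rw [← val_lt_one_iff_mem]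
        show w.valuation F (b : F) < 1
        rw [hn w, ← exp_zero, exp_lt_exp]
        have := hn0 w
        omega
      have hw : w.valuation F (p : F) = 1 ∧ w.valuation F (m : F) = 1 := by
        by_contra hcon
        rw [not_and_or] at hcon
        exact hbT w hcon hbw
      rw [hC w hw.1 hw.2, one_pow]
  have h4 : χ ((Ideal.absNorm (Ideal.span {b}) : ℕ) : ZMod m) ≠ 0 := by
    intro h
    rw [h] at h3
    simp at h3
  have h5 := crossE_chi_absNorm hp2 m hpm χ hχ hram b h4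
  rw [h5] at h3
  have h6 : g ^ S.val = 1 := by simpa using h3
  have h7 := hgprim.dvd_of_pow_eq_one _ h6
  have h8 : S.val = 0 := Nat.eq_zero_of_dvd_of_lt h7 (ZMod.val_lt S)
  exact (ZMod.val_eq_zero S).1 h8

/-- **(E)** with the input (C) as a hypothesis. -/
theorem crossE_aux (hp2 : p ≠ 2) {ζ : K} (hζ : IsPrimitiveRoot ζ p) (m : ℕ) [hm : Fact m.Prime]
    (hpm : p ∣ m - 1) (χ : MulChar (ZMod m) (𝓞 K)) (hχ : χ ^ p = 1) (μ : F)
    (hC : ∀ w : HeightOneSpectrum (𝓞 F), w.valuation F (p : F) = 1 → w.valuation F (m : F) = 1 →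
      (algebraMap K F ζ) ^ (sym p (algebraMap K F ζ) w μ).val *
        algebraMap K F ((χ ((Ideal.absNorm w.asIdeal : ℕ) : ZMod m) : 𝓞 K) : K) = 1)
    (hram : ∀ M : HeightOneSpectrum (𝓞 K), (m : 𝓞 K) ∈ M.asIdeal → ∀ b : 𝓞 F,
      ∃ c : 𝓞 K, M.valuation K (Algebra.norm K (b : F) - (c : K) ^ p) < 1)
    (β : F) (hβ0 : β ≠ 0)
    (hβ : ∀ w : HeightOneSpectrum (𝓞 F),
      (w.valuation F (p : F) ≠ 1 ∨ w.valuation F (m : F) ≠ 1) → w.valuation F β = 1)
    (s : Finset (HeightOneSpectrum (𝓞 F))) (n : HeightOneSpectrum (𝓞 F) → ℤ)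
    (hn : ∀ w : HeightOneSpectrum (𝓞 F), w.valuation F β = exp (-(n w)))
    (hs : ∀ w, w ∉ s → n w = 0) :
    ∑ w ∈ s, (n w : ZMod p) * sym p (algebraMap K F ζ) w μ = 0 := by
  classical
  have hp0 : (p : F) ≠ 0 := Nat.cast_ne_zero.2 hp.out.ne_zero
  have hm0 : (m : F) ≠ 0 := Nat.cast_ne_zero.2 hm.out.ne_zero
  let T : Finset (HeightOneSpectrum (𝓞 F)) :=
    (ord_support_finite (p : F)).toFinset ∪ (ord_support_finite (m : F)).toFinset
  have hT : ∀ w : HeightOneSpectrum (𝓞 F),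
      (w.valuation F (p : F) ≠ 1 ∨ w.valuation F (m : F) ≠ 1) → w ∈ T := by
    intro w hw
    rw [Finset.mem_union, Set.Finite.mem_toFinset, Set.Finite.mem_toFinset]
    rcases hw with h | h
    · left
      show ord w (p : F) ≠ 0
      rwa [Ne, ord_eq_zero_iff w hp0]
    · right
      show ord w (m : F) ≠ 0
      rwa [Ne, ord_eq_zero_iff w hm0]
  have hT' : ∀ w ∈ T, w.valuation F β = 1 := by
    intro w hw
    apply hβ
    rw [Finset.mem_union, Set.Finite.mem_toFinset, Set.Finite.mem_toFinset] at hw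
    rcases hw with h | h
    · left
      rwa [Ne, ← ord_eq_zero_iff w hp0]
    · right
      rwa [Ne, ← ord_eq_zero_iff w hm0]
  obtain ⟨b₁, b₂, hb₁, hb₂, h12, hbT⟩ := crossE_exists_frac β hβ0 T hT'
  have hb₁' : (b₁ : F) ≠ 0 := by
    rwa [Ne, show ((b₁ : 𝓞 F) : F) = algebraMap (𝓞 F) F b₁ from rfl,
      FaithfulSMul.algebraMap_eq_zero_iff]
  have hb₂' : (b₂ : F) ≠ 0 := by
    rwa [Ne, show ((b₂ : 𝓞 F) : F) = algebraMap (𝓞 F) F b₂ from rfl,
      FaithfulSMul.algebraMap_eq_zero_iff]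
  let s' : Finset (HeightOneSpectrum (𝓞 F)) :=
    s ∪ ((ord_support_finite (b₁ : F)).toFinset ∪ (ord_support_finite (b₂ : F)).toFinset)
  have e1 := crossE_int hp2 hζ m hpm χ hχ μ hC hram b₁ hb₁ (fun w hw => (hbT w (hT w hw)).1) s'
    (fun w => ord w (b₁ : F)) (fun w => val_eq_exp_neg_ord w hb₁') (by
      intro w hw
      by_contra h
      apply hw
      refine Finset.mem_union_right _ (Finset.mem_union_left _ ?_)
      rw [Set.Finite.mem_toFinset]
      exact h)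
  have e2 := crossE_int hp2 hζ m hpm χ hχ μ hC hram b₂ hb₂ (fun w hw => (hbT w (hT w hw)).2) s'
    (fun w => ord w (b₂ : F)) (fun w => val_eq_exp_neg_ord w hb₂') (by
      intro w hw
      by_contra h
      apply hw
      refine Finset.mem_union_right _ (Finset.mem_union_right _ ?_)
      rw [Set.Finite.mem_toFinset]
      exact h)
  have hnw : ∀ w, n w = ord w (b₁ : F) - ord w (b₂ : F) := by
    intro w
    rw [← h12, ord_mul w hβ0 hb₂', ord_eq_of_val_eq w (hn w)]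
    ring
  rw [Finset.sum_subset (Finset.subset_union_left : s ⊆ s') (by
    intro w _ hw
    rw [hs w hw]; simp)]
  simp_rw [hnw, Int.cast_sub, sub_mul]
  rw [Finset.sum_sub_distrib, e1, e2, sub_zero]

/-- the input (C), from `sym_gaussPow`. -/
theorem crossE_hC {ζ : K} (hζ : IsPrimitiveRoot ζ p) (m : ℕ) [hm : Fact m.Prime]
    (χ : MulChar (ZMod m) (𝓞 K)) (hχ : χ ^ p = 1) (hχ1 : χ ≠ 1)
    (w : HeightOneSpectrum (𝓞 F)) (hwp : w.valuation F (p : F) = 1)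
    (hwm : w.valuation F (m : F) = 1) :
    (algebraMap K F ζ) ^ (sym p (algebraMap K F ζ) w
        (algebraMap K F ((gaussPow p χ : 𝓞 K) : K))).val *
      algebraMap K F ((χ ((Ideal.absNorm w.asIdeal : ℕ) : ZMod m) : 𝓞 K) : K) = 1 := by
  have hinj : Function.Injective (algebraMap (𝓞 K) (𝓞 F)) :=
    FaithfulSMul.algebraMap_injective _ _
  have hgprim : IsPrimitiveRoot (algebraMap K F ζ) p :=
    hζ.map_of_injective (algebraMap K F).injective
  set χF : MulChar (ZMod m) (𝓞 F) := χ.ringHomComp (algebraMap (𝓞 K) (𝓞 F)) with hχFdef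
  have hχF : χF ^ p = 1 := by
    rw [hχFdef, MulChar.ringHomComp_pow, hχ, MulChar.ringHomComp_one]
  have hχF1 : χF ≠ 1 := (MulChar.ringHomComp_ne_one_iff hinj).2 hχ1
  have hu := isUnit_absNorm_zmod hgprim hχF hχF1 hwp hwm
  obtain ⟨k, hk⟩ := exists_mulChar_eq_zeta_pow hgprim hχF hu.unit
  rw [IsUnit.unit_spec] at hk
  have hs := sym_gaussPow hgprim hχF hχF1 hwp hwm k hk
  have e1 : algebraMap (𝓞 F) F (gaussPow p χF) = algebraMap K F ((gaussPow p χ : 𝓞 K) : K) := by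
    rw [hχFdef, ← map_gaussPow]
    rfl
  have e2 : algebraMap (𝓞 F) F (χF ((Ideal.absNorm w.asIdeal : ℕ) : ZMod m)) =
      algebraMap K F ((χ ((Ideal.absNorm w.asIdeal : ℕ) : ZMod m) : 𝓞 K) : K) := by
    rw [hχFdef, MulChar.ringHomComp_apply]
    rfl
  rw [← e1, hs, ← e2, hk, ← pow_val_add hgprim.pow_eq_one, neg_add_cancel, ZMod.val_zero, pow_zero]

/-- **(E)**, explicit reciprocity for `μ = g(χ)^p`. -/
theorem crossE (hp2 : p ≠ 2) {ζ : K} (hζ : IsPrimitiveRoot ζ p) (m : ℕ) [hm : Fact m.Prime]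
    (hpm : p ∣ m - 1) (χ : MulChar (ZMod m) (𝓞 K)) (hχ : χ ^ p = 1) (hχ1 : χ ≠ 1)
    (hram : ∀ M : HeightOneSpectrum (𝓞 K), (m : 𝓞 K) ∈ M.asIdeal → ∀ b : 𝓞 F,
      ∃ c : 𝓞 K, M.valuation K (Algebra.norm K (b : F) - (c : K) ^ p) < 1)
    (β : F) (hβ0 : β ≠ 0)
    (hβ : ∀ w : HeightOneSpectrum (𝓞 F), w.valuation F ((p : F) * (m : F)) < 1 →
      w.valuation F β = 1)
    (s : Finset (HeightOneSpectrum (𝓞 F))) (n : HeightOneSpectrum (𝓞 F) → ℤ)
    (hn : ∀ w : HeightOneSpectrum (𝓞 F), w.valuation F β = exp (-(n w)))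
    (hs : ∀ w, w ∉ s → n w = 0) :
    ∑ w ∈ s, (n w : ZMod p) * sym p (algebraMap K F ζ) w
      (algebraMap K F ((gaussPow p χ : 𝓞 K) : K)) = 0 := by
  refine crossE_aux hp2 hζ m hpm χ hχ _ (fun w h1 h2 => crossE_hC hζ m χ hχ hχ1 w h1 h2) hram β hβ0
    ?_ s n hn hs
  intro w hw
  apply hβ
  rw [map_mul]
  have h1 := val_natCast_le_one w p
  have h2 := val_natCast_le_one w m
  rcases hw with h | h
  · exact lt_of_le_of_lt (mul_le_of_le_one_right' h2) (lt_of_le_of_ne h1 h)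
  · exact lt_of_le_of_lt (mul_le_of_le_one_left' h1) (lt_of_le_of_ne h2 h)

end Main

end Fermat.Agent.S14Lib
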