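import Fermat.Agent.S14.CrossChoice

/-!
# S14, leaf L11a (E), multiplicativity step

`∑_w ord_w(b) (μ / w) = - log χ(N (b))` for an integral `b` prime to `p m`.
-/

namespace Fermat.Agent.S14Lib

open IsDedekindDomain NumberField WithZero

section

variable {F : Type*} [Field F] [NumberField F]

/-- the factorisation of a principal ideal read off from the valuations. -/
theorem span_eq_prod_pow (b : 𝓞 F) (hb : b ≠ 0) (s : Finset (HeightOneSpectrum (𝓞 F)))
    (n : HeightOneSpectrum (𝓞 F) → ℕ) (hn : ∀ w, w.intValuation b = exp (-(n w : ℤ)))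
    (hs : ∀ w, w ∉ s → n w = 0) :
    Ideal.span {b} = ∏ w ∈ s, w.asIdeal ^ n w := by
  have hI : Ideal.span {b} ≠ 0 := by simpa using hb
  have hcount : ∀ w : HeightOneSpectrum (𝓞 F),
      (Associates.mk w.asIdeal).count (Associates.mk (Ideal.span {b})).factors = n w := by
    intro w
    have h1 := hn w
    rw [w.intValuation_if_neg hb, exp_inj, neg_inj] at h1
    exact_mod_cast h1
  rw [← Ideal.finprod_heightOneSpectrum_factorization hI]
  rw [finprod_eq_prod_of_mulSupport_subset (s := s)]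
  · apply Finset.prod_congr rfl
    intro w _
    rw [HeightOneSpectrum.maxPowDividing, hcount]
  · intro w hw
    by_contra hws
    apply hw
    show w.maxPowDividing (Ideal.span {b}) = 1
    rw [HeightOneSpectrum.maxPowDividing, hcount, hs w hws, pow_zero]

theorem absNorm_span_eq_prod_pow (b : 𝓞 F) (hb : b ≠ 0) (s : Finset (HeightOneSpectrum (𝓞 F)))
    (n : HeightOneSpectrum (𝓞 F) → ℕ) (hn : ∀ w, w.intValuation b = exp (-(n w : ℤ)))
    (hs : ∀ w, w ∉ s → n w = 0) :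
    Ideal.absNorm (Ideal.span {b}) = ∏ w ∈ s, Ideal.absNorm w.asIdeal ^ n w := by
  rw [span_eq_prod_pow b hb s n hn hs, map_prod]
  apply Finset.prod_congr rfl
  intro w _
  rw [map_pow]

variable {m p : ℕ} [hm : Fact m.Prime] [hp : Fact p.Prime]
  {ζ : F} (hζ : IsPrimitiveRoot ζ p) {χ : MulChar (ZMod m) (𝓞 F)} (hχ : χ ^ p = 1)

include hζ hχ in
theorem mulChar_prod_absNorm (hχ1 : χ ≠ 1) (s : Finset (HeightOneSpectrum (𝓞 F)))
    (n : HeightOneSpectrum (𝓞 F) → ℕ)
    (hpm : ∀ w ∈ s, n w ≠ 0 → w.valuation F (p : F) = 1 ∧ w.valuation F (m : F) = 1) :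
    algebraMap (𝓞 F) F (χ ((∏ w ∈ s, Ideal.absNorm w.asIdeal ^ n w : ℕ) : ZMod m)) =
      ζ ^ (-∑ w ∈ s, (n w : ZMod p) * sym p ζ w (algebraMap (𝓞 F) F (gaussPow p χ))).val := by
  classical
  have hz1 := hζ.pow_eq_one
  induction s using Finset.induction_on with
  | empty => simp
  | insert w s hws ih =>
    have ih' := ih (fun v hv => hpm v (Finset.mem_insert_of_mem hv))
    rw [Finset.prod_insert hws, Finset.sum_insert hws, Nat.cast_mul, map_mul, map_mul, ih',
      neg_add, pow_val_add hz1]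
    congr 1
    by_cases hn0 : n w = 0
    · simp [hn0]
    · obtain ⟨h1, h2⟩ := hpm w (Finset.mem_insert_self _ _) hn0
      have hunit := isUnit_absNorm_zmod hζ hχ hχ1 h1 h2
      obtain ⟨k, hk⟩ := exists_mulChar_eq_zeta_pow hζ hχ hunit.unit
      rw [hunit.unit_spec] at hk
      rw [sym_gaussPow hζ hχ hχ1 h1 h2 k hk, Nat.cast_pow, map_pow, map_pow, hk, mul_neg, neg_neg,
        mul_comm, pow_val_mul hz1]
      have h3 : (ζ ^ k.val) ^ p = 1 := by rw [← pow_mul, mul_comm, pow_mul, hz1, one_pow]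
      rw [pow_val_natCast h3]

include hζ hχ in
/-- **(E), multiplicativity step.** -/
theorem sum_sym_gaussPow (hχ1 : χ ≠ 1) (b : 𝓞 F) (hb : b ≠ 0)
    (s : Finset (HeightOneSpectrum (𝓞 F))) (n : HeightOneSpectrum (𝓞 F) → ℕ)
    (hn : ∀ w, w.intValuation b = exp (-(n w : ℤ))) (hs : ∀ w, w ∉ s → n w = 0)
    (hpm : ∀ w ∈ s, n w ≠ 0 → w.valuation F (p : F) = 1 ∧ w.valuation F (m : F) = 1)
    (h1 : χ ((Ideal.absNorm (Ideal.span {b}) : ℕ) : ZMod m) = 1) :
    ∑ w ∈ s, (n w : ZMod p) * sym p ζ w (algebraMap (𝓞 F) F (gaussPow p χ)) = 0 := by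
  have h2 := mulChar_prod_absNorm hζ hχ hχ1 s n hpm
  rw [← absNorm_span_eq_prod_pow b hb s n hn hs, h1, map_one] at h2
  haveI : NeZero p := ⟨hp.out.ne_zero⟩
  have h3 := hζ.pow_inj (ZMod.val_lt _) hp.out.pos (h2.symm.trans (pow_zero ζ).symm)
  have h4 := (ZMod.val_eq_zero _).1 h3
  exact neg_eq_zero.1 h4

end

end Fermat.Agent.S14Lib
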