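import Fermat.Agent.S14.CrossOne

/-!
# S14, leaf L11 (crossing), part 3: Theorem R from the crossing property and FI
-/

open IsDedekindDomain NumberField

namespace Fermat.Agent.S14Lib

section final

variable {K : Type} [Field K] [NumberField K] {p : ℕ} [Fact p.Prime] {ζ : K}

theorem exists_int_mul_eq (g0 : ZMod p) (hg0 : g0 ≠ 0) (x : ZMod p) :
    ∃ c : ℤ, x = (c : ZMod p) * g0 := by
  refine ⟨((x / g0).val : ℤ), ?_⟩
  have : NeZero p := ⟨(Fact.out : p.Prime).ne_zero⟩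
  rw [Int.cast_natCast, ZMod.natCast_zmod_val, div_mul_cancel₀ _ hg0]

theorem dvd_of_cast_mul_eq_zero {g0 : ZMod p} (hg0 : g0 ≠ 0) {c : ℤ}
    (h : (c : ZMod p) * g0 = 0) : (p : ℤ) ∣ c := by
  rw [← ZMod.intCast_zmod_eq_zero_iff_dvd]
  exact (mul_eq_zero.1 h).resolve_right hg0

/-- Theorem R from the crossing property. -/
theorem thmR_of_cross (hζ : IsPrimitiveRoot ζ p) {α : K} (hα : HAlpha p ζ α)
    (hFIU : ∃ D : Divs K, ∀ y : K, y ≠ 0 → D - dv y ∉ NG p ζ ∅ α)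
    (hcross : ∀ q₁ q₂ : Pl K, gs p ζ q₁ α ≠ 0 → gs p ζ q₂ α ≠ 0 → ∃ r : Pl K, gs p ζ r α ≠ 0 ∧
      (∀ e : ℤ, gs p ζ q₁ α = e * gs p ζ r α →
        Finsupp.single q₁ 1 - e • Finsupp.single r 1 ∈ Prin K ⊔ NG p ζ ∅ α) ∧
      (∀ e : ℤ, gs p ζ q₂ α = e * gs p ζ r α →
        Finsupp.single q₂ 1 - e • Finsupp.single r 1 ∈ Prin K ⊔ NG p ζ ∅ α))
    {β : K} (hβ : β ≠ 0) : phi p ζ α (dv β) = 0 := by
  by_contra hne
  set 𝒮 : AddSubgroup (Divs K) := Prin K ⊔ NG p ζ ∅ α with h𝒮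
  have hNG : ∀ (D : Divs K) (k : ℤ), (p : ℤ) ∣ k → k • D ∈ 𝒮 := fun D k hk =>
    AddSubgroup.mem_sup_right (zsmul_mem_NG _ _ _ hk)
  -- a place with non-trivial symbol
  obtain ⟨q₀, hq₀⟩ : ∃ q₀ : Pl K, gs p ζ q₀ α ≠ 0 := by
    rw [phi_apply] at hne
    obtain ⟨q, -, hq⟩ := Finset.exists_ne_zero_of_sum_ne_zero hne
    exact ⟨q, right_ne_zero_of_mul hq⟩
  set g0 := gs p ζ q₀ α with hg0
  set s : Divs K := Finsupp.single q₀ 1 with hs
  -- the claim for single places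
  have claim : ∀ (q : Pl K) (d : ℤ), gs p ζ q α = d * g0 → Finsupp.single q 1 - d • s ∈ 𝒮 := by
    intro q d hd
    by_cases hq : gs p ζ q α = 0
    · have hd' : (p : ℤ) ∣ d := dvd_of_cast_mul_eq_zero hq₀ (by rw [← hd, hq])
      have hlp : LPv p ζ q α := lpv_of_gs_eq_zero hζ hα q hq
      exact 𝒮.sub_mem (AddSubgroup.mem_sup_right (single_mem_NG _ _ (by simp) hlp 1)) (hNG _ _ hd')
    · obtain ⟨r, hr, h1, h2⟩ := hcross q q₀ hq hq₀
      obtain ⟨e1, he1⟩ := exists_int_mul_eq _ hr (gs p ζ q α)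
      obtain ⟨e2, he2⟩ := exists_int_mul_eq _ hr (gs p ζ q₀ α)
      have m1 := h1 e1 he1
      have m2 := h2 e2 he2
      have h3 : (p : ℤ) ∣ e1 - d * e2 := by
        apply dvd_of_cast_mul_eq_zero hr
        push_cast
        rw [sub_mul, ← he1, mul_assoc, ← he2, hd]
        ring
      have e : (Finsupp.single q 1 - d • s : Divs K) =
          (Finsupp.single q 1 - e1 • Finsupp.single r 1) -
            d • (Finsupp.single q₀ 1 - e2 • Finsupp.single r 1) +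
            (e1 - d * e2) • Finsupp.single r 1 := by
        rw [hs, smul_sub, sub_smul, mul_smul]
        abel
      rw [e]
      exact 𝒮.add_mem (𝒮.sub_mem m1 (𝒮.zsmul_mem m2 d)) (hNG _ _ h3)
  -- the claim for all divisors
  have claim2 : ∀ (D : Divs K) (c : ℤ), phi p ζ α D = c * g0 → D - c • s ∈ 𝒮 := by
    intro D
    induction D using Finsupp.induction_linear with
    | zero =>
      intro c hc
      rw [map_zero] at hc
      rw [zero_sub]
      exact 𝒮.neg_mem (hNG _ _ (dvd_of_cast_mul_eq_zero hq₀ hc.symm))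
    | add D1 D2 ih1 ih2 =>
      intro c hc
      obtain ⟨c1, hc1⟩ := exists_int_mul_eq _ hq₀ (phi p ζ α D1)
      have hc2 : phi p ζ α D2 = ((c - c1 : ℤ) : ZMod p) * g0 := by
        rw [map_add, hc1] at hc
        push_cast
        rw [sub_mul, ← hc]
        ring
      have e : D1 + D2 - c • s = (D1 - c1 • s) + (D2 - (c - c1) • s) := by
        rw [sub_smul]; abel
      rw [e]
      exact 𝒮.add_mem (ih1 c1 hc1) (ih2 _ hc2)
    | single q n =>
      intro c hc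
      obtain ⟨d, hd⟩ := exists_int_mul_eq _ hq₀ (gs p ζ q α)
      have m1 := 𝒮.zsmul_mem (claim q d hd) n
      have h3 : (p : ℤ) ∣ n * d - c := by
        apply dvd_of_cast_mul_eq_zero hq₀
        rw [phi_single, hd] at hc
        push_cast
        rw [sub_mul, ← hc]
        ring
      have e : (Finsupp.single q n - c • s : Divs K) =
          n • (Finsupp.single q 1 - d • s) + (n * d - c) • s := by
        have e0 : (Finsupp.single q n : Divs K) = n • Finsupp.single q 1 := by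
          rw [Finsupp.smul_single, smul_eq_mul, mul_one]
        rw [e0, smul_sub, sub_smul, mul_smul]
        abel
      rw [e]
      exact 𝒮.add_mem m1 (hNG _ _ h3)
  -- `s ∈ 𝒮`
  obtain ⟨c0, hc0⟩ := exists_int_mul_eq _ hq₀ (phi p ζ α (dv β))
  have hc0p : ¬ (p : ℤ) ∣ c0 := by
    intro h
    apply hne
    rw [hc0, (ZMod.intCast_zmod_eq_zero_iff_dvd c0 p).2 h, zero_mul]
  have hdvβ : dv β ∈ 𝒮 := AddSubgroup.mem_sup_left ⟨β, hβ, rfl⟩
  have hc0s : c0 • s ∈ 𝒮 := by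
    have := 𝒮.sub_mem hdvβ (claim2 (dv β) c0 hc0)
    rwa [sub_sub_cancel] at this
  have hcop : IsCoprime c0 (p : ℤ) := by
    rw [isCoprime_comm]
    exact (Nat.prime_iff_prime_int.1 (Fact.out : p.Prime)).coprime_iff_not_dvd.2 hc0p
  obtain ⟨a, b, hab⟩ := hcop
  have hs𝒮 : s ∈ 𝒮 := by
    have e : s = a • (c0 • s) + (b * p) • s := by
      rw [← mul_smul, ← add_smul, hab, one_smul]
    rw [e]
    exact 𝒮.add_mem (𝒮.zsmul_mem hc0s a) (hNG _ _ (dvd_mul_left _ _))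
  -- contradiction with FI
  obtain ⟨D, hD⟩ := hFIU
  obtain ⟨c, hc⟩ := exists_int_mul_eq _ hq₀ (phi p ζ α D)
  have hD𝒮 : D ∈ 𝒮 := by
    have := 𝒮.add_mem (claim2 D c hc) (𝒮.zsmul_mem hs𝒮 c)
    rwa [sub_add_cancel] at this
  obtain ⟨P, ⟨y, hy, rfl⟩, n, hn, hsum⟩ := AddSubgroup.mem_sup.1 hD𝒮
  apply hD y hy
  rw [← hsum, add_sub_cancel_left]
  exact hn

end final

end Fermat.Agent.S14Lib
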