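import Fermat.Agent.S14.Gs
import Fermat.Agent.S14.Approx
import Fermat.Agent.S14.DL

/-!
# S14, leaf L11 (crossing), part 1: the vanishing of `phi` on `Prin + NG B` over the auxiliary field
-/

open IsDedekindDomain NumberField

namespace Fermat.Agent.S14Lib

/-- shape of the explicit reciprocity law (E). -/
def EProp {F : Type*} [Field F] [NumberField F] (p : ℕ) [Fact p.Prime] (ζ μ : F) (m : ℕ) : Prop :=
  ∀ β : F, β ≠ 0 → (∀ w : Pl F, w.valuation F ((p : F) * (m : F)) < 1 → w.valuation F β = 1) →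
    ∀ (s : Finset (Pl F)) (n : Pl F → ℤ), (∀ w, w.valuation F β = WithZero.exp (-(n w))) →
      (∀ w ∉ s, n w = 0) → ∑ w ∈ s, (n w : ZMod p) * sym p ζ w μ = 0

section K1

variable {F : Type*} [Field F] [NumberField F] {p : ℕ} [Fact p.Prime] {ζ : F}

theorem val_mul_natCast_eq_one (w : Pl F) (a b : ℕ)
    (h : w.valuation F ((a : F) * (b : F)) = 1) :
    w.valuation F (a : F) = 1 ∧ w.valuation F (b : F) = 1 := by
  have ha := val_natCast_le_one w a
  have hb := val_natCast_le_one w b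
  rw [map_mul] at h
  constructor
  · apply le_antisymm ha
    rw [← h]
    exact mul_le_of_le_one_right' hb
  · apply le_antisymm hb
    rw [← h]
    exact mul_le_of_le_one_left' ha

/-- Key vanishing statement over the auxiliary field. -/
theorem phi_eq_zero_of_mem (hζ : IsPrimitiveRoot ζ p) {α μ θ : F} {m j : ℕ} (hα : α ≠ 0)
    (hμ0 : μ ≠ 0) (hθ : θ ^ p = α * μ ^ j)
    (hμ : ∀ w : Pl F, w.valuation F (m : F) = 1 → w.valuation F μ = 1)
    (hE : EProp p ζ μ m) (B : Finset (Pl F))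
    (hB : ∀ w : Pl F, w ∈ B ↔ w.valuation F ((p : F) * (m : F)) ≠ 1)
    (D : Divs F) (hDB : ∀ w ∈ B, (p : ℤ) ∣ D w) (y : F) (hy : y ≠ 0)
    (hmem : D - dv y ∈ NG p ζ (B : Set (Pl F)) α) : phi p ζ α D = 0 := by
  have hθ0 : θ ≠ 0 := by
    rintro rfl
    rw [zero_pow (Fact.out : p.Prime).ne_zero] at hθ
    exact (mul_ne_zero hα (pow_ne_zero _ hμ0)) hθ.symm
  have h1 : ∀ w ∈ B, (p : ℤ) ∣ ord w y := by
    intro w hw
    have h2 : (p : ℤ) ∣ (D - dv y) w := by
      by_contra hcon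
      exact (hmem w hcon).1 (by exact_mod_cast hw)
    have h3 : ord w y = D w - (D - dv y) w := by
      simp
    rw [h3]
    exact dvd_sub (hDB w hw) h2
  obtain ⟨γ, hγ⟩ := exists_val_eq B (fun w => ord w y / p)
  have hγ0 : (γ : F) ≠ 0 := γ.ne_zero
  have hγ' : ∀ w ∈ B, (p : ℤ) * ord w (γ : F) = ord w y := by
    intro w hw
    rw [ord_eq_of_val_eq w (hγ w hw)]
    exact Int.mul_ediv_cancel' (h1 w hw)
  set y' : F := y / (γ : F) ^ p with hy'
  have hy'0 : y' ≠ 0 := div_ne_zero hy (pow_ne_zero _ hγ0)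
  have hord : ∀ w, ord w y' = ord w y - p * ord w (γ : F) := by
    intro w
    rw [hy', ord_div w hy (pow_ne_zero _ hγ0), ord_pow]
  have hdv : dv y = dv y' + (p : ℤ) • dv (γ : F) := by
    ext w
    simp [hord w]
  have e1 : phi p ζ α D = phi p ζ α (dv y') := by
    have : D = (D - dv y) + (dv y' + (p : ℤ) • dv (γ : F)) := by
      rw [← hdv]; abel
    rw [this, map_add, map_add, phi_of_mem_NG hζ _ hmem, map_zsmul, zero_add]
    simp
  rw [e1, phi_apply]
  have hunit : ∀ w ∈ B, w.valuation F y' = 1 := by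
    intro w hw
    rw [← ord_eq_zero_iff w hy'0, hord w, hγ' w hw, sub_self]
  have e2 : ∀ w ∈ (dv y').support, ((dv y' w : ℤ) : ZMod p) * gs p ζ w α =
      (-(j : ZMod p)) * (((ord w y' : ℤ) : ZMod p) * sym p ζ w μ) := by
    intro w hw
    have hwB : w ∉ B := by
      intro hwB
      rw [Finsupp.mem_support_iff, dv_apply] at hw
      exact hw ((ord_eq_zero_iff w hy'0).2 (hunit w hwB))
    have hw1 : w.valuation F ((p : F) * (m : F)) = 1 := by
      by_contra hcon
      exact hwB ((hB w).2 hcon)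
    obtain ⟨-, hwm⟩ := val_mul_natCast_eq_one w p m hw1
    have h4 : gs p ζ w α + j * gs p ζ w μ = 0 := by
      rw [← gs_pow hζ w, ← gs_mul hζ w hα (pow_ne_zero _ hμ0), ← hθ, gs_pow_p hζ w]
    rw [gs_of_unit w (hμ w hwm)] at h4
    have h5 : gs p ζ w α = -(j * sym p ζ w μ) := eq_neg_of_add_eq_zero_left h4
    rw [h5, dv_apply]
    ring
  rw [Finset.sum_congr rfl e2, ← Finset.mul_sum]
  rw [hE y' hy'0 ?_ (dv y').support (fun w => ord w y') (fun w => val_eq_exp_neg_ord w hy'0) ?_,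
    mul_zero]
  · intro w hw
    exact hunit w ((hB w).2 hw.ne)
  · intro w hw
    rw [Finsupp.notMem_support_iff, dv_apply] at hw
    exact hw

end K1

end Fermat.Agent.S14Lib
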