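import Fermat.Agent.S14.CrossFin
import Fermat.Agent.S14.CrossChoice

/-!
# S14, leaf L11 (crossing), part 4: the crossing property, Theorem R (with FI, FI_A, (E) as inputs)
-/

open IsDedekindDomain NumberField Polynomial

namespace Fermat.Agent.S14Lib

/-- The shape of (E) consumed by the crossing argument. -/
def EShape (p : ℕ) [Fact p.Prime] (K : Type) [Field K] [NumberField K] (ζ : K) : Prop :=
  ∀ (m : ℕ) [Fact m.Prime], p ∣ m - 1 → ∀ (χ : MulChar (ZMod m) (𝓞 K)), χ ^ p = 1 → χ ≠ 1 →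
    ∀ (F : Type) [Field F] [NumberField F] [Algebra K F] (x : K) (θ : F),
      θ ^ p = algebraMap K F x → IntermediateField.adjoin K {θ} = ⊤ → (∀ z : K, z ^ p ≠ x) →
      (∀ M : Pl K, (m : 𝓞 K) ∈ M.asIdeal → ∀ k : ℤ,
        M.valuation K x ≠ WithZero.exp ((p : ℤ) * k)) →
      EProp p (algebraMap K F ζ) (algebraMap K F (algebraMap (𝓞 K) K (gaussPow p χ))) m

section cross

variable {K : Type} [Field K] [NumberField K] {p : ℕ} [hp : Fact p.Prime]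
  [IsCyclotomicExtension {p} ℚ K] {ζ : K}

omit [IsCyclotomicExtension {p} ℚ K] in
theorem pVal_of_halpha {α : K} (hα : HAlpha p ζ α) (M : Pl K) : PVal p M α := by
  obtain ⟨c, hc⟩ := hα.dvd M
  refine ⟨-c, ?_⟩
  rw [val_eq_exp_neg_ord M hα.ne, hc, mul_neg]

/-- application of the one-field lemma to `F = K((α μ ^ j)^(1/p))`. -/
theorem cross_apply (hζ : IsPrimitiveRoot ζ p)
    (hFIA : ∀ (F : Type) [Field F] [NumberField F] (ζ' : F), IsPrimitiveRoot ζ' p → FIAProp p F ζ')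
    (hE : EShape p K ζ) {α : K} (hα : HAlpha p ζ α)
    (m : ℕ) [hm : Fact m.Prime] (hpm : p ∣ m - 1) (χ : MulChar (ZMod m) (𝓞 K)) (hχ : χ ^ p = 1)
    (hχ1 : χ ≠ 1) (j : ℕ) (hj : ¬ p ∣ j) (q r : Pl K)
    (hq : LPv p ζ q (α * algebraMap (𝓞 K) K (gaussPow p χ) ^ j))
    (hr : LPv p ζ r (α * algebraMap (𝓞 K) K (gaussPow p χ) ^ j))
    (hqp : q.valuation K ((p : K) * (m : K)) = 1) (hrp : r.valuation K ((p : K) * (m : K)) = 1)
    (hrα : gs p ζ r α ≠ 0) (e : ℤ) (he : gs p ζ q α = e * gs p ζ r α) :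
    Finsupp.single q 1 - e • Finsupp.single r 1 ∈ Prin K ⊔ NG p ζ ∅ α := by
  set μ : K := algebraMap (𝓞 K) K (gaussPow p χ) with hμdef
  have hμ0 : μ ≠ 0 := by
    rw [hμdef, Ne, map_eq_zero_iff _ (IsFractionRing.injective (𝓞 K) K)]
    exact gaussPow_ne_zero hχ hχ1
  set x : K := α * μ ^ j with hxdef
  have hram : ∀ M : Pl K, (m : 𝓞 K) ∈ M.asIdeal → ∀ k : ℤ,
      M.valuation K x ≠ WithZero.exp ((p : ℤ) * k) := fun M hM k =>
    val_twist_ne hpm hχ hχ1 M hM (pVal_of_halpha hα M) hj k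
  have hx0 : x ≠ 0 := mul_ne_zero hα.ne (pow_ne_zero _ hμ0)
  have hx : ∀ z : K, z ^ p ≠ x := by
    intro z hz
    obtain ⟨M, hM⟩ := exists_prime_over_nat (K := K) m
    have hz0 : z ≠ 0 := by
      rintro rfl
      rw [zero_pow hp.out.ne_zero] at hz
      exact hx0 hz.symm
    obtain ⟨k, hk⟩ := pVal_pow_p (p := p) (M := M) hz0
    rw [hz] at hk
    exact hram M hM k hk
  have H : Irreducible (X ^ p - C x) := X_pow_sub_C_irreducible_of_prime hp.out hx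
  have : Fact (Irreducible (X ^ p - C x)) := ⟨H⟩
  let F := AdjoinRoot (X ^ p - C x)
  have : Module.Finite K F := (AdjoinRoot.powerBasis H.ne_zero).finite
  have : NumberField F := NumberField.of_module_finite K F
  have hθ : (AdjoinRoot.root (X ^ p - C x)) ^ p = algebraMap K F x := by
    have := AdjoinRoot.eval₂_root (X ^ p - C x)
    simp only [eval₂_sub, eval₂_pow, eval₂_X, eval₂_C, sub_eq_zero] at this
    exact this
  have htop : IntermediateField.adjoin K {AdjoinRoot.root (X ^ p - C x)} = ⊤ := by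
    apply IntermediateField.adjoin_eq_top_of_algebra
    exact AdjoinRoot.adjoinRoot_eq_top
  have hζF : IsPrimitiveRoot (algebraMap K F ζ) p :=
    hζ.map_of_injective (algebraMap K F).injective
  exact cross_one_field (F := F) hζ (hFIA F _ hζF) hα hμ0 hθ htop hx
    (fun v hv => val_gaussPow hχ hχ1 hv) hm.out.ne_zero
    (hE m hpm χ hχ hχ1 F x _ hθ htop hx hram) q r hq hr hqp hrp hrα e he

omit [IsCyclotomicExtension {p} ℚ K] in
/-- choice of the exponent `j`. -/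
theorem exists_twist_lpv (hζ : IsPrimitiveRoot ζ p) {α μ : K} (hα : HAlpha p ζ α) (q : Pl K)
    (hq : q.valuation K (p : K) = 1) (hμ : q.valuation K μ = 1) (hgα : gs p ζ q α ≠ 0)
    (hsμ : sym p ζ q μ ≠ 0) : ∃ j : ℕ, ¬ p ∣ j ∧ LPv p ζ q (α * μ ^ j) := by
  have hμ0 : μ ≠ 0 := by
    rintro rfl
    simp at hμ
  refine ⟨(- gs p ζ q α / sym p ζ q μ).val, ?_, ?_⟩
  · rw [← ZMod.natCast_eq_zero_iff, ZMod.natCast_val, ZMod.cast_id', id]
    exact div_ne_zero (neg_ne_zero.2 hgα) hsμ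
  · rw [lpv_iff hζ q hq (mul_ne_zero hα.ne (pow_ne_zero _ hμ0))]
    constructor
    · rw [ord_mul q hα.ne (pow_ne_zero _ hμ0), ord_pow, (ord_eq_zero_iff q hμ0).2 hμ, mul_zero,
        add_zero]
      exact hα.dvd q
    · rw [gs_mul hζ q hα.ne (pow_ne_zero _ hμ0), gs_pow hζ, gs_of_unit q hμ, ZMod.natCast_val,
        ZMod.cast_id', id, div_mul_cancel₀ _ hsμ, add_neg_cancel]

omit [IsCyclotomicExtension {p} ℚ K] in
theorem lpv_of_unit_sym (hζ : IsPrimitiveRoot ζ p) (r : Pl K) (hr : r.valuation K (p : K) = 1)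
    {x : K} (hx : r.valuation K x = 1) (hs : sym p ζ r x = 0) : LPv p ζ r x := by
  have hx0 : x ≠ 0 := by
    rintro rfl
    simp at hx
  rw [lpv_iff hζ r hr hx0, (ord_eq_zero_iff r hx0).2 hx, gs_of_unit r hx]
  exact ⟨dvd_zero _, hs⟩

/-- **The crossing property.** -/
theorem cross_property (hζ : IsPrimitiveRoot ζ p)
    (hFIA : ∀ (F : Type) [Field F] [NumberField F] (ζ' : F), IsPrimitiveRoot ζ' p → FIAProp p F ζ')
    (hE : EShape p K ζ) {α : K} (hα : HAlpha p ζ α) (hnp : ∀ z : K, z ^ p ≠ α)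
    (q₁ q₂ : Pl K) (h1 : gs p ζ q₁ α ≠ 0) (h2 : gs p ζ q₂ α ≠ 0) :
    ∃ r : Pl K, gs p ζ r α ≠ 0 ∧
      (∀ e : ℤ, gs p ζ q₁ α = e * gs p ζ r α →
        Finsupp.single q₁ 1 - e • Finsupp.single r 1 ∈ Prin K ⊔ NG p ζ ∅ α) ∧
      (∀ e : ℤ, gs p ζ q₂ α = e * gs p ζ r α →
        Finsupp.single q₂ 1 - e • Finsupp.single r 1 ∈ Prin K ⊔ NG p ζ ∅ α) := by
  have hq1 : q₁.valuation K (p : K) = 1 := by
    by_contra h
    exact h1 (gs_of_val_p_ne q₁ h α)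
  have hq2 : q₂.valuation K (p : K) = 1 := by
    by_contra h
    exact h2 (gs_of_val_p_ne q₂ h α)
  obtain ⟨m₁, hm₁, χ₁, -, hpm₁, hqm₁, hχ₁, hχ₁', hs₁⟩ := exists_gauss_twist hζ q₁ hq1 ∅
  obtain ⟨m₂, hm₂, χ₂, hne, hpm₂, hqm₂, hχ₂, hχ₂', hs₂⟩ := exists_gauss_twist hζ q₂ hq2 {m₁}
  have h12 : m₁ ≠ m₂ := fun h => hne (by simp [h])
  set μ₁ : K := algebraMap (𝓞 K) K (gaussPow p χ₁) with hμ₁
  set μ₂ : K := algebraMap (𝓞 K) K (gaussPow p χ₂) with hμ₂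
  obtain ⟨j₁, hj₁, hl₁⟩ := exists_twist_lpv hζ hα q₁ hq1 (val_gaussPow hχ₁ hχ₁' hqm₁) h1 hs₁
  obtain ⟨j₂, hj₂, hl₂⟩ := exists_twist_lpv hζ hα q₂ hq2 (val_gaussPow hχ₂ hχ₂' hqm₂) h2 hs₂
  have hmm0 : ((m₁ : K) * (m₂ : K)) ≠ 0 :=
    mul_ne_zero (Nat.cast_ne_zero.2 hm₁.out.ne_zero) (Nat.cast_ne_zero.2 hm₂.out.ne_zero)
  have hx0 : ∀ i ∈ (Finset.univ : Finset (Fin 2)), (![α * μ₁ ^ j₁, α * μ₂ ^ j₂] i) ≠ 0 := by
    intro i _
    fin_cases i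
    · exact lpv_ne_zero hζ q₁ hl₁
    · exact lpv_ne_zero hζ q₂ hl₂
  obtain ⟨r, hrB, hrp, hrx, hrα, hrs⟩ := exists_sym_eq_zero_ne_zero hζ
    (Finset.univ : Finset (Fin 2)) ![α * μ₁ ^ j₁, α * μ₂ ^ j₂] hx0 α
    (twist_indep' hα.ne (pVal_of_halpha hα) hnp h12 hpm₁ hpm₂ hχ₁ hχ₁' hχ₂ hχ₂' hj₁ hj₂)
    {v | v.valuation K ((m₁ : K) * (m₂ : K)) ≠ 1} (finite_val_ne_one hmm0)
  have hrmm : r.valuation K ((m₁ : K) * (m₂ : K)) = 1 := by
    by_contra h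
    exact hrB h
  obtain ⟨hrm₁, hrm₂⟩ := val_mul_natCast_eq_one r m₁ m₂ hrmm
  have hgr : gs p ζ r α ≠ 0 := by
    rw [gs_of_unit r hrα]
    exact hrs
  have hr1 := hrx 0 (Finset.mem_univ _)
  have hr2 := hrx 1 (Finset.mem_univ _)
  simp only [Matrix.cons_val_zero, Matrix.cons_val_one] at hr1 hr2
  refine ⟨r, hgr, fun e he => ?_, fun e he => ?_⟩
  · exact cross_apply hζ hFIA hE hα m₁ hpm₁ χ₁ hχ₁ hχ₁' j₁ hj₁ q₁ r hl₁
      (lpv_of_unit_sym hζ r hrp hr1.1 hr1.2) (by rw [map_mul, hq1, hqm₁, one_mul])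
      (by rw [map_mul, hrp, hrm₁, one_mul]) hgr e he
  · exact cross_apply hζ hFIA hE hα m₂ hpm₂ χ₂ hχ₂ hχ₂' j₂ hj₂ q₂ r hl₂
      (lpv_of_unit_sym hζ r hrp hr2.1 hr2.2) (by rw [map_mul, hq2, hqm₂, one_mul])
      (by rw [map_mul, hrp, hrm₂, one_mul]) hgr e he

/-- **Theorem R**, with FI (unramified), FI_A and (E) as inputs. -/
theorem thmR_aux (hζ : IsPrimitiveRoot ζ p)
    (hFIA : ∀ (F : Type) [Field F] [NumberField F] (ζ' : F), IsPrimitiveRoot ζ' p → FIAProp p F ζ')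
    (hE : EShape p K ζ) {α : K} (hα : HAlpha p ζ α) (hnp : ∀ z : K, z ^ p ≠ α)
    (hFIU : ∃ D : Divs K, ∀ y : K, y ≠ 0 → D - dv y ∉ NG p ζ ∅ α)
    {β : K} (hβ : β ≠ 0) : phi p ζ α (dv β) = 0 :=
  thmR_of_cross hζ hα hFIU (cross_property hζ hFIA hE hα hnp) hβ

end cross

end Fermat.Agent.S14Lib
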