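/-
S14 library: the norm of divisors maps the symbolic norm group of `Y(α^(1/p))/Y` into the
symbolic norm group of `F(α^(1/p))/F` (for `α ∈ F` with `(H α)`).
The base change formula for `gs` is taken as a hypothesis (`GsBase`), to be discharged by
`gs_base` (S14/GsExt.lean).
-/
import Fermat.Agent.S14.Gs

set_option autoImplicit false

open IsDedekindDomain NumberField

namespace Fermat.Agent.S14Lib

section normNG

variable {F : Type*} [Field F] [NumberField F] {Y : Type*} [Field Y] [NumberField Y] [Algebra F Y]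

open Classical in
/-- value of the norm divisor as a sum over the support -/
theorem normDiv_apply_support (D : Divs Y) (v : Pl F) :
    normDiv F D v = ∑ w ∈ D.support, (if below F w = v then D w * (fDeg F w : ℤ) else 0) := by
  classical
  simp only [normDiv, Finsupp.liftAddHom_apply, Finsupp.sum, Finsupp.coe_finsetSum,
    Finset.sum_apply, zmultiplesHom_apply, Finsupp.smul_apply, Finsupp.single_apply, smul_eq_mul,
    mul_ite, mul_zero]

/-- a place where the norm divisor is not divisible by `n` lies below a place `w` where neither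
the divisor nor the residue degree is divisible by `n` -/
theorem exists_above_of_not_dvd_normDiv {n : ℤ} (D : Divs Y) (v : Pl F)
    (h : ¬ n ∣ normDiv F D v) :
    ∃ w : Pl Y, below F w = v ∧ ¬ n ∣ D w ∧ ¬ n ∣ (fDeg F w : ℤ) := by
  classical
  rw [normDiv_apply_support] at h
  by_contra hcon
  push Not at hcon
  apply h
  refine Finset.dvd_sum fun w _ => ?_
  split_ifs with hw
  · by_cases h1 : n ∣ D w
    · exact Dvd.dvd.mul_right h1 _
    · exact Dvd.dvd.mul_left (hcon w hw h1) _
  · exact dvd_zero _

variable {p : ℕ} [hp : Fact p.Prime] {ζ : F}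

/-- `normDiv` maps `NG_Y(α)` into `NG_F(α)`; `hbase` is the base change formula `gs_base`. -/
theorem normDiv_mem_NG_of_base (hz : IsPrimitiveRoot ζ p)
    (hbase : ∀ (w : Pl Y) {x : F}, x ≠ 0 → (p : ℤ) ∣ ord (below F w) x →
      gs p (algebraMap F Y ζ) w (algebraMap F Y x) = (fDeg F w : ZMod p) * gs p ζ (below F w) x)
    {α : F} (ha : HAlpha p ζ α) {B : Set (Pl Y)} {D : Divs Y}
    (hD : D ∈ NG p (algebraMap F Y ζ) B (algebraMap F Y α)) : normDiv F D ∈ NG p ζ ∅ α := by
  intro v hv
  refine ⟨Set.notMem_empty v, ?_⟩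
  obtain ⟨w, rfl, hw1, hw2⟩ := exists_above_of_not_dvd_normDiv D v hv
  have hzY : IsPrimitiveRoot (algebraMap F Y ζ) p := hz.map_of_injective (algebraMap F Y).injective
  have h0 := gs_eq_zero_of_lpv hzY w (hD w hw1).2
  rw [hbase w ha.ne (ha.dvd _)] at h0
  have hf : (fDeg F w : ZMod p) ≠ 0 := by
    intro h
    apply hw2
    rw [ZMod.natCast_eq_zero_iff] at h
    exact_mod_cast h
  exact lpv_of_gs_eq_zero hz ha _ ((mul_eq_zero.1 h0).resolve_left hf)

end normNG

end Fermat.Agent.S14Lib
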