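/-
S14 library: base change of the generalised symbol `gs` (for singular arguments).
-/
import Fermat.Agent.S14.NormNG

set_option autoImplicit false

open IsDedekindDomain NumberField

namespace Fermat.Agent.S14Lib

section gsbase

variable {F : Type*} [Field F] [NumberField F] {Y : Type*} [Field Y] [NumberField Y] [Algebra F Y]

instance below_liesOver (w : Pl Y) : w.asIdeal.LiesOver (below F w).asIdeal := ⟨rfl⟩

theorem inertiaDeg'_below (w : Pl Y) : (below F w).asIdeal.inertiaDeg' w.asIdeal = fDeg F w := by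
  have := (below F w).isMaximal
  have := w.isMaximal
  exact Ideal.inertiaDeg'_eq_inertiaDeg _ _

variable {p : ℕ} [hp : Fact p.Prime] {ζ : F}

theorem gs_base (hz : IsPrimitiveRoot ζ p) (w : Pl Y) {x : F} (hx : x ≠ 0)
    (hdvd : (p : ℤ) ∣ ord (below F w) x) :
    gs p (algebraMap F Y ζ) w (algebraMap F Y x) = (fDeg F w : ZMod p) * gs p ζ (below F w) x := by
  obtain ⟨k, hk⟩ := hdvd
  have hzY : IsPrimitiveRoot (algebraMap F Y ζ) p := hz.map_of_injective (algebraMap F Y).injective
  set v := below F w with hv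
  set c : F := unif v ^ (-k) with hc
  have hc0 : c ≠ 0 := zpow_ne_zero _ (unif_ne_zero v)
  have h1 : v.valuation F (x * c ^ p) = 1 := by
    rw [← ord_eq_zero_iff v (mul_ne_zero hx (pow_ne_zero _ hc0)), ord_mul v hx (pow_ne_zero _ hc0),
      ord_pow, hc, ord_zpow, ord_unif, hk]
    ring
  have h2 : w.valuation Y (algebraMap F Y x * (algebraMap F Y c) ^ p) = 1 := by
    rw [← map_pow, ← map_mul, val_algebraMap_eq_one_iff v w]
    exact h1
  rw [gs_eq_sym_of_unit_mul hz v hx hc0 h1,
    gs_eq_sym_of_unit_mul hzY w ((map_ne_zero _).2 hx) ((map_ne_zero _).2 hc0) h2,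
    ← map_pow, ← map_mul, sym_algebraMap hz v w, inertiaDeg'_below]

/-- `normDiv` maps `NG_Y(α)` into `NG_F(α)`. -/
theorem normDiv_mem_NG (hz : IsPrimitiveRoot ζ p) {α : F} (ha : HAlpha p ζ α) {B : Set (Pl Y)}
    {D : Divs Y} (hD : D ∈ NG p (algebraMap F Y ζ) B (algebraMap F Y α)) :
    normDiv F D ∈ NG p ζ ∅ α :=
  normDiv_mem_NG_of_base hz (fun w _ hx hd => gs_base hz w hx hd) ha hD

end gsbase

end Fermat.Agent.S14Lib
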