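import Fermat.Agent.S14.ClGen

/-!
# S14 : [L11b] valuation of a norm
-/

set_option autoImplicit false
set_option linter.style.haveILetI false
set_option linter.unusedSectionVars false

open NumberField IsDedekindDomain nonZeroDivisors

namespace Fermat.Agent.S14Lib

variable {K F : Type*} [Field K] [NumberField K] [Field F] [NumberField F] [Algebra K F]

theorem liesOver_iff_dvd_map (v : HeightOneSpectrum (𝓞 K)) (w : HeightOneSpectrum (𝓞 F)) :
    w.asIdeal.LiesOver v.asIdeal ↔ w.asIdeal ∣ v.asIdeal.map (algebraMap (𝓞 K) (𝓞 F)) := by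
  rw [Ideal.dvd_iff_le, Ideal.map_le_iff_le_comap]
  constructor
  · intro h
    exact h.over.le
  · intro h
    constructor
    haveI := v.isMaximal
    exact v.isMaximal.eq_of_le (Ideal.IsPrime.under (𝓞 K) w.asIdeal).ne_top h

theorem exists_finset_over (v : HeightOneSpectrum (𝓞 K)) :
    ∃ s : Finset (HeightOneSpectrum (𝓞 F)), ∀ w, w ∈ s ↔ w.asIdeal.LiesOver v.asIdeal := by
  have h0 : v.asIdeal.map (algebraMap (𝓞 K) (𝓞 F)) ≠ 0 :=
    Ideal.map_ne_bot_of_ne_bot v.ne_bot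
  have hfin := Ideal.finite_factors h0
  refine ⟨hfin.toFinset, fun w => ?_⟩
  rw [Set.Finite.mem_toFinset, liesOver_iff_dvd_map]
  rfl

open UniqueFactorizationMonoid in
theorem count_relNorm (v : HeightOneSpectrum (𝓞 K)) (s : Finset (HeightOneSpectrum (𝓞 F)))
    (hs : ∀ w, w ∈ s ↔ w.asIdeal.LiesOver v.asIdeal) (I : Ideal (𝓞 F)) (hI : I ≠ ⊥) :
    FractionalIdeal.count K v ((Ideal.relNorm (𝓞 K) I : Ideal (𝓞 K)) : FractionalIdeal (𝓞 K)⁰ K) =
      ∑ w ∈ s, (v.asIdeal.inertiaDeg' w.asIdeal : ℤ) *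
        FractionalIdeal.count F w (I : FractionalIdeal (𝓞 F)⁰ F) := by
  classical
  rw [← Ideal.prod_normalizedFactors_eq_self hI]
  refine (Multiset.prod_induction (fun I : Ideal (𝓞 F) => I ≠ ⊥ ∧
    FractionalIdeal.count K v ((Ideal.relNorm (𝓞 K) I : Ideal (𝓞 K)) : FractionalIdeal (𝓞 K)⁰ K) =
      ∑ w ∈ s, (v.asIdeal.inertiaDeg' w.asIdeal : ℤ) *
        FractionalIdeal.count F w (I : FractionalIdeal (𝓞 F)⁰ F)) _ ?_ ?_ ?_).2
  · rintro I J ⟨hI0, hI⟩ ⟨hJ0, hJ⟩
    refine ⟨mul_ne_zero hI0 hJ0, ?_⟩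
    have h1 : (Ideal.relNorm (𝓞 K) I : Ideal (𝓞 K)) ≠ ⊥ := by rwa [Ne, Ideal.relNorm_eq_bot_iff]
    have h2 : (Ideal.relNorm (𝓞 K) J : Ideal (𝓞 K)) ≠ ⊥ := by rwa [Ne, Ideal.relNorm_eq_bot_iff]
    rw [map_mul, FractionalIdeal.coeIdeal_mul, FractionalIdeal.count_mul K v
      (FractionalIdeal.coeIdeal_ne_zero.mpr h1) (FractionalIdeal.coeIdeal_ne_zero.mpr h2), hI, hJ,
      ← Finset.sum_add_distrib]
    apply Finset.sum_congr rfl
    intro w _
    rw [FractionalIdeal.coeIdeal_mul, FractionalIdeal.count_mul F w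
      (FractionalIdeal.coeIdeal_ne_zero.mpr hI0) (FractionalIdeal.coeIdeal_ne_zero.mpr hJ0), mul_add]
  · refine ⟨one_ne_zero, ?_⟩
    simp [FractionalIdeal.count_one]
  · intro Q hQ
    have hQ' : Q ≠ ⊥ := ne_zero_of_mem_normalizedFactors hQ
    refine ⟨hQ', ?_⟩
    rw [Ideal.mem_normalizedFactors_iff hI] at hQ
    haveI hQp : Q.IsPrime := hQ.1
    haveI : Q.IsMaximal := Ring.DimensionLEOne.maximalOfPrime hQ' hQ.1
    set P := Ideal.under (𝓞 K) Q with hP
    have hP0 : P ≠ ⊥ := Ideal.IsIntegral.comap_ne_bot (𝓞 K) hQ'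
    haveI hPp : P.IsPrime := Ideal.IsPrime.under (𝓞 K) Q
    haveI : P.IsMaximal := Ring.DimensionLEOne.maximalOfPrime hP0 hPp
    let wQ : HeightOneSpectrum (𝓞 F) := ⟨Q, hQp, hQ'⟩
    let vP : HeightOneSpectrum (𝓞 K) := ⟨P, hPp, hP0⟩
    have hcQ : ∀ w : HeightOneSpectrum (𝓞 F),
        FractionalIdeal.count F w (Q : FractionalIdeal (𝓞 F)⁰ F) = if wQ = w then 1 else 0 :=
      fun w => FractionalIdeal.count_maximal F w wQ
    have hcP : FractionalIdeal.count K v (P : FractionalIdeal (𝓞 K)⁰ K) = if vP = v then 1 else 0 :=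
      FractionalIdeal.count_maximal K v vP
    rw [Ideal.relNorm_eq_pow_of_isMaximal Q P, FractionalIdeal.coeIdeal_pow,
      FractionalIdeal.count_pow, hcP]
    simp only [hcQ, mul_ite, mul_one, mul_zero, Finset.sum_ite_eq]
    by_cases hv : vP = v
    · have hmem : wQ ∈ s := by
        rw [hs, ← hv]
        exact ⟨rfl⟩
      rw [if_pos hv, if_pos hmem, ← hv]
      haveI : wQ.asIdeal.LiesOver vP.asIdeal := ⟨rfl⟩
      haveI : vP.asIdeal.IsMaximal := ‹P.IsMaximal›
      haveI : wQ.asIdeal.IsMaximal := ‹Q.IsMaximal›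
      rw [Ideal.inertiaDeg'_eq_inertiaDeg vP.asIdeal wQ.asIdeal]
    · have hmem : wQ ∉ s := by
        rw [hs]
        intro h
        apply hv
        ext1
        exact h.over.symm
      rw [if_neg hv, if_neg hmem]

theorem exp_finset_sum {ι : Type*} (s : Finset ι) (f : ι → ℤ) :
    WithZero.exp (∑ i ∈ s, f i) = ∏ i ∈ s, WithZero.exp (f i) := by
  classical
  induction s using Finset.induction_on with
  | empty => simp
  | insert a s ha ih => rw [Finset.sum_insert ha, Finset.prod_insert ha, WithZero.exp_add, ih]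

theorem val_norm_eq_prod_int (v : HeightOneSpectrum (𝓞 K)) (s : Finset (HeightOneSpectrum (𝓞 F)))
    (hs : ∀ w, w ∈ s ↔ w.asIdeal.LiesOver v.asIdeal) (a : 𝓞 F) (ha : a ≠ 0) :
    v.valuation K (Algebra.norm K (a : F)) =
      ∏ w ∈ s, (w.valuation F (a : F)) ^ (v.asIdeal.inertiaDeg' w.asIdeal) := by
  have h1 : Algebra.norm K (a : F) = algebraMap (𝓞 K) K (Algebra.intNorm (𝓞 K) (𝓞 F) a) :=
    (Algebra.algebraMap_intNorm (A := 𝓞 K) (K := K) (L := F) (B := 𝓞 F) a).symm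
  have hn0 : Algebra.intNorm (𝓞 K) (𝓞 F) a ≠ 0 := by
    rwa [Ne, Algebra.intNorm_eq_zero]
  have hI : Ideal.span {a} ≠ ⊥ := by rwa [Ne, Ideal.span_singleton_eq_bot]
  rw [h1, v.valuation_of_algebraMap, intValuation_eq_exp_neg_count (K := K) v hn0,
    ← Ideal.relNorm_singleton, count_relNorm v s hs _ hI, ← Finset.sum_neg_distrib,
    exp_finset_sum]
  apply Finset.prod_congr rfl
  intro w _
  have h2 : w.valuation F (a : F) = w.intValuation a := w.valuation_of_algebraMap a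
  rw [h2, intValuation_eq_exp_neg_count (K := F) w ha, ← WithZero.exp_nsmul]
  congr 1
  simp

theorem val_norm_eq_prod (v : HeightOneSpectrum (𝓞 K)) (s : Finset (HeightOneSpectrum (𝓞 F)))
    (hs : ∀ w, w ∈ s ↔ w.asIdeal.LiesOver v.asIdeal) (β : F) :
    v.valuation K (Algebra.norm K β) =
      ∏ w ∈ s, (w.valuation F β) ^ (v.asIdeal.inertiaDeg' w.asIdeal) := by
  by_cases hβ : β = 0
  · subst hβ
    haveI := v.isMaximal
    obtain ⟨Q, hQmax, hQv⟩ :=
      Ideal.exists_maximal_ideal_liesOver_of_isIntegral (S := 𝓞 F) v.asIdeal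
    have hQ0 : Q ≠ ⊥ := by
      intro h0
      have h1 := hQv.over
      rw [h0] at h1
      apply v.ne_bot
      rw [h1]
      exact Ideal.under_bot _ _
    let w : HeightOneSpectrum (𝓞 F) := ⟨Q, hQmax.isPrime, hQ0⟩
    have hw : w ∈ s := (hs w).mpr hQv
    have hf : v.asIdeal.inertiaDeg' w.asIdeal ≠ 0 := by
      haveI : w.asIdeal.LiesOver v.asIdeal := hQv
      exact Ideal.inertiaDeg'_ne_zero _ _
    rw [Algebra.norm_zero, map_zero]
    symm
    apply Finset.prod_eq_zero hw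
    rw [map_zero, zero_pow hf]
  · obtain ⟨a, b, hb, rfl⟩ := IsFractionRing.div_surjective (A := 𝓞 F) β
    have hb0 : b ≠ 0 := nonZeroDivisors.ne_zero hb
    have ha0 : a ≠ 0 := by
      rintro rfl
      simp at hβ
    have hb0' : algebraMap (𝓞 F) F b ≠ 0 := by
      rwa [Ne, FaithfulSMul.algebraMap_eq_zero_iff]
    have hdiv : Algebra.norm K (algebraMap (𝓞 F) F a / algebraMap (𝓞 F) F b) =
        Algebra.norm K (algebraMap (𝓞 F) F a) / Algebra.norm K (algebraMap (𝓞 F) F b) := by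
      rw [eq_div_iff (Algebra.norm_ne_zero_iff.mpr hb0'), ← map_mul, div_mul_cancel₀ _ hb0']
    rw [hdiv, map_div₀]
    have h1 := val_norm_eq_prod_int v s hs a ha0
    have h2 := val_norm_eq_prod_int v s hs b hb0
    rw [show algebraMap (𝓞 F) F a = (a : F) from rfl, show algebraMap (𝓞 F) F b = (b : F) from rfl,
      h1, h2, ← Finset.prod_div_distrib]
    apply Finset.prod_congr rfl
    intro w _
    rw [map_div₀, div_pow]

end Fermat.Agent.S14Lib
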