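import Fermat.Agent.S14.NormNG
import Fermat.Agent.S14.NormVal

/-!
# S14 : the norm of a principal divisor
-/

set_option autoImplicit false
set_option linter.style.haveILetI false
set_option linter.unusedSectionVars false

open NumberField IsDedekindDomain

namespace Fermat.Agent.S14Lib

variable {F : Type*} [Field F] [NumberField F] {Y : Type*} [Field Y] [NumberField Y] [Algebra F Y]

theorem below_eq_iff_liesOver (w : Pl Y) (v : Pl F) :
    below F w = v ↔ w.asIdeal.LiesOver v.asIdeal := by
  constructor
  · rintro rfl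
    exact ⟨rfl⟩
  · intro h
    exact HeightOneSpectrum.ext h.over.symm

theorem normDiv_dv (y : Y) (hy : y ≠ 0) : normDiv F (dv y) = dv (Algebra.norm F y) := by
  classical
  ext v
  obtain ⟨s, hs⟩ := exists_finset_over (K := F) (F := Y) v
  have hN0 : Algebra.norm F y ≠ 0 := Algebra.norm_ne_zero_iff.mpr hy
  have h1 := val_norm_eq_prod v s hs y
  have h2 : ∀ w ∈ s, (w.valuation Y y) ^ (v.asIdeal.inertiaDeg' w.asIdeal) =
      WithZero.exp (-(ord w y * (fDeg F w : ℤ))) := by
    intro w hw
    haveI : w.asIdeal.LiesOver v.asIdeal := (hs w).mp hw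
    haveI := v.isMaximal
    haveI := w.isMaximal
    rw [Ideal.inertiaDeg'_eq_inertiaDeg v.asIdeal w.asIdeal, val_eq_exp_neg_ord w hy,
      ← WithZero.exp_nsmul]
    congr 1
    simp only [fDeg, nsmul_eq_mul]
    ring
  rw [Finset.prod_congr rfl h2, ← exp_finset_sum, Finset.sum_neg_distrib] at h1
  rw [dv_apply, ord_eq_of_val_eq v h1, normDiv_apply_support]
  simp only [dv_apply]
  rw [← Finset.sum_filter]
  apply Finset.sum_subset_zero_on_sdiff
  · intro w hw
    rw [Finset.mem_filter] at hw
    exact (hs w).mpr ((below_eq_iff_liesOver w v).mp hw.2)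
  · intro w hw
    rw [Finset.mem_sdiff, Finset.mem_filter, not_and] at hw
    have h3 : w ∉ (dv y).support := by
      intro h4
      exact hw.2 h4 ((below_eq_iff_liesOver w v).mpr ((hs w).mp hw.1))
    rw [Finsupp.notMem_support_iff, dv_apply] at h3
    rw [h3, zero_mul]
  · intro w _
    rfl

end Fermat.Agent.S14Lib
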