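import Fermat.Agent.S14.SUnits

/-!
# S14, leaf L9: the `S`-unit count in the shape used by L10
-/

open IsDedekindDomain NumberField WithZero

namespace Fermat.Agent.S14Lib

theorem card_quot_range_pow_eq_qIdx {G : Type*} [CommGroup G] (p : ℕ) (H : Subgroup G) :
    Nat.card (H ⧸ (powMonoidHom p : H →* H).range) = qIdx p H := by
  have h1 : (powSub p H).subgroupOf H = (powMonoidHom p : H →* H).range := by
    ext x
    rw [Subgroup.mem_subgroupOf, mem_powSub]
    constructor
    · rintro ⟨h, hh, hx⟩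
      exact ⟨⟨h, hh⟩, Subtype.ext hx⟩
    · rintro ⟨y, rfl⟩
      exact ⟨y.1, y.2, rfl⟩
  show _ = ((powSub p H).subgroupOf H).index
  rw [h1, Subgroup.index_eq_card]

variable {F : Type*} [Field F] [NumberField F]

theorem SU_eq_unit (S : Finset (HeightOneSpectrum (𝓞 F))) :
    SU S = (S : Set (HeightOneSpectrum (𝓞 F))).unit F := by
  ext x
  rw [mem_SU]
  rfl

/-- (SUNIT), exact form. -/
theorem card_unit_quot_eq {p : ℕ} (hp : p.Prime) {ζ : F} (hζ : IsPrimitiveRoot ζ p)
    (S : Finset (HeightOneSpectrum (𝓞 F))) :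
    Nat.card (((S : Set (HeightOneSpectrum (𝓞 F))).unit F) ⧸
      (powMonoidHom p : ((S : Set (HeightOneSpectrum (𝓞 F))).unit F) →* _).range)
      = p ^ (S.card + Units.rank F + 1) := by
  rw [card_quot_range_pow_eq_qIdx, ← SU_eq_unit, qIdx_SU_eq hp hζ]

/-- (SUNIT), the shape requested for L10. -/
theorem card_unit_quot_ge {p : ℕ} (hp : p.Prime) {ζ : F} (hζ : IsPrimitiveRoot ζ p)
    (S : Finset (HeightOneSpectrum (𝓞 F))) (r : ℕ) (hr : 2 * r = Module.finrank ℚ F) :
    p ^ (S.card + r) ≤ Nat.card (((S : Set (HeightOneSpectrum (𝓞 F))).unit F) ⧸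
      (powMonoidHom p : ((S : Set (HeightOneSpectrum (𝓞 F))).unit F) →* _).range) := by
  rw [card_unit_quot_eq hp hζ]
  have := two_mul_rank_add_two_ge (F := F)
  exact Nat.pow_le_pow_right hp.pos (by omega)

end Fermat.Agent.S14Lib
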