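import Mathlib
import Fermat.Agent.S14.SIData
import Fermat.Agent.S14.ClGen
import Fermat.Agent.S14.Approx
import Fermat.Agent.S14.SUnits2

/-!
# S14, leaf L10 : the second inequality (SI)
-/

set_option autoImplicit false

namespace Fermat.Agent.S14Lib

open IsDedekindDomain NumberField WithZero

universe u

variable {F : Type u} [Field F] [NumberField F]

/-- `D ∈ P + NG B α` : up to a principal divisor, every coefficient of `D` is divisible by `p`
except at primes outside `B` which split in `F(α^(1/p))`. -/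
def SiInPN (p : ℕ) (ζ : F) (B : Finset (HeightOneSpectrum (𝓞 F))) (α : F)
    (D : HeightOneSpectrum (𝓞 F) →₀ ℤ) : Prop :=
  ∃ y : Fˣ, ∀ q, ¬ (p : ℤ) ∣ (D q - siOrd q y) → q ∉ B ∧ SiLP p ζ q α

/-- the subgroup `P + NG B α` of the group of divisors. -/
def pnSub (p : ℕ) (ζ : F) (B : Finset (HeightOneSpectrum (𝓞 F))) (α : F) :
    AddSubgroup (HeightOneSpectrum (𝓞 F) →₀ ℤ) where
  carrier := {D | SiInPN p ζ B α D}
  zero_mem' := ⟨1, fun q h => absurd (by simp [siOrd_one]) h⟩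
  add_mem' := by
    rintro D D' ⟨y, hy⟩ ⟨y', hy'⟩
    refine ⟨y * y', fun q h => ?_⟩
    by_cases h1 : (p : ℤ) ∣ D q - siOrd q y
    · refine hy' q fun h2 => h ?_
      have : (D + D') q - siOrd q (y * y') = (D q - siOrd q y) + (D' q - siOrd q y') := by
        rw [siOrd_mul, Finsupp.add_apply]; ring
      rw [this]
      exact dvd_add h1 h2
    · exact hy q h1
  neg_mem' := by
    rintro D ⟨y, hy⟩
    refine ⟨y⁻¹, fun q h => hy q fun h1 => h ?_⟩
    have : (-D) q - siOrd q y⁻¹ = -(D q - siOrd q y) := by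
      rw [siOrd_inv, Finsupp.neg_apply]; ring
    rw [this]
    exact (dvd_neg).2 h1

theorem mem_pnSub {p : ℕ} {ζ : F} {B : Finset (HeightOneSpectrum (𝓞 F))} {α : F}
    {D : HeightOneSpectrum (𝓞 F) →₀ ℤ} : D ∈ pnSub p ζ B α ↔ SiInPN p ζ B α D := Iff.rfl

open Classical in
/-- the map `Θ`. -/
noncomputable def siTheta (p : ℕ) (ζ : F) (B : Finset (HeightOneSpectrum (𝓞 F))) (α : F)
    (S : Finset (HeightOneSpectrum (𝓞 F))) :
    Fˣ →* Multiplicative ((HeightOneSpectrum (𝓞 F) →₀ ℤ) ⧸ pnSub p ζ B α) :=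
  MonoidHom.mk' (fun y => Multiplicative.ofAdd
    (QuotientAddGroup.mk (Finsupp.filter (· ∈ S) (siDiv y)))) (fun x y => by
      rw [siDiv_mul, Finsupp.filter_add, QuotientAddGroup.mk_add, ofAdd_add])

open Classical in
theorem mem_ker_siTheta {p : ℕ} {ζ : F} {B : Finset (HeightOneSpectrum (𝓞 F))} {α : F}
    {S : Finset (HeightOneSpectrum (𝓞 F))} {y : Fˣ} :
    y ∈ (siTheta p ζ B α S).ker ↔ SiInPN p ζ B α (Finsupp.filter (· ∈ S) (siDiv y)) := by
  rw [MonoidHom.mem_ker, ← mem_pnSub, ← QuotientAddGroup.eq_zero_iff]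
  rfl

theorem siTheta_surjective {p : ℕ} {ζ : F} {B : Finset (HeightOneSpectrum (𝓞 F))} {α : F}
    {S : Finset (HeightOneSpectrum (𝓞 F))}
    (hcl : ∀ D : HeightOneSpectrum (𝓞 F) →₀ ℤ, ∃ y : Fˣ, ∀ v ∉ S,
      v.valuation F (y : F) = exp (-(D v)))
    (hap : ∀ n : HeightOneSpectrum (𝓞 F) → ℤ, ∃ y : Fˣ, ∀ v ∈ S,
      v.valuation F (y : F) = exp (-(n v))) :
    Function.Surjective (siTheta p ζ B α S) := by
  classical
  intro c
  obtain ⟨D, hD⟩ := QuotientAddGroup.mk_surjective (Multiplicative.toAdd c)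
  obtain ⟨y', hy'⟩ := hcl D
  obtain ⟨y, hy⟩ := hap (fun v => D v - siOrd v y')
  refine ⟨y, ?_⟩
  have hc : c = Multiplicative.ofAdd (QuotientAddGroup.mk D) := by rw [hD]; rfl
  rw [hc]
  change Multiplicative.ofAdd (QuotientAddGroup.mk (Finsupp.filter (· ∈ S) (siDiv y))) = _
  apply congrArg Multiplicative.ofAdd
  rw [QuotientAddGroup.eq, mem_pnSub]
  refine ⟨y', fun q h => absurd ?_ h⟩
  have : (-(Finsupp.filter (· ∈ S) (siDiv y)) + D) q - siOrd q y' = 0 := by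
    rw [Finsupp.add_apply, Finsupp.neg_apply, Finsupp.filter_apply]
    by_cases hq : q ∈ S
    · rw [if_pos hq, siDiv_apply, (siOrd_eq_iff q y _).2 (hy q hq)]; ring
    · rw [if_neg hq, (siOrd_eq_iff q y' _).2 (hy' q hq)]; ring
  rw [this]
  exact dvd_zero _

theorem siInPN_filter_of_forall_dvd {p : ℕ} {ζ : F} {B : Finset (HeightOneSpectrum (𝓞 F))} {α : F}
    {S : Finset (HeightOneSpectrum (𝓞 F))} [DecidablePred (· ∈ S)] {x : Fˣ}
    (h : ∀ v ∈ S, (p : ℤ) ∣ siOrd v x) :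
    SiInPN p ζ B α (Finsupp.filter (· ∈ S) (siDiv x)) := by
  refine ⟨1, fun q hq => absurd ?_ hq⟩
  rw [siOrd_one, sub_zero, Finsupp.filter_apply]
  split_ifs with hqS
  · exact h q hqS
  · exact dvd_zero _

theorem siInPN_filter_of_outside {p : ℕ} {ζ : F} {B : Finset (HeightOneSpectrum (𝓞 F))} {α : F}
    {S : Finset (HeightOneSpectrum (𝓞 F))} [DecidablePred (· ∈ S)] {x : Fˣ}
    (h : ∀ v ∉ S, siOrd v x ≠ 0 → v ∉ B ∧ SiLP p ζ v α) :
    SiInPN p ζ B α (Finsupp.filter (· ∈ S) (siDiv x)) := by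
  refine ⟨x, fun q hq => ?_⟩
  rw [Finsupp.filter_apply] at hq
  split_ifs at hq with hqS
  · exact absurd (by simp) hq
  · refine h q hqS fun h0 => hq ?_
    rw [h0]; simp

theorem SI_card_aux {p : ℕ} [hp : Fact p.Prime] {ζ : F} (hζ : IsPrimitiveRoot ζ p)
    (hFI : FIAProp p F ζ) (α : Fˣ) (hα : ∀ z : Fˣ, z ^ p ≠ α)
    (B S : Finset (HeightOneSpectrum (𝓞 F))) (hBS : B ⊆ S)
    (hSp : ∀ v : HeightOneSpectrum (𝓞 F), v.valuation F (p : F) ≠ 1 → v ∈ S)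
    (hαS : ∀ v ∉ S, siOrd v α = 0)
    (hcl : ∀ D : HeightOneSpectrum (𝓞 F) →₀ ℤ, ∃ y : Fˣ, ∀ v ∉ S,
      v.valuation F (y : F) = exp (-(D v)))
    (hap : ∀ n : HeightOneSpectrum (𝓞 F) → ℤ, ∃ y : Fˣ, ∀ v ∈ S,
      v.valuation F (y : F) = exp (-(n v)))
    (r : ℕ) (hr : Module.finrank ℚ F ≤ 2 * r)
    (hcard : p ^ (S.card + r) ≤ Nat.card (((S : Set (HeightOneSpectrum (𝓞 F))).unit F) ⧸
      (powMonoidHom p : ((S : Set (HeightOneSpectrum (𝓞 F))).unit F) →*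
        ((S : Set (HeightOneSpectrum (𝓞 F))).unit F)).range)) :
    Nat.card ((HeightOneSpectrum (𝓞 F) →₀ ℤ) ⧸ pnSub p ζ B (α : F)) ≠ 0 ∧
      Nat.card ((HeightOneSpectrum (𝓞 F) →₀ ℤ) ⧸ pnSub p ζ B (α : F)) ≤ p := by
  classical
  choose c hc using lc_exists_val_one_sub hp.out hζ
  let M : HeightOneSpectrum (𝓞 F) → ℕ := fun v => p * c v + 1
  obtain ⟨hidx, hidx0⟩ := index_iInf_LPsub_le hp.out hζ S M (fun v _ => by simp [M])
  have hr1 : 1 ≤ r := by
    have : 0 < Module.finrank ℚ F := Module.finrank_pos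
    omega
  obtain ⟨n, hn⟩ : ∃ n, n + 1 = S.card + r := ⟨S.card + r - 1, by omega⟩
  obtain ⟨d⟩ := exists_SIData hζ α hα S hαS hcl n (by rw [hn]; exact hcard)
  let g : Option (Fin n) ⊕ Fin n → Fˣ := Sum.elim (fun o => o.elim α d.u) d.π
  have hprod : ∀ e : Option (Fin n) ⊕ Fin n → ℤ, ∏ i, g i ^ e i =
      d.elt (e (Sum.inl none)) (fun j => e (Sum.inl (some j))) (fun j => e (Sum.inr j)) := by
    intro e
    rw [Fintype.prod_sum_type, Fintype.prod_option]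
    rfl
  have hmemLP : ∀ x : Fˣ, x ∈ (⨅ v : S, LPsub p v.1 (M v.1)) → ∀ v ∈ S, x ∈ LPsub p v (M v) := by
    intro x hx v hv
    exact (Subgroup.mem_iInf.1 hx) ⟨v, hv⟩
  have hker : (⨅ v : S, LPsub p v.1 (M v.1)) ≤ (siTheta p ζ B (α : F) S).ker := by
    intro x hx
    rw [mem_ker_siTheta]
    exact siInPN_filter_of_forall_dvd fun v hv => dvd_siOrd_of_mem_LPsub (hmemLP x hx v hv)
  have hg : ∀ i, g i ∈ (siTheta p ζ B (α : F) S).ker := by
    intro i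
    rw [mem_ker_siTheta]
    apply siInPN_filter_of_outside
    intro v hv hne
    rcases i with (_ | j) | j
    · exact absurd (d.hαS v hv) hne
    · exact absurd (d.huS j v hv) hne
    · have hvq : v = d.q j := by
        by_contra h
        exact hne (d.hπ0 j v hv h)
      subst hvq
      refine ⟨fun h => hv (hBS h), siLP_of_sym_eq_zero hζ (d.hqp j) ?_ (d.hqα j)⟩
      exact (siOrd_eq_zero_iff _ _).1 (d.hαS _ hv)
  have hind : ∀ e : Option (Fin n) ⊕ Fin n → ℤ,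
      ∏ i, g i ^ e i ∈ (⨅ v : S, LPsub p v.1 (M v.1)) → ∀ i, (p : ℤ) ∣ e i := by
    intro e he i
    rw [hprod] at he
    obtain ⟨h1, h2, h3⟩ := d.indep_mod_LP hζ hFI hSp hcl _ _ _
      (fun v hv => siLP_of_mem_LPsub (hc v) (hmemLP _ he v hv))
    rcases i with (_ | j) | j
    · exact h1
    · exact h2 j
    · exact h3 j
  have hsurj := siTheta_surjective (p := p) (ζ := ζ) (B := B) (α := (α : F)) hcl hap
  have h1 := abs_count p _ _ hidx0 hidx (siTheta p ζ B (α : F) S) hsurj hker g hg hind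
  have h0 := abs_card_ne_zero _ hidx0 (siTheta p ζ B (α : F) S) hsurj hker
  have hX : Nat.card (Multiplicative ((HeightOneSpectrum (𝓞 F) →₀ ℤ) ⧸ pnSub p ζ B (α : F))) =
      Nat.card ((HeightOneSpectrum (𝓞 F) →₀ ℤ) ⧸ pnSub p ζ B (α : F)) := rfl
  rw [hX] at h0 h1
  refine ⟨h0, ?_⟩
  have hcardι : Fintype.card (Option (Fin n) ⊕ Fin n) = 2 * n + 1 := by
    simp; omega
  have h2 : p ^ (2 * S.card + Module.finrank ℚ F) ≤ p ^ ((2 * n + 1) + 1) :=
    Nat.pow_le_pow_right hp.out.pos (by omega)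
  have h3 := h1.trans h2
  rw [hcardι, pow_succ p (2 * n + 1), mul_comm (p ^ (2 * n + 1)) p] at h3
  exact Nat.le_of_mul_le_mul_right h3 (pow_pos hp.out.pos _)

/-- **SI**, cardinality form. -/
theorem SI_card {p : ℕ} [hp : Fact p.Prime] {ζ : F} (hζ : IsPrimitiveRoot ζ p)
    (hFI : FIAProp p F ζ)
    (α : Fˣ) (hα : ∀ z : Fˣ, z ^ p ≠ α) (B : Finset (HeightOneSpectrum (𝓞 F))) :
    Nat.card ((HeightOneSpectrum (𝓞 F) →₀ ℤ) ⧸ pnSub p ζ B (α : F)) ≠ 0 ∧
      Nat.card ((HeightOneSpectrum (𝓞 F) →₀ ℤ) ⧸ pnSub p ζ B (α : F)) ≤ p := by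
  classical
  have hpF : (p : F) ≠ 0 := Nat.cast_ne_zero.2 hp.out.ne_zero
  obtain ⟨S, hS, hcl⟩ := exists_clgen (B ∪ (finite_val_ne_one hpF).toFinset ∪
    (finite_val_ne_one α.ne_zero).toFinset)
  refine SI_card_aux hζ hFI α hα B S ?_ ?_ ?_ hcl (exists_val_eq S) (Units.rank F + 1)
    two_mul_rank_add_two_ge (by rw [card_unit_quot_eq hp.out hζ, add_assoc])
  · exact fun v hv => hS (by simp [hv])
  · intro v hv
    exact hS (by simp [hv])
  · intro v hv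
    rw [siOrd_eq_zero_iff]
    by_contra h
    exact hv (hS (by simp [h]))

/-- **SI**: `Div / (P + NG B α)` is generated by any nonzero element. -/
theorem SI_main {p : ℕ} [hp : Fact p.Prime] {ζ : F} (hζ : IsPrimitiveRoot ζ p)
    (hFI : FIAProp p F ζ)
    (α : Fˣ) (hα : ∀ z : Fˣ, z ^ p ≠ α) (B : Finset (HeightOneSpectrum (𝓞 F)))
    (D0 : HeightOneSpectrum (𝓞 F) →₀ ℤ) (hD0 : ¬ SiInPN p ζ B (α : F) D0)
    (D : HeightOneSpectrum (𝓞 F) →₀ ℤ) : ∃ k : ℤ, SiInPN p ζ B (α : F) (D - k • D0) := by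
  obtain ⟨h0, hle⟩ := SI_card hζ hFI α hα B
  have hexp : ∀ x : Multiplicative ((HeightOneSpectrum (𝓞 F) →₀ ℤ) ⧸ pnSub p ζ B (α : F)),
      x ^ p = 1 := by
    intro x
    obtain ⟨E, hE⟩ := QuotientAddGroup.mk_surjective (Multiplicative.toAdd x)
    have hx : x = Multiplicative.ofAdd (QuotientAddGroup.mk E) := by rw [hE]; rfl
    rw [hx, ← ofAdd_nsmul, ← QuotientAddGroup.mk_nsmul]
    apply congrArg Multiplicative.ofAdd
    rw [QuotientAddGroup.eq_zero_iff, mem_pnSub]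
    refine ⟨1, fun q hq => absurd ?_ hq⟩
    rw [siOrd_one, sub_zero, Finsupp.smul_apply, nsmul_eq_mul]
    exact dvd_mul_right _ _
  have hx0 : (Multiplicative.ofAdd (QuotientAddGroup.mk D0) :
      Multiplicative ((HeightOneSpectrum (𝓞 F) →₀ ℤ) ⧸ pnSub p ζ B (α : F))) ≠ 1 := by
    intro h
    apply hD0
    rw [← mem_pnSub, ← QuotientAddGroup.eq_zero_iff]
    exact h
  obtain ⟨k, hk⟩ := Subgroup.mem_zpowers_iff.1 (mem_zpowers_of_card_le
    (X := Multiplicative ((HeightOneSpectrum (𝓞 F) →₀ ℤ) ⧸ pnSub p ζ B (α : F))) p h0 hle hexp hx0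
    (Multiplicative.ofAdd (QuotientAddGroup.mk D)))
  refine ⟨k, ?_⟩
  rw [← mem_pnSub, ← QuotientAddGroup.eq_zero_iff, QuotientAddGroup.mk_sub,
    QuotientAddGroup.mk_zsmul, sub_eq_zero]
  rw [← ofAdd_zsmul] at hk
  exact (Multiplicative.ofAdd.injective hk).symm

end Fermat.Agent.S14Lib
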