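import Mathlib
import Fermat.Agent.S14.SI
import Fermat.Agent.S14.Defs
import Fermat.Agent.S14.CrossDefs

/-!
# S14, leaf L10 : SI in the two shapes used by the consumers
-/

set_option autoImplicit false

namespace Fermat.Agent.S14Lib

open IsDedekindDomain NumberField WithZero

universe u

section Shape1

variable {F : Type u} [Field F] [NumberField F] {p : ℕ} [hp : Fact p.Prime] {ζ : F}

theorem siOrd_eq_ord (v : HeightOneSpectrum (𝓞 F)) (y : Fˣ) : siOrd v y = ord v (y : F) := rfl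

/-- **[SI]** in the shape of `S14/Skeleton.lean` (with `FI_A` as a hypothesis). -/
theorem si_of_FIA (hζ : IsPrimitiveRoot ζ p) (hFI : FIAProp p F ζ) {α : F}
    (hnp : ∀ z : F, z ^ p ≠ α) (B : Finset (Pl F))
    (D₀ D : Divs F) (h0 : ∀ y : F, y ≠ 0 → D₀ - dv y ∉ NG p ζ (B : Set (Pl F)) α) :
    ∃ (k : ℤ) (y : F), y ≠ 0 ∧ D - k • D₀ - dv y ∈ NG p ζ (B : Set (Pl F)) α := by
  have hα0 : α ≠ 0 := by
    rintro rfl
    exact hnp 0 (zero_pow hp.out.ne_zero)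
  have hα : ∀ z : Fˣ, z ^ p ≠ Units.mk0 α hα0 := by
    intro z hz
    exact hnp z (by simpa using congrArg Units.val hz)
  have hD0 : ¬ SiInPN p ζ B ((Units.mk0 α hα0 : Fˣ) : F) D₀ := by
    rintro ⟨y, hy⟩
    refine h0 y y.ne_zero fun q hq => ?_
    obtain ⟨h1, h2⟩ := hy q hq
    exact ⟨by simpa using h1, h2⟩
  obtain ⟨k, y, hy⟩ := SI_main hζ hFI (Units.mk0 α hα0) hα B D₀ hD0 D
  refine ⟨k, y, y.ne_zero, fun q hq => ?_⟩
  obtain ⟨h1, h2⟩ := hy q hq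
  exact ⟨by simpa using h1, h2⟩

end Shape1

section Shape2

variable {F : Type u} [Field F] [NumberField F] {p : ℕ} [hp : Fact p.Prime] {ζ : F}

theorem siInPN_iff_inPN (hζ : IsPrimitiveRoot ζ p) {α : F}
    (B : Set (HeightOneSpectrum (𝓞 F))) (B' : Finset (HeightOneSpectrum (𝓞 F)))
    (hB' : ∀ v, v ∈ B' ↔ v ∈ B ∨ v.valuation F (p : F) ≠ 1 ∨ v.valuation F α ≠ 1)
    (D : HeightOneSpectrum (𝓞 F) →₀ ℤ) :
    SiInPN p ζ B' α D ↔ InPN p ζ α B D := by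
  constructor
  · rintro ⟨y, hy⟩
    refine ⟨y, y.ne_zero, fun w => ?_⟩
    by_cases h : (p : ℤ) ∣ D w - siOrd w y
    · exact Or.inl h
    · obtain ⟨h1, z, hz, hz'⟩ := hy w h
      rw [hB'] at h1
      push Not at h1
      refine Or.inr ⟨h1.1, h1.2.1, h1.2.2, ?_⟩
      rw [sym_eq_zero_iff hζ h1.2.1 h1.2.2]
      refine ⟨z, hz, lt_of_lt_of_le hz' ?_⟩
      obtain ⟨c, hc⟩ := lc_exists_val_one_sub hp.out hζ w
      refine pow_le_one₀ zero_le ?_
      rw [hc, ← exp_zero, exp_le_exp]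
      omega
  · rintro ⟨y, hy0, hy⟩
    refine ⟨Units.mk0 y hy0, fun q hq => ?_⟩
    rcases hy q with h | ⟨h1, h2, h3, h4⟩
    · exact absurd h hq
    · refine ⟨?_, siLP_of_sym_eq_zero hζ h2 h3 h4⟩
      rw [hB']
      push Not
      exact ⟨h1, h2, h3⟩

/-- **SI** in the shape of `S14/CrossDefs.lean` (with `FI_A` as a hypothesis). -/
theorem siProp_of_FIA (hFI : ∀ (F : Type) [Field F] [NumberField F] (ζ : F),
    IsPrimitiveRoot ζ p → FIAProp p F ζ) : SIProp p := by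
  classical
  intro F _ _ ζ hζ α _ hnp B hB D0 D hD0
  have hα0 : α ≠ 0 := by
    rintro rfl
    exact hnp 0 (zero_pow hp.out.ne_zero)
  have hα : ∀ z : Fˣ, z ^ p ≠ Units.mk0 α hα0 := by
    intro z hz
    exact hnp z (by simpa using congrArg Units.val hz)
  have hpF : (p : F) ≠ 0 := Nat.cast_ne_zero.2 hp.out.ne_zero
  set B' : Finset (HeightOneSpectrum (𝓞 F)) :=
    hB.toFinset ∪ (finite_val_ne_one hpF).toFinset ∪ (finite_val_ne_one hα0).toFinset with hB'def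
  have hB' : ∀ v, v ∈ B' ↔ v ∈ B ∨ v.valuation F (p : F) ≠ 1 ∨ v.valuation F α ≠ 1 := by
    intro v
    simp [hB'def]
  rw [← siInPN_iff_inPN hζ B B' hB'] at hD0
  obtain ⟨k, hk⟩ := SI_main hζ (hFI F ζ hζ) (Units.mk0 α hα0) hα B' D0 hD0 D
  exact ⟨k, (siInPN_iff_inPN hζ B B' hB' _).1 hk⟩

end Shape2

end Fermat.Agent.S14Lib
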