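import Fermat.Agent.S14.CrossK1
import Fermat.Agent.S14.SIFinal
import Fermat.Agent.S14.GsBase
import Fermat.Agent.S14.NormDiv

/-!
# S14, leaf L11 (crossing), part 2: the one-field lemma
-/

open IsDedekindDomain NumberField

namespace Fermat.Agent.S14Lib

section ext

variable {F : Type*} [Field F] [NumberField F] {p : ℕ} {ζ : F}
  {Y : Type*} [Field Y] [NumberField Y] [Algebra F Y]

theorem cross_normDiv_single (w : Pl Y) (n : ℤ) :
    normDiv F (Finsupp.single w n) = Finsupp.single (below F w) (n * fDeg F w) := by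
  simp [normDiv]

theorem cross_halpha_base {α : F} (hα : HAlpha p ζ α) :
    HAlpha p (algebraMap F Y ζ) (algebraMap F Y α) := by
  have hne : algebraMap F Y α ≠ 0 := by simpa using hα.ne
  refine ⟨hne, fun w => ?_, fun w hw => ?_⟩
  · have h1 := val_over (below F w) w α
    rw [val_eq_exp_neg_ord _ hα.ne, ← WithZero.exp_nsmul] at h1
    have h2 : ord w (algebraMap F Y α) =
        (w.asIdeal.ramificationIdx (𝓞 F) : ℤ) * ord (below F w) α := by
      apply ord_eq_of_val_eq
      rw [h1]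
      congr 1
      simp
    rw [h2]
    exact Dvd.dvd.mul_left (hα.dvd _) _
  · have hv : (below F w).valuation F (p : F) ≠ 1 := by
      intro h
      apply hw
      have := (val_algebraMap_eq_one_iff (below F w) w (p : F)).2 h
      rwa [map_natCast] at this
    obtain ⟨y, hy, hlt⟩ := hα.lp _ hv
    refine ⟨algebraMap F Y y, by simpa using hy, ?_⟩
    have e1 : algebraMap F Y α / algebraMap F Y y ^ p - 1 = algebraMap F Y (α / y ^ p - 1) := by
      simp
    have e2 : (1 : Y) - algebraMap F Y ζ = algebraMap F Y (1 - ζ) := by simp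
    rw [e1, e2, val_over (below F w) w, val_over (below F w) w, ← pow_mul, mul_comm, pow_mul]
    have he : w.asIdeal.ramificationIdx (𝓞 F) ≠ 0 := by
      have : w.asIdeal.IsPrime := w.isPrime
      exact (w.asIdeal.ramificationIdx_pos (𝓞 F)).ne'
    exact pow_lt_pow_left₀ hlt zero_le he
end ext

section onefield

variable {K : Type} [Field K] [NumberField K] {p : ℕ} [Fact p.Prime] {ζ : K}
  {F : Type} [Field F] [NumberField F] [Algebra K F]

/-- a place of degree one above a place satisfying `LPv`. -/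
theorem exists_place_over_of_lpv (hζ : IsPrimitiveRoot ζ p) {x : K} {θ : F}
    (hθ : θ ^ p = algebraMap K F x) (htop : IntermediateField.adjoin K {θ} = ⊤)
    (hx : ∀ z : K, z ^ p ≠ x) (q : Pl K) (hq : LPv p ζ q x) :
    ∃ Q : Pl F, below K Q = q ∧ fDeg K Q = 1 := by
  obtain ⟨y, hy, hclose⟩ := hq
  obtain ⟨-, h2⟩ := splitting_ab (Fact.out : p.Prime) hζ hθ htop hx q y hy hclose
  have : q.asIdeal.IsMaximal := q.isMaximal
  obtain ⟨⟨Q₀, hQ1, hQ2⟩⟩ := (inferInstance : Nonempty (Ideal.primesOver q.asIdeal (𝓞 F)))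
  refine ⟨hosOver q Q₀, ?_, (h2 Q₀ hQ1 hQ2).2.1⟩
  apply HeightOneSpectrum.ext
  exact (Ideal.over_def Q₀ q.asIdeal).symm

theorem val_below_eq_one_iff (w : Pl F) (a : K) :
    w.valuation F (algebraMap K F a) = 1 ↔ (below K w).valuation K a = 1 := by
  have : w.asIdeal.LiesOver (below K w).asIdeal := ⟨rfl⟩
  exact val_algebraMap_eq_one_iff (below K w) w a

omit [NumberField K] in
theorem zsmul_mem_NG {F : Type*} [Field F] [NumberField F] {ζ : F} (B : Set (Pl F)) (x : F)
    (D : Divs F) {k : ℤ} (hk : (p : ℤ) ∣ k) : k • D ∈ NG p ζ B x := by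
  obtain ⟨c, rfl⟩ := hk
  rw [mul_smul]
  exact smul_mem_NG B x _

/-- **The one-field lemma** of the crossing argument. -/
theorem cross_one_field (hζ : IsPrimitiveRoot ζ p)
    (hFI : FIAProp p F (algebraMap K F ζ)) {α μ : K} {m j : ℕ}
    (hα : HAlpha p ζ α) (hμ0 : μ ≠ 0) {θ : F}
    (hθ : θ ^ p = algebraMap K F (α * μ ^ j)) (htop : IntermediateField.adjoin K {θ} = ⊤)
    (hx : ∀ z : K, z ^ p ≠ α * μ ^ j)
    (hμ : ∀ v : Pl K, v.valuation K (m : K) = 1 → v.valuation K μ = 1)
    (hm0 : m ≠ 0)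
    (hE : EProp p (algebraMap K F ζ) (algebraMap K F μ) m)
    (q r : Pl K) (hq : LPv p ζ q (α * μ ^ j)) (hr : LPv p ζ r (α * μ ^ j))
    (hqp : q.valuation K ((p : K) * (m : K)) = 1) (hrp : r.valuation K ((p : K) * (m : K)) = 1)
    (hrα : gs p ζ r α ≠ 0) (e : ℤ) (he : gs p ζ q α = e * gs p ζ r α) :
    Finsupp.single q 1 - e • Finsupp.single r 1 ∈ Prin K ⊔ NG p ζ ∅ α := by
  have hp : p.Prime := Fact.out
  have hζF : IsPrimitiveRoot (algebraMap K F ζ) p :=
    hζ.map_of_injective (algebraMap K F).injective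
  have hαF : HAlpha p (algebraMap K F ζ) (algebraMap K F α) := cross_halpha_base hα
  obtain ⟨Q, hQ1, hQ2⟩ := exists_place_over_of_lpv hζ hθ htop hx q hq
  obtain ⟨R, hR1, hR2⟩ := exists_place_over_of_lpv hζ hθ htop hx r hr
  have gQ : gs p (algebraMap K F ζ) Q (algebraMap K F α) = gs p ζ q α := by
    rw [gs_base hζ Q hα.ne (hα.dvd _), hQ1, hQ2]; simp
  have gR : gs p (algebraMap K F ζ) R (algebraMap K F α) = gs p ζ r α := by
    rw [gs_base hζ R hα.ne (hα.dvd _), hR1, hR2]; simp
  have hpm0 : ((p : F) * (m : F)) ≠ 0 :=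
    mul_ne_zero (Nat.cast_ne_zero.2 hp.ne_zero) (Nat.cast_ne_zero.2 hm0)
  set B : Finset (Pl F) := (finite_val_ne_one hpm0).toFinset with hBdef
  have hB : ∀ w : Pl F, w ∈ B ↔ w.valuation F ((p : F) * (m : F)) ≠ 1 := by
    intro w
    simp [hBdef]
  have hcast : ((p : F) * (m : F)) = algebraMap K F ((p : K) * (m : K)) := by
    simp
  have hQB : Q ∉ B := by
    rw [hB, not_not, hcast, val_below_eq_one_iff, hQ1]
    exact hqp
  have hRB : R ∉ B := by
    rw [hB, not_not, hcast, val_below_eq_one_iff, hR1]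
    exact hrp
  have hθ' : θ ^ p = algebraMap K F α * (algebraMap K F μ) ^ j := by
    rw [hθ, map_mul, map_pow]
  have hμF : ∀ w : Pl F, w.valuation F (m : F) = 1 → w.valuation F (algebraMap K F μ) = 1 := by
    intro w hw
    rw [val_below_eq_one_iff]
    apply hμ
    rw [← val_below_eq_one_iff, map_natCast]
    exact hw
  have hμF0 : algebraMap K F μ ≠ 0 := by simpa using hμ0
  have K1 := phi_eq_zero_of_mem hζF hαF.ne hμF0 hθ' hμF hE B hB
  -- `α` is not a `p`-th power in `F`
  have hnp : ∀ z : F, z ^ p ≠ algebraMap K F α := by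
    intro z hz
    apply hrα
    rw [← gR, ← hz, gs_pow_p hζF R]
  have hsingle : ∀ (P : Pl F), P ∉ B → ∀ (n : ℤ), ∀ w ∈ B, (Finsupp.single P n : Divs F) w = 0 := by
    intro P hP n w hw
    apply Finsupp.single_eq_of_ne
    rintro rfl
    exact hP hw
  -- `R` is not in `Prin + NG`
  have h0 : ∀ y : F, y ≠ 0 → (Finsupp.single R 1 : Divs F) - dv y ∉
      NG p (algebraMap K F ζ) (B : Set (Pl F)) (algebraMap K F α) := by
    intro y hy hmem
    have := K1 (Finsupp.single R 1) (fun w hw => by rw [hsingle R hRB 1 w hw]; exact dvd_zero _)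
      y hy hmem
    rw [phi_single, gR] at this
    simp at this
    exact hrα this
  obtain ⟨k, y, hy, hmem⟩ := si_of_FIA hζF hFI hnp B (Finsupp.single R 1) (Finsupp.single Q 1) h0
  have h1 := K1 (Finsupp.single Q 1 - k • Finsupp.single R 1) (fun w hw => by
    rw [Finsupp.sub_apply, Finsupp.smul_apply, hsingle Q hQB 1 w hw, hsingle R hRB 1 w hw]
    simp) y hy hmem
  rw [map_sub, map_zsmul, phi_single, phi_single, gQ, gR, he] at h1
  have h2 : (((e - k : ℤ) : ZMod p)) * gs p ζ r α = 0 := by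
    push_cast
    simp only [Int.cast_one, one_mul, zsmul_eq_mul] at h1
    rw [sub_mul]
    exact h1
  have h3 : (p : ℤ) ∣ e - k := by
    rw [← ZMod.intCast_zmod_eq_zero_iff_dvd]
    exact (mul_eq_zero.1 h2).resolve_right hrα
  -- norm down
  have h4 := normDiv_mem_NG hζ hα hmem
  rw [map_sub, map_sub, map_zsmul, cross_normDiv_single, cross_normDiv_single, hQ1, hQ2, hR1, hR2,
    normDiv_dv y hy] at h4
  simp only [Nat.cast_one, mul_one] at h4
  have hN0 : Algebra.norm K y ≠ 0 := Algebra.norm_ne_zero_iff.2 hy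
  have e5 : (Finsupp.single q 1 - e • Finsupp.single r 1 : Divs K) =
      dv (Algebra.norm K y) + ((Finsupp.single q 1 - k • Finsupp.single r 1 - dv (Algebra.norm K y))
        + (-(e - k)) • Finsupp.single r 1) := by
    rw [neg_smul, sub_smul]
    abel
  rw [e5]
  refine AddSubgroup.add_mem _ (AddSubgroup.mem_sup_left ⟨_, hN0, rfl⟩)
    (AddSubgroup.mem_sup_right (AddSubgroup.add_mem _ h4 (zsmul_mem_NG _ _ _ (by
      rw [dvd_neg]; exact h3))))

end onefield

end Fermat.Agent.S14Lib
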