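import Fermat.Agent.S14.JacobiCyc
import Fermat.Agent.S14.DL

/-!
# S14, L12 (END) : an `ω²`-eigen element with `(H α)` is a `p`-th power
-/

set_option autoImplicit false

namespace Fermat.Agent.S14Lib

open IsDedekindDomain NumberField HeightOneSpectrum WithZero IsCyclotomicExtension.Rat Finset
open scoped Pointwise

theorem exists_prime_mem {K : Type*} [Field K] [NumberField K] (q : HeightOneSpectrum (𝓞 K)) :
    ∃ ℓ : ℕ, ℓ.Prime ∧ (ℓ : 𝓞 K) ∈ q.asIdeal := by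
  have : q.asIdeal.IsMaximal := q.isMaximal
  let _ : Field (𝓞 K ⧸ q.asIdeal) := Ideal.Quotient.field q.asIdeal
  have : Finite (𝓞 K ⧸ q.asIdeal) := Ring.HasFiniteQuotients.finiteQuotient q.ne_bot
  refine ⟨ringChar (𝓞 K ⧸ q.asIdeal), CharP.char_is_prime (𝓞 K ⧸ q.asIdeal) _, ?_⟩
  rw [← Ideal.Quotient.eq_zero_iff_mem, map_natCast]
  exact ringChar.Nat.cast_ringChar

theorem sum_half (p : ℕ) [hp : Fact p.Prime] (hp2 : p ≠ 2) :
    (8 : ZMod p) * ((∑ u ∈ (Ico 1 p).filter (fun u => 2 * u < p), u : ℕ) : ZMod p) = -1 := by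
  obtain ⟨h, rfl⟩ : ∃ h, p = 2 * h + 1 := by
    rcases hp.out.eq_two_or_odd' with h | h
    · exact absurd h hp2
    · obtain ⟨h, hh⟩ := h
      exact ⟨h, hh⟩
  have h1 : (Ico 1 (2 * h + 1)).filter (fun u => 2 * u < 2 * h + 1) = Ico 1 (h + 1) := by
    ext u
    simp only [mem_filter, mem_Ico]
    omega
  have h2 : ∑ u ∈ Ico 1 (h + 1), u = ∑ u ∈ range (h + 1), u := by
    rw [range_eq_Ico, sum_eq_sum_Ico_succ_bot (Nat.succ_pos h)]
    simp
  have h3 := sum_range_id_mul_two (h + 1)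
  rw [h1, h2]
  have h4 : (8 * ∑ u ∈ range (h + 1), u : ℕ) + 1 = (2 * h + 1) * (2 * h + 1) := by
    have : (8 * ∑ u ∈ range (h + 1), u : ℕ) = 4 * ((∑ u ∈ range (h + 1), u) * 2) := by ring
    rw [this, h3]
    simp only [Nat.add_sub_cancel]
    ring
  have h5 := congrArg (Nat.cast : ℕ → ZMod (2 * h + 1)) h4
  push_cast at h5
  have h6 : (2 * (h : ZMod (2 * h + 1)) + 1) = 0 := by
    have := ZMod.natCast_self (2 * h + 1)
    push_cast at this
    exact this
  rw [h6, mul_zero] at h5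
  push_cast
  linear_combination h5

section

variable {K : Type*} [Field K] [NumberField K] {p : ℕ} [hp : Fact p.Prime] [NeZero p]
  [IsCyclotomicExtension {p} ℚ K] {ζ : K}

/-- `k · (α / δ q) = (α / q)` -/
theorem eigen_rel (hζ : IsPrimitiveRoot ζ p) {α : K}
    (hα : ∀ (δ : K ≃ₐ[ℚ] K) (k : ℕ), δ ζ = ζ ^ k → ∃ z : K, δ α = α ^ (k ^ 2) * z ^ p)
    (q : HeightOneSpectrum (𝓞 K)) (hqp : q.valuation K (p : K) = 1) (hq : q.valuation K α = 1)
    (δ : Gal(K/ℚ)) (hδ : (conjH δ q).valuation K α = 1) :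
    (galExp p δ : ZMod p) * sym p ζ (conjH δ q) α = sym p ζ q α := by
  have hk := galExp_spec δ hζ.pow_eq_one
  obtain ⟨z, hz⟩ := hα δ _ hk
  have h1 := sym_conjH hζ δ _ hk q α
  have hqp' : (conjH δ q).valuation K (p : K) = 1 := by rwa [valuation_conjH_rat]
  have hv1 : (conjH δ q).valuation K (α ^ (galExp p δ ^ 2)) = 1 := by rw [map_pow, hδ, one_pow]
  have hv2 : (conjH δ q).valuation K (z ^ p) = 1 := by
    have := valuation_conjH δ q α
    rw [hz, map_mul, hv1, one_mul, hq] at this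
    exact this
  rw [hz, sym_mul hζ hqp' hv1 hv2, sym_pow hζ, sym_pow_p hζ, add_zero] at h1
  have h0 := galExp_cast_ne_zero (p := p) δ
  apply mul_left_cancel₀ h0
  rw [← h1]
  push_cast
  ring

/-- a prime `q` with `(α / q) ≠ 1` has residue characteristic `≡ 1 mod p` -/
theorem dvd_sub_one_of_sym_ne_zero (hζ : IsPrimitiveRoot ζ p) {α : K}
    (hα : ∀ (δ : K ≃ₐ[ℚ] K) (k : ℕ), δ ζ = ζ ^ k → ∃ z : K, δ α = α ^ (k ^ 2) * z ^ p)
    (q : HeightOneSpectrum (𝓞 K)) (hqp : q.valuation K (p : K) = 1) (hq : q.valuation K α = 1)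
    (hs : sym p ζ q α ≠ 0) (ℓ : ℕ) [hℓ : Fact ℓ.Prime] (hℓq : (ℓ : 𝓞 K) ∈ q.asIdeal) :
    p ∣ ℓ - 1 := by
  have hℓp : ℓ ≠ p := by
    rintro rfl
    have h1 : q.valuation K (algebraMap (𝓞 K) K (ℓ : 𝓞 K)) < 1 :=
      (q.valuation_lt_one_iff_mem _).2 hℓq
    rw [map_natCast (algebraMap (𝓞 K) K), hqp] at h1
    exact lt_irrefl _ h1
  have hcop : ℓ.Coprime p := (Nat.coprime_primes hℓ.out hp.out).2 hℓp
  have : q.asIdeal.IsMaximal := q.isMaximal
  have := liesOver_span_natCast_of_mem ℓ q hℓq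
  have h1 := galEquivZMod_stabilizer p K ℓ q.asIdeal hcop
  have h2 : ZMod.unitOfCoprime ℓ hcop ∈
      (galEquivZMod p K).mapSubgroup (MulAction.stabilizer Gal(K/ℚ) q.asIdeal) := by
    rw [h1]
    exact Subgroup.mem_zpowers _
  obtain ⟨δ, hδ, hδ'⟩ := h2
  have h3 : conjH δ q = q := by
    ext1
    exact hδ
  have h4 := eigen_rel hζ hα q hqp hq δ (by rw [h3]; exact hq)
  have hδ'' : galEquivZMod p K δ = ZMod.unitOfCoprime ℓ hcop := hδ'
  rw [h3, galExp_cast, hδ'', ZMod.coe_unitOfCoprime] at h4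
  have h5 : ((ℓ : ZMod p) - 1) * sym p ζ q α = 0 := by rw [sub_mul, h4, one_mul, sub_self]
  have h6 : ((ℓ : ZMod p) - 1) = 0 := (mul_eq_zero.1 h5).resolve_right hs
  have h7 : ((ℓ - 1 : ℕ) : ZMod p) = 0 := by
    rw [Nat.cast_sub hℓ.out.one_lt.le, Nat.cast_one, h6]
  exact (ZMod.natCast_eq_zero_iff _ _).1 h7

/-- **L12**, with Theorem R (in squarefree form, for this `α`) as a hypothesis -/
theorem end_core (hp2 : p ≠ 2) (hζ : IsPrimitiveRoot ζ p) {α : K}
    (hα : ∀ (δ : K ≃ₐ[ℚ] K) (k : ℕ), δ ζ = ζ ^ k → ∃ z : K, δ α = α ^ (k ^ 2) * z ^ p)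
    (hR : ∀ (s : Finset (HeightOneSpectrum (𝓞 K))) (β : 𝓞 K),
      (∀ v ∈ s, v.intValuation β = exp (-1 : ℤ) ∧ v.valuation K (p : K) = 1 ∧
        v.valuation K α = 1) → (∀ v ∉ s, v.intValuation β = 1) → ∑ v ∈ s, sym p ζ v α = 0) :
    ∃ z : K, α = z ^ p := by
  classical
  by_contra hcon
  push Not at hcon
  have hnp : ∀ z : K, z ^ p ≠ α := fun z h => hcon z h.symm
  have hα0 : α ≠ 0 := by
    rintro rfl
    exact hnp 0 (zero_pow hp.out.ne_zero)
  -- the exceptional set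
  have hB0 : (⋃ δ : Gal(K/ℚ), {v : HeightOneSpectrum (𝓞 K) |
      (conjH δ v).valuation K α ≠ 1}).Finite := by
    refine Set.finite_iUnion fun δ => ?_
    refine Set.Finite.preimage (f := conjH δ) ?_ (finite_val_ne_one hα0)
    intro a _ b _ hab
    have := congrArg (conjH δ⁻¹) hab
    simpa using this
  obtain ⟨q, hqB, hqp, hqα, hs⟩ := exists_sym_ne_zero hζ hnp _ hB0
  have hconj : ∀ δ : Gal(K/ℚ), (conjH δ q).valuation K α = 1 := by
    intro δ
    by_contra h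
    exact hqB (Set.mem_iUnion.2 ⟨δ, h⟩)
  obtain ⟨ℓ, hℓ, hℓq⟩ := exists_prime_mem q
  have : Fact ℓ.Prime := ⟨hℓ⟩
  have hpℓ := dvd_sub_one_of_sym_ne_zero hζ hα q hqp hqα hs ℓ hℓq
  have hℓp : ℓ ≠ p := (ne_of_dvd_sub_one hpℓ).symm
  have hℓconj : ∀ δ : Gal(K/ℚ), (ℓ : 𝓞 K) ∈ (conjH δ q).asIdeal := by
    intro δ
    have h1 := Ideal.smul_mem_pointwise_smul δ _ _ hℓq
    have h2 : δ • ((ℓ : ℕ) : 𝓞 K) = ((ℓ : ℕ) : 𝓞 K) :=
      map_natCast (MulSemiringAction.toRingHom Gal(K/ℚ) (𝓞 K) δ) ℓ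
    rwa [h2] at h1
  -- the character
  obtain ⟨χ, hχord⟩ := MulChar.exists_mulChar_orderOf (ZMod ℓ) (n := p)
    (by rw [ZMod.card]; exact hpℓ) hζ.toInteger_isPrimitiveRoot
  have hχ : χ ^ p = 1 := by rw [← hχord]; exact pow_orderOf_eq_one χ
  have hχ1 : χ ≠ 1 := by
    rintro rfl
    rw [orderOf_one] at hχord
    exact hp.out.one_lt.ne hχord
  have hχχ : χ * χ ≠ 1 := by
    rw [← pow_two]
    exact pow_ne_one_of_lt hχ hχ1 two_pos (lt_of_le_of_ne hp.out.two_le hp2.symm)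
  have hJ := jacobiSum_mul_jacobiSum_inv_domain hχ1 hχ1 hχχ
  have hex : ∀ δ : Gal(K/ℚ), ∃ u, 0 < u ∧ u < p ∧ IsExpoAt p χ (conjH δ q).asIdeal u := by
    intro δ
    have : (conjH δ q).asIdeal.IsMaximal := (conjH δ q).isMaximal
    exact exists_isExpoAt _ (hℓconj δ) hpℓ χ hχ hχ1
  choose U hU0 hUp hU using hex
  have hrel : ∀ δ : Gal(K/ℚ), (U 1 : ZMod p) = (galExp p δ : ZMod p) * (U δ : ZMod p) := by
    intro δ
    have h1 : IsExpoAt p χ q.asIdeal (U 1) := by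
      have := hU 1
      rwa [conjH_one] at this
    exact h1.conj_rel hpℓ hχ hℓq (hUp 1) δ (hU δ) (hU0 δ) (hUp δ)
  have hUne : ∀ δ : Gal(K/ℚ), (U δ : ZMod p) ≠ 0 := by
    intro δ h
    rw [ZMod.natCast_eq_zero_iff] at h
    have := Nat.le_of_dvd (hU0 δ) h
    have := hUp δ
    omega
  have hUinj : Function.Injective U := by
    intro δ ε h
    apply galExp_injective (p := p) (K := K)
    show (galExp p δ : ZMod p) = (galExp p ε : ZMod p)
    have h1 := hrel δ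
    rw [hrel ε, h] at h1
    exact (mul_right_cancel₀ (hUne ε) h1).symm
  have : Fintype Gal(K/ℚ) := Fintype.ofFinite _
  have himage : (univ : Finset Gal(K/ℚ)).image U = Ico 1 p := by
    apply eq_of_subset_of_card_le
    · intro u hu
      rw [mem_image] at hu
      obtain ⟨δ, -, rfl⟩ := hu
      rw [mem_Ico]
      exact ⟨hU0 δ, hUp δ⟩
    · rw [card_image_of_injective _ hUinj, card_univ, ← Nat.card_eq_fintype_card, card_gal_cyc (p := p),
        Nat.card_Ico]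
  -- valuations of `J`
  have hvJ : ∀ δ : Gal(K/ℚ), (conjH δ q).intValuation (jacobiSum χ χ) =
      if 2 * U δ < p then exp (-1 : ℤ) else 1 := by
    intro δ
    have : (conjH δ q).asIdeal.IsMaximal := (conjH δ q).isMaximal
    have h1 := intValuation_of_mul_eq_exp (conjH δ q) (x := jacobiSum χ χ)
      (y := jacobiSum χ⁻¹ χ⁻¹) (by rw [hJ, intValuation_prime_cyc (p := p) ℓ hℓp _ (hℓconj δ)])
    rw [h1]
    have h2 := jacobiSum_mem_iff (conjH δ q).asIdeal (hℓconj δ) hpℓ (hU δ) (hU δ) (hU0 δ) (hUp δ)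
      (hUp δ)
    rw [← two_mul] at h2
    simp only [h2]
  set T : Finset Gal(K/ℚ) := univ.filter (fun δ => 2 * U δ < p) with hT
  have hinj : Set.InjOn (fun δ : Gal(K/ℚ) => conjH δ q) T := by
    intro δ _ ε _ h
    apply hUinj
    have : (conjH δ q).asIdeal.IsMaximal := (conjH δ q).isMaximal
    have h1 := hU ε
    have h' : conjH δ q = conjH ε q := h
    rw [← h'] at h1
    exact (hU δ).unique (conjH δ q).asIdeal (hℓconj δ) hpℓ h1 (hUp δ) (hUp ε)
  have key := hR (T.image (fun δ => conjH δ q)) (jacobiSum χ χ) ?_ ?_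
  · rw [sum_image hinj] at key
    have h1 : ∀ δ ∈ T, sym p ζ (conjH δ q) α =
        (sym p ζ q α * (U 1 : ZMod p)⁻¹) * ((U δ : ℕ) : ZMod p) := by
      intro δ _
      have h2 := eigen_rel hζ hα q hqp hqα δ (hconj δ)
      have h3 := hrel δ
      have h4 := hUne 1
      have h5 := galExp_cast_ne_zero (p := p) δ
      have h6 := hUne δ
      rw [← h2, h3]
      field_simp
    rw [sum_congr rfl h1, ← mul_sum, ← Nat.cast_sum] at key
    have h2 : ∑ δ ∈ T, U δ = ∑ u ∈ (Ico 1 p).filter (fun u => 2 * u < p), u := by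
      rw [← himage, filter_image, sum_image (fun a _ b _ h => hUinj h)]
    rw [h2] at key
    have h3 := sum_half p hp2
    rcases mul_eq_zero.1 key with h | h
    · rcases mul_eq_zero.1 h with h | h
      · exact hs h
      · exact inv_ne_zero (hUne 1) h
    · rw [h, mul_zero] at h3
      exact neg_ne_zero.2 one_ne_zero h3.symm
  · intro v hv
    rw [mem_image] at hv
    obtain ⟨δ, hδ, rfl⟩ := hv
    rw [hT, mem_filter] at hδ
    refine ⟨by rw [hvJ δ, if_pos hδ.2], by rwa [valuation_conjH_rat], hconj δ⟩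
  · intro v hv
    by_cases hℓv : (ℓ : 𝓞 K) ∈ v.asIdeal
    · -- `v` is a conjugate of `q`
      have := liesOver_span_natCast_of_mem ℓ v hℓv
      have := liesOver_span_natCast_of_mem ℓ q hℓq
      have : v.asIdeal.IsPrime := v.isPrime
      have : q.asIdeal.IsPrime := q.isPrime
      have : IsGalois ℚ K := IsCyclotomicExtension.isGalois {p} ℚ K
      obtain ⟨δ, hδ⟩ := Ideal.exists_smul_eq_of_isGaloisGroup (Ideal.span {(ℓ : ℤ)}) q.asIdeal
        v.asIdeal Gal(K/ℚ)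
      have hv' : v = conjH δ q := by
        ext1
        exact hδ.symm
      rw [hv', hvJ δ, if_neg]
      intro h
      apply hv
      rw [mem_image]
      exact ⟨δ, by rw [hT, mem_filter]; exact ⟨mem_univ _, h⟩, hv'.symm⟩
    · exact intValuation_of_mul_eq_one v (y := jacobiSum χ⁻¹ χ⁻¹)
        (by rw [hJ]; exact intValuation_eq_one_iff.2 hℓv)

end

end Fermat.Agent.S14Lib
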