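import Mathlib

/-!
# S14, leaf L7 (first inequality), abstract group theory

Pure group theory: the ambiguous class number inequality and the resulting
"norms do not fill up the ray class group" statement, in an axiomatic setting.
-/

set_option autoImplicit false

namespace Fermat.Agent.S14Lib

open Subgroup

section Basic

variable {G : Type*} [CommGroup G]

/-- `a ↦ f a / a`. -/
def tw (f : G ≃* G) : G →* G := (f : G →* G) / MonoidHom.id G

@[simp] theorem tw_apply (f : G ≃* G) (a : G) : tw f a = f a / a := rfl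

/-- the norm `a ↦ ∏_{i<p} f^i a`. -/
def nm (f : G ≃* G) (p : ℕ) : G →* G := ∏ i ∈ Finset.range p, ((f ^ i : G ≃* G) : G →* G)

theorem nm_apply (f : G ≃* G) (p : ℕ) (a : G) :
    nm f p a = ∏ i ∈ Finset.range p, (f ^ i) a := by
  simp [nm]

theorem nm_tw (f : G ≃* G) (p : ℕ) (hf : f ^ p = 1) (a : G) : nm f p (tw f a) = 1 := by
  rw [nm_apply]
  have : ∀ i, (f ^ i) (tw f a) = (f ^ (i + 1)) a / (f ^ i) a := by
    intro i
    rw [tw_apply, map_div, pow_succ]
    rfl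
  simp_rw [this]
  rw [Finset.prod_range_div (fun i => (f ^ i) a), hf]
  simp

theorem tw_nm (f : G ≃* G) (p : ℕ) (hf : f ^ p = 1) (a : G) : tw f (nm f p a) = 1 := by
  have h : tw f (nm f p a) = nm f p (tw f a) := by
    rw [tw_apply, nm_apply, nm_apply, map_prod, ← Finset.prod_div_distrib]
    refine Finset.prod_congr rfl fun i _ => ?_
    rw [tw_apply, map_div]
    congr 1
    rw [← MulAut.mul_apply, ← MulAut.mul_apply, ← pow_succ, ← pow_succ']
  rw [h, nm_tw f p hf]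

theorem relIndex_comap_eq_index_sup (τ : G →* G) (P : Subgroup G) (hP : P ≤ P.comap τ)
    (hfin : P.index ≠ 0) : P.relIndex (P.comap τ) = (P ⊔ τ.range).index := by
  have h1 := relIndex_mul_index hP
  have h2 := relIndex_mul_index (le_sup_left : P ≤ P ⊔ τ.range)
  have h3 : (P.comap τ).index = P.relIndex (P ⊔ τ.range) := by
    rw [index_comap, relIndex_sup_left]
  have h4 : (P.comap τ).index ≠ 0 := by
    intro h
    rw [h, mul_zero] at h1
    exact hfin h1.symm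
  rw [← h3] at h2
  have : P.relIndex (P.comap τ) * (P.comap τ).index = (P ⊔ τ.range).index * (P.comap τ).index := by
    rw [h1, mul_comm, h2]
  exact Nat.eq_of_mul_eq_mul_right (Nat.pos_of_ne_zero h4) this

end Basic

section Compat

variable {𝕐 𝕀 : Type*} [CommGroup 𝕐] [CommGroup 𝕀]
  (s : 𝕐 ≃* 𝕐) (t : 𝕀 ≃* 𝕀) (d : 𝕐 →* 𝕀)

theorem d_tw (hd : ∀ y, d (s y) = t (d y)) (y : 𝕐) : d (tw s y) = tw t (d y) := by
  rw [tw_apply, tw_apply, map_div, hd]

theorem d_pow (hd : ∀ y, d (s y) = t (d y)) (i : ℕ) (y : 𝕐) : d ((s ^ i) y) = (t ^ i) (d y) := by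
  induction i with
  | zero => simp
  | succ n ih => rw [pow_succ', pow_succ', MulAut.mul_apply, MulAut.mul_apply, hd, ih]

theorem d_nm (hd : ∀ y, d (s y) = t (d y)) (p : ℕ) (y : 𝕐) : d (nm s p y) = nm t p (d y) := by
  rw [nm_apply, nm_apply, map_prod]
  exact Finset.prod_congr rfl fun i _ => d_pow s t d hd i y

theorem tw_range_eq (p : ℕ) (hs : s ^ p = 1) (h90 : ∀ y, nm s p y = 1 → ∃ z, y = tw s z) :
    (tw s).range = (nm s p).ker := by
  ext y
  constructor
  · rintro ⟨z, rfl⟩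
    exact nm_tw s p hs z
  · intro hy
    obtain ⟨z, rfl⟩ := h90 y hy
    exact ⟨z, rfl⟩

/-- `[A : I^σ P] = [E ∩ N𝕐 : N E]`-type inequality. -/
theorem amb_i (p : ℕ) (hs : s ^ p = 1) (ht : t ^ p = 1) (hd : ∀ y, d (s y) = t (d y))
    (h90 : ∀ y, nm s p y = 1 → ∃ z, y = tw s z)
    (h0 : (d.ker.map (nm s p)).relIndex (d.ker ⊓ (nm s p).range) ≠ 0) :
    ((tw t).ker ⊔ d.range).relIndex (d.range.comap (tw t)) ≤
      (d.ker.map (nm s p)).relIndex (d.ker ⊓ (nm s p).range) := by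
  have hr := tw_range_eq s p hs h90
  -- step 1 : push forward by `tw t`
  have e1 : ((tw t).ker ⊔ d.range).relIndex (d.range.comap (tw t)) =
      (((tw t).ker ⊔ d.range).map (tw t)).relIndex ((d.range.comap (tw t)).map (tw t)) := by
    rw [relIndex_map_map]
    congr 1
    · exact (sup_eq_left.mpr le_sup_left).symm
    · refine (sup_eq_left.mpr ?_).symm
      intro a ha
      rw [mem_comap, MonoidHom.mem_ker.mp ha]
      exact one_mem _
  have e2 : ((tw t).ker ⊔ d.range).map (tw t) = (tw s).range.map d := by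
    rw [Subgroup.map_sup, (Subgroup.map_eq_bot_iff _).mpr le_rfl, bot_sup_eq, MonoidHom.range_eq_map,
      MonoidHom.range_eq_map, map_map, map_map]
    congr 1
    ext y
    exact (d_tw s t d hd y).symm
  have e3 : (d.range.comap (tw t)).map (tw t) ≤ (d.ker.comap (nm s p)).map d := by
    rintro _ ⟨a, ha, rfl⟩
    obtain ⟨γ, hγ⟩ := ha
    refine ⟨γ, ?_, hγ⟩
    rw [SetLike.mem_coe, mem_comap, MonoidHom.mem_ker, d_nm s t d hd, hγ, nm_tw t p ht]
  have e4 : ((tw s).range.map d).relIndex ((d.ker.comap (nm s p)).map d) =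
      (d.ker.map (nm s p)).relIndex (d.ker ⊓ (nm s p).range) := by
    have hE : d.ker ≤ d.ker.comap (nm s p) := by
      intro e he
      rw [mem_comap, MonoidHom.mem_ker, d_nm s t d hd, MonoidHom.mem_ker.mp he, map_one]
    rw [relIndex_map_map, sup_eq_left.mpr hE]
    have : (d.ker.map (nm s p)).relIndex (d.ker ⊓ (nm s p).range) =
        (((tw s).range ⊔ d.ker).map (nm s p)).relIndex ((d.ker.comap (nm s p)).map (nm s p)) := by
      rw [Subgroup.map_sup, hr, (Subgroup.map_eq_bot_iff _).mpr le_rfl, bot_sup_eq, map_comap_eq, inf_comm]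
    rw [this, relIndex_map_map, ← hr]
    congr 1
    · exact (sup_eq_left.mpr le_sup_left).symm
    · refine (sup_eq_left.mpr ?_).symm
      rw [hr]
      intro y hy
      rw [mem_comap, MonoidHom.mem_ker.mp hy]
      exact one_mem _
  rw [e1, e2, ← e4]
  exact relIndex_le_of_le_right e3 (by rw [e4]; exact h0)

/-- `[I^σ ∩ P : d F] = |H¹(E)|`. -/
theorem amb_iv (p : ℕ) (hs : s ^ p = 1) (hd : ∀ y, d (s y) = t (d y))
    (h90 : ∀ y, nm s p y = 1 → ∃ z, y = tw s z) :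
    ((tw s).ker.map d).relIndex ((tw t).ker ⊓ d.range) =
      (d.ker.map (tw s)).relIndex (d.ker ⊓ (nm s p).ker) := by
  have hr := tw_range_eq s p hs h90
  have h1 : (tw t).ker ⊓ d.range = ((tw t).ker.comap d).map d := by
    rw [map_comap_eq, inf_comm]
  have h2 : (tw t).ker.comap d = d.ker.comap (tw s) := by
    ext y
    rw [mem_comap, mem_comap, MonoidHom.mem_ker, MonoidHom.mem_ker, d_tw s t d hd]
  have hE : d.ker ≤ d.ker.comap (tw s) := by
    intro e he
    rw [mem_comap, MonoidHom.mem_ker, d_tw s t d hd, MonoidHom.mem_ker.mp he, map_one]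
  rw [h1, h2, relIndex_map_map, sup_eq_left.mpr hE]
  have : (d.ker.map (tw s)).relIndex (d.ker ⊓ (nm s p).ker) =
      (((tw s).ker ⊔ d.ker).map (tw s)).relIndex ((d.ker.comap (tw s)).map (tw s)) := by
    rw [Subgroup.map_sup, (Subgroup.map_eq_bot_iff _).mpr le_rfl, bot_sup_eq, map_comap_eq, hr, inf_comm]
  rw [this, relIndex_map_map]
  congr 1
  · exact (sup_eq_left.mpr le_sup_left).symm
  · refine (sup_eq_left.mpr ?_).symm
    intro y hy
    rw [mem_comap, MonoidHom.mem_ker.mp hy]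
    exact one_mem _

end Compat

section Gen

variable {G G' : Type*} [CommGroup G] [CommGroup G']

theorem relIndex_map_map_of_le (f : G →* G') {H K : Subgroup G} (hHK : H ≤ K) :
    (H.map f).relIndex (K.map f) = (H ⊔ (f.ker ⊓ K)).relIndex K := by
  rw [relIndex_map_map]
  have h1 : K ⊔ f.ker = K ⊔ (H ⊔ f.ker) := by
    rw [← sup_assoc, sup_eq_left.mpr hHK]
  rw [h1, relIndex_sup_right, ← inf_relIndex_right, sup_inf_assoc_of_le _ hHK]

end Gen

section Main

variable {𝕐 𝕀 : Type*} [CommGroup 𝕐] [CommGroup 𝕀]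
  (s : 𝕐 ≃* 𝕐) (t : 𝕀 ≃* 𝕀) (d : 𝕐 →* 𝕀)

/-- the ambiguous class number inequality. -/
theorem amb_main (p : ℕ) (ρ : ℕ) (hs : s ^ p = 1) (ht : t ^ p = 1)
    (hd : ∀ y, d (s y) = t (d y))
    (h90 : ∀ y, nm s p y = 1 → ∃ z, y = tw s z)
    (IR : Subgroup 𝕀)
    (hamb : ((((tw t).ker ⊓ IR) ⊔ (tw s).ker.map d).relIndex (tw t).ker) ≤ p ^ ρ)
    (hL6 : (d.ker.map (tw s)).relIndex (d.ker ⊓ (nm s p).ker) =
      p * (d.ker.map (nm s p)).relIndex (d.ker ⊓ (tw s).ker))
    (hL6' : (d.ker.map (nm s p)).relIndex (d.ker ⊓ (tw s).ker) ≠ 0) :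
    d.range.relIndex (d.range.comap (tw t)) * p *
        (d.ker ⊓ (nm s p).range).relIndex (d.ker ⊓ (tw s).ker) ≤
      (((tw s).ker ⊓ IR.comap d).map d).relIndex ((tw t).ker ⊓ IR) * p ^ ρ := by
  have hNE : d.ker.map (nm s p) ≤ d.ker ⊓ (nm s p).range := by
    rintro _ ⟨e, he, rfl⟩
    refine ⟨?_, e, rfl⟩
    show d (nm s p e) = 1
    rw [d_nm s t d hd, MonoidHom.mem_ker.mp he, map_one]
  have hNF : d.ker ⊓ (nm s p).range ≤ d.ker ⊓ (tw s).ker := by
    rintro x ⟨hx, y, rfl⟩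
    exact ⟨hx, tw_nm s p hs y⟩
  have hu := relIndex_mul_relIndex _ _ _ hNE hNF
  have hu1 : (d.ker.map (nm s p)).relIndex (d.ker ⊓ (nm s p).range) ≠ 0 := by
    intro h
    rw [h, zero_mul] at hu
    exact hL6' hu.symm
  have ha1 := amb_i s t d p hs ht hd h90 hu1
  have hPA : d.range ≤ d.range.comap (tw t) := by
    rintro _ ⟨y, rfl⟩
    exact ⟨tw s y, d_tw s t d hd y⟩
  have hGA : (tw t).ker ≤ d.range.comap (tw t) := by
    intro a ha
    rw [mem_comap, MonoidHom.mem_ker.mp ha]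
    exact one_mem _
  have hc := relIndex_mul_relIndex d.range ((tw t).ker ⊔ d.range) (d.range.comap (tw t))
    le_sup_right (sup_le hGA hPA)
  rw [relIndex_sup_right] at hc
  have hFG : (tw s).ker.map d ≤ (tw t).ker ⊓ d.range := by
    rintro _ ⟨y, hy, rfl⟩
    refine ⟨?_, y, rfl⟩
    show tw t (d y) = 1
    rw [← d_tw s t d hd, MonoidHom.mem_ker.mp hy, map_one]
  have hb := relIndex_mul_relIndex ((tw s).ker.map d) ((tw t).ker ⊓ d.range) (tw t).ker hFG
    inf_le_left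
  rw [amb_iv s t d p hs hd h90, hL6, inf_relIndex_left] at hb
  have hJ := relIndex_mul_relIndex ((tw s).ker.map d) (((tw t).ker ⊓ IR) ⊔ (tw s).ker.map d)
    (tw t).ker le_sup_right (sup_le inf_le_left (hFG.trans inf_le_left))
  rw [relIndex_sup_right, ← inf_relIndex_right] at hJ
  have hFR : (tw s).ker.map d ⊓ ((tw t).ker ⊓ IR) = ((tw s).ker ⊓ IR.comap d).map d := by
    apply le_antisymm
    · rintro _ ⟨⟨y, hy, rfl⟩, -, h2⟩
      exact ⟨y, ⟨hy, h2⟩, rfl⟩
    · rintro _ ⟨y, ⟨hy, h2⟩, rfl⟩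
      exact ⟨⟨y, hy, rfl⟩, (hFG ⟨y, hy, rfl⟩).1, h2⟩
  rw [hFR] at hJ
  calc d.range.relIndex (d.range.comap (tw t)) * p *
        (d.ker ⊓ (nm s p).range).relIndex (d.ker ⊓ (tw s).ker)
      = d.range.relIndex (tw t).ker * ((tw t).ker ⊔ d.range).relIndex (d.range.comap (tw t)) * p *
        (d.ker ⊓ (nm s p).range).relIndex (d.ker ⊓ (tw s).ker) := by rw [hc]
    _ ≤ d.range.relIndex (tw t).ker * (d.ker.map (nm s p)).relIndex (d.ker ⊓ (nm s p).range) * p *
        (d.ker ⊓ (nm s p).range).relIndex (d.ker ⊓ (tw s).ker) := by gcongr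
    _ = p * ((d.ker.map (nm s p)).relIndex (d.ker ⊓ (nm s p).range) *
        (d.ker ⊓ (nm s p).range).relIndex (d.ker ⊓ (tw s).ker)) * d.range.relIndex (tw t).ker := by
          ring
    _ = (((tw s).ker ⊓ IR.comap d).map d).relIndex ((tw t).ker ⊓ IR) *
        (((tw t).ker ⊓ IR) ⊔ (tw s).ker.map d).relIndex (tw t).ker := by rw [hu, hb, hJ]
    _ ≤ _ := by gcongr

/-- the norm side: under `(†)` the ray class group is a quotient of `Cl/(σ-1)Cl`. -/
theorem ray_le (p : ℕ) (ht : t ^ p = 1)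
    (hd : ∀ y, d (s y) = t (d y))
    (hcl : d.range.index ≠ 0)
    (IR : Subgroup 𝕀) (hIRt : ∀ a ∈ IR, t a ∈ IR)
    (hmove : ∀ a : 𝕀, ∃ y, a * d y ∈ IR)
    (F1 : Subgroup 𝕐)
    (hS5d : ∀ y, d y ∈ IR → nm s p y ∈ F1)
    (H : (tw t).ker ⊓ IR ≤ F1.map d ⊔ IR.map (nm t p)) :
    (F1.map d).relIndex ((tw t).ker ⊓ IR) ≤ d.range.relIndex (d.range.comap (tw t)) := by
  have hPA : d.range ≤ d.range.comap (tw t) := by
    rintro _ ⟨y, rfl⟩
    exact ⟨tw s y, d_tw s t d hd y⟩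
  rw [relIndex_comap_eq_index_sup (tw t) d.range hPA hcl]
  have hc0 : (d.range ⊔ (tw t).range).index ≠ 0 := by
    intro h
    have := index_dvd_of_le (le_sup_left : d.range ≤ d.range ⊔ (tw t).range)
    rw [h, zero_dvd_iff] at this
    exact hcl this
  -- the subgroup `Hh`
  have hHh : (d.range ⊔ (tw t).range) ⊓ IR = (d.range ⊓ IR) ⊔ IR.map (tw t) := by
    apply le_antisymm
    · rintro x ⟨hx, hxR⟩
      obtain ⟨_, ⟨y, rfl⟩, _, ⟨b, rfl⟩, rfl⟩ := mem_sup.mp hx
      obtain ⟨z, hz⟩ := hmove b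
      have h1 : tw t (b * d z) ∈ IR := by
        rw [tw_apply]
        exact div_mem (hIRt _ hz) hz
      have h2 : d y * tw t b = d (y / tw s z) * tw t (b * d z) := by
        rw [map_div, map_mul, d_tw s t d hd]
        generalize tw t (d z) = A
        generalize tw t b = B
        generalize d y = C
        rw [div_mul_eq_mul_div, mul_comm B A, ← mul_assoc, mul_comm C A, mul_assoc,
          mul_div_cancel_left]
      rw [h2]
      refine mul_mem_sup ⟨⟨_, rfl⟩, ?_⟩ ⟨_, hz, rfl⟩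
      have h3 : d (y / tw s z) = d y * tw t b / tw t (b * d z) := by
        rw [h2, mul_div_cancel_right]
      show d (y / tw s z) ∈ IR
      rw [h3]
      exact div_mem hxR h1
    · refine sup_le (inf_le_inf_right _ le_sup_left) ?_
      rintro _ ⟨a, ha, rfl⟩
      refine ⟨mem_sup_right ⟨a, rfl⟩, ?_⟩
      show tw t a ∈ IR
      rw [tw_apply]
      exact div_mem (hIRt _ ha) ha
  have hHhle : (d.range ⊓ IR) ⊔ IR.map (tw t) ≤ IR := by
    rw [← hHh]; exact inf_le_right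
  have h1 : ((d.range ⊓ IR) ⊔ IR.map (tw t)).relIndex IR ∣ (d.range ⊔ (tw t).range).index := by
    rw [← hHh, inf_relIndex_right]
    exact relIndex_dvd_index_of_normal _ _
  have h10 : ((d.range ⊓ IR) ⊔ IR.map (tw t)).relIndex IR ≠ 0 := by
    intro h
    rw [h, zero_dvd_iff] at h1
    exact hc0 h1
  have h2 : (((d.range ⊓ IR) ⊔ IR.map (tw t)).map (nm t p)).relIndex (IR.map (nm t p)) ≤
      ((d.range ⊓ IR) ⊔ IR.map (tw t)).relIndex IR := by
    rw [relIndex_map_map_of_le _ hHhle]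
    exact relIndex_le_of_le_left le_sup_left h10
  have h20 : (((d.range ⊓ IR) ⊔ IR.map (tw t)).map (nm t p)).relIndex (IR.map (nm t p)) ≠ 0 := by
    rw [relIndex_map_map_of_le _ hHhle]
    intro h
    exact h10 (relIndex_eq_zero_of_le_left le_sup_left h)
  have h3 : ((d.range ⊓ IR) ⊔ IR.map (tw t)).map (nm t p) ≤ F1.map d := by
    rw [Subgroup.map_sup]
    refine sup_le ?_ ?_
    · rintro _ ⟨_, ⟨⟨y, rfl⟩, hy⟩, rfl⟩
      exact ⟨nm s p y, hS5d y hy, d_nm s t d hd p y⟩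
    · rintro _ ⟨_, ⟨a, -, rfl⟩, rfl⟩
      rw [nm_tw t p ht]
      exact one_mem _
  have h4 : (F1.map d).relIndex (IR.map (nm t p)) ≤
      (((d.range ⊓ IR) ⊔ IR.map (tw t)).map (nm t p)).relIndex (IR.map (nm t p)) :=
    relIndex_le_of_le_left h3 h20
  have h40 : (F1.map d).relIndex (IR.map (nm t p)) ≠ 0 := by
    intro h
    exact h20 (relIndex_eq_zero_of_le_left h3 h)
  have h5 : (F1.map d).relIndex ((tw t).ker ⊓ IR) ≤ (F1.map d).relIndex (IR.map (nm t p)) := by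
    rw [← relIndex_sup_left (IR.map (nm t p)) (F1.map d)]
    refine relIndex_le_of_le_right H ?_
    rw [relIndex_sup_left]
    exact h40
  exact h5.trans (h4.trans (h2.trans (Nat.le_of_dvd (Nat.pos_of_ne_zero hc0) h1)))

/-- **Abstract first inequality.** -/
theorem FI_abstract (p : ℕ) (hp : 1 < p) (ρ : ℕ) (hs : s ^ p = 1) (ht : t ^ p = 1)
    (hd : ∀ y, d (s y) = t (d y))
    (h90 : ∀ y, nm s p y = 1 → ∃ z, y = tw s z)
    (hcl : d.range.index ≠ 0)
    (IR : Subgroup 𝕀) (hIRt : ∀ a ∈ IR, t a ∈ IR)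
    (hIRtot : ∀ a, nm t p a ∈ IR → a ∈ IR)
    (hmove : ∀ a : 𝕀, ∃ y, a * d y ∈ IR)
    (F1 : Subgroup 𝕐) (hF1 : F1 ≤ (tw s).ker ⊓ IR.comap d)
    (hS5d : ∀ y, d y ∈ IR → nm s p y ∈ F1)
    (hF1idx : p ^ ρ ≤ F1.relIndex ((tw s).ker ⊓ IR.comap d))
    (hamb : ((((tw t).ker ⊓ IR) ⊔ (tw s).ker.map d).relIndex (tw t).ker) ≤ p ^ ρ)
    (hL6 : (d.ker.map (tw s)).relIndex (d.ker ⊓ (nm s p).ker) =
      p * (d.ker.map (nm s p)).relIndex (d.ker ⊓ (tw s).ker))
    (hL6' : (d.ker.map (nm s p)).relIndex (d.ker ⊓ (tw s).ker) ≠ 0) :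
    ∃ j ∈ (tw t).ker ⊓ IR, j ∉ F1.map d ⊔ IR.map (nm t p) := by
  by_contra hcon
  push Not at hcon
  have H : (tw t).ker ⊓ IR ≤ F1.map d ⊔ IR.map (nm t p) := fun j hj => hcon j hj
  have hA := amb_main s t d p ρ hs ht hd h90 IR hamb hL6 hL6'
  have hB := ray_le s t d p ht hd hcl IR hIRt hmove F1 hS5d H
  set c := d.range.relIndex (d.range.comap (tw t)) with hc
  have hPA : d.range ≤ d.range.comap (tw t) := by
    rintro _ ⟨y, rfl⟩
    exact ⟨tw s y, d_tw s t d hd y⟩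
  have hc0 : c ≠ 0 := by
    rw [hc, relIndex_comap_eq_index_sup (tw t) d.range hPA hcl]
    intro h
    have := index_dvd_of_le (le_sup_left : d.range ≤ d.range ⊔ (tw t).range)
    rw [h, zero_dvd_iff] at this
    exact hcl this
  -- `u2 ≠ 0`
  have hNE : d.ker.map (nm s p) ≤ d.ker ⊓ (nm s p).range := by
    rintro _ ⟨e, he, rfl⟩
    refine ⟨?_, e, rfl⟩
    show d (nm s p e) = 1
    rw [d_nm s t d hd, MonoidHom.mem_ker.mp he, map_one]
  have hNF : d.ker ⊓ (nm s p).range ≤ d.ker ⊓ (tw s).ker := by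
    rintro x ⟨hx, y, rfl⟩
    exact ⟨hx, tw_nm s p hs y⟩
  have hu := relIndex_mul_relIndex _ _ _ hNE hNF
  have hu2 : (d.ker ⊓ (nm s p).range).relIndex (d.ker ⊓ (tw s).ker) ≠ 0 := by
    intro h
    rw [h, mul_zero] at hu
    exact hL6' hu.symm
  set u2 := (d.ker ⊓ (nm s p).range).relIndex (d.ker ⊓ (tw s).ker) with hu2def
  -- `e1 ≤ u2`
  have hNF1 : d.ker ⊓ (nm s p).range ≤ F1 := by
    rintro _ ⟨hx, y, rfl⟩
    refine hS5d y (hIRtot _ ?_)
    rw [← d_nm s t d hd, MonoidHom.mem_ker.mp hx]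
    exact one_mem _
  have he1 : F1.relIndex (d.ker ⊓ (tw s).ker) ≤ u2 := relIndex_le_of_le_left hNF1 hu2
  -- decomposition of `[FR : F1]`
  have hEF : d.ker ⊓ ((tw s).ker ⊓ IR.comap d) = d.ker ⊓ (tw s).ker := by
    apply le_antisymm
    · exact inf_le_inf_left _ inf_le_left
    · rintro x ⟨h1, h2⟩
      refine ⟨h1, h2, ?_⟩
      show d x ∈ IR
      rw [MonoidHom.mem_ker.mp h1]
      exact one_mem _
  have hx := relIndex_map_map_of_le d hF1
  rw [hEF] at hx
  have hEFle : d.ker ⊓ (tw s).ker ≤ (tw s).ker ⊓ IR.comap d := by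
    rw [← hEF]; exact inf_le_right
  have hdec := relIndex_mul_relIndex F1 (F1 ⊔ (d.ker ⊓ (tw s).ker)) ((tw s).ker ⊓ IR.comap d)
    le_sup_left (sup_le hF1 hEFle)
  rw [relIndex_sup_left, ← hx] at hdec
  -- `v = x * w`
  have hFRle : ((tw s).ker ⊓ IR.comap d).map d ≤ (tw t).ker ⊓ IR := by
    rintro _ ⟨y, ⟨hy, h2⟩, rfl⟩
    refine ⟨?_, h2⟩
    show tw t (d y) = 1
    rw [← d_tw s t d hd, MonoidHom.mem_ker.mp hy, map_one]
  have hv := relIndex_mul_relIndex (F1.map d) (((tw s).ker ⊓ IR.comap d).map d) ((tw t).ker ⊓ IR)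
    (map_mono hF1) hFRle
  set w := (((tw s).ker ⊓ IR.comap d).map d).relIndex ((tw t).ker ⊓ IR) with hw
  set x := (F1.map d).relIndex (((tw s).ker ⊓ IR.comap d).map d) with hxdef
  set e1 := F1.relIndex (d.ker ⊓ (tw s).ker) with he1def
  have key : c * p * u2 ≤ u2 * c := by
    calc c * p * u2 ≤ w * p ^ ρ := hA
      _ ≤ w * (e1 * x) := by rw [hdec]; gcongr
      _ = e1 * (x * w) := by ring
      _ ≤ u2 * c := by rw [hv]; gcongr
  have : c * u2 * p ≤ c * u2 * 1 := by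
    calc c * u2 * p = c * p * u2 := by ring
      _ ≤ u2 * c := key
      _ = c * u2 * 1 := by ring
  have := Nat.le_of_mul_le_mul_left this (Nat.pos_of_ne_zero (mul_ne_zero hc0 hu2))
  omega

end Main

end Fermat.Agent.S14Lib
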