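import Mathlib
import Fermat.Prelude.Def_ExtCitation_AdmissibleExtension_v2
import Fermat.Prelude.Def_ExtCitation_KummerBridge

/-!
# S14, leaf L13 (glue), part 1 : from the admissible extension to a cocycle
-/

set_option autoImplicit false

namespace Fermat.Agent.S14Lib
open ExtCitation

local notation "Qb" => AlgebraicClosure ℚ
local notation "GQ" => (AlgebraicClosure ℚ ≃ₐ[ℚ] AlgebraicClosure ℚ)

/-- the data extracted from an admissible extension: a "cocycle" `κ : G_ℚ → 𝔽_p`. -/
structure CocycleData (p : ℕ) [Fact p.Prime] (κ : GQ → ZMod p) : Prop where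
  mul : ∀ σ τ : GQ, κ (σ * τ) = (cycloChar p τ : ZMod p) * κ σ + κ τ
  isOpen : IsOpen {σ : GQ | cycloChar p σ = 1 ∧ κ σ = 0}
  unram : ∀ ℓ : ℕ, ℓ.Prime → ℓ ≠ p → ∀ A : ValuationSubring Qb, A.LiesOverPrime ℓ →
    ∀ σ ∈ A.inertiaSubgroupIn ℚ, cycloChar p σ = 1 ∧ κ σ = 0
  dec : ∀ A : ValuationSubring Qb, A.LiesOverPrime p →
    ∀ σ ∈ A.decompositionSubgroup ℚ, cycloChar p σ = 1 → κ σ = 0

variable {p : ℕ} [Fact p.Prime]
variable {V : Type} [AddCommGroup V] [Module (ZMod p) V] [DistribMulAction GQ V]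
  [SMulCommClass GQ (ZMod p) V]

theorem exists_basis (C : Submodule (ZMod p) V) (h : IsAdmissibleExtension p V C) :
    ∃ (v0 c0 : V), c0 ∈ C ∧ c0 ≠ 0 ∧ v0 ∉ C ∧ (∀ x ∈ C, ∃ t : ZMod p, x = t • c0) ∧
      (∀ x : V, ∃ s : ZMod p, x - s • v0 ∈ C) := by
  have hp : p.Prime := Fact.out
  have hVfin : Finite V := Nat.finite_of_card_ne_zero (by rw [h.card_total]; exact pow_ne_zero _ hp.ne_zero)
  have hfd : Module.Finite (ZMod p) V := Module.Finite.of_finite
  have hcV : Nat.card V = p ^ Module.finrank (ZMod p) V := by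
    rw [Module.natCard_eq_pow_finrank (K := ZMod p) (V := V), Nat.card_zmod]
  have hcC : Nat.card C = p ^ Module.finrank (ZMod p) C := by
    rw [Module.natCard_eq_pow_finrank (K := ZMod p) (V := C), Nat.card_zmod]
  have hV2 : Module.finrank (ZMod p) V = 2 := by
    rw [h.card_total] at hcV
    exact (Nat.pow_right_injective hp.two_le hcV).symm
  have hC1 : Module.finrank (ZMod p) C = 1 := by
    rw [h.card_sub] at hcC
    exact (Nat.pow_right_injective hp.two_le (by simpa using hcC)).symm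
  have hQ1 : Module.finrank (ZMod p) (V ⧸ C) = 1 := by
    have := Submodule.finrank_quotient_add_finrank C
    omega
  obtain ⟨c, hc0, hc⟩ := finrank_eq_one_iff'.mp hC1
  obtain ⟨w, hw0, hw⟩ := finrank_eq_one_iff'.mp hQ1
  obtain ⟨v0, rfl⟩ := Submodule.Quotient.mk_surjective C w
  refine ⟨v0, c, c.2, fun h0 => hc0 (Subtype.ext h0), ?_, ?_, ?_⟩
  · intro hv
    exact hw0 ((Submodule.Quotient.mk_eq_zero C).mpr hv)
  · intro x hx
    obtain ⟨t, ht⟩ := hc ⟨x, hx⟩
    exact ⟨t, (congrArg Subtype.val ht).symm⟩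
  · intro x
    obtain ⟨s, hs⟩ := hw (Submodule.Quotient.mk x)
    refine ⟨s, ?_⟩
    rw [← Submodule.Quotient.mk_eq_zero C, Submodule.Quotient.mk_sub, Submodule.Quotient.mk_smul,
      hs, sub_self]

theorem exists_cocycle (C : Submodule (ZMod p) V) (h : IsAdmissibleExtensionCts p V C) :
    ∃ κ : GQ → ZMod p, CocycleData p κ ∧
      ((∃ t : ZMod p, ∀ σ, κ σ = ((cycloChar p σ : ZMod p) - 1) * t) → SplitsGlobally C) := by
  obtain ⟨v0, c0, hc0C, hc0, hv0, hC, hV⟩ := exists_basis C h.toIsAdmissibleExtension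
  have hκ : ∀ σ : GQ, ∃ t : ZMod p, σ • v0 - (cycloChar p σ : ZMod p) • v0 = t • c0 := by
    intro σ
    have := h.cyclo_quot σ v0
    rw [← coe_cycloChar] at this
    exact hC _ this
  choose κ hκ using hκ
  have hκ' : ∀ σ : GQ, σ • v0 = (cycloChar p σ : ZMod p) • v0 + κ σ • c0 := by
    intro σ
    rw [← hκ σ]; abel
  have hinj : ∀ t : ZMod p, t • c0 = 0 → t = 0 := by
    intro t ht
    rcases smul_eq_zero.mp ht with h | h
    · exact h
    · exact absurd h hc0
  have hfix : ∀ σ : GQ, σ • c0 = c0 := fun σ => h.fixed_sub σ c0 hc0C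
  have hv0' : ∀ s : ZMod p, s • v0 ∈ C → s = 0 := by
    intro s hs
    by_contra hs0
    apply hv0
    have := C.smul_mem s⁻¹ hs
    rwa [smul_smul, inv_mul_cancel₀ hs0, one_smul] at this
  -- characterisation of the kernel
  have hker : ∀ σ : GQ, (∀ v : V, σ • v = v) ↔ (cycloChar p σ = 1 ∧ κ σ = 0) := by
    intro σ
    constructor
    · intro hσ
      have h1 := hκ' σ
      rw [hσ v0] at h1
      have h2 : ((1 : ZMod p) - (cycloChar p σ : ZMod p)) • v0 = κ σ • c0 := by
        rw [sub_smul, one_smul]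
        nth_rewrite 1 [h1]
        abel
      have h3 : (1 : ZMod p) - (cycloChar p σ : ZMod p) = 0 := by
        apply hv0'
        rw [h2]
        exact C.smul_mem _ hc0C
      have h4 : κ σ = 0 := by
        apply hinj
        rw [← h2, h3, zero_smul]
      refine ⟨?_, h4⟩
      ext
      rw [Units.val_one]
      exact (sub_eq_zero.mp h3).symm
    · rintro ⟨h1, h2⟩ v
      obtain ⟨s, hs⟩ := hV v
      have h3 : σ • v0 = v0 := by
        rw [hκ' σ, h1, h2]; simp
      have h4 := h.fixed_sub σ _ hs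
      rw [smul_sub, smul_comm, h3] at h4
      exact sub_left_injective h4
  refine ⟨κ, ⟨?_, ?_, ?_, ?_⟩, ?_⟩
  · intro σ τ
    have h1 := hκ' (σ * τ)
    rw [mul_smul, hκ' τ, smul_add, smul_comm, smul_comm σ (κ τ), hfix, hκ' σ, map_mul,
      Units.val_mul, smul_add, smul_smul, smul_smul, add_assoc, mul_comm, ← add_smul] at h1
    have h2 := add_left_cancel h1
    have h3 : ((cycloChar p τ : ZMod p) * κ σ + κ τ - κ (σ * τ)) • c0 = 0 := by
      rw [sub_smul, h2, sub_self]
    exact (sub_eq_zero.mp (hinj _ h3)).symm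
  · have := h.open_kernel
    convert this using 1
    ext σ
    exact (hker σ).symm
  · intro ℓ hℓ hℓp A hA σ hσ
    exact (hker σ).mp (h.unramified_outside ℓ hℓ hℓp A hA σ hσ)
  · intro A hA σ hσ hσ1
    obtain ⟨C', hC', hcompl⟩ := h.locally_split A hA
    have htop : v0 ∈ C ⊔ C' := by rw [hcompl.sup_eq_top]; trivial
    obtain ⟨c, hc, c', hc', hsum⟩ := Submodule.mem_sup.mp htop
    have h1 : σ • c' - c' ∈ C := by
      have := h.cyclo_quot σ c'
      rwa [← coe_cycloChar, hσ1, Units.val_one, one_smul] at this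
    have h2 : σ • c' - c' ∈ C' := C'.sub_mem (hC' σ hσ c' hc') hc'
    have h3 : σ • c' - c' = 0 := by
      have : σ • c' - c' ∈ C ⊓ C' := ⟨h1, h2⟩
      rwa [hcompl.inf_eq_bot, Submodule.mem_bot] at this
    have h4 : σ • v0 = v0 := by
      rw [← hsum, smul_add, h.fixed_sub σ c hc, sub_eq_zero.mp h3]
    have h5 := hκ' σ
    rw [h4, hσ1, Units.val_one, one_smul] at h5
    apply hinj
    exact (left_eq_add.mp h5)
  · rintro ⟨t, ht⟩
    have hw : ∀ σ : GQ, σ • (v0 + t • c0) = (cycloChar p σ : ZMod p) • (v0 + t • c0) := by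
      intro σ
      rw [smul_add, smul_comm, hfix, hκ' σ, ht σ, smul_add, smul_smul, add_assoc, ← add_smul]
      congr 2
      ring
    refine ⟨Submodule.span (ZMod p) {v0 + t • c0}, ?_, ?_⟩
    · intro σ x hx
      obtain ⟨a, rfl⟩ := Submodule.mem_span_singleton.mp hx
      rw [smul_comm, hw σ, smul_smul]
      exact Submodule.smul_mem _ _ (Submodule.mem_span_singleton_self _)
    · constructor
      · rw [Submodule.disjoint_def]
        intro x hxC hx
        obtain ⟨a, rfl⟩ := Submodule.mem_span_singleton.mp hx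
        have h1 : a • v0 ∈ C := by
          have h2 : a • v0 = a • (v0 + t • c0) - (a * t) • c0 := by
            rw [smul_add, smul_smul]; abel
          rw [h2]
          exact C.sub_mem hxC (C.smul_mem _ hc0C)
        rw [hv0' a h1, zero_smul]
      · rw [codisjoint_iff, eq_top_iff]
        intro x _
        obtain ⟨s, hs⟩ := hV x
        have h2 : x = (x - s • v0 - (s * t) • c0) + s • (v0 + t • c0) := by
          rw [smul_add, smul_smul]; abel
        rw [h2]
        exact Submodule.add_mem_sup (C.sub_mem hs (C.smul_mem _ hc0C))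
          (Submodule.smul_mem _ _ (Submodule.mem_span_singleton_self _))

end Fermat.Agent.S14Lib
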