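import Fermat.Agent.S14.Glue1
import Fermat.Agent.Lib.InertiaGlue

/-!
# S14, leaf L13 (glue), part 2 : the Kummer generator (Lagrange resolvent)
-/

set_option autoImplicit false
set_option linter.style.haveILetI false

namespace Fermat.Agent.S14Lib
open ExtCitation

local notation "Qb" => AlgebraicClosure ℚ
local notation "GQ" => (AlgebraicClosure ℚ ≃ₐ[ℚ] AlgebraicClosure ℚ)

variable {p : ℕ} [Fact p.Prime]

theorem cycloChar_spec {ζ : Qb} (hζ : IsPrimitiveRoot ζ p) (σ : GQ) :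
    σ ζ = ζ ^ ((cycloChar p σ : ZMod p)).val := by
  haveI : NeZero p := ⟨(Fact.out : p.Prime).ne_zero⟩
  have h1 : hζ.toRootsOfUnity.1 ∈ rootsOfUnity p Qb := hζ.toRootsOfUnity.2
  have := modularCyclotomicCharacter.spec (L := Qb) (card_rootsOfUnity_eq_self p)
    (σ : Qb ≃+* Qb) h1
  exact this

/-- `Z j = ζ ^ j` for `j : ZMod p`. -/
noncomputable def zpw (ζ : Qb) (j : ZMod p) : Qb := ζ ^ j.val

theorem zpw_add {ζ : Qb} (hζ : IsPrimitiveRoot ζ p) (i j : ZMod p) :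
    zpw ζ (i + j) = zpw ζ i * zpw ζ j := by
  haveI : NeZero p := ⟨(Fact.out : p.Prime).ne_zero⟩
  unfold zpw
  rw [ZMod.val_add, ← pow_add, ← pow_eq_pow_mod _ hζ.pow_eq_one]

theorem zpw_zero (ζ : Qb) : zpw ζ (0 : ZMod p) = 1 := by
  unfold zpw
  rw [ZMod.val_zero, pow_zero]

theorem zpw_natCast {ζ : Qb} (hζ : IsPrimitiveRoot ζ p) (n : ℕ) :
    zpw ζ (n : ZMod p) = ζ ^ n := by
  unfold zpw
  rw [ZMod.val_natCast, ← pow_eq_pow_mod _ hζ.pow_eq_one]

theorem zpw_mul {ζ : Qb} (hζ : IsPrimitiveRoot ζ p) (i j : ZMod p) :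
    zpw ζ (i * j) = (zpw ζ i) ^ j.val := by
  haveI : NeZero p := ⟨(Fact.out : p.Prime).ne_zero⟩
  unfold zpw
  rw [ZMod.val_mul, ← pow_mul, ← pow_eq_pow_mod _ hζ.pow_eq_one]

theorem zpw_ne_zero {ζ : Qb} (hζ : IsPrimitiveRoot ζ p) (i : ZMod p) : zpw ζ i ≠ 0 :=
  pow_ne_zero _ (hζ.ne_zero (Fact.out : p.Prime).ne_zero)

theorem zpw_eq_one_iff {ζ : Qb} (hζ : IsPrimitiveRoot ζ p) (i : ZMod p) : zpw ζ i = 1 ↔ i = 0 := by
  haveI : NeZero p := ⟨(Fact.out : p.Prime).ne_zero⟩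
  unfold zpw
  rw [hζ.pow_eq_one_iff_dvd]
  constructor
  · intro h
    have := Nat.eq_zero_of_dvd_of_lt h (ZMod.val_lt i)
    exact (ZMod.val_eq_zero i).mp this
  · rintro rfl
    simp

theorem map_zpw {ζ : Qb} (hζ : IsPrimitiveRoot ζ p) (σ : GQ) (j : ZMod p) :
    σ (zpw ζ j) = zpw ζ ((cycloChar p σ : ZMod p) * j) := by
  rw [zpw_mul hζ]
  unfold zpw
  rw [map_pow, cycloChar_spec hζ]

theorem cycloChar_eq_one_iff {ζ : Qb} (hζ : IsPrimitiveRoot ζ p) (σ : GQ) :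
    cycloChar p σ = 1 ↔ σ ζ = ζ := by
  haveI : NeZero p := ⟨(Fact.out : p.Prime).ne_zero⟩
  have hp1 : 1 < p := (Fact.out : p.Prime).one_lt
  haveI : Fact (1 < p) := ⟨hp1⟩
  constructor
  · intro h
    rw [cycloChar_spec hζ, h, Units.val_one, ZMod.val_one, pow_one]
  · intro h
    rw [cycloChar_spec hζ] at h
    have h2 : ζ ^ ((cycloChar p σ : ZMod p)).val = ζ ^ 1 := by rw [h, pow_one]
    have h3 := hζ.pow_inj (ZMod.val_lt _) hp1 h2
    ext
    apply ZMod.val_injective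
    rw [h3, Units.val_one, ZMod.val_one]

namespace CocycleData

variable {κ : GQ → ZMod p} (hκ : CocycleData p κ)
include hκ

theorem map_one : κ 1 = 0 := by
  have := hκ.mul 1 1
  simpa using this

theorem mul_of_right {σ τ : GQ} (hτ : cycloChar p τ = 1) : κ (σ * τ) = κ σ + κ τ := by
  rw [hκ.mul, hτ, Units.val_one, one_mul]

theorem pow_of {τ : GQ} (hτ : cycloChar p τ = 1) (n : ℕ) : κ (τ ^ n) = n * κ τ := by
  induction n with
  | zero => simp [hκ.map_one]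
  | succ n ih => rw [pow_succ, hκ.mul_of_right hτ, ih]; push_cast; ring

theorem inv_of {τ : GQ} (hτ : cycloChar p τ = 1) : κ τ⁻¹ = - κ τ := by
  have := hκ.mul_of_right (σ := τ⁻¹) hτ
  rw [inv_mul_cancel, hκ.map_one] at this
  exact eq_neg_of_add_eq_zero_left this.symm

theorem conj (δ σ : GQ) (hσ : cycloChar p σ = 1) :
    κ (δ⁻¹ * σ * δ) = (cycloChar p δ : ZMod p) * κ σ := by
  have h1 := hκ.mul δ⁻¹ δ
  rw [inv_mul_cancel, hκ.map_one] at h1
  rw [hκ.mul, hκ.mul_of_right hσ]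
  linear_combination -h1

/-- the kernel subgroup -/
def kerSubgroup : Subgroup GQ where
  carrier := {σ | cycloChar p σ = 1 ∧ κ σ = 0}
  mul_mem' := by
    rintro a b ⟨ha, ha'⟩ ⟨hb, hb'⟩
    exact ⟨by rw [_root_.map_mul, ha, hb, one_mul], by rw [hκ.mul_of_right hb, ha', hb', add_zero]⟩
  one_mem' := ⟨_root_.map_one _, hκ.map_one⟩
  inv_mem' := by
    rintro a ⟨ha, ha'⟩
    exact ⟨by rw [map_inv, ha, inv_one], by rw [hκ.inv_of ha, ha', neg_zero]⟩

theorem mem_kerSubgroup (σ : GQ) : σ ∈ hκ.kerSubgroup ↔ cycloChar p σ = 1 ∧ κ σ = 0 := Iff.rfl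

theorem kerSubgroup_isOpen : IsOpen (hκ.kerSubgroup : Set GQ) := hκ.isOpen

theorem kerSubgroup_normal : hκ.kerSubgroup.Normal := by
  constructor
  intro n hn g
  obtain ⟨h1, h2⟩ := hn
  have := hκ.conj g⁻¹ n h1
  rw [inv_inv, h2, mul_zero] at this
  exact ⟨by simp [h1], this⟩

/-- the splitting field of the extension -/
noncomputable def splitField : IntermediateField ℚ Qb := IntermediateField.fixedField hκ.kerSubgroup

theorem fixingSubgroup_splitField : hκ.splitField.fixingSubgroup = hκ.kerSubgroup :=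
  InfiniteGalois.fixingSubgroup_fixedField
    (⟨hκ.kerSubgroup, hκ.kerSubgroup.isClosed_of_isOpen hκ.kerSubgroup_isOpen⟩ : ClosedSubgroup GQ)

theorem mem_splitField (x : Qb) : x ∈ hκ.splitField ↔ ∀ σ : GQ, cycloChar p σ = 1 → κ σ = 0 → σ x = x := by
  unfold splitField
  rw [IntermediateField.mem_fixedField_iff]
  constructor
  · intro h σ h1 h2
    exact h σ ⟨h1, h2⟩
  · intro h σ hσ
    exact h σ hσ.1 hσ.2

/-- **Lagrange resolvent.** -/
theorem exists_theta {ζ : Qb} (hζ : IsPrimitiveRoot ζ p) (τ' : GQ) (hτ' : cycloChar p τ' = 1)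
    (hτκ' : κ τ' ≠ 0) :
    ∃ θ : Qb, θ ≠ 0 ∧ ∀ σ : GQ, cycloChar p σ = 1 → σ θ = zpw ζ (κ σ) * θ := by
  haveI : NeZero p := ⟨(Fact.out : p.Prime).ne_zero⟩
  -- normalise
  obtain ⟨τ, hτ, hτκ⟩ : ∃ τ : GQ, cycloChar p τ = 1 ∧ κ τ = 1 := by
    refine ⟨τ' ^ ((κ τ')⁻¹).val, by rw [map_pow, hτ', one_pow], ?_⟩
    rw [hκ.pow_of hτ', ZMod.natCast_val, ZMod.cast_id', id, inv_mul_cancel₀ hτκ']
  have hτpow : ∀ n : ℕ, cycloChar p (τ ^ n) = 1 := fun n => by rw [map_pow, hτ, one_pow]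
  have hτpowκ : ∀ j : ZMod p, κ (τ ^ j.val) = j := by
    intro j
    rw [hκ.pow_of hτ, hτκ, mul_one, ZMod.natCast_val, ZMod.cast_id', id]
  -- the characters
  let f : ZMod p → (hκ.splitField →* Qb) := fun j =>
    ((τ ^ j.val : GQ) : Qb →* Qb).comp (hκ.splitField.val : hκ.splitField →* Qb)
  have hf : ∀ j (x : hκ.splitField), f j x = (τ ^ j.val : GQ) (x : Qb) := fun _ _ => rfl
  have hfinj : Function.Injective f := by
    intro i j hij
    have h1 : (τ ^ j.val)⁻¹ * τ ^ i.val ∈ hκ.splitField.fixingSubgroup := by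
      rw [IntermediateField.mem_fixingSubgroup_iff]
      intro x hx
      have h2 := DFunLike.congr_fun hij ⟨x, hx⟩
      rw [hf, hf] at h2
      show (τ ^ j.val)⁻¹ ((τ ^ i.val) x) = x
      rw [h2]
      exact AlgEquiv.symm_apply_apply _ x
    rw [hκ.fixingSubgroup_splitField] at h1
    have h3 := h1.2
    rw [hκ.mul_of_right (hτpow _), hκ.inv_of (hτpow _), hτpowκ, hτpowκ] at h3
    exact (neg_add_eq_zero.mp h3).symm
  have hli := (linearIndependent_monoidHom hκ.splitField Qb).comp f hfinj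
  rw [Fintype.linearIndependent_iff] at hli
  obtain ⟨x, hx⟩ : ∃ x : hκ.splitField, ∑ j : ZMod p, zpw ζ (-j) * (τ ^ j.val : GQ) (x : Qb) ≠ 0 := by
    by_contra hcon
    push Not at hcon
    have := hli (fun j => zpw ζ (-j)) (by
      ext x
      simpa [Finset.sum_apply, hf] using hcon x) 0
    exact zpw_ne_zero hζ _ this
  have hxfix : ∀ σ : GQ, cycloChar p σ = 1 → κ σ = 0 → σ (x : Qb) = x :=
    (hκ.mem_splitField _).mp x.2
  have hX : ∀ σ : GQ, cycloChar p σ = 1 → σ (x : Qb) = (τ ^ (κ σ).val : GQ) (x : Qb) := by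
    intro σ hσ
    have h1 : ((τ ^ (κ σ).val)⁻¹ * σ) (x : Qb) = x := by
      apply hxfix
      · rw [_root_.map_mul, map_inv, hτpow, hσ]; simp
      · rw [hκ.mul_of_right hσ, hκ.inv_of (hτpow _), hτpowκ]; ring
    have h2 : (τ ^ (κ σ).val : GQ) (((τ ^ (κ σ).val)⁻¹ * σ) (x : Qb)) = σ (x : Qb) := by
      show (τ ^ (κ σ).val : GQ) ((τ ^ (κ σ).val : GQ)⁻¹ (σ (x : Qb))) = σ (x : Qb)
      exact AlgEquiv.apply_symm_apply _ _
    rw [← h2, h1]
  refine ⟨_, hx, ?_⟩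
  intro σ hσ
  have hσζ : ∀ j : ZMod p, σ (zpw ζ j) = zpw ζ j := by
    intro j
    rw [map_zpw hζ, hσ, Units.val_one, one_mul]
  rw [map_sum, Finset.mul_sum]
  have h1 : ∀ j : ZMod p, σ (zpw ζ (-j) * (τ ^ j.val : GQ) (x : Qb)) =
      zpw ζ (κ σ) * (zpw ζ (-(j + κ σ)) * (τ ^ (j + κ σ).val : GQ) (x : Qb)) := by
    intro j
    rw [_root_.map_mul, hσζ, ← mul_assoc, ← zpw_add hζ]
    congr 1
    · congr 1; ring
    · have h2 : σ ((τ ^ j.val : GQ) (x : Qb)) = (σ * τ ^ j.val : GQ) (x : Qb) := rfl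
      rw [h2, hX _ (by rw [_root_.map_mul, hσ, hτpow, one_mul]), hκ.mul_of_right (hτpow _), hτpowκ,
        add_comm]
  rw [Finset.sum_congr rfl (fun j _ => h1 j)]
  exact Fintype.sum_equiv (Equiv.addRight (κ σ)) _ _ (fun j => rfl)

end CocycleData

end Fermat.Agent.S14Lib
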