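import Mathlib

/-!
# S14, leaf L13 (glue), part 3 : comparison of an adic valuation with an arbitrary valuation
having the same centre
-/

set_option autoImplicit false

namespace Fermat.Agent.S14Lib

open IsDedekindDomain

section cmp

variable {R F : Type*} [CommRing R] [IsDedekindDomain R] [Field F] [Algebra R F]
  [IsFractionRing R F] (Q : HeightOneSpectrum R)
  {Γ : Type*} [LinearOrderedCommGroupWithZero Γ] (w : Valuation F Γ)

/-- `w` is centred at `Q`. -/
structure CenteredAt : Prop where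
  le_one : ∀ r : R, w (algebraMap R F r) ≤ 1
  lt_one : ∀ r : R, r ∈ Q.asIdeal → w (algebraMap R F r) < 1

variable {Q w} (h : CenteredAt Q w)
include h

theorem CenteredAt.eq_one {r : R} (hr : r ∉ Q.asIdeal) : w (algebraMap R F r) = 1 := by
  have hmax : Q.asIdeal.IsMaximal := Q.isMaximal
  obtain ⟨s, hs⟩ := hmax.exists_inv hr
  obtain ⟨t, ht, hst⟩ := hs
  -- s * r + t = 1
  have h1 : w (algebraMap R F t) < 1 := h.lt_one t ht
  have h2 : w (algebraMap R F (s * r)) = 1 := by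
    have h3 : algebraMap R F (s * r) = 1 - algebraMap R F t := by
      rw [eq_sub_iff_add_eq, ← map_add, hst, map_one]
    rw [h3]
    have := Valuation.map_sub_eq_of_lt_left w (x := (1 : F)) (y := algebraMap R F t)
      (by rwa [map_one])
    rw [this, map_one]
  rw [map_mul, map_mul] at h2
  refine le_antisymm (h.le_one r) ?_
  calc (1 : Γ) = w (algebraMap R F s) * w (algebraMap R F r) := h2.symm
    _ ≤ 1 * w (algebraMap R F r) := by gcongr; exact h.le_one s
    _ = _ := one_mul _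

theorem CenteredAt.le_one_of {x : F} (hx : Q.valuation F x ≤ 1) : w x ≤ 1 := by
  obtain ⟨n, d, hnd⟩ := Q.exists_primeCompl_mul_eq_of_integer x hx
  have hd : w (algebraMap R F d) = 1 := h.eq_one d.2
  have := congrArg w hnd
  rw [map_mul, hd, mul_one] at this
  rw [this]
  exact h.le_one n

theorem CenteredAt.lt_one_of {x : F} (hx : Q.valuation F x < 1) : w x < 1 := by
  obtain ⟨n, d, hnd⟩ := Q.exists_primeCompl_mul_eq_of_integer x hx.le
  have hd : w (algebraMap R F d) = 1 := h.eq_one d.2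
  have hd' : Q.valuation F (algebraMap R F d) = 1 :=
    (Q.valuation_eq_one_iff_notMem).mpr d.2
  have h1 := congrArg w hnd
  rw [map_mul, hd, mul_one] at h1
  have h2 := congrArg (Q.valuation F) hnd
  rw [map_mul, hd', mul_one] at h2
  rw [h1]
  apply h.lt_one
  rw [← Q.valuation_lt_one_iff_mem (K := F), ← h2]
  exact hx

theorem CenteredAt.eq_one_of {x : F} (hx : Q.valuation F x = 1) : w x = 1 := by
  have hx0 : x ≠ 0 := by
    rintro rfl
    simp at hx
  refine le_antisymm (h.le_one_of hx.le) ?_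
  have h1 : w x⁻¹ ≤ 1 := h.le_one_of (by rw [map_inv₀, hx, inv_one])
  rw [map_inv₀] at h1
  have hw0 : w x ≠ 0 := (Valuation.ne_zero_iff w).mpr hx0
  exact (inv_le_one₀ (zero_lt_iff.mpr hw0)).mp h1

/-- the basic comparison -/
theorem CenteredAt.eq_zpow {ϖ : F} (hϖ : Q.valuation F ϖ = WithZero.exp (-1 : ℤ)) {x : F} {m : ℤ}
    (hx : Q.valuation F x = WithZero.exp (-m)) : w x = w ϖ ^ m := by
  have hϖ0 : ϖ ≠ 0 := by
    rintro rfl
    rw [map_zero] at hϖ
    exact WithZero.exp_ne_zero hϖ.symm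
  have h1 : Q.valuation F (x * (ϖ ^ m)⁻¹) = 1 := by
    rw [map_mul, map_inv₀, map_zpow₀, hx, hϖ, ← WithZero.exp_zsmul, ← WithZero.exp_neg,
      ← WithZero.exp_add]
    simp
  have h2 := h.eq_one_of h1
  rw [map_mul, map_inv₀, map_zpow₀] at h2
  have hw0 : w ϖ ^ m ≠ 0 := zpow_ne_zero _ ((Valuation.ne_zero_iff w).mpr hϖ0)
  field_simp at h2
  exact h2

theorem CenteredAt.exists_zpow {ϖ : F} (hϖ : Q.valuation F ϖ = WithZero.exp (-1 : ℤ)) {x : F}
    (hx : x ≠ 0) : ∃ m : ℤ, Q.valuation F x = WithZero.exp (-m) ∧ w x = w ϖ ^ m := by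
  have h0 : Q.valuation F x ≠ 0 := (Valuation.ne_zero_iff _).mpr hx
  refine ⟨-(WithZero.log (Q.valuation F x)), ?_, ?_⟩
  · rw [neg_neg, WithZero.exp_log h0]
  · apply h.eq_zpow hϖ
    rw [neg_neg, WithZero.exp_log h0]

theorem CenteredAt.zpow_inj {ϖ : F} (hϖ : Q.valuation F ϖ = WithZero.exp (-1 : ℤ)) {m n : ℤ}
    (hmn : w ϖ ^ m = w ϖ ^ n) : m = n := by
  have hϖ0 : ϖ ≠ 0 := by
    rintro rfl
    rw [map_zero] at hϖ
    exact WithZero.exp_ne_zero hϖ.symm
  have h1 : w ϖ < 1 := h.lt_one_of (by rw [hϖ, ← WithZero.exp_zero, WithZero.exp_lt_exp]; norm_num)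
  have h0 : 0 < w ϖ := zero_lt_iff.mpr ((Valuation.ne_zero_iff w).mpr hϖ0)
  exact (zpow_right_strictAnti₀ h0 h1).injective hmn

theorem CenteredAt.zpow_le_iff {ϖ : F} (hϖ : Q.valuation F ϖ = WithZero.exp (-1 : ℤ)) {m n : ℤ} :
    w ϖ ^ m ≤ w ϖ ^ n ↔ n ≤ m := by
  have hϖ0 : ϖ ≠ 0 := by
    rintro rfl
    rw [map_zero] at hϖ
    exact WithZero.exp_ne_zero hϖ.symm
  have h1 : w ϖ < 1 := h.lt_one_of (by rw [hϖ, ← WithZero.exp_zero, WithZero.exp_lt_exp]; norm_num)
  have h0 : 0 < w ϖ := zero_lt_iff.mpr ((Valuation.ne_zero_iff w).mpr hϖ0)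
  exact (zpow_right_strictAnti₀ h0 h1).le_iff_ge

end cmp

end Fermat.Agent.S14Lib
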