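import Fermat.Agent.S14.Glue3
import Fermat.Agent.Lib.InertiaGlue

/-!
# S14, leaf L13 (glue), part 4 : places of `ℚ̄` above primes of number fields; lifting of
decomposition and inertia groups
-/

set_option autoImplicit false
set_option linter.style.haveILetI false
set_option linter.unusedSectionVars false

open NumberField IsDedekindDomain
open scoped Pointwise

namespace Fermat.Agent.S14Lib

open Fermat.Agent.Lib Fermat.Agent.Lib.Frobenius

local notation "Qb" => AlgebraicClosure ℚ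
local notation "GQ" => (AlgebraicClosure ℚ ≃ₐ[ℚ] AlgebraicClosure ℚ)

section places
variable (F : IntermediateField ℚ Qb) [FiniteDimensional ℚ F]

/-- restriction of the valuation of `A` to `F`. -/
noncomputable def resVal (A : ValuationSubring Qb) : Valuation F A.ValueGroup :=
  A.valuation.comap (algebraMap F Qb)

theorem resVal_apply (A : ValuationSubring Qb) (x : F) : resVal F A x = A.valuation (x : Qb) := rfl

theorem exists_place (P : Ideal (𝓞 F)) [P.IsPrime] (hP : P ≠ ⊥) :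
    ∃ A : ValuationSubring Qb, ∀ x : 𝓞 F, x ∈ P ↔ ((x : F) : Qb) ∈ A.nonunits := by
  haveI hPmax : P.IsMaximal := Ideal.IsPrime.isMaximal inferInstance hP
  obtain ⟨Q, hQmax, hQP⟩ := Ideal.exists_maximal_ideal_liesOver_of_isIntegral (S := 𝓞 Qb) P
  obtain ⟨A, hAQ⟩ := exists_center_eq Q hQmax
  refine ⟨A, fun x => ?_⟩
  have h1 : x ∈ P ↔ algebraMap (𝓞 F) (𝓞 Qb) x ∈ Q := by
    rw [hQP.over]
    rfl
  rw [h1, ← hAQ, mem_center_iff]
  rfl

theorem centeredAt_of (Q : HeightOneSpectrum (𝓞 F)) (A : ValuationSubring Qb)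
    (hA : ∀ x : 𝓞 F, x ∈ Q.asIdeal → ((x : F) : Qb) ∈ A.nonunits) :
    CenteredAt Q (resVal F A) := by
  constructor
  · intro r
    rw [resVal_apply, ValuationSubring.valuation_le_one_iff]
    apply mem_of_isIntegral_int
    have := RingOfIntegers.isIntegral_coe r
    exact this.map (algebraMap F Qb).toIntAlgHom
  · intro r hr
    exact (ValuationSubring.mem_nonunits_iff (A := A)).mp (hA r hr)

theorem exists_centeredAt (Q : HeightOneSpectrum (𝓞 F)) :
    ∃ A : ValuationSubring Qb, CenteredAt Q (resVal F A) := by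
  obtain ⟨A, hA⟩ := exists_place F Q.asIdeal Q.ne_bot
  exact ⟨A, centeredAt_of F Q A (fun x hx => (hA x).mp hx)⟩

/-- the centre of `A` on `𝓞 F` -/
theorem exists_center (A : ValuationSubring Qb) {ℓ : ℕ} (hℓ : ℓ.Prime) (hA : A.LiesOverPrime ℓ) :
    ∃ Q : HeightOneSpectrum (𝓞 F), CenteredAt Q (resVal F A) ∧ (ℓ : 𝓞 F) ∈ Q.asIdeal := by
  let P : Ideal (𝓞 F) := (center A).comap (algebraMap (𝓞 F) (𝓞 Qb))
  have hmem : ∀ x : 𝓞 F, x ∈ P ↔ ((x : F) : Qb) ∈ A.nonunits := by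
    intro x
    rw [Ideal.mem_comap, mem_center_iff]
    rfl
  have hℓP : (ℓ : 𝓞 F) ∈ P := by
    rw [hmem]
    have h1 : (ℓ : Qb) ∈ A.nonunits := hA
    simpa using h1
  have hP0 : P ≠ ⊥ := by
    intro h0
    rw [h0, Ideal.mem_bot] at hℓP
    exact hℓ.ne_zero (by exact_mod_cast hℓP)
  have hPp : P.IsPrime := Ideal.comap_isPrime _ _
  exact ⟨⟨P, hPp, hP0⟩, centeredAt_of F _ A (fun x hx => (hmem x).mp hx), hℓP⟩

end places

section lift
variable (K : IntermediateField ℚ Qb) [FiniteDimensional ℚ K]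

theorem exists_decomp_lift [IsGalois ℚ K] (P : Ideal (𝓞 K)) [P.IsPrime] {q : ℕ} (hq : q.Prime)
    (hqP : (q : 𝓞 K) ∈ P) (τ : K ≃ₐ[ℚ] K) (hτ : τ ∈ MulAction.stabilizer (K ≃ₐ[ℚ] K) P) :
    ∃ (A : ValuationSubring Qb) (_ : A.LiesOverPrime q) (σ : GQ),
      σ ∈ A.decompositionSubgroup ℚ ∧ AlgEquiv.restrictNormalHom K σ = τ := by
  have hP : P ≠ ⊥ := by
    intro h0
    rw [h0, Ideal.mem_bot] at hqP
    exact hq.ne_zero (by exact_mod_cast hqP)
  haveI hPmax : P.IsMaximal := Ideal.IsPrime.isMaximal inferInstance hP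
  obtain ⟨Q, hQmax, hQP⟩ := Ideal.exists_maximal_ideal_liesOver_of_isIntegral (S := 𝓞 Qb) P
  obtain ⟨A, hAQ⟩ := exists_center_eq Q hQmax
  have hmemQ : ∀ x : 𝓞 K, x ∈ P ↔ algebraMap (𝓞 K) (𝓞 Qb) x ∈ Q := by
    intro x
    rw [hQP.over]
    rfl
  have hA : A.LiesOverPrime q := by
    have h1 := (hmemQ _).mp hqP
    rw [← hAQ, mem_center_iff] at h1
    show (q : Qb) ∈ A.nonunits
    simpa using h1
  letI : TopologicalSpace (𝓞 Qb) := ⊥
  haveI : DiscreteTopology (𝓞 Qb) := ⟨rfl⟩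
  haveI : ContinuousSMul (Qb ≃ₐ[K] Qb) (𝓞 Qb) := by
    rw [continuousSMul_iff_stabilizer_isOpen]
    intro x
    have h := stabilizer_isOpen_of_isIntegral (K := K) (L := Qb) (x : Qb)
    convert h using 1
    ext g
    simp only [SetLike.mem_coe, MulAction.mem_stabilizer_iff]
    constructor
    · intro h; exact congrArg (fun y : 𝓞 Qb => (y : Qb)) h
    · intro h; exact RingOfIntegers.ext h
  obtain ⟨τ', hτ'⟩ := AlgEquiv.restrictNormalHom_surjective Qb τ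
  have hunder : Ideal.under (𝓞 K) (τ' • Q) = Ideal.under (𝓞 K) Q := by
    ext x
    rw [Ideal.under, Ideal.under, Ideal.mem_comap, Ideal.mem_comap,
      Ideal.mem_pointwise_smul_iff_inv_smul_mem, ← algebraMap_smul_restrict, map_inv, hτ',
      ← hmemQ, ← hmemQ, ← Ideal.mem_pointwise_smul_iff_inv_smul_mem,
      MulAction.mem_stabilizer_iff.mp hτ]
  obtain ⟨g, hg⟩ := Algebra.IsInvariant.exists_smul_of_under_eq_of_profinite (A := 𝓞 K)
    (G := Qb ≃ₐ[K] Qb) (τ' • Q) Q hunder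
  set σ₁ : GQ := g.restrictScalars ℚ * τ' with hσ₁def
  have hσ₁ : σ₁ • Q = Q := by
    rw [hσ₁def, mul_smul, restrictScalars_smul_ideal, ← hg]
  have hσ₁K : AlgEquiv.restrictNormalHom K σ₁ = τ := by
    rw [hσ₁def, map_mul, restrictNormalHom_restrictScalars, one_mul, hτ']
  refine ⟨A, hA, σ₁, ?_, hσ₁K⟩
  apply mem_decompositionSubgroup_of_mem_stabilizer hq A hA
  rw [hAQ, MulAction.mem_stabilizer_iff, hσ₁]

theorem exists_inertia_lift' [IsGalois ℚ K] (P : Ideal (𝓞 K)) [P.IsPrime] {q : ℕ} (hq : q.Prime)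
    (hqP : (q : 𝓞 K) ∈ P) (τ : K ≃ₐ[ℚ] K) (hτ : τ ∈ P.inertia (K ≃ₐ[ℚ] K)) :
    ∃ (A : ValuationSubring Qb) (_ : A.LiesOverPrime q) (σ : GQ),
      σ ∈ A.inertiaSubgroupIn ℚ ∧ AlgEquiv.restrictNormalHom K σ = τ := by
  have hP : P ≠ ⊥ := by
    intro h0
    rw [h0, Ideal.mem_bot] at hqP
    exact hq.ne_zero (by exact_mod_cast hqP)
  haveI hPmax : P.IsMaximal := Ideal.IsPrime.isMaximal inferInstance hP
  obtain ⟨Q, hQmax, hQP⟩ := Ideal.exists_maximal_ideal_liesOver_of_isIntegral (S := 𝓞 Qb) P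
  obtain ⟨A, hAQ⟩ := exists_center_eq Q hQmax
  have hmemQ : ∀ x : 𝓞 K, x ∈ P ↔ algebraMap (𝓞 K) (𝓞 Qb) x ∈ Q := by
    intro x
    rw [hQP.over]
    rfl
  have hA : A.LiesOverPrime q := by
    have h1 := (hmemQ _).mp hqP
    rw [← hAQ, mem_center_iff] at h1
    show (q : Qb) ∈ A.nonunits
    simpa using h1
  letI : TopologicalSpace (𝓞 Qb) := ⊥
  haveI : DiscreteTopology (𝓞 Qb) := ⟨rfl⟩
  haveI : ContinuousSMul (Qb ≃ₐ[K] Qb) (𝓞 Qb) := by
    rw [continuousSMul_iff_stabilizer_isOpen]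
    intro x
    have h := stabilizer_isOpen_of_isIntegral (K := K) (L := Qb) (x : Qb)
    convert h using 1
    ext g
    simp only [SetLike.mem_coe, MulAction.mem_stabilizer_iff]
    constructor
    · intro h; exact congrArg (fun y : 𝓞 Qb => (y : Qb)) h
    · intro h; exact RingOfIntegers.ext h
  obtain ⟨τ', hτ'⟩ := AlgEquiv.restrictNormalHom_surjective Qb τ
  have hunder : Ideal.under (𝓞 K) (τ' • Q) = Ideal.under (𝓞 K) Q := by
    ext x
    rw [Ideal.under, Ideal.under, Ideal.mem_comap, Ideal.mem_comap,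
      Ideal.mem_pointwise_smul_iff_inv_smul_mem, ← algebraMap_smul_restrict, map_inv, hτ',
      ← hmemQ, ← hmemQ]
    have h1 : τ⁻¹ • x - x ∈ P := (inv_mem hτ) x
    constructor
    · intro h
      have := P.sub_mem h h1
      simpa using this
    · intro h
      have := P.add_mem h1 h
      simpa using this
  obtain ⟨g, hg⟩ := Algebra.IsInvariant.exists_smul_of_under_eq_of_profinite (A := 𝓞 K)
    (G := Qb ≃ₐ[K] Qb) (τ' • Q) Q hunder
  set σ₁ : GQ := g.restrictScalars ℚ * τ' with hσ₁def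
  have hσ₁ : σ₁ • Q = Q := by
    rw [hσ₁def, mul_smul, restrictScalars_smul_ideal, ← hg]
  have hσ₁K : AlgEquiv.restrictNormalHom K σ₁ = τ := by
    rw [hσ₁def, map_mul, restrictNormalHom_restrictScalars, one_mul, hτ']
  let l₀ := Ideal.Quotient.stabilizerHom Q (Q.under ℤ) GQ ⟨σ₁, hσ₁⟩
  have hl₀ : ∀ y : 𝓞 Qb, l₀ (Ideal.Quotient.mk Q y) = Ideal.Quotient.mk Q (σ₁ • y) := fun y => rfl
  let l : (𝓞 Qb ⧸ Q) ≃ₐ[𝓞 K ⧸ P] (𝓞 Qb ⧸ Q) := AlgEquiv.ofRingEquiv (f := l₀.toRingEquiv) (by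
    intro r
    obtain ⟨x, rfl⟩ := Ideal.Quotient.mk_surjective r
    show l₀ (Ideal.Quotient.mk Q (algebraMap (𝓞 K) (𝓞 Qb) x))
      = Ideal.Quotient.mk Q (algebraMap (𝓞 K) (𝓞 Qb) x)
    rw [hl₀, ← algebraMap_smul_restrict, hσ₁K, Ideal.Quotient.eq, ← map_sub, ← hmemQ]
    exact hτ x)
  obtain ⟨ρ, hρ⟩ := Ideal.Quotient.stabilizerHom_surjective_of_profinite
    (G := Qb ≃ₐ[K] Qb) P Q l
  have hkey : ∀ y : 𝓞 Qb, σ₁ • y - (ρ.1.restrictScalars ℚ) • y ∈ Q := by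
    intro y
    have h1 := DFunLike.congr_fun hρ (Ideal.Quotient.mk Q y)
    rw [Ideal.Quotient.stabilizerHom_apply] at h1
    rw [← Ideal.Quotient.eq]
    exact h1.symm
  have hρQ : (ρ.1.restrictScalars ℚ) • Q = Q := by
    rw [restrictScalars_smul_ideal]
    exact ρ.2
  refine ⟨A, hA, (ρ.1.restrictScalars ℚ)⁻¹ * σ₁, ?_, ?_⟩
  · apply mem_inertiaSubgroupIn_of_center hq A hA
    · rw [hAQ, MulAction.mem_stabilizer_iff, mul_smul, hσ₁, inv_smul_eq_iff, hρQ]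
    · intro x
      rw [hAQ]
      have h2 : ((ρ.1.restrictScalars ℚ)⁻¹ * σ₁) • x - x
          = (ρ.1.restrictScalars ℚ)⁻¹ • (σ₁ • x - (ρ.1.restrictScalars ℚ) • x) := by
        rw [smul_sub, inv_smul_smul, mul_smul]
      rw [h2, ← Ideal.mem_pointwise_smul_iff_inv_smul_mem, hρQ]
      exact hkey x
  · rw [map_mul, map_inv, restrictNormalHom_restrictScalars, hσ₁K]
    simp

end lift

end Fermat.Agent.S14Lib
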