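import Mathlib

/-!
# S14, leaf L13 (glue), part 5 : ramification index / inertia degree via valuations,
for a Galois number field
-/

set_option autoImplicit false
set_option linter.style.haveILetI false
set_option linter.unusedSectionVars false

open NumberField IsDedekindDomain
open scoped Pointwise

namespace Fermat.Agent.S14Lib

section
variable {L : Type*} [Field L] [NumberField L]

theorem glue_liesOver_span_of_mem (Q : HeightOneSpectrum (𝓞 L)) {ℓ : ℕ} (hℓ : ℓ.Prime)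
    (hQ : (ℓ : 𝓞 L) ∈ Q.asIdeal) : Q.asIdeal.LiesOver (Ideal.span {(ℓ : ℤ)}) := by
  constructor
  have hmax : (Ideal.span {(ℓ : ℤ)}).IsMaximal :=
    PrincipalIdealRing.isMaximal_of_irreducible (Nat.prime_iff_prime_int.mp hℓ).irreducible
  apply hmax.eq_of_le
  · exact (Ideal.IsPrime.under ℤ Q.asIdeal).ne_top
  · rw [Ideal.span_singleton_le_iff_mem, Ideal.under, Ideal.mem_comap]
    simpa using hQ

theorem valuation_prime_eq (Q : HeightOneSpectrum (𝓞 L)) {ℓ : ℕ} (hℓ : ℓ.Prime)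
    (hQ : (ℓ : 𝓞 L) ∈ Q.asIdeal) :
    Q.valuation L (ℓ : L) = WithZero.exp (-(Q.asIdeal.ramificationIdx ℤ : ℤ)) := by
  haveI := glue_liesOver_span_of_mem Q hℓ hQ
  have hℓ0 : (ℓ : 𝓞 L) ≠ 0 := by exact_mod_cast hℓ.ne_zero
  have hmap : (Ideal.span {(ℓ : ℤ)}).map (algebraMap ℤ (𝓞 L)) = Ideal.span {(ℓ : 𝓞 L)} := by
    rw [Ideal.map_span, Set.image_singleton]
    simp
  have h0 : (Ideal.span {(ℓ : ℤ)}).map (algebraMap ℤ (𝓞 L)) ≠ ⊥ := by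
    rw [hmap, Ne, Ideal.span_singleton_eq_bot]
    exact hℓ0
  rw [Ideal.IsDedekindDomain.ramificationIdx_eq_multiplicity (Ideal.span {(ℓ : ℤ)}) Q.asIdeal h0,
    hmap, ← Q.intValuation_eq_exp_neg_multiplicity hℓ0, ← Q.valuation_of_algebraMap (K := L)]
  simp

variable [IsGalois ℚ L]

theorem card_inertia_eq (Q : HeightOneSpectrum (𝓞 L)) {ℓ : ℕ} (hℓ : ℓ.Prime)
    (hQ : (ℓ : 𝓞 L) ∈ Q.asIdeal) :
    Nat.card (Q.asIdeal.inertia Gal(L/ℚ)) = Q.asIdeal.ramificationIdx ℤ := by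
  haveI := glue_liesOver_span_of_mem Q hℓ hQ
  haveI : (Ideal.span {(ℓ : ℤ)}).IsPrime :=
    (Ideal.span_singleton_prime (by exact_mod_cast hℓ.ne_zero)).mpr (Nat.prime_iff_prime_int.mp hℓ)
  rw [Ideal.card_inertia_eq_ramificationIdxIn (G := Gal(L/ℚ)) (Ideal.span {(ℓ : ℤ)}) Q.asIdeal,
    Ideal.ramificationIdxIn_eq_ramificationIdx (Ideal.span {(ℓ : ℤ)}) Q.asIdeal Gal(L/ℚ)]

theorem card_stabilizer_eq' (Q : HeightOneSpectrum (𝓞 L)) {ℓ : ℕ} (hℓ : ℓ.Prime)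
    (hQ : (ℓ : 𝓞 L) ∈ Q.asIdeal) :
    Nat.card (MulAction.stabilizer Gal(L/ℚ) Q.asIdeal) =
      Q.asIdeal.ramificationIdx ℤ * Q.asIdeal.inertiaDeg ℤ := by
  haveI := glue_liesOver_span_of_mem Q hℓ hQ
  haveI : (Ideal.span {(ℓ : ℤ)}).IsPrime :=
    (Ideal.span_singleton_prime (by exact_mod_cast hℓ.ne_zero)).mpr (Nat.prime_iff_prime_int.mp hℓ)
  rw [Ideal.card_stabilizer_eq (G := Gal(L/ℚ)) (Ideal.span {(ℓ : ℤ)}) Q.asIdeal,
    Ideal.ramificationIdxIn_eq_ramificationIdx (Ideal.span {(ℓ : ℤ)}) Q.asIdeal Gal(L/ℚ),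
    Ideal.inertiaDegIn_eq_inertiaDeg (Ideal.span {(ℓ : ℤ)}) Q.asIdeal Gal(L/ℚ)]

end

/-- if the inertia degree is one, every integer of `L` is congruent to a rational integer -/
theorem exists_int_sub_mem {L : Type*} [Field L] [NumberField L] (Q : HeightOneSpectrum (𝓞 L))
    {ℓ : ℕ} (hℓ : ℓ.Prime) (hQ : (ℓ : 𝓞 L) ∈ Q.asIdeal) (hf : Q.asIdeal.inertiaDeg ℤ = 1)
    (x : 𝓞 L) : ∃ n : ℤ, x - (n : 𝓞 L) ∈ Q.asIdeal := by
  haveI := glue_liesOver_span_of_mem Q hℓ hQ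
  haveI hmax : (Ideal.span {(ℓ : ℤ)}).IsMaximal :=
    PrincipalIdealRing.isMaximal_of_irreducible (Nat.prime_iff_prime_int.mp hℓ).irreducible
  haveI : Q.asIdeal.IsMaximal := Q.isMaximal
  rw [Ideal.inertiaDeg_eq_of_isMaximal (Ideal.span {(ℓ : ℤ)}) Q.asIdeal] at hf
  letI : Field (ℤ ⧸ Ideal.span {(ℓ : ℤ)}) := Ideal.Quotient.field _
  have h1 := Subalgebra.bot_eq_top_of_finrank_eq_one hf
  have h2 : Ideal.Quotient.mk Q.asIdeal x ∈ (⊥ : Subalgebra (ℤ ⧸ Ideal.span {(ℓ : ℤ)}) (𝓞 L ⧸ Q.asIdeal)) := by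
    rw [h1]; trivial
  obtain ⟨y, hy⟩ := Algebra.mem_bot.mp h2
  obtain ⟨n, rfl⟩ := Ideal.Quotient.mk_surjective y
  refine ⟨n, ?_⟩
  rw [← Ideal.Quotient.eq, ← hy]
  simp

end Fermat.Agent.S14Lib
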