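import Fermat.Agent.S14.Glue4
import Fermat.Agent.S14.Glue5

/-!
# S14, leaf L13 (glue), part 6 : local analysis of a Galois number field inside `ℚ̄`
-/

set_option autoImplicit false
set_option linter.style.haveILetI false
set_option linter.unusedSectionVars false

open NumberField IsDedekindDomain
open scoped Pointwise

namespace Fermat.Agent.S14Lib

open Fermat.Agent.Lib Fermat.Agent.Lib.Frobenius

local notation "Qb" => AlgebraicClosure ℚ
local notation "GQ" => (AlgebraicClosure ℚ ≃ₐ[ℚ] AlgebraicClosure ℚ)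

variable (L : IntermediateField ℚ Qb) [FiniteDimensional ℚ L] [IsGalois ℚ L]

theorem restrict_eq_one_of_fix (σ : GQ) (h : ∀ x ∈ L, σ x = x) :
    AlgEquiv.restrictNormalHom L σ = 1 := by
  ext x
  have h2 := AlgEquiv.restrictNormal_commutes σ L x
  exact h2.trans (h x x.2)

/-- trivial inertia gives ramification index one -/
theorem unram_val {ℓ : ℕ} (hℓ : ℓ.Prime)
    (hI : ∀ A : ValuationSubring Qb, A.LiesOverPrime ℓ → ∀ σ ∈ A.inertiaSubgroupIn ℚ,
      ∀ x ∈ L, σ x = x)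
    (Q : HeightOneSpectrum (𝓞 L)) (hQ : (ℓ : 𝓞 L) ∈ Q.asIdeal) :
    Q.valuation L (ℓ : L) = WithZero.exp (-1 : ℤ) := by
  rw [valuation_prime_eq Q hℓ hQ, ← card_inertia_eq Q hℓ hQ]
  have : Nat.card (Q.asIdeal.inertia Gal(L/ℚ)) = 1 := by
    rw [Nat.card_eq_one_iff_unique]
    have key : ∀ τ ∈ Q.asIdeal.inertia Gal(L/ℚ), τ = 1 := by
      intro τ hτ
      obtain ⟨A, hA, σ, hσ, rfl⟩ := exists_inertia_lift' L Q.asIdeal hℓ hQ τ hτ
      exact restrict_eq_one_of_fix L σ (hI A hA σ hσ)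
    refine ⟨⟨fun a b => Subtype.ext ?_⟩, ⟨1⟩⟩
    rw [key a a.2, key b b.2]
  rw [this]
  rfl

/-- the decomposition group at `p` injects into `(ℤ/p)ˣ` -/
theorem card_stab_le {p : ℕ} [Fact p.Prime] {ζ : Qb} (hζ : IsPrimitiveRoot ζ p) (hζL : ζ ∈ L)
    (hD : ∀ A : ValuationSubring Qb, A.LiesOverPrime p → ∀ σ ∈ A.decompositionSubgroup ℚ,
      σ ζ = ζ → ∀ x ∈ L, σ x = x)
    (Q : HeightOneSpectrum (𝓞 L)) (hQ : (p : 𝓞 L) ∈ Q.asIdeal) :
    Nat.card (MulAction.stabilizer Gal(L/ℚ) Q.asIdeal) ≤ p - 1 := by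
  have hp : p.Prime := Fact.out
  haveI : NeZero p := ⟨hp.ne_zero⟩
  have hζ' : IsPrimitiveRoot (⟨ζ, hζL⟩ : L) p :=
    IsPrimitiveRoot.of_map_of_injective (f := algebraMap L Qb) hζ (algebraMap L Qb).injective
  let f : MulAction.stabilizer Gal(L/ℚ) Q.asIdeal →* (ZMod p)ˣ :=
    (hζ'.autToPow ℚ).comp (Subgroup.subtype _)
  have hf : Function.Injective f := by
    rw [injective_iff_map_eq_one]
    intro g hg
    obtain ⟨A, hA, σ, hσ, hσg⟩ := exists_decomp_lift L Q.asIdeal hp hQ g.1 g.2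
    have h1 : g.1 (⟨ζ, hζL⟩ : L) = ⟨ζ, hζL⟩ := by
      have h2 := hζ'.autToPow_spec ℚ g.1
      have h3 : hζ'.autToPow ℚ g.1 = 1 := hg
      haveI : Fact (1 < p) := ⟨hp.one_lt⟩
      rw [h3, Units.val_one, ZMod.val_one, pow_one] at h2
      exact h2.symm
    have h4 : σ ζ = ζ := by
      have h5 := AlgEquiv.restrictNormal_commutes σ L ⟨ζ, hζL⟩
      have h6 : AlgEquiv.restrictNormal σ L = g.1 := hσg
      rw [h6, h1] at h5
      exact h5.symm
    have h7 := restrict_eq_one_of_fix L σ (hD A hA σ hσ h4)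
    apply Subtype.ext
    rw [← hσg, h7]
    rfl
  calc Nat.card (MulAction.stabilizer Gal(L/ℚ) Q.asIdeal) ≤ Nat.card (ZMod p)ˣ :=
        Nat.card_le_card_of_injective f hf
    _ = p - 1 := by rw [Nat.card_eq_fintype_card, ZMod.card_units]

end Fermat.Agent.S14Lib
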