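import Mathlib

/-!
# S14, L2 (J1) : Jacobi sums modulo a prime above `m`

`m` is a prime, `p ∣ m - 1`.  A multiplicative character `ψ` of `ZMod m` with values in a field `k`
of characteristic `m`, of order `p`, is `x ↦ x ^ (u (m-1)/p)`; the Jacobi sum `J(ψ^a, ψ^b)` vanishes
iff `⟨a u⟩ + ⟨b u⟩ < p`.
-/

set_option autoImplicit false

namespace Fermat.Agent.S14Lib

open Finset

section SumPow

variable {m : ℕ} [Fact m.Prime]

theorem sum_pow_zmod (n : ℕ) (hn : n ≠ 0) :
    ∑ x : ZMod m, x ^ n = if (m - 1) ∣ n then -1 else 0 := by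
  classical
  let φ : (ZMod m)ˣ ↪ ZMod m := ⟨fun x ↦ x, Units.val_injective⟩
  have : univ.map φ = univ \ {0} := by
    ext x
    simpa only [mem_map, mem_univ, Function.Embedding.coeFn_mk, true_and, mem_sdiff,
      mem_singleton, φ] using! isUnit_iff_ne_zero
  calc
    ∑ x : ZMod m, x ^ n = ∑ x ∈ univ \ {(0 : ZMod m)}, x ^ n := by
      rw [← sum_sdiff ({0} : Finset (ZMod m)).subset_univ, sum_singleton, zero_pow hn, add_zero]
    _ = ∑ x : (ZMod m)ˣ, (x ^ n : ZMod m) := by simp [φ, ← this, univ.sum_map φ]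
    _ = _ := by rw [FiniteField.sum_pow_units (ZMod m) n, ZMod.card]

theorem sum_pow_mul_one_sub_pow (A B : ℕ) (hA : 0 < A) (hA' : A < m - 1) (hB' : B < m - 1) :
    ∑ x : ZMod m, x ^ A * (1 - x) ^ B =
      if m - 1 ≤ A + B then -((-1) ^ (m - 1 - A) * (B.choose (m - 1 - A) : ZMod m)) else 0 := by
  have h1 : ∀ x : ZMod m, x ^ A * (1 - x) ^ B =
      ∑ j ∈ range (B + 1), ((-1) ^ j * (B.choose j : ZMod m)) * x ^ (A + j) := by
    intro x
    have : (1 - x) = (-x) + 1 := by ring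
    rw [this, add_pow, mul_sum]
    refine sum_congr rfl fun j _ => ?_
    rw [one_pow, neg_pow, pow_add]
    ring
  simp_rw [h1]
  rw [sum_comm]
  simp_rw [← mul_sum]
  have h2 : ∀ j ∈ range (B + 1), ((-1) ^ j * (B.choose j : ZMod m)) * ∑ x : ZMod m, x ^ (A + j) =
      if j = m - 1 - A then -((-1) ^ j * (B.choose j : ZMod m)) else 0 := by
    intro j hj
    rw [mem_range] at hj
    rw [sum_pow_zmod (A + j) (by omega)]
    by_cases hj' : j = m - 1 - A
    · rw [if_pos hj', if_pos ⟨1, by omega⟩]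
      ring
    · rw [if_neg hj', if_neg, mul_zero]
      rintro ⟨c, hc⟩
      rcases c with _ | _ | c
      · omega
      · omega
      · have : (m - 1) * (c + 1 + 1) = (m - 1) * c + 2 * (m - 1) := by ring
        have h3 : 0 ≤ (m - 1) * c := Nat.zero_le _
        omega
  rw [sum_congr rfl h2, sum_ite_eq' (range (B + 1)) (m - 1 - A)]
  by_cases h : m - 1 ≤ A + B
  · rw [if_pos h, if_pos (by rw [mem_range]; omega)]
  · rw [if_neg h, if_neg (by rw [mem_range]; omega)]

theorem choose_ne_zero_zmod {B j : ℕ} (hj : j ≤ B) (hB : B < m) : (B.choose j : ZMod m) ≠ 0 := by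
  have hm : m.Prime := Fact.out
  intro h
  rw [ZMod.natCast_eq_zero_iff] at h
  have h1 := Nat.choose_mul_factorial_mul_factorial hj
  have h2 : m ∣ B.factorial := by
    rw [← h1]
    exact Dvd.dvd.mul_right (Dvd.dvd.mul_right h _) _
  rw [hm.dvd_factorial] at h2
  omega

theorem sum_pow_mul_one_sub_pow_eq_zero_iff (A B : ℕ) (hA : 0 < A) (hA' : A < m - 1)
    (hB' : B < m - 1) : ∑ x : ZMod m, x ^ A * (1 - x) ^ B = 0 ↔ A + B < m - 1 := by
  rw [sum_pow_mul_one_sub_pow A B hA hA' hB']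
  constructor
  · intro h
    by_contra hc
    rw [if_pos (by omega), neg_eq_zero, mul_eq_zero] at h
    rcases h with h | h
    · exact pow_ne_zero _ (neg_ne_zero.2 one_ne_zero) h
    · exact choose_ne_zero_zmod (by omega) (by omega) h
  · intro h
    rw [if_neg (by omega)]

end SumPow

section Char

variable {m p : ℕ} [Fact m.Prime] [Fact p.Prime] {k : Type*} [Field k] [Algebra (ZMod m) k]

/-- `ψ(x) = x ^ (u (m-1)/p)` -/
def HasExpo (p : ℕ) (ψ : MulChar (ZMod m) k) (u : ℕ) : Prop :=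
  ∀ x : ZMod m, ψ x = algebraMap (ZMod m) k x ^ (u * ((m - 1) / p))

theorem exists_hasExpo (hpm : p ∣ m - 1) (ψ : MulChar (ZMod m) k) (hψ : ψ ^ p = 1) (hψ1 : ψ ≠ 1) :
    ∃ u, 0 < u ∧ u < p ∧ HasExpo p ψ u := by
  have hm : m.Prime := Fact.out
  have hp : p.Prime := Fact.out
  obtain ⟨e, he⟩ := hpm
  have he0 : 0 < e := by
    rcases Nat.eq_zero_or_pos e with h | h
    · rw [h, mul_zero] at he
      have := hm.two_le
      omega
    · exact h
  have hdiv : (m - 1) / p = e := by rw [he, Nat.mul_div_cancel_left _ hp.pos]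
  obtain ⟨s, hs⟩ := IsCyclic.exists_generator (α := (ZMod m)ˣ)
  have hord : orderOf s = m - 1 := by
    rw [orderOf_eq_card_of_forall_mem_zpowers hs, Nat.card_eq_fintype_card, ZMod.card_units]
  have hinj : Function.Injective (algebraMap (ZMod m) k) := (algebraMap (ZMod m) k).injective
  -- `t = s ^ e` is a primitive `p`-th root of unity in `k`
  have hsk : IsPrimitiveRoot (algebraMap (ZMod m) k (s : ZMod m)) (m - 1) := by
    have h1 : IsPrimitiveRoot s (m - 1) := hord ▸ IsPrimitiveRoot.orderOf s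
    have h2 : IsPrimitiveRoot (s : ZMod m) (m - 1) := IsPrimitiveRoot.coe_units_iff.2 h1
    exact h2.map_of_injective hinj
  have ht : IsPrimitiveRoot (algebraMap (ZMod m) k (s : ZMod m) ^ e) p :=
    hsk.pow (by rw [he]; exact Nat.mul_pos hp.pos he0) (by rw [he]; ring)
  have hψs : ψ (s : ZMod m) ^ p = 1 := by
    rw [← MulChar.pow_apply_coe, hψ, MulChar.one_apply_coe]
  obtain ⟨u, hu, hu'⟩ := ht.eq_pow_of_pow_eq_one hψs
  have key : ∀ x : (ZMod m)ˣ, ψ (x : ZMod m) = algebraMap (ZMod m) k (x : ZMod m) ^ (u * e) := by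
    intro x
    obtain ⟨i, rfl⟩ := Subgroup.mem_zpowers_iff.1 (hs x)
    have h1 : ψ ((s ^ i : (ZMod m)ˣ) : ZMod m) = ψ (s : ZMod m) ^ i := by
      have := map_zpow (ψ.toUnitHom) s i
      have h2 := congrArg (Units.val) this
      rw [MulChar.coe_toUnitHom, Units.val_zpow_eq_zpow_val (ψ.toUnitHom s) i,
        MulChar.coe_toUnitHom] at h2
      exact h2
    rw [h1, ← hu', Units.val_zpow_eq_zpow_val, map_zpow₀, ← pow_mul, ← zpow_natCast, ← zpow_natCast,
      ← zpow_mul, ← zpow_mul, mul_comm e u, mul_comm]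
  have hu0 : 0 < u := by
    rcases Nat.eq_zero_or_pos u with h | h
    · exfalso
      apply hψ1
      ext x
      rw [key x, h, zero_mul, pow_zero, MulChar.one_apply_coe]
    · exact h
  refine ⟨u, hu0, hu, fun x => ?_⟩
  rw [hdiv]
  by_cases hx : x = 0
  · subst hx
    rw [MulChar.map_zero, map_zero, zero_pow (Nat.mul_pos hu0 he0).ne']
  · exact key (Units.mk0 x hx)

theorem algebraMap_pow_card_sub_one {x : ZMod m} (hx : x ≠ 0) :
    algebraMap (ZMod m) k x ^ (m - 1) = 1 := by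
  rw [← map_pow, ZMod.pow_card_sub_one_eq_one hx, map_one]

theorem HasExpo.mod (hpm : p ∣ m - 1) {ψ : MulChar (ZMod m) k} {u : ℕ} (h : HasExpo p ψ u)
    (hu : ¬ p ∣ u) : HasExpo p ψ (u % p) := by
  have hp : p.Prime := Fact.out
  obtain ⟨e, he⟩ := hpm
  have hdiv : (m - 1) / p = e := by rw [he, Nat.mul_div_cancel_left _ hp.pos]
  have hm : m.Prime := Fact.out
  have he0 : 0 < e := by
    rcases Nat.eq_zero_or_pos e with h | h
    · rw [h, mul_zero] at he
      have := hm.two_le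
      omega
    · exact h
  intro x
  rw [h x, hdiv]
  by_cases hx : x = 0
  · subst hx
    have h1 : 0 < u % p := Nat.pos_of_ne_zero fun h0 => hu (Nat.dvd_of_mod_eq_zero h0)
    have h2 : 0 < u := Nat.pos_of_ne_zero fun h0 => hu (h0 ▸ dvd_zero p)
    rw [map_zero, zero_pow (Nat.mul_pos h2 he0).ne', zero_pow (Nat.mul_pos h1 he0).ne']
  · conv_lhs => rw [← Nat.div_add_mod u p]
    rw [add_mul, pow_add, mul_right_comm, ← he, mul_comm (m - 1), pow_mul',
      algebraMap_pow_card_sub_one hx, one_pow, one_mul]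

omit [Fact (Nat.Prime p)] in
theorem HasExpo.pow {ψ : MulChar (ZMod m) k} {u : ℕ} (h : HasExpo p ψ u) (a : ℕ) (ha : a ≠ 0) :
    HasExpo p (ψ ^ a) (a * u) := by
  intro x
  rw [MulChar.pow_apply' _ ha, h x, ← pow_mul]
  congr 1
  ring

theorem HasExpo.pow_mod (hpm : p ∣ m - 1) {ψ : MulChar (ZMod m) k} {u : ℕ} (h : HasExpo p ψ u)
    (a : ℕ) (ha : ¬ p ∣ a * u) : HasExpo p (ψ ^ a) ((a * u) % p) :=
  (h.pow a (fun h0 => ha (by rw [h0, zero_mul]; exact dvd_zero p))).mod hpm ha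

theorem HasExpo.unique (hpm : p ∣ m - 1) {ψ : MulChar (ZMod m) k} {u u' : ℕ} (h : HasExpo p ψ u)
    (h' : HasExpo p ψ u') (hu : u < p) (hu' : u' < p) : u = u' := by
  have hm : m.Prime := Fact.out
  have hp : p.Prime := Fact.out
  obtain ⟨e, he⟩ := hpm
  have hdiv : (m - 1) / p = e := by rw [he, Nat.mul_div_cancel_left _ hp.pos]
  have he0 : 0 < e := by
    rcases Nat.eq_zero_or_pos e with h | h
    · rw [h, mul_zero] at he
      have := hm.two_le
      omega
    · exact h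
  obtain ⟨s, hs⟩ := IsCyclic.exists_generator (α := (ZMod m)ˣ)
  have hord : orderOf s = m - 1 := by
    rw [orderOf_eq_card_of_forall_mem_zpowers hs, Nat.card_eq_fintype_card, ZMod.card_units]
  have hinj : Function.Injective (algebraMap (ZMod m) k) := (algebraMap (ZMod m) k).injective
  have hsk : IsPrimitiveRoot (algebraMap (ZMod m) k (s : ZMod m)) (m - 1) := by
    have h1 : IsPrimitiveRoot s (m - 1) := hord ▸ IsPrimitiveRoot.orderOf s
    have h2 : IsPrimitiveRoot (s : ZMod m) (m - 1) := IsPrimitiveRoot.coe_units_iff.2 h1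
    exact h2.map_of_injective hinj
  have h1 := (h (s : ZMod m)).symm.trans (h' (s : ZMod m))
  rw [hdiv] at h1
  have h2 := hsk.pow_inj (by rw [he]; exact Nat.mul_lt_mul_of_pos_right hu he0)
    (by rw [he]; exact Nat.mul_lt_mul_of_pos_right hu' he0) h1
  exact Nat.eq_of_mul_eq_mul_right he0 h2

/-- **(J1)** -/
theorem jacobiSum_eq_zero_iff (hpm : p ∣ m - 1) {ψ₁ ψ₂ : MulChar (ZMod m) k} {u₁ u₂ : ℕ}
    (h₁ : HasExpo p ψ₁ u₁) (h₂ : HasExpo p ψ₂ u₂) (hu₁ : 0 < u₁) (hu₁' : u₁ < p) (hu₂' : u₂ < p) :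
    jacobiSum ψ₁ ψ₂ = 0 ↔ u₁ + u₂ < p := by
  have hm : m.Prime := Fact.out
  have hp : p.Prime := Fact.out
  obtain ⟨e, he⟩ := hpm
  have hdiv : (m - 1) / p = e := by rw [he, Nat.mul_div_cancel_left _ hp.pos]
  have he0 : 0 < e := by
    rcases Nat.eq_zero_or_pos e with h | h
    · rw [h, mul_zero] at he
      have := hm.two_le
      omega
    · exact h
  have h1 : jacobiSum ψ₁ ψ₂ =
      algebraMap (ZMod m) k (∑ x : ZMod m, x ^ (u₁ * e) * (1 - x) ^ (u₂ * e)) := by
    rw [jacobiSum, map_sum]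
    refine sum_congr rfl fun x _ => ?_
    rw [h₁ x, h₂ (1 - x), hdiv, map_mul, map_pow, map_pow]
  rw [h1, map_eq_zero, sum_pow_mul_one_sub_pow_eq_zero_iff _ _ (Nat.mul_pos hu₁ he0)
    (by rw [he]; exact Nat.mul_lt_mul_of_pos_right hu₁' he0)
    (by rw [he]; exact Nat.mul_lt_mul_of_pos_right hu₂' he0), he, ← add_mul]
  exact Nat.mul_lt_mul_right he0

end Char

end Fermat.Agent.S14Lib
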