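import Fermat.Agent.S14.Jacobi

/-!
# S14, L2 (J1) : Jacobi sums in a domain `R`, modulo a maximal ideal `M ∋ m`
-/

set_option autoImplicit false

namespace Fermat.Agent.S14Lib

open Finset

universe v

variable {m p : ℕ} [Fact m.Prime] [Fact p.Prime] {R : Type v} [CommRing R]

/-- `χ(x) ≡ x ^ (u (m-1)/p) mod M` -/
def IsExpoAt (p : ℕ) (χ : MulChar (ZMod m) R) (M : Ideal R) (u : ℕ) : Prop :=
  ∀ x : ℤ, χ (x : ZMod m) - (x : R) ^ (u * ((m - 1) / p)) ∈ M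

theorem charP_quot_of_mem (M : Ideal R) [M.IsMaximal] (hm : (m : R) ∈ M) : CharP (R ⧸ M) m := by
  rw [CharP.charP_iff_prime_eq_zero (Fact.out : m.Prime)]
  rw [← map_natCast (Ideal.Quotient.mk M), Ideal.Quotient.eq_zero_iff_mem]
  exact hm

/-- the residue field, as an abstract field with a `ZMod m`-algebra structure -/
theorem exists_residue (M : Ideal R) [M.IsMaximal] (hm : (m : R) ∈ M) :
    ∃ (k : Type v) (_ : Field k) (_ : Algebra (ZMod m) k) (φ : R →+* k), RingHom.ker φ = M := by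
  have := charP_quot_of_mem M hm
  let _ : Field (R ⧸ M) := Ideal.Quotient.field M
  exact ⟨R ⧸ M, inferInstance, ZMod.algebra _ m, Ideal.Quotient.mk M, Ideal.mk_ker⟩

omit [Fact p.Prime] in
theorem isExpoAt_iff_hasExpo (χ : MulChar (ZMod m) R) (M : Ideal R)
    {k : Type*} [Field k] [Algebra (ZMod m) k] (φ : R →+* k) (hφ : RingHom.ker φ = M) (u : ℕ) :
    IsExpoAt p χ M u ↔ HasExpo p (χ.ringHomComp φ) u := by
  constructor
  · intro h x
    obtain ⟨z, rfl⟩ := ZMod.intCast_surjective x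
    have := h z
    rw [← hφ, RingHom.mem_ker, map_sub, sub_eq_zero, map_pow, map_intCast φ] at this
    rw [MulChar.ringHomComp_apply, this, map_intCast (algebraMap (ZMod m) k)]
  · intro h z
    have := h (z : ZMod m)
    rw [MulChar.ringHomComp_apply, map_intCast (algebraMap (ZMod m) k)] at this
    rw [← hφ, RingHom.mem_ker, map_sub, sub_eq_zero, map_pow, map_intCast φ, this]

theorem ne_of_dvd_sub_one (hpm : p ∣ m - 1) : p ≠ m := by
  rintro rfl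
  have := (Fact.out : p.Prime).two_le
  have h1 := Nat.le_of_dvd (by omega) hpm
  omega

section ideal

variable (M : Ideal R) [M.IsMaximal]

theorem IsExpoAt.unique (hm : (m : R) ∈ M) (hpm : p ∣ m - 1) {χ : MulChar (ZMod m) R} {u u' : ℕ}
    (h : IsExpoAt p χ M u) (h' : IsExpoAt p χ M u') (hu : u < p) (hu' : u' < p) : u = u' := by
  obtain ⟨k, _, _, φ, hφ⟩ := exists_residue M hm
  exact ((isExpoAt_iff_hasExpo χ M φ hφ u).1 h).unique hpm
    ((isExpoAt_iff_hasExpo χ M φ hφ u').1 h') hu hu'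

theorem IsExpoAt.pow_mod (hm : (m : R) ∈ M) (hpm : p ∣ m - 1) {χ : MulChar (ZMod m) R} {u : ℕ}
    (h : IsExpoAt p χ M u) (a : ℕ) (ha : ¬ p ∣ a * u) : IsExpoAt p (χ ^ a) M ((a * u) % p) := by
  obtain ⟨k, _, _, φ, hφ⟩ := exists_residue M hm
  rw [isExpoAt_iff_hasExpo (χ ^ a) M φ hφ, ← MulChar.ringHomComp_pow]
  exact ((isExpoAt_iff_hasExpo χ M φ hφ u).1 h).pow_mod hpm a ha

/-- **(J1)** `M ∣ J(χ₁, χ₂)` iff `u₁ + u₂ < p` -/
theorem jacobiSum_mem_iff (hm : (m : R) ∈ M) (hpm : p ∣ m - 1) {χ₁ χ₂ : MulChar (ZMod m) R}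
    {u₁ u₂ : ℕ} (h₁ : IsExpoAt p χ₁ M u₁) (h₂ : IsExpoAt p χ₂ M u₂) (hu₁ : 0 < u₁) (hu₁' : u₁ < p)
    (hu₂' : u₂ < p) : jacobiSum χ₁ χ₂ ∈ M ↔ u₁ + u₂ < p := by
  obtain ⟨k, _, _, φ, hφ⟩ := exists_residue M hm
  rw [← hφ, RingHom.mem_ker, ← jacobiSum_ringHomComp]
  exact jacobiSum_eq_zero_iff hpm ((isExpoAt_iff_hasExpo χ₁ M φ hφ u₁).1 h₁)
    ((isExpoAt_iff_hasExpo χ₂ M φ hφ u₂).1 h₂) hu₁ hu₁' hu₂'

/-- **(J1)** `M ∣ J(χ^a, χ^b)` iff `⟨a u⟩ + ⟨b u⟩ < p` -/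
theorem jacobiSum_pow_mem_iff (hm : (m : R) ∈ M) (hpm : p ∣ m - 1) {χ : MulChar (ZMod m) R}
    {u : ℕ} (h : IsExpoAt p χ M u) (a b : ℕ) (ha : ¬ p ∣ a * u) (hb : ¬ p ∣ b * u) :
    jacobiSum (χ ^ a) (χ ^ b) ∈ M ↔ (a * u) % p + (b * u) % p < p :=
  jacobiSum_mem_iff M hm hpm (h.pow_mod M hm hpm a ha) (h.pow_mod M hm hpm b hb)
    (Nat.pos_of_ne_zero fun h0 => ha (Nat.dvd_of_mod_eq_zero h0))
    (Nat.mod_lt _ (Fact.out : p.Prime).pos) (Nat.mod_lt _ (Fact.out : p.Prime).pos)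

end ideal

variable [IsDomain R]

theorem ringHomComp_ne_one_of_ne {k : Type*} [Field k] [Algebra (ZMod m) k] (φ : R →+* k)
    (hpm : p ≠ m) (χ : MulChar (ZMod m) R) (hχ : χ ^ p = 1) (hχ1 : χ ≠ 1) :
    χ.ringHomComp φ ≠ 1 := by
  have hm : m.Prime := Fact.out
  have hp : p.Prime := Fact.out
  intro h
  apply hχ1
  ext x
  rw [MulChar.one_apply_coe]
  by_contra hx
  have h1 : χ (x : ZMod m) ^ p = 1 := by
    rw [← MulChar.pow_apply_coe, hχ, MulChar.one_apply_coe]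
  have h2 : (χ (x : ZMod m) - 1) * ∑ i ∈ range p, χ (x : ZMod m) ^ i = 0 := by
    rw [mul_comm, geom_sum_mul, h1, sub_self]
  have h3 : ∑ i ∈ range p, χ (x : ZMod m) ^ i = 0 :=
    (mul_eq_zero.1 h2).resolve_left (sub_ne_zero.2 hx)
  have h4 : φ (χ (x : ZMod m)) = 1 := by
    rw [← MulChar.ringHomComp_apply, h, MulChar.one_apply_coe]
  have h5 := congrArg φ h3
  rw [map_sum, map_zero] at h5
  simp only [map_pow, h4, one_pow, sum_const, card_range, nsmul_eq_mul, mul_one] at h5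
  have h6 : algebraMap (ZMod m) k (p : ZMod m) = 0 := by rw [map_natCast, h5]
  rw [map_eq_zero, ZMod.natCast_eq_zero_iff] at h6
  exact hpm ((Nat.prime_dvd_prime_iff_eq hm hp).1 h6).symm

theorem exists_isExpoAt (M : Ideal R) [M.IsMaximal] (hm : (m : R) ∈ M) (hpm : p ∣ m - 1)
    (χ : MulChar (ZMod m) R) (hχ : χ ^ p = 1) (hχ1 : χ ≠ 1) :
    ∃ u, 0 < u ∧ u < p ∧ IsExpoAt p χ M u := by
  obtain ⟨k, _, _, φ, hφ⟩ := exists_residue M hm
  obtain ⟨u, h0, h1, h2⟩ := exists_hasExpo hpm (χ.ringHomComp φ)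
    (by rw [MulChar.ringHomComp_pow, hχ, MulChar.ringHomComp_one])
    (ringHomComp_ne_one_of_ne _ (ne_of_dvd_sub_one hpm) χ hχ hχ1)
  exact ⟨u, h0, h1, (isExpoAt_iff_hasExpo χ M φ hφ u).2 h2⟩

omit [Fact p.Prime] in
/-- `J(χ,φ) J(χ⁻¹,φ⁻¹) = m` -/
theorem jacobiSum_mul_jacobiSum_inv_domain [CharZero R] {χ φ : MulChar (ZMod m) R} (hχ : χ ≠ 1)
    (hφ : φ ≠ 1) (hχφ : χ * φ ≠ 1) : jacobiSum χ φ * jacobiSum χ⁻¹ φ⁻¹ = (m : R) := by
  have hinj := IsFractionRing.injective R (FractionRing R)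
  apply hinj
  have : CharZero (FractionRing R) := charZero_of_injective_algebraMap hinj
  have h1 := jacobiSum_mul_jacobiSum_inv (F := ZMod m) (F' := FractionRing R)
    (χ := χ.ringHomComp (algebraMap R (FractionRing R)))
    (φ := φ.ringHomComp (algebraMap R (FractionRing R)))
    (by
      rw [ZMod.ringChar_zmod_n, ringChar.eq_zero]
      exact (Fact.out : m.Prime).ne_zero.symm)
    ((MulChar.ringHomComp_ne_one_iff hinj).2 hχ) ((MulChar.ringHomComp_ne_one_iff hinj).2 hφ)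
    (by rw [← MulChar.ringHomComp_mul]; exact (MulChar.ringHomComp_ne_one_iff hinj).2 hχφ)
  rw [MulChar.ringHomComp_inv, MulChar.ringHomComp_inv, jacobiSum_ringHomComp,
    jacobiSum_ringHomComp, ZMod.card] at h1
  rw [map_mul, h1, map_natCast]

end Fermat.Agent.S14Lib
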