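import Mathlib

/-!
# S14: index of `p`-th powers in subgroups of commutative groups (abstract lemmas for L9, L10)

For a subgroup `H` of a commutative group we study `(H.map (powMonoidHom p)).relIndex H`,
i.e. the cardinality of `H / H ^ p`.
-/

namespace Fermat.Agent.S14Lib

open Subgroup

variable {G C : Type*} [CommGroup G] [CommGroup C]

/-- `H ^ p` as a subgroup. -/
abbrev powSub (p : ℕ) (H : Subgroup G) : Subgroup G := H.map (powMonoidHom p)

theorem mem_powSub {p : ℕ} {H : Subgroup G} {x : G} : x ∈ powSub p H ↔ ∃ h ∈ H, h ^ p = x := by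
  simp [powSub, Subgroup.mem_map]

theorem powSub_le (p : ℕ) (H : Subgroup G) : powSub p H ≤ H := by
  intro x hx
  obtain ⟨h, hh, rfl⟩ := mem_powSub.mp hx
  exact H.pow_mem hh p

/-- `|H / H ^ p|`. -/
noncomputable abbrev qIdx (p : ℕ) (H : Subgroup G) : ℕ := (powSub p H).relIndex H

/-- Multiplicativity of `|H / H ^ p|` in an exact sequence whose cokernel has no `p`-torsion. -/
theorem qIdx_eq_mul (p : ℕ) (H : Subgroup G) (f : G →* C)
    (hC : ∀ c ∈ H.map f, c ^ p = 1 → c = 1) :
    qIdx p H = qIdx p (H.map f) * qIdx p (H ⊓ f.ker) := by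
  set A := H ⊓ f.ker with hA
  set K := powSub p H ⊔ A with hK
  have hKH : K ≤ H := sup_le (powSub_le p H) inf_le_left
  have h1 : (powSub p H).relIndex K * K.relIndex H = (powSub p H).relIndex H :=
    relIndex_mul_relIndex _ _ _ le_sup_left hKH
  have h2 : K.relIndex H = qIdx p (H.map f) := by
    have : (powSub p (H.map f)).comap f ⊓ H = K := by
      apply le_antisymm
      · intro x hx
        obtain ⟨hx1, hx2⟩ := Subgroup.mem_inf.mp hx
        rw [Subgroup.mem_comap] at hx1
        obtain ⟨c, hc, hcx⟩ := mem_powSub.mp hx1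
        obtain ⟨h, hh, rfl⟩ := Subgroup.mem_map.mp hc
        rw [hK, Subgroup.mem_sup]
        refine ⟨h ^ p, mem_powSub.mpr ⟨h, hh, rfl⟩, (h ^ p)⁻¹ * x, Subgroup.mem_inf.mpr ⟨?_, ?_⟩,
          by group⟩
        · exact H.mul_mem (H.inv_mem (H.pow_mem hh p)) hx2
        · rw [MonoidHom.mem_ker, map_mul, map_inv, map_pow, hcx, inv_mul_cancel]
      · refine le_inf ?_ hKH
        refine sup_le ?_ ?_
        · intro x hx
          obtain ⟨h, hh, rfl⟩ := mem_powSub.mp hx
          rw [Subgroup.mem_comap, map_pow]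
          exact mem_powSub.mpr ⟨f h, Subgroup.mem_map_of_mem f hh, rfl⟩
        · intro x hx
          replace hx := (Subgroup.mem_inf.mp hx).2
          rw [MonoidHom.mem_ker] at hx
          rw [Subgroup.mem_comap, hx]
          exact one_mem _
    rw [← this, inf_relIndex_right, relIndex_comap]
  have h3 : (powSub p H).relIndex K = qIdx p A := by
    rw [hK, relIndex_sup_left, ← inf_relIndex_right]
    congr 1
    apply le_antisymm
    · intro x hx
      obtain ⟨hx1, hx2⟩ := Subgroup.mem_inf.mp hx
      obtain ⟨h, hh, rfl⟩ := mem_powSub.mp hx1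
      refine mem_powSub.mpr ⟨h, Subgroup.mem_inf.mpr ⟨hh, ?_⟩, rfl⟩
      have h4 : f (h ^ p) = 1 := MonoidHom.mem_ker.mp (Subgroup.mem_inf.mp hx2).2
      rw [map_pow] at h4
      exact MonoidHom.mem_ker.mpr (hC _ (Subgroup.mem_map_of_mem f hh) h4)
    · refine le_inf ?_ (powSub_le p A)
      exact Subgroup.map_mono inf_le_left
  show (powSub p H).relIndex H = _
  rw [← h1, h2, h3, mul_comm]

/-- A finite index subgroup `R` of a group `Z` without `p`-torsion has `|R / R ^ p| = |Z / Z ^ p|`. -/
theorem qIdx_of_index_ne_zero (p : ℕ) (hinj : Function.Injective (powMonoidHom p : C →* C))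
    (R : Subgroup C) (hR : R.index ≠ 0) : qIdx p R = (powMonoidHom p : C →* C).range.index := by
  have h1 : (powSub p R).relIndex R * R.index = (powSub p R).index :=
    relIndex_mul_index (powSub_le p R)
  have hle : powSub p R ≤ (powMonoidHom p : C →* C).range := by
    rw [MonoidHom.range_eq_map]
    exact Subgroup.map_mono le_top
  have h2 := relIndex_mul_index hle
  have h3 : (powSub p R).relIndex (powMonoidHom p : C →* C).range = R.index := by
    rw [MonoidHom.range_eq_map, relIndex_map_map_of_injective _ _ hinj, relIndex_top_right]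
  rw [h3, ← h1, mul_comm] at h2
  exact (Nat.eq_of_mul_eq_mul_right (Nat.pos_of_ne_zero hR) h2).symm

theorem powSub_map (p : ℕ) (H : Subgroup G) (f : G →* C) :
    powSub p (H.map f) = (powSub p H).map f := by
  ext x
  simp only [mem_powSub, Subgroup.mem_map]
  constructor
  · rintro ⟨_, ⟨h, hh, rfl⟩, rfl⟩
    exact ⟨h ^ p, ⟨h, hh, rfl⟩, map_pow f h p⟩
  · rintro ⟨_, ⟨h, hh, rfl⟩, rfl⟩
    exact ⟨f h, ⟨h, hh, rfl⟩, (map_pow f h p).symm⟩

theorem qIdx_map_of_injective (p : ℕ) (H : Subgroup G) {f : G →* C} (hf : Function.Injective f) :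
    qIdx p (H.map f) = qIdx p H := by
  show (powSub p (H.map f)).relIndex (H.map f) = _
  rw [powSub_map, relIndex_map_map_of_injective _ _ hf]

theorem qIdx_top (p : ℕ) : qIdx p (⊤ : Subgroup G) = (powMonoidHom p : G →* G).range.index := by
  show (powSub p ⊤).relIndex ⊤ = _
  rw [relIndex_top_right, MonoidHom.range_eq_map]

/-- For a finite subgroup, `|T / T ^ p| = |T[p]|`. -/
theorem qIdx_of_finite (p : ℕ) (T : Subgroup G) [Finite T] :
    qIdx p T = Nat.card ↥((powMonoidHom p : G →* G).ker ⊓ T) := by
  have h1 : (powMonoidHom p : G →* G).ker.relIndex T = Nat.card (powSub p T) := relIndex_ker _ _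
  have h2 : (powSub p T).relIndex T * Nat.card (powSub p T) = Nat.card T := by
    have := (((powSub p T).subgroupOf T)).index_mul_card
    rw [Nat.card_congr (Subgroup.subgroupOfEquivOfLe (powSub_le p T)).toEquiv] at this
    exact this
  have h3 : (powMonoidHom p : G →* G).ker.relIndex T *
      Nat.card ↥((powMonoidHom p : G →* G).ker ⊓ T) = Nat.card T := by
    have := ((((powMonoidHom p : G →* G).ker ⊓ T).subgroupOf T)).index_mul_card
    rw [Nat.card_congr (Subgroup.subgroupOfEquivOfLe inf_le_right).toEquiv] at this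
    rw [← inf_relIndex_right]
    exact this
  rw [h1] at h3
  have hpos : 0 < Nat.card (powSub p T) := by
    have : Finite (powSub p T) := Finite.Set.subset (T : Set G) (powSub_le p T)
    exact Nat.card_pos
  rw [← h3, mul_comm] at h2
  exact Nat.eq_of_mul_eq_mul_left hpos h2

/-- `|ℤ ^ ι / p| = p ^ |ι|`, in multiplicative clothes. -/
theorem index_range_pow_pi (p : ℕ) (ι : Type*) [Fintype ι] :
    (powMonoidHom p : Multiplicative (ι → ℤ) →* Multiplicative (ι → ℤ)).range.index
      = p ^ Fintype.card ι := by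
  have h1 : (powMonoidHom p : Multiplicative (ι → ℤ) →* Multiplicative (ι → ℤ)).range
      = AddSubgroup.toSubgroup (AddSubgroup.pi Set.univ
          (fun _ : ι => AddSubgroup.zmultiples (p : ℤ))) := by
    ext x
    constructor
    · rintro ⟨y, rfl⟩
      show (p • Multiplicative.toAdd y) ∈ AddSubgroup.pi Set.univ _
      rw [AddSubgroup.mem_pi]
      intro i _
      rw [AddSubgroup.mem_zmultiples_iff]
      exact ⟨Multiplicative.toAdd y i, by simp [mul_comm]⟩
    · intro hx
      have hx' : Multiplicative.toAdd x ∈ AddSubgroup.pi Set.univ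
          (fun _ : ι => AddSubgroup.zmultiples (p : ℤ)) := hx
      rw [AddSubgroup.mem_pi] at hx'
      choose y hy using fun i => AddSubgroup.mem_zmultiples_iff.mp (hx' i (Set.mem_univ i))
      refine ⟨Multiplicative.ofAdd y, ?_⟩
      show Multiplicative.ofAdd (p • y) = x
      apply Multiplicative.toAdd.injective
      funext i
      have := hy i
      simp only [smul_eq_mul] at this
      simp [← this, mul_comm]
  rw [h1, AddSubgroup.index_toSubgroup, AddSubgroup.index_pi]
  simp [Int.index_zmultiples]

theorem pow_injective_pi {p : ℕ} (hp : p ≠ 0) (ι : Type*) :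
    Function.Injective (powMonoidHom p : Multiplicative (ι → ℤ) →* Multiplicative (ι → ℤ)) := by
  intro x y hxy
  have h : p • Multiplicative.toAdd x = p • Multiplicative.toAdd y := hxy
  apply Multiplicative.toAdd.injective
  funext i
  have := congrFun h i
  simpa [hp] using this

end Fermat.Agent.S14Lib
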