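import Fermat.Agent.S14.PowIndex

/-!
# S14, leaf L9: `S`-units modulo `p`-th powers
-/

open IsDedekindDomain NumberField WithZero

namespace Fermat.Agent.S14Lib

variable {F : Type*} [Field F] [NumberField F]

/-- The `S`-units of `F`. -/
def SU (S : Finset (HeightOneSpectrum (𝓞 F))) : Subgroup Fˣ where
  carrier := {x | ∀ v, v ∉ S → v.valuation F (x : F) = 1}
  one_mem' := by simp
  mul_mem' := by
    intro a b ha hb v hv
    simp [ha v hv, hb v hv]
  inv_mem' := by
    intro a ha v hv
    simp [ha v hv]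

theorem mem_SU {S : Finset (HeightOneSpectrum (𝓞 F))} {x : Fˣ} :
    x ∈ SU S ↔ ∀ v, v ∉ S → v.valuation F (x : F) = 1 := Iff.rfl

theorem SU_mono {S T : Finset (HeightOneSpectrum (𝓞 F))} (h : S ⊆ T) : SU S ≤ SU T :=
  fun _ hx v hv => hx v fun hvS => hv (h hvS)

theorem su_val_ne_zero (v : HeightOneSpectrum (𝓞 F)) (x : Fˣ) : v.valuation F (x : F) ≠ 0 :=
  (Valuation.ne_zero_iff _).mpr x.ne_zero

/-- The vector of the (logarithms of the) valuations at the places of `S`. -/
noncomputable def ordVec (S : Finset (HeightOneSpectrum (𝓞 F))) : Fˣ →* Multiplicative (S → ℤ) where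
  toFun x := Multiplicative.ofAdd fun v => log (v.1.valuation F (x : F))
  map_one' := by
    apply Multiplicative.toAdd.injective
    funext v
    simp
  map_mul' x y := by
    apply Multiplicative.toAdd.injective
    funext v
    simp

theorem ordVec_apply (S : Finset (HeightOneSpectrum (𝓞 F))) (x : Fˣ) (v : S) :
    Multiplicative.toAdd (ordVec S x) v = log (v.1.valuation F (x : F)) := rfl

theorem mem_ker_ordVec {S : Finset (HeightOneSpectrum (𝓞 F))} {x : Fˣ} :
    x ∈ (ordVec S).ker ↔ ∀ v ∈ S, v.valuation F (x : F) = 1 := by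
  rw [MonoidHom.mem_ker]
  constructor
  · intro h v hv
    have h1 : Multiplicative.toAdd (ordVec S x) ⟨v, hv⟩ = 0 := by rw [h]; rfl
    rw [ordVec_apply] at h1
    rw [← exp_log (su_val_ne_zero v x), h1, exp_zero]
  · intro h
    apply Multiplicative.toAdd.injective
    funext v
    rw [ordVec_apply, h v.1 v.2]
    simp

theorem SU_inf_ker (S : Finset (HeightOneSpectrum (𝓞 F))) : SU S ⊓ (ordVec S).ker = SU ∅ := by
  ext x
  rw [Subgroup.mem_inf, mem_ker_ordVec, mem_SU, mem_SU]
  constructor
  · rintro ⟨h1, h2⟩ v -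
    by_cases hv : v ∈ S
    · exact h2 v hv
    · exact h1 v hv
  · intro h
    exact ⟨fun v _ => h v (by simp), fun v _ => h v (by simp)⟩

/-- The embedding of the units of `𝓞 F` in `Fˣ`. -/
noncomputable abbrev unitsIncl (F : Type*) [Field F] : (𝓞 F)ˣ →* Fˣ :=
  Units.map (algebraMap (𝓞 F) F).toMonoidHom

omit [NumberField F] in
theorem unitsIncl_injective : Function.Injective (unitsIncl F) :=
  Units.map_injective (RingOfIntegers.coe_injective)

theorem SU_empty : SU (∅ : Finset (HeightOneSpectrum (𝓞 F))) = (unitsIncl F).range := by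
  ext x
  rw [mem_SU]
  constructor
  · intro h
    obtain ⟨a, ha⟩ := HeightOneSpectrum.mem_integers_of_valuation_le_one F (x : F)
      fun v => (h v (by simp)).le
    obtain ⟨b, hb⟩ := HeightOneSpectrum.mem_integers_of_valuation_le_one F ((x⁻¹ : Fˣ) : F)
      fun v => by
        rw [Units.val_inv_eq_inv_val, map_inv₀, h v (by simp), inv_one]
    have hab : a * b = 1 := by
      apply RingOfIntegers.coe_injective
      rw [map_mul, ha, hb, map_one]
      simp
    refine ⟨⟨a, b, hab, by rw [mul_comm]; exact hab⟩, ?_⟩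
    ext
    exact ha
  · rintro ⟨u, rfl⟩ v -
    have h1 : v.valuation F ((u : 𝓞 F) : F) ≤ 1 := v.valuation_le_one _
    have h2 : v.valuation F (((u⁻¹ : (𝓞 F)ˣ) : 𝓞 F) : F) ≤ 1 := v.valuation_le_one _
    have h3 : v.valuation F ((u : 𝓞 F) : F) * v.valuation F (((u⁻¹ : (𝓞 F)ˣ) : 𝓞 F) : F) = 1 := by
      rw [← map_mul, ← map_mul, Units.mul_inv, map_one, map_one]
    refine le_antisymm h1 ?_
    calc (1 : ℤᵐ⁰) = _ := h3.symm
      _ ≤ v.valuation F ((u : 𝓞 F) : F) * 1 := by gcongr
      _ = _ := mul_one _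

/-- A generator of `v ^ h`, `h` the class number. -/
theorem exists_generator_pow_classNumber (v : HeightOneSpectrum (𝓞 F)) :
    ∃ ϖ : Fˣ, v.valuation F (ϖ : F) = exp (-(classNumber F : ℤ)) ∧
      ∀ w : HeightOneSpectrum (𝓞 F), w ≠ v → w.valuation F (ϖ : F) = 1 := by
  set h := classNumber F with hh
  have hv0 : v.asIdeal ∈ nonZeroDivisors (Ideal (𝓞 F)) := mem_nonZeroDivisors_of_ne_zero v.ne_bot
  have hvh : v.asIdeal ^ h ∈ nonZeroDivisors (Ideal (𝓞 F)) := pow_mem hv0 h
  have h1 : ClassGroup.mk0 ⟨v.asIdeal ^ h, hvh⟩ = 1 := by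
    have : (⟨v.asIdeal ^ h, hvh⟩ : nonZeroDivisors (Ideal (𝓞 F))) = ⟨v.asIdeal, hv0⟩ ^ h := rfl
    rw [this, map_pow, hh, classNumber, ← Nat.card_eq_fintype_card]
    exact pow_card_eq_one'
  rw [ClassGroup.mk0_eq_one_iff] at h1
  obtain ⟨g, hg⟩ := h1
  have hg' : v.asIdeal ^ h = Ideal.span {g} := hg
  have hg0 : g ≠ 0 := by
    rintro rfl
    rw [Set.singleton_zero, Ideal.span_zero] at hg'
    exact pow_ne_zero h v.ne_bot hg'
  have hgF : (g : F) ≠ 0 := by
    simpa using hg0
  refine ⟨Units.mk0 (g : F) hgF, ?_, ?_⟩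
  · rw [Units.val_mk0]
    apply le_antisymm
    · rw [show v.valuation F (g : F) = v.intValuation g from v.valuation_of_algebraMap g,
        v.intValuation_le_pow_iff_mem, hg']
      exact Ideal.mem_span_singleton_self g
    · by_contra hlt
      rw [not_le] at hlt
      have h2 : v.valuation F (g : F) ≤ exp (-((h + 1 : ℕ) : ℤ)) := by
        have h3 : v.valuation F (g : F) ≠ 0 := (Valuation.ne_zero_iff _).mpr hgF
        rw [← exp_log h3] at hlt ⊢
        rw [exp_lt_exp] at hlt
        rw [exp_le_exp]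
        push_cast
        omega
      rw [show v.valuation F (g : F) = v.intValuation g from v.valuation_of_algebraMap g,
        v.intValuation_le_pow_iff_mem] at h2
      have h3 : v.asIdeal ^ h ≤ v.asIdeal ^ (h + 1) := by
        rw [hg', Ideal.span_singleton_le_iff_mem]
        exact h2
      have h4 : v.asIdeal ^ (h + 1) < v.asIdeal ^ h :=
        Ideal.pow_right_strictAnti _ v.ne_bot v.isPrime.ne_top (Nat.lt_succ_self h)
      exact absurd h3 (not_le_of_gt h4)
  · intro w hw
    rw [Units.val_mk0]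
    rw [show w.valuation F (g : F) = w.valuation F (algebraMap (𝓞 F) F g) from rfl,
      w.valuation_eq_one_iff_notMem]
    intro hmem
    have h2 : v.asIdeal ^ h ≤ w.asIdeal := by
      rw [hg', Ideal.span_singleton_le_iff_mem]
      exact hmem
    have h3 : v.asIdeal ≤ w.asIdeal := w.isPrime.le_of_pow_le h2
    exact hw (HeightOneSpectrum.ext (v.isMaximal.eq_of_le w.isPrime.ne_top h3)).symm

theorem classNumber_ne_zero' : classNumber F ≠ 0 := by
  rw [classNumber]
  exact Fintype.card_ne_zero

/-- The image of the `S`-units in `ℤ ^ S` has finite index. -/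
theorem index_map_ordVec_ne_zero (S : Finset (HeightOneSpectrum (𝓞 F))) :
    ((SU S).map (ordVec S)).index ≠ 0 := by
  classical
  set h := classNumber F with hh
  choose ϖ hϖ1 hϖ2 using exists_generator_pow_classNumber (F := F)
  have hle : (powMonoidHom h : Multiplicative (S → ℤ) →* Multiplicative (S → ℤ)).range
      ≤ (SU S).map (ordVec S) := by
    rintro _ ⟨z, rfl⟩
    have hsingle : ∀ v : S, Multiplicative.ofAdd (Pi.single v (-(h : ℤ)) : S → ℤ)
        ∈ (SU S).map (ordVec S) := by
      intro v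
      refine ⟨ϖ v.1, ?_, ?_⟩
      · intro w hw
        exact hϖ2 v.1 w fun hwv => hw (hwv ▸ v.2)
      · apply Multiplicative.toAdd.injective
        funext w
        rw [ordVec_apply]
        by_cases hwv : w = v
        · subst hwv
          rw [hϖ1]
          simp [hh]
        · rw [hϖ2 v.1 w.1 fun h => hwv (Subtype.ext h)]
          simp [hwv]
    have hz : (powMonoidHom h) z = ∏ v : S,
        (Multiplicative.ofAdd (Pi.single v (-(h : ℤ)) : S → ℤ)) ^ (-(Multiplicative.toAdd z v)) := by
      apply Multiplicative.toAdd.injective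
      funext w
      rw [powMonoidHom_apply, toAdd_pow, toAdd_prod, Finset.sum_apply]
      simp only [toAdd_zpow, toAdd_ofAdd, Pi.smul_apply, Pi.single_apply, smul_eq_mul]
      rw [Finset.sum_eq_single w]
      · simp; ring
      · intro b _ hb
        simp [hb.symm]
      · simp
    rw [hz]
    exact Subgroup.prod_mem _ fun v _ => Subgroup.zpow_mem _ (hsingle v) _
  have h1 : (powMonoidHom h : Multiplicative (S → ℤ) →* Multiplicative (S → ℤ)).range.index ≠ 0 := by
    rw [index_range_pow_pi]
    exact pow_ne_zero _ classNumber_ne_zero'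
  intro h0
  exact h1 (Nat.eq_zero_of_zero_dvd (h0 ▸ Subgroup.index_dvd_of_le hle))

/-- `|U_S / U_S ^ p| = p ^ |S| * |E / E ^ p|`. -/
theorem qIdx_SU {p : ℕ} (hp : p ≠ 0) (S : Finset (HeightOneSpectrum (𝓞 F))) :
    qIdx p (SU S) = p ^ S.card * qIdx p (SU (∅ : Finset (HeightOneSpectrum (𝓞 F)))) := by
  have hinj := pow_injective_pi hp S
  rw [qIdx_eq_mul p (SU S) (ordVec S) fun c _ hc => hinj (by simpa using hc), SU_inf_ker,
    qIdx_of_index_ne_zero p hinj _ (index_map_ordVec_ne_zero S), index_range_pow_pi]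
  simp

/-- The coordinates of a unit with respect to a system of fundamental units. -/
noncomputable def unitCoord (F : Type*) [Field F] [NumberField F] :
    (𝓞 F)ˣ →* Multiplicative (Fin (Units.rank F) → ℤ) where
  toFun x := Multiplicative.ofAdd (Units.exist_unique_eq_mul_prod F x).choose.2
  map_one' := by
    have h := (Units.exist_unique_eq_mul_prod F 1).choose_spec.2 (1, 0) (by simp)
    rw [← h]
    rfl
  map_mul' x y := by
    have hx := (Units.exist_unique_eq_mul_prod F x).choose_spec.1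
    have hy := (Units.exist_unique_eq_mul_prod F y).choose_spec.1
    have h := (Units.exist_unique_eq_mul_prod F (x * y)).choose_spec.2
      ((Units.exist_unique_eq_mul_prod F x).choose.1 * (Units.exist_unique_eq_mul_prod F y).choose.1,
        (Units.exist_unique_eq_mul_prod F x).choose.2 +
        (Units.exist_unique_eq_mul_prod F y).choose.2) (by
        simp only [Pi.add_apply, zpow_add, Finset.prod_mul_distrib, Subgroup.coe_mul]
        conv_lhs => rw [hx, hy]
        exact mul_mul_mul_comm _ _ _ _)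
    rw [← h]
    rfl

theorem unitCoord_spec (x : (𝓞 F)ˣ) : ∃ ζ ∈ Units.torsion F,
    x = ζ * ∏ i, Units.fundSystem F i ^ (Multiplicative.toAdd (unitCoord F x) i) :=
  ⟨_, (Units.exist_unique_eq_mul_prod F x).choose.1.2,
    (Units.exist_unique_eq_mul_prod F x).choose_spec.1⟩

theorem unitCoord_eq {x ζ : (𝓞 F)ˣ} (hζ : ζ ∈ Units.torsion F) {e : Fin (Units.rank F) → ℤ}
    (h : x = ζ * ∏ i, Units.fundSystem F i ^ e i) : unitCoord F x = Multiplicative.ofAdd e := by
  have := (Units.exist_unique_eq_mul_prod F x).choose_spec.2 (⟨ζ, hζ⟩, e) h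
  show Multiplicative.ofAdd (Units.exist_unique_eq_mul_prod F x).choose.2 = _
  rw [← this]

theorem unitCoord_surjective : Function.Surjective (unitCoord F) := by
  intro z
  refine ⟨∏ i, Units.fundSystem F i ^ (Multiplicative.toAdd z i), ?_⟩
  exact unitCoord_eq (one_mem _) (one_mul _).symm

theorem ker_unitCoord : (unitCoord F).ker = Units.torsion F := by
  ext x
  rw [MonoidHom.mem_ker]
  constructor
  · intro h
    obtain ⟨ζ, hζ, hx⟩ := unitCoord_spec x
    rw [h] at hx
    simp only [toAdd_one, Pi.zero_apply, zpow_zero, Finset.prod_const_one, mul_one] at hx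
    rw [hx]
    exact hζ
  · intro h
    exact unitCoord_eq (e := 0) h (by simp)

theorem qIdx_torsion {p : ℕ} (hp : p.Prime) {ζ : F} (hζ : IsPrimitiveRoot ζ p) :
    qIdx p (Units.torsion F) = p := by
  have : NeZero p := ⟨hp.ne_zero⟩
  rw [qIdx_of_finite]
  have h1 : (powMonoidHom p : (𝓞 F)ˣ →* (𝓞 F)ˣ).ker ⊓ Units.torsion F = rootsOfUnity p (𝓞 F) := by
    ext x
    rw [Subgroup.mem_inf, MonoidHom.mem_ker, powMonoidHom_apply, mem_rootsOfUnity]
    constructor
    · exact fun h => h.1
    · intro h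
      refine ⟨h, ?_⟩
      rw [Units.torsion, CommGroup.mem_torsion, isOfFinOrder_iff_pow_eq_one]
      exact ⟨p, hp.pos, h⟩
  rw [h1]
  exact hζ.toInteger_isPrimitiveRoot.card_rootsOfUnity

/-- `|E / E ^ p| = p ^ (rank + 1)` when `F` contains the `p`-th roots of unity. -/
theorem qIdx_units {p : ℕ} (hp : p.Prime) {ζ : F} (hζ : IsPrimitiveRoot ζ p) :
    qIdx p (⊤ : Subgroup (𝓞 F)ˣ) = p ^ (Units.rank F + 1) := by
  have hinj := pow_injective_pi hp.ne_zero (Fin (Units.rank F))
  rw [qIdx_eq_mul p ⊤ (unitCoord F) fun c _ hc => hinj (by simpa using hc), top_inf_eq,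
    ker_unitCoord, qIdx_torsion hp hζ, ← MonoidHom.range_eq_map,
    MonoidHom.range_eq_top.mpr unitCoord_surjective, qIdx_top, index_range_pow_pi]
  simp [pow_succ]

/-- **L9**: `|U_S / U_S ^ p| = p ^ (|S| + rank + 1)`. -/
theorem qIdx_SU_eq {p : ℕ} (hp : p.Prime) {ζ : F} (hζ : IsPrimitiveRoot ζ p)
    (S : Finset (HeightOneSpectrum (𝓞 F))) :
    qIdx p (SU S) = p ^ (S.card + Units.rank F + 1) := by
  rw [qIdx_SU hp.ne_zero, SU_empty, MonoidHom.range_eq_map,
    qIdx_map_of_injective p ⊤ unitsIncl_injective, qIdx_units hp hζ, ← pow_add, add_assoc]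

/-- the numerology used in the second inequality. -/
theorem two_mul_rank_add_two_ge : Module.finrank ℚ F ≤ 2 * (Units.rank F + 1) := by
  have h1 := InfinitePlace.card_add_two_mul_card_eq_rank F
  have h2 : Units.rank F = Fintype.card (InfinitePlace F) - 1 := rfl
  have h3 := InfinitePlace.card_eq_nrRealPlaces_add_nrComplexPlaces F
  have h4 : 0 < Fintype.card (InfinitePlace F) := Fintype.card_pos
  omega

end Fermat.Agent.S14Lib
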