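/-
S14 SKELETON (statements only, `sorry`).  Namespace `Fermat.Agent.S14Skel`.
The real theorems live in namespace `Fermat.Agent.S14Lib` with the SAME short names and signatures.
While a dependency is not landed: `import Fermat.Agent.S14.Skeleton` + `open Fermat.Agent.S14Skel`
(names of the current namespace S14Lib take priority, so nothing changes when the real file lands).
NEVER import this file from a finished file.
-/
import Fermat.Agent.S14.Defs

set_option autoImplicit false

open IsDedekindDomain NumberField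
open Fermat.Agent.S14Lib

namespace Fermat.Agent.S14Skel

universe u

section INEQ

variable {F : Type u} [Field F] [NumberField F] (p : ℕ) [Fact p.Prime] (hp2 : p ≠ 2) {ζ : F}
  (hζ : IsPrimitiveRoot ζ p)
include hp2 hζ

/-- [FI] (helper7, S14/FI.lean)  `Prin + NG ∅ α ≠ Divs F`  (unramified case; used for Theorem R). -/
theorem fi_unram {α : F} (hα : HAlpha p ζ α) (hnp : ∀ z : F, z ^ p ≠ α) :
    ∃ D : Divs F, ∀ y : F, y ≠ 0 → D - dv y ∉ NG p ζ ∅ α := sorry

/-- [SI] (helper4, S14/SI.lean)  `Divs F / (Prin + NG B α)` has at most `p` elements,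
for every finite excluded set `B`. -/
theorem si {α : F} (hα : HAlpha p ζ α) (hnp : ∀ z : F, z ^ p ≠ α) (B : Finset (Pl F))
    (D₀ D : Divs F) (h0 : ∀ y : F, y ≠ 0 → D₀ - dv y ∉ NG p ζ (B : Set (Pl F)) α) :
    ∃ (k : ℤ) (y : F), y ≠ 0 ∧ D - k • D₀ - dv y ∈ NG p ζ (B : Set (Pl F)) α := sorry

end INEQ

section CYC

variable {K : Type} [Field K] [NumberField K] (p : ℕ) [Fact p.Prime] (hp2 : p ≠ 2)
  [IsCyclotomicExtension {p} ℚ K] {ζ : K} (hζ : IsPrimitiveRoot ζ p)
include hp2 hζ

/-- [THEOREM R] (helper3, S14/CrossMain.lean) -/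
theorem thmR {α : K} (hα : HAlpha p ζ α) (hnp : ∀ z : K, z ^ p ≠ α) {β : K} (hβ : β ≠ 0) :
    phi p ζ α (dv β) = 0 := sorry

end CYC

end Fermat.Agent.S14Skel
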